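/-
P-S33, LAYER 2, leaf (I6) (helper73): the GENERIC-CONTEXT export of Layer 2.

Context = the variable block of `S34x/Inst/TheoremBMq.lean` / `S33x/KummerPn.lean` (`L` an
algebraic closure of `ℚ`, `A` a valuation subring of `L` over `q`, level `M q`, `q ∤ M`).
`ChartsMq H hA m` is the statement which `Cech/Inst.lean` proves (from B5 + the instance leaves)
and which the `ℚ̄`-end of the chain (`L := ℚ̄`, `A := P0`) turns into
`Iface.HasApproxCharts p P0 (KmTors ..) (restricted galTors)`.

Everything is `L`-valued (as `Iface.ApproxChart` is `ℚ̄`-valued), so that the specialisation is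
literal:

* `PowMemA A q N x` : `x ∈ q ^ N A` (`= Iface.PowMem` at `L = ℚ̄`);
* the coordinates are functions on the TYPE `↥(Km H hA m)` with values in the maximal ideal of `A`;
* equivariance modulo `q ^ N` under the inertia group of `A` (`τ • x ∈ K_m` is quantified, so no
  choice of an action on the type is made here);
* the group law modulo `q ^ N` is given by polynomials over `L` whose coefficients lie in `A` and
  are fixed by the inertia group (`= ` polynomials over `inertiaInt P` at `L = ℚ̄`);
* separation at ONE precision `c0`, uniform in the level `N`.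
-/
import Fermat.Agent.S33x.KummerPn

set_option autoImplicit false
set_option linter.unusedSectionVars false

noncomputable section

namespace Fermat.Agent.S33x.Cech.InstIface

open ModularCurve AlgebraicCurve IsLocalRing
open Fermat.Agent.Gateway.Hecke Fermat.Agent.Gateway.ESC
open Fermat.Agent.Gateway.Red Fermat.Agent.Gateway.GoodRed
open Fermat.Agent.S34x.TwoVal Fermat.Agent.S34x.C0two
open Fermat.Agent.S34x.Inst.RedSetupInst Fermat.Agent.S34x.Inst
open Fermat.Agent.S33x.KummerPn

/-- `x ∈ q ^ N A`. -/
def PowMemA {L : Type} [Field L] (A : ValuationSubring L) (q N : ℕ) (x : L) : Prop :=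
  ∃ w ∈ A, x = (q : L) ^ N * w

variable {L : Type} [Field L] [Algebra ℚ L] [IsAlgClosed L] [Algebra.IsAlgebraic ℚ L]
  {A : ValuationSubring L}
  {k : Type} [Field k] {π : A →+* k} [IsAlgClosed k]
variable {M q : ℕ} [NeZero M] [NeZero q] [Fact q.Prime] [CharP k q]
variable {hdeg : finrankAlong L (heckeAlphaBar L M q) = q + 1} {hq : q.Prime} {hqM : ¬ q ∣ M}
variable {hrk : ∀ x ∈ maximalIdeal A, ∀ c : A, c ≠ 0 → ∃ j : ℕ, c ∣ x ^ j}
  {hπ : Function.Surjective π}
variable (H : ResidueFacts A π M q hdeg hq hqM hrk hπ) (hA : A.LiesOverPrime q)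

/-- **One level `N` of approximate coordinates on `K_m`** (generic context): `g` coordinates with
values in the maximal ideal of `A`, inertia-equivariant modulo `q ^ N`, with the group law given
modulo `q ^ N` by polynomials with inertia-fixed coefficients in `A`, separating the points
modulo `q ^ c0`. -/
def ChartMqAt (m c0 N : ℕ) : Prop :=
  ∃ (g : ℕ) (coord : Km H hA m → Fin g → L)
    (F : Fin g → MvPolynomial (Fin g ⊕ Fin g) L),
    (∀ x i, coord x i ∈ A.nonunits) ∧
    (∀ τ ∈ A.inertiaSubgroupIn ℚ, ∀ (x : Km H hA m)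
      (hx : τ • (x : Pic0 L (FL L (M * q))) ∈ Km H hA m) (i : Fin g),
      PowMemA A q N (coord ⟨τ • (x : Pic0 L (FL L (M * q))), hx⟩ i - τ (coord x i))) ∧
    (∀ i d, MvPolynomial.coeff d (F i) ∈ A ∧
      ∀ τ ∈ A.inertiaSubgroupIn ℚ, τ (MvPolynomial.coeff d (F i)) = MvPolynomial.coeff d (F i)) ∧
    (∀ x y i, PowMemA A q N
      (coord (x + y) i - MvPolynomial.eval (Sum.elim (coord x) (coord y)) (F i))) ∧
    (∀ x y, x ≠ y → ∃ i, ¬ PowMemA A q c0 (coord x i - coord y i))

/-- **What Layer 2 proves in the generic context** for the exponent `m` (`= q ^ n`): charts at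
every level `N`, all separating at one fixed precision `c0`. -/
def ChartsMq (m : ℕ) : Prop := ∃ c0 : ℕ, ∀ N : ℕ, ChartMqAt H hA m c0 N

end Fermat.Agent.S33x.Cech.InstIface
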