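/-
P-S33, LAYER 2, leaf (I6) (helper73): CONVERSION of the conclusion of the abstract assembly (B5:
`Cech/Coord.exists_charts_of_cyc`, `A`-valued coordinates, group law over an abstract ring `W` of
inertia-fixed constants, divisibility by `q ^ n` in `A`) into the generic-context export
`InstIface.ChartsMq` (`L`-valued coordinates, `PowMemA`, polynomials over `L` with inertia-fixed
coefficients in `A`).

Nothing about the group `X = K_m` is used except the compatibility `hσX` of the action of the index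
type `Γ` (the inertia group) with `τ • x` on `Pic0`.
-/
import Fermat.Agent.S33x.Cech.InstIface

set_option autoImplicit false
set_option linter.unusedSectionVars false

noncomputable section

namespace Fermat.Agent.S33x.Cech.InstConv

open ModularCurve AlgebraicCurve IsLocalRing
open Fermat.Agent.Gateway.Hecke Fermat.Agent.Gateway.ESC
open Fermat.Agent.Gateway.Red Fermat.Agent.Gateway.GoodRed
open Fermat.Agent.S34x.TwoVal Fermat.Agent.S34x.C0two
open Fermat.Agent.S34x.Inst.RedSetupInst Fermat.Agent.S34x.Inst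
open Fermat.Agent.S33x.KummerPn Fermat.Agent.S33x.Cech.InstIface

section Val

variable {L : Type} [Field L] {A : ValuationSubring L}

/-- divisibility by `q ^ N` in `A` is `PowMemA`. -/
theorem powMemA_of_dvd {q N : ℕ} {x : A} (h : (q : A) ^ N ∣ x) : PowMemA A q N (x : L) := by
  obtain ⟨w, hw⟩ := h
  refine ⟨(w : L), w.2, ?_⟩
  rw [hw]
  push_cast
  rfl

theorem dvd_of_powMemA {q N : ℕ} {x : A} (h : PowMemA A q N (x : L)) : (q : A) ^ N ∣ x := by
  obtain ⟨w, hw, hxw⟩ := h
  refine ⟨⟨w, hw⟩, Subtype.ext ?_⟩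
  rw [hxw]
  push_cast
  rfl

theorem powMemA_iff_dvd {q N : ℕ} {x : A} : PowMemA A q N (x : L) ↔ (q : A) ^ N ∣ x :=
  ⟨dvd_of_powMemA, powMemA_of_dvd⟩

/-- an element of the maximal ideal of `A` is a nonunit of the valuation subring. -/
theorem coe_mem_nonunits {x : A} (h : x ∈ maximalIdeal A) : (x : L) ∈ A.nonunits :=
  (ValuationSubring.coe_mem_nonunits_iff).mpr h

end Val

section Poly

variable {L : Type} [Field L] {A : ValuationSubring L}
  {W : Type*} [CommRing W] [Algebra W A] {σ : Type*}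

/-- the ring map `W → A → L`. -/
def toL (A : ValuationSubring L) (W : Type*) [CommRing W] [Algebra W A] : W →+* L :=
  (A.subtype).comp (algebraMap W A)

theorem toL_apply (w : W) : toL A W w = ((algebraMap W A w : A) : L) := rfl

/-- evaluation over `L` of the image polynomial is the coercion of the evaluation over `A`. -/
theorem eval_map_toL (F : MvPolynomial σ W) (v : σ → A) :
    MvPolynomial.eval (fun j => ((v j : A) : L)) (MvPolynomial.map (toL A W) F)
      = ((MvPolynomial.aeval v F : A) : L) := by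
  rw [MvPolynomial.eval_map, MvPolynomial.aeval_def]
  exact (MvPolynomial.eval₂_comp_left A.subtype (algebraMap W A) v F).symm

end Poly

section Main

variable {L : Type} [Field L] [Algebra ℚ L] [IsAlgClosed L] [Algebra.IsAlgebraic ℚ L]
  {A : ValuationSubring L}
  {k : Type} [Field k] {π : A →+* k} [IsAlgClosed k]
variable {M q : ℕ} [NeZero M] [NeZero q] [Fact q.Prime] [CharP k q]
variable {hdeg : finrankAlong L (heckeAlphaBar L M q) = q + 1} {hq : q.Prime} {hqM : ¬ q ∣ M}
variable {hrk : ∀ x ∈ maximalIdeal A, ∀ c : A, c ≠ 0 → ∃ j : ℕ, c ∣ x ^ j}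
  {hπ : Function.Surjective π}
variable {H : ResidueFacts A π M q hdeg hq hqM hrk hπ} {hA : A.LiesOverPrime q}

/-- **Conversion (B5 conclusion ⇒ `ChartsMq`).**  `Γ` = the index type of the operators (the
inertia group), `ι γ` the Galois automorphism of `γ`, `σA γ` its restriction to `A`, `σX γ` its
action on the type `K_m`; `W` any ring of inertia-fixed constants. -/
theorem chartsMq_of_charts {m : ℕ}
    {W : Type*} [CommRing W] [Algebra W A]
    (hW : ∀ w : W, ∀ τ ∈ A.inertiaSubgroupIn ℚ,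
      τ ((algebraMap W A w : A) : L) = ((algebraMap W A w : A) : L))
    {Γ : Type*} (ι : Γ → (L ≃ₐ[ℚ] L)) (hι : ∀ τ ∈ A.inertiaSubgroupIn ℚ, ∃ γ, ι γ = τ)
    (σA : Γ → A →+* A) (hσA : ∀ γ (c : A), ((σA γ c : A) : L) = ι γ (c : L))
    (σX : Γ → Km H hA m → Km H hA m)
    (hσX : ∀ γ (x : Km H hA m), ((σX γ x : Km H hA m) : Pic0 L (FL L (M * q)))
      = ι γ • (x : Pic0 L (FL L (M * q))))
    {sm : Set A} (hsm : ∀ ε ∈ sm, ε ∈ maximalIdeal A)
    {g : ℕ}
    (h : ∃ c0 : ℕ, ∀ n : ℕ, ∃ t : Km H hA m → Fin g → A,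
      (∃ ϖ ∈ sm, ∀ x i, ϖ ∣ t x i) ∧
      (∀ γ x i, (q : A) ^ n ∣ t (σX γ x) i - σA γ (t x i)) ∧
      (∃ F : Fin g → MvPolynomial (Fin g ⊕ Fin g) W, ∀ x y i,
        (q : A) ^ n ∣ t (x + y) i - MvPolynomial.aeval (Sum.elim (t x) (t y)) (F i)) ∧
      (∀ x y, x ≠ y → ∃ i, ¬ (q : A) ^ c0 ∣ t x i - t y i)) :
    ChartsMq H hA m := by
  obtain ⟨c0, hc0⟩ := h
  refine ⟨c0, fun N => ?_⟩
  obtain ⟨t, ⟨ϖ, hϖ, hϖt⟩, heq, ⟨F, hF⟩, hsep⟩ := hc0 N
  refine ⟨g, fun x i => ((t x i : A) : L), fun i => MvPolynomial.map (toL A W) (F i),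
    ?_, ?_, ?_, ?_, ?_⟩
  · intro x i
    apply coe_mem_nonunits
    obtain ⟨d, hd⟩ := hϖt x i
    rw [hd]
    exact Ideal.mul_mem_right _ _ (hsm ϖ hϖ)
  · intro τ hτ x hx i
    obtain ⟨γ, rfl⟩ := hι τ hτ
    have h1 : (⟨ι γ • (x : Pic0 L (FL L (M * q))), hx⟩ : Km H hA m) = σX γ x :=
      Subtype.ext (hσX γ x).symm
    rw [h1, ← hσA]
    have h2 := powMemA_of_dvd (heq γ x i)
    rwa [AddSubgroupClass.coe_sub] at h2
  · intro i d
    rw [MvPolynomial.coeff_map]
    refine ⟨(algebraMap W A _).2, fun τ hτ => hW _ τ hτ⟩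
  · intro x y i
    have h2 := powMemA_of_dvd (hF x y i)
    rw [AddSubgroupClass.coe_sub, ← eval_map_toL] at h2
    convert h2 using 4
    funext j
    cases j <;> rfl
  · intro x y hxy
    obtain ⟨i, hi⟩ := hsep x y hxy
    refine ⟨i, fun hP => hi ?_⟩
    apply dvd_of_powMemA
    rwa [AddSubgroupClass.coe_sub]

end Main

end Fermat.Agent.S33x.Cech.InstConv
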