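/-
P-S33, LAYER 2 (b), the CONTEXT bundle (helper43).

`Ctx R C p q x Dt : Prop` bundles every hypothesis that the S34x lattice machinery needs about a
two-component special fibre `E × E`, `T̄ = (x, x ^ q)`, residue characteristic `p`:
`R : RedSetup2 A S k (E × E)`, `C : ChartCoord R`, `Dt = div C.t`.  Instance lemmas of the Cech
leaves (B1-B4) take ONE argument `h : Ctx R C p q x Dt`.

* `Ctx.exists_res_eq_one`  : Layer 1 for a normalised Kummer pair `(w, D)`, `p ^ e D = div w`;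
* `Ctx.exists_cocycle`     : the Cech cocycle `h * h' ∈ L(a C₀ + b C∞) ∩ O`, `res = 1`;
* `Ctx.exists_counts`, `Ctx.fg_lat`, `Ctx.finite_Pk`, `Ctx.exists_hgen`: the usual inputs;
* `CtxGal R C G` : a set `G` of semilinear automorphisms fixing `t`, preserving `S.O` and acting
  trivially on the reduction (the inertia group);
* `ctx_of_chart`, `ctxGal_inertia` : the CONCRETE context at level `M q` (variables of
  `S34x/Inst/TheoremBMq.lean`), for the chart `t = α t'`.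
-/
import Fermat.Agent.S33x.L1.Cocycle
import Fermat.Agent.S34x.Inst.TheoremBMq

set_option autoImplicit false
set_option linter.unusedSectionVars false
set_option linter.style.haveILetI false

noncomputable section

namespace Fermat.Agent.S33x.Cech.CtxMq

open AlgebraicCurve Module IntermediateField
open Fermat.Agent.Gateway.C0 Fermat.Agent.S34x.C0two Fermat.Agent.S34x.Lattice2
open Fermat.Agent.S34x.Inst

section Abstract

variable {K : Type*} [Field K] {A : ValuationSubring K}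
  {F : Type*} [Field F] [Algebra K F] {S : SmallRing F}
  {k : Type*} [Field k] {E : Type*} [Field E] [Algebra k E]

/-- **The context bundle** of a two-component special fibre `E × E`, `T̄ = (x, x ^ q)`, residue
characteristic `p`. -/
structure Ctx (R : RedSetup2 A S k (E × E)) (C : ChartCoord R) (p q : ℕ) (x : E)
    (Dt : Divisor K F) : Prop where
  /-- `p` is a prime, the characteristic of `k` -/
  hp : p.Prime
  charP : CharP k p
  /-- the `k`-side coordinate -/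
  hx : Transcendental k x
  fin_x : FiniteDimensional k⟮x⟯ E
  sep_x : Algebra.IsSeparable k⟮x⟯ E
  hq : 0 < q
  hT : C.T = (x, x ^ q)
  /-- the `K`-side coordinate -/
  ht : Transcendental K C.t
  fin_t : FiniteDimensional K⟮C.t⟯ F
  hDt : ∀ v : Place K F, Dt v = v.ord C.t
  hn : finrank K⟮C.t⟯ F = (q + 1) * finrank k⟮x⟯ E
  /-- (G0), the cartesian property -/
  hcart : ∀ V : Submodule K F, FiniteDimensional K V → (R.lat V).FG
  /-- (L2) on both charts -/
  hL2 : C.IsL2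
  hL2₀ : C.swap.IsL2
  /-- the separating elements -/
  he : ∃ c : E, IsIntegral (Algebra.adjoin k {C.T.2}) c ∧ ((1 : E), c * C.T.2) ∈ C.Bbar
  he₀ : ∃ c : E, IsIntegral (Algebra.adjoin k {C.Ti.2}) c ∧ ((1 : E), c * C.Ti.2) ∈ C.swap.Bbar
  /-- (N1) on both charts: the gluing rings are reduced -/
  hN1 : ∃ r : ℕ, 2 ≤ r ∧ ∀ g : C.B₂, ∃ g' : C.B₂, ((0 : C.B₁), g - g' ^ r) ∈ C.BbarT
  hN1₀ : ∃ r : ℕ, 2 ≤ r ∧
    ∀ g : C.swap.B₂, ∃ g' : C.swap.B₂, ((0 : C.swap.B₁), g - g' ^ r) ∈ C.swap.BbarT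

/-- **Inertia data**: a set of semilinear automorphisms fixing `t`, preserving `S.O`, and acting
trivially on the reduction. -/
structure CtxGal (R : RedSetup2 A S k (E × E)) (C : ChartCoord R)
    (G : Set (SemilinearAut K F)) : Prop where
  smul_t : ∀ g ∈ G, g • C.t = C.t
  smul_mem : ∀ g ∈ G, ∀ f ∈ S.O, g • f ∈ S.O
  res_smul : ∀ g (hg : g ∈ G) (f : F) (hf : f ∈ S.O),
    R.res ⟨g • f, smul_mem g hg f hf⟩ = R.res ⟨f, hf⟩

end Abstract

namespace Ctx

variable {K : Type*} [Field K] [IsAlgClosed K] [CharZero K] {A : ValuationSubring K}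
  {F : Type*} [Field F] [Algebra K F] {S : SmallRing F}
  {k : Type*} [Field k] [IsAlgClosed k] {E : Type*} [Field E] [Algebra k E]
  {R : RedSetup2 A S k (E × E)} {C : ChartCoord R} {p q : ℕ} {x : E} {Dt : Divisor K F}
  (h : Ctx R C p q x Dt)

include h

theorem isSeparable_t : Algebra.IsSeparable K⟮C.t⟯ F := by
  haveI hh : FiniteDimensional K⟮C.t⟯ F := h.fin_t
  exact @isSeparable_adjoin_of_charZero K F _ _ _ _ C.t hh

/-- `P(a,b)` is finite-dimensional -/
theorem finite_Pk (a b : ℕ) : Module.Finite k (C.Pk a b) := by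
  haveI := h.fin_x
  haveI := h.sep_x
  exact CountsInst.finite_Pk h.hx h.hq C h.hT a b

/-- generation in degree one of `P(0,b)` -/
theorem exists_hgen : ∃ b₀ : ℕ, ∀ b, b₀ ≤ b → ∀ y ∈ C.Pk 0 (b + 1),
    ∃ y₁ ∈ C.Pk 0 b, ∃ y₂ ∈ C.Pk 0 b, y = y₁ + C.T * y₂ := by
  haveI := h.fin_x
  haveI := h.sep_x
  haveI := h.fin_t
  haveI := h.isSeparable_t
  exact exists_hgen_prod h.hx h.hq C h.hT

/-- the lattices `L(E' + a C₀ + b C∞) ∩ O` are finitely generated -/
theorem fg_lat_LM (E' : Divisor K F) (a b : ℕ) :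
    (R.lat ((TwoCharts.ofDivisor Dt).LM E' a b)).FG := by
  haveI := h.fin_t
  haveI := h.isSeparable_t
  exact h.hcart _ ((TwoCharts.ofDivisor Dt).LM_finite h.ht E' a b)

/-- the lattices `L(b C∞) ∩ O` are finitely generated -/
theorem fg_lat_LN (b : ℕ) : (R.lat (C.LN 0 b)).FG := by
  haveI := h.fin_t
  haveI : ∀ b, FiniteDimensional k (C.Pk 0 b) := fun b => h.finite_Pk 0 b
  exact Fermat.Agent.S34x.Lattice2.fg_lat_LN C h.ht h.hDt h.hcart b

/-- **the Riemann-Roch counts** `hdimS`, `hdimN` (uniform in all divisors of degree `0`),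
`δ = g - 2 g' + 1`. -/
theorem exists_counts :
    ∃ δ : ℕ, (δ : ℤ) = genusFF K F - 2 * genusFF k E + 1 ∧ ∃ b₁,
      (∀ b, b₁ ≤ b → finrank k (C.Pk 0 b) = finrank k (R.redLat (C.LN 0 b)) + δ) ∧
      (∀ E' : Divisor K F, Divisor.degree E' = 0 → ∀ b, b₁ ≤ b →
        finrank k (C.Pk 0 b) ≤
          finrank k (R.redLat ((TwoCharts.ofDivisor Dt).LM E' 0 b)) + δ) := by
  haveI := h.fin_x
  haveI := h.sep_x
  haveI := h.fin_t
  haveI := h.isSeparable_t
  exact CountsInst.exists_counts_prod h.hx h.hq C h.hT h.ht h.hDt h.hn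
    (fun E' _ b => h.fg_lat_LM E' 0 b)

/-- **Layer 1**: for a normalised Kummer pair `(w, D)`, `p ^ e D = div w`, the twisted lattices of
`D` contain elements reducing to `1` on both charts. -/
theorem exists_res_eq_one {e : ℕ}
    {w : F} (hw0 : w ≠ 0) (hwO : w ∈ S.O) (hwiO : w⁻¹ ∈ S.O) (hw1 : R.res ⟨w, hwO⟩ = 1)
    {D : Divisor K F} (hD : ∀ v : Place K F, ((p ^ e : ℕ) : ℤ) * D v = v.ord w) :
    (∃ (b : ℕ) (f : F), f ∈ (TwoCharts.ofDivisor Dt).LM D 0 b ∧
      ∃ hf : f ∈ S.O, R.res ⟨f, hf⟩ = 1) ∧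
    (∃ (a : ℕ) (f : F), f ∈ (TwoCharts.ofDivisor Dt).LM D a 0 ∧
      ∃ hf : f ∈ S.O, R.res ⟨f, hf⟩ = 1) := by
  haveI := h.fin_x
  haveI := h.sep_x
  haveI := h.fin_t
  haveI : Fact p.Prime := ⟨h.hp⟩
  haveI := h.charP
  obtain ⟨r, hr, hN1⟩ := h.hN1
  obtain ⟨r₀, hr₀, hN1₀⟩ := h.hN1₀
  exact Fermat.Agent.S33x.L1.OneOfProd.exists_res_eq_one_of_prod h.hx h.hq C h.hT h.ht h.hDt h.hn
    h.hcart h.hL2 h.hL2₀ h.he h.he₀ hr hN1 hr₀ hN1₀ p hw0 hwO hwiO hw1 hD

/-- **The Cech cocycle** of a normalised Kummer pair `(w, D)`, `p ^ e D = div w`. -/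
theorem exists_cocycle {e : ℕ}
    {w : F} (hw0 : w ≠ 0) (hwO : w ∈ S.O) (hwiO : w⁻¹ ∈ S.O) (hw1 : R.res ⟨w, hwO⟩ = 1)
    {D : Divisor K F} (hD : ∀ v : Place K F, ((p ^ e : ℕ) : ℤ) * D v = v.ord w) :
    ∃ (a b : ℕ) (f f' : F) (hf : f ∈ S.O) (hf' : f' ∈ S.O),
      f ∈ (TwoCharts.ofDivisor Dt).LM D 0 b ∧ R.res ⟨f, hf⟩ = 1 ∧
      f' ∈ (TwoCharts.ofDivisor Dt).LM (-D) a 0 ∧ R.res ⟨f', hf'⟩ = 1 ∧
      f * f' ∈ C.LN a b ∧ R.res ⟨f * f', S.O.mul_mem hf hf'⟩ = 1 := by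
  haveI := h.fin_x
  haveI := h.sep_x
  haveI := h.fin_t
  haveI : Fact p.Prime := ⟨h.hp⟩
  haveI := h.charP
  obtain ⟨r, hr, hN1⟩ := h.hN1
  obtain ⟨r₀, hr₀, hN1₀⟩ := h.hN1₀
  exact Fermat.Agent.S33x.L1.Cocycle.exists_cocycle_of_prod h.hx h.hq C h.hT h.ht h.hDt h.hn
    h.hcart h.hL2 h.hL2₀ h.he h.he₀ hr hN1 hr₀ hN1₀ p hw0 hwO hwiO hw1 hD

end Ctx

/-! ### The concrete context at level `M q` -/

section Concrete

open ModularCurve IsLocalRing
open Fermat.Agent.Gateway.Hecke Fermat.Agent.Gateway.ESC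
open Fermat.Agent.Gateway.Red Fermat.Agent.Gateway.GoodRed
open Fermat.Agent.Gateway.GoodRed.ConjFamily
open Fermat.Agent.S34x.TwoVal
open Fermat.Agent.S34x.Inst.L2 Fermat.Agent.S34x.Inst.IsL2Inst
open Fermat.Agent.S34x.Inst.RedSetupInst Fermat.Agent.S34x.Inst.ElementYRed
open Fermat.Agent.S34x.Inst.ElementYInt Fermat.Agent.S34x.Inst.Charts
open Fermat.Agent.S34x.Inst.TheoremBMq

attribute [-instance] IsScalarTower.of_algHom

variable {L : Type} [Field L] [Algebra ℚ L] [IsAlgClosed L] [Algebra.IsAlgebraic ℚ L]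
  {A : ValuationSubring L} {k : Type} [Field k] {π : A →+* k} [IsAlgClosed k]
variable {M q : ℕ} [NeZero M] [NeZero q] [Fact q.Prime] [CharP k q]
variable {hdeg : finrankAlong L (heckeAlphaBar L M q) = q + 1} {hq : q.Prime} {hqM : ¬ q ∣ M}
variable {hrk : ∀ x ∈ maximalIdeal A, ∀ c : A, c ≠ 0 → ∃ j : ℕ, c ∣ x ^ j}
  {hπ : Function.Surjective π}
variable (H : ResidueFacts A π M q hdeg hq hqM hrk hπ) (hA : A.LiesOverPrime q)
  (x : LaurentSeries ℤ) (hx : coeffMap (Int.castRingHom L) x ∈ FBar L M)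
  (Hx : GoodLevelFactsT A π M q hπ hqM (tInt M x hx))

include Hx hA in
/-- **The concrete context** for a chart with coordinate `t = α t'` at level `M q`. -/
theorem ctx_of_chart [PerfectRing k q] (C : ChartCoord (redSetup2 H hA))
    (hCt : C.t = tA M q x hx) (hxk : tbar k x ≠ 0) (hY : YFacts M q x hx)
    {Dt : Divisor L (FL L (M * q))}
    (hDt : ∀ v : Place L (FL L (M * q)), Dt v = v.ord C.t) :
    Ctx (redSetup2 H hA) C q q C.T.1 Dt := by
  haveI : CharZero L := algebraRat.charZero L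
  haveI := Hx.finite
  have hB := BridgeInst.bridge H hA
  have hT1 := T_fst_eq H hA x hx Hx C hCt
  obtain ⟨hL2, hL2₀⟩ := BridgeInst.isL2_both H hA C Hx hCt hY.y3 hY.y3' x rfl
  have hq2 : 2 ≤ q ^ 2 := by
    have := (Fact.out : q.Prime).two_le
    nlinarith
  exact
    { hp := Fact.out
      charP := inferInstance
      hx := by rw [hT1]; exact Hx.trans_res
      fin_x := by rw [hT1]; exact Hx.finite_res
      sep_x := by rw [hT1]; exact Hx.sep_res
      hq := (Fact.out : q.Prime).pos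
      hT := T_eq H hA x hx Hx C hCt
      ht := by rw [hCt]; exact Charts.transcendental_tα L M q Hx.trans
      fin_t := by rw [hCt]; exact finiteDimensional_tA x hx Hx
      hDt := hDt
      hn := finrank_eq H hA x hx Hx C hCt
      hcart := fun V hV => cartesian H hA x hx Hx V hV
      hL2 := hL2
      hL2₀ := hL2₀
      he := exists_he C x hx hB hCt hxk hY.y1 hY.y3'
      he₀ := exists_he' C x hx hB hCt hxk hY.y2 hY.y3
      hN1 := ⟨q ^ 2, hq2, hN1 H hA x hx Hx C hCt hY⟩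
      hN1₀ := ⟨q ^ 2, hq2, hN1₀ H hA x hx Hx C hCt hY⟩ }

include Hx in
/-- **The inertia group** acts on the concrete context: it fixes `t = α t'`, preserves
`O_∞ ⊓ O_0` and acts trivially on the reduction. -/
theorem ctxGal_inertia (C : ChartCoord (redSetup2 H hA)) (hCt : C.t = tA M q x hx) :
    CtxGal (redSetup2 H hA) C
      {g | ∃ τ ∈ A.inertiaSubgroupIn ℚ,
        g = arithmeticGalois (modularFunctionFieldFull (M * q)) τ} := by
  refine ⟨?_, ?_, ?_⟩
  · rintro g ⟨τ, -, rfl⟩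
    rw [hCt]
    exact GaloisInst.gal_smul_alpha_eq_self_int M q τ (tInt M x hx) x rfl
  · rintro g ⟨τ, hτ, rfl⟩ f hf
    exact GaloisInst.gal_smul_mem_S2 A π M q hdeg hq hqM hrk hπ
      (GaloisInst.mem_decomposition_of_mem_inertia A hτ) hf
  · rintro g ⟨τ, hτ, rfl⟩ f hf
    exact GaloisInst.res_gal_smul A π M q hdeg hq hqM hrk hπ (redSetup2 H hA) hτ f hf

end Concrete

end Fermat.Agent.S33x.Cech.CtxMq
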