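/-
P-S33, LAYER 2 (L2-B1) (helper49): Cech data of a divisor and their cocycles.

Vocabulary of `S34x/Lattice2` and `S33x/H1/InstC1`: `R : RedSetup2 A S k κ`, `C : ChartCoord R`,
`Dt = div C.t`, `T := TwoCharts.ofDivisor Dt`, `T.LM D a b = L(D + a C₀ + b C∞)`,
`LamD R Dt D a b := R.lat (T.LM D a b) = L(D + a C₀ + b C∞) ∩ S.O`.

* `ResOne R x` : `x ∈ S.O` and `res x = 1`;
* `CechDatum R Dt D` : chart-wise trivialisations `hoo, h0` of `O(D)` and `hoo', h0'` of `O(-D)`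
  (on the charts `t ≠ ∞`, `t ≠ 0`), all reducing to `1`;
* `cocycle d = d.hoo * d.h0'`: lies in `Lam(a,b)`, reduces to `1`, is `1 + ϖ z` with `ϖ ∈ 𝔪`,
  `z ∈ Lam(a,b)`;
* `d.hoo * d.hoo' ∈ B∞`, `d.h0 * d.h0' ∈ B₀`, both reducing to `1`;
* product datum, unit datum, negative datum, with the cocycle identities;
* existence from LAYER 1 (`L1.OneOfProd.exists_res_eq_one_of_prod`).
-/
import Fermat.Agent.S33x.H1.InstC1
import Fermat.Agent.S33x.L1.Cocycle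

set_option autoImplicit false
set_option linter.unusedSectionVars false
set_option linter.style.haveILetI false

noncomputable section

namespace Fermat.Agent.S33x.Cech.Datum

open AlgebraicCurve Module IntermediateField IsLocalRing
open Fermat.Agent.Gateway.C0 Fermat.Agent.S34x Fermat.Agent.S34x.C0two Fermat.Agent.S34x.Lattice2
open Fermat.Agent.S33x.H1.InstC1

variable {K : Type*} [Field K] {A : ValuationSubring K} {F : Type*} [Field F] [Algebra K F]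
  {S : SmallRing F} {k κ : Type*} [Field k] [CommRing κ] [Algebra k κ]

/-! ### elements reducing to `1` -/

/-- `x ∈ S.O` and `res x = 1`. -/
def ResOne (R : RedSetup2 A S k κ) (x : F) : Prop := ∃ hx : x ∈ S.O, R.res ⟨x, hx⟩ = 1

namespace ResOne

variable {R : RedSetup2 A S k κ}

theorem mem {x : F} (h : ResOne R x) : x ∈ S.O := h.1

theorem res_eq {x : F} (h : ResOne R x) (hx : x ∈ S.O) : R.res ⟨x, hx⟩ = 1 := h.2

theorem one : ResOne R (1 : F) := ⟨S.O.one_mem, map_one R.res⟩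

theorem mul {x y : F} (hx : ResOne R x) (hy : ResOne R y) : ResOne R (x * y) := by
  obtain ⟨hx, hx1⟩ := hx
  obtain ⟨hy, hy1⟩ := hy
  refine ⟨S.O.mul_mem hx hy, ?_⟩
  have : (⟨x * y, S.O.mul_mem hx hy⟩ : S.O) = ⟨x, hx⟩ * ⟨y, hy⟩ := rfl
  rw [this, map_mul, hx1, hy1, one_mul]

theorem pow {x : F} (hx : ResOne R x) (n : ℕ) : ResOne R (x ^ n) := by
  induction n with
  | zero => simpa using (one : ResOne R (1 : F))
  | succ n ih => rw [pow_succ]; exact ih.mul hx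

/-- an element reducing to `1` is `1 + ϖ z` with `ϖ ∈ 𝔪`, `z ∈ S.O`. -/
theorem exists_eq_one_add {x : F} (hx : ResOne R x) :
    ∃ ϖ ∈ maximalIdeal A, ∃ z ∈ S.O, x - 1 = ϖ • z := by
  obtain ⟨hx, hx1⟩ := hx
  have hc : Cong S x 1 := by
    rw [R.cong_iff hx S.O.one_mem, hx1]
    exact (map_one R.res).symm
  exact R.base.unram _ hc

end ResOne

/-! ### the twisted lattices -/

/-- `Lam(D; a, b) = L(D + a C₀ + b C∞) ∩ S.O`. -/
def LamD (R : RedSetup2 A S k κ) (Dt : Divisor K F) (D : Divisor K F) (a b : ℕ) :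
    Submodule A F :=
  R.lat ((TwoCharts.ofDivisor Dt).LM D a b)

theorem mem_LamD {R : RedSetup2 A S k κ} {Dt D : Divisor K F} {a b : ℕ} {x : F} :
    x ∈ LamD R Dt D a b ↔ x ∈ (TwoCharts.ofDivisor Dt).LM D a b ∧ x ∈ S.O := Iff.rfl

theorem LamD_mono {R : RedSetup2 A S k κ} {Dt : Divisor K F} (D : Divisor K F)
    {a b a' b' : ℕ} (ha : a ≤ a') (hb : b ≤ b') : LamD R Dt D a b ≤ LamD R Dt D a' b' :=
  fun _ hx => ⟨(TwoCharts.ofDivisor Dt).LM_mono D ha hb hx.1, hx.2⟩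

/-- products of sections: `Lam(D;a,b) · Lam(D';a',b') ⊆ Lam(D + D'; a+a', b+b')`. -/
theorem LamD_mul {R : RedSetup2 A S k κ} {Dt D D' : Divisor K F} {a b a' b' : ℕ} {x y : F}
    (hx : x ∈ LamD R Dt D a b) (hy : y ∈ LamD R Dt D' a' b') :
    x * y ∈ LamD R Dt (D + D') (a + a') (b + b') := by
  refine ⟨?_, S.O.mul_mem hx.2 hy.2⟩
  have h := mul_mem_rrs hx.1 hy.1
  rw [TwoCharts.LM, TwoCharts.dv_add]
  convert h using 2
  abel

theorem one_mem_LamD_zero {R : RedSetup2 A S k κ} {Dt : Divisor K F} :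
    (1 : F) ∈ LamD R Dt 0 0 0 := by
  refine ⟨?_, S.O.one_mem⟩
  rw [TwoCharts.LM_zero_eq]
  exact (TwoCharts.ofDivisor Dt).one_mem_LN

/-! ### Cech data -/

/-- **Cech datum of a divisor `D`**: trivialisations of `O(D)` and of `O(-D)` on the two charts,
all reducing to `1`. -/
structure CechDatum (R : RedSetup2 A S k κ) (Dt : Divisor K F) (D : Divisor K F) where
  hoo : F
  h0 : F
  hoo' : F
  h0' : F
  hoo_mem : ∃ b, hoo ∈ LamD R Dt D 0 b
  h0_mem : ∃ a, h0 ∈ LamD R Dt D a 0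
  hoo'_mem : ∃ b, hoo' ∈ LamD R Dt (-D) 0 b
  h0'_mem : ∃ a, h0' ∈ LamD R Dt (-D) a 0
  res_hoo : ResOne R hoo
  res_h0 : ResOne R h0
  res_hoo' : ResOne R hoo'
  res_h0' : ResOne R h0'

namespace CechDatum

variable {R : RedSetup2 A S k κ} {Dt : Divisor K F}

/-- the Cech cocycle `hoo * h0'` of a datum -/
def cocycle {D : Divisor K F} (d : CechDatum R Dt D) : F := d.hoo * d.h0'

theorem cocycle_resOne {D : Divisor K F} (d : CechDatum R Dt D) : ResOne R d.cocycle :=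
  d.res_hoo.mul d.res_h0'

/-- the cocycle lies in `Lam(0; a, b) = L(a C₀ + b C∞) ∩ S.O` -/
theorem cocycle_mem_LamD {D : Divisor K F} (d : CechDatum R Dt D) :
    ∃ a b, d.cocycle ∈ LamD R Dt 0 a b := by
  obtain ⟨b, hb⟩ := d.hoo_mem
  obtain ⟨a, ha⟩ := d.h0'_mem
  refine ⟨a, b, ?_⟩
  have h := LamD_mul hb ha
  rwa [add_neg_cancel, zero_add, add_zero] at h

/-- `cocycle d = 1 + ϖ z` with `ϖ ∈ 𝔪` and `z ∈ Lam(0; a, b)`. -/
theorem cocycle_eq_one_add {D : Divisor K F} (d : CechDatum R Dt D) :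
    ∃ ϖ ∈ maximalIdeal A, ∃ a b, ∃ z ∈ LamD R Dt 0 a b, d.cocycle - 1 = ϖ • z := by
  obtain ⟨a, b, hc⟩ := d.cocycle_mem_LamD
  obtain ⟨ϖ, hϖ, z, hz, hcz⟩ := d.cocycle_resOne.exists_eq_one_add
  by_cases h0 : ϖ = 0
  · refine ⟨ϖ, hϖ, a, b, 0, Submodule.zero_mem _, ?_⟩
    rw [hcz, h0, zero_smul, smul_zero]
  · refine ⟨ϖ, hϖ, a, b, z, ⟨?_, hz⟩, hcz⟩
    have h1 : (1 : F) ∈ (TwoCharts.ofDivisor Dt).LM 0 a b :=
      (TwoCharts.ofDivisor Dt).LM_mono 0 (Nat.zero_le a) (Nat.zero_le b)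
        (one_mem_LamD_zero (R := R) (Dt := Dt)).1
    have h2 : d.cocycle - 1 ∈ (TwoCharts.ofDivisor Dt).LM 0 a b := Submodule.sub_mem _ hc.1 h1
    have hϖK : ((ϖ : A) : K) ≠ 0 := by exact_mod_cast h0
    have h3 : z = ((ϖ : A) : K)⁻¹ • (d.cocycle - 1) := by
      rw [hcz]
      have : ϖ • z = ((ϖ : A) : K) • z := rfl
      rw [this, smul_smul, inv_mul_cancel₀ hϖK, one_smul]
    rw [h3]
    exact Submodule.smul_mem _ _ h2

/-- `hoo * hoo' ∈ Lam(0; 0, b)` (a function on the chart `t ≠ ∞`), reducing to `1` -/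
theorem hoo_mul_hoo'_mem {D : Divisor K F} (d : CechDatum R Dt D) :
    ∃ b, d.hoo * d.hoo' ∈ LamD R Dt 0 0 b := by
  obtain ⟨b, hb⟩ := d.hoo_mem
  obtain ⟨b', hb'⟩ := d.hoo'_mem
  refine ⟨b + b', ?_⟩
  have h := LamD_mul hb hb'
  rwa [add_neg_cancel, add_zero] at h

theorem hoo_mul_hoo'_resOne {D : Divisor K F} (d : CechDatum R Dt D) :
    ResOne R (d.hoo * d.hoo') := d.res_hoo.mul d.res_hoo'

/-- `h0 * h0' ∈ Lam(0; a, 0)` (a function on the chart `t ≠ 0`), reducing to `1` -/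
theorem h0_mul_h0'_mem {D : Divisor K F} (d : CechDatum R Dt D) :
    ∃ a, d.h0 * d.h0' ∈ LamD R Dt 0 a 0 := by
  obtain ⟨a, ha⟩ := d.h0_mem
  obtain ⟨a', ha'⟩ := d.h0'_mem
  refine ⟨a + a', ?_⟩
  have h := LamD_mul ha ha'
  rwa [add_neg_cancel, add_zero] at h

theorem h0_mul_h0'_resOne {D : Divisor K F} (d : CechDatum R Dt D) :
    ResOne R (d.h0 * d.h0') := d.res_h0.mul d.res_h0'

/-! ### operations on data -/

/-- the unit datum of the zero divisor -/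
def one : CechDatum R Dt (0 : Divisor K F) where
  hoo := 1
  h0 := 1
  hoo' := 1
  h0' := 1
  hoo_mem := ⟨0, one_mem_LamD_zero⟩
  h0_mem := ⟨0, one_mem_LamD_zero⟩
  hoo'_mem := ⟨0, by rw [neg_zero]; exact one_mem_LamD_zero⟩
  h0'_mem := ⟨0, by rw [neg_zero]; exact one_mem_LamD_zero⟩
  res_hoo := ResOne.one
  res_h0 := ResOne.one
  res_hoo' := ResOne.one
  res_h0' := ResOne.one

@[simp] theorem cocycle_one : (one : CechDatum R Dt (0 : Divisor K F)).cocycle = 1 := by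
  simp [cocycle, one]

/-- the product datum -/
def mul {D D' : Divisor K F} (d : CechDatum R Dt D) (d' : CechDatum R Dt D') :
    CechDatum R Dt (D + D') where
  hoo := d.hoo * d'.hoo
  h0 := d.h0 * d'.h0
  hoo' := d.hoo' * d'.hoo'
  h0' := d.h0' * d'.h0'
  hoo_mem := by
    obtain ⟨b, hb⟩ := d.hoo_mem
    obtain ⟨b', hb'⟩ := d'.hoo_mem
    exact ⟨b + b', by simpa using LamD_mul hb hb'⟩
  h0_mem := by
    obtain ⟨a, ha⟩ := d.h0_mem
    obtain ⟨a', ha'⟩ := d'.h0_mem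
    exact ⟨a + a', by simpa using LamD_mul ha ha'⟩
  hoo'_mem := by
    obtain ⟨b, hb⟩ := d.hoo'_mem
    obtain ⟨b', hb'⟩ := d'.hoo'_mem
    refine ⟨b + b', ?_⟩
    have h := LamD_mul hb hb'
    rwa [← neg_add, add_zero] at h
  h0'_mem := by
    obtain ⟨a, ha⟩ := d.h0'_mem
    obtain ⟨a', ha'⟩ := d'.h0'_mem
    refine ⟨a + a', ?_⟩
    have h := LamD_mul ha ha'
    rwa [← neg_add, add_zero] at h
  res_hoo := d.res_hoo.mul d'.res_hoo
  res_h0 := d.res_h0.mul d'.res_h0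
  res_hoo' := d.res_hoo'.mul d'.res_hoo'
  res_h0' := d.res_h0'.mul d'.res_h0'

theorem cocycle_mul {D D' : Divisor K F} (d : CechDatum R Dt D) (d' : CechDatum R Dt D') :
    (d.mul d').cocycle = d.cocycle * d'.cocycle := by
  simp only [cocycle, mul]
  ring

/-- the negative datum: the roles of `O(D)` and `O(-D)` exchanged -/
def neg {D : Divisor K F} (d : CechDatum R Dt D) : CechDatum R Dt (-D) where
  hoo := d.hoo'
  h0 := d.h0'
  hoo' := d.hoo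
  h0' := d.h0
  hoo_mem := d.hoo'_mem
  h0_mem := d.h0'_mem
  hoo'_mem := by rw [neg_neg]; exact d.hoo_mem
  h0'_mem := by rw [neg_neg]; exact d.h0_mem
  res_hoo := d.res_hoo'
  res_h0 := d.res_h0'
  res_hoo' := d.res_hoo
  res_h0' := d.res_h0

theorem cocycle_neg {D : Divisor K F} (d : CechDatum R Dt D) : d.neg.cocycle = d.hoo' * d.h0 := rfl

/-- `cocycle d * cocycle (-d) = (hoo hoo') (h0 h0')`: a product of a function on the chart `∞`
and a function on the chart `0`, both reducing to `1`. -/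
theorem cocycle_mul_cocycle_neg {D : Divisor K F} (d : CechDatum R Dt D) :
    d.cocycle * d.neg.cocycle = (d.hoo * d.hoo') * (d.h0 * d.h0') := by
  simp only [cocycle, neg]
  ring

end CechDatum

/-! ### comparison with the untwisted lattice system of `H1/InstC1` -/

section compare

variable {R : RedSetup2 A S k κ} (C : ChartCoord R)
  (ht : Transcendental K C.t) [FiniteDimensional K⟮C.t⟯ F] [Algebra.IsSeparable K⟮C.t⟯ F]
  {Dt : Divisor K F} (hDt : ∀ v : Place K F, Dt v = v.ord C.t)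

include ht hDt in
/-- `Lam(0; a, b)` is the untwisted lattice `Lam C a b` of `H1/InstC1`. -/
theorem LamD_zero_eq (a b : ℕ) : LamD R Dt 0 a b = Lam C a b := by
  rw [LamD, TwoCharts.LM_zero_eq, LN_eq C ht hDt]
  rfl

include ht hDt in
/-- the cocycle of a datum lies in the overlap ring `Bx` -/
theorem cocycle_mem_Bx {D : Divisor K F} (d : CechDatum R Dt D) : d.cocycle ∈ Bx C := by
  obtain ⟨a, b, h⟩ := d.cocycle_mem_LamD
  rw [LamD_zero_eq C ht hDt] at h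
  exact H1Fg.le_chartX (M := Lam C) a b h

include ht hDt in
/-- `cocycle d - 1 ∈ ϖ Bx` for some `ϖ ∈ 𝔪`. -/
theorem cocycle_sub_one_mem {D : Divisor K F} (d : CechDatum R Dt D) :
    ∃ ϖ ∈ maximalIdeal A, ∃ z ∈ Bx C, d.cocycle - 1 = ϖ • z := by
  obtain ⟨ϖ, hϖ, a, b, z, hz, h⟩ := d.cocycle_eq_one_add
  rw [LamD_zero_eq C ht hDt] at hz
  exact ⟨ϖ, hϖ, z, H1Fg.le_chartX (M := Lam C) a b hz, h⟩

include ht hDt in
/-- `hoo * hoo'` is a function on the chart `t ≠ ∞` -/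
theorem hoo_mul_hoo'_mem_Boo {D : Divisor K F} (d : CechDatum R Dt D) :
    d.hoo * d.hoo' ∈ Boo C := by
  obtain ⟨b, h⟩ := d.hoo_mul_hoo'_mem
  rw [LamD_zero_eq C ht hDt] at h
  exact H1Fg.le_chartU (M := Lam C) b h

include ht hDt in
/-- `h0 * h0'` is a function on the chart `t ≠ 0` -/
theorem h0_mul_h0'_mem_Bzero {D : Divisor K F} (d : CechDatum R Dt D) :
    d.h0 * d.h0' ∈ Bzero C := by
  obtain ⟨a, h⟩ := d.h0_mul_h0'_mem
  rw [LamD_zero_eq C ht hDt] at h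
  exact H1Fg.le_chartU' (M := Lam C) a h

end compare

/-! ### existence from LAYER 1 -/

section existence

open Fermat.Agent.S34x.Inst Fermat.Agent.S33x.L1.OneOfProd Fermat.Agent.S33x.L1.Cocycle

variable {K : Type*} [Field K] [IsAlgClosed K] [CharZero K] {A : ValuationSubring K}
  {F : Type*} [Field F] [Algebra K F] {S : SmallRing F}
  {k : Type*} [Field k] [IsAlgClosed k] {E : Type*} [Field E] [Algebra k E] {x : E}
  (hx : Transcendental k x) [FiniteDimensional k⟮x⟯ E] [Algebra.IsSeparable k⟮x⟯ E]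
  {q : ℕ} (hq : 0 < q)
  {R : RedSetup2 A S k (E × E)} (C : ChartCoord R) (hT : C.T = (x, x ^ q))
  (ht : Transcendental K C.t) [FiniteDimensional K⟮C.t⟯ F]
  {Dt : Divisor K F} (hDt : ∀ v : Place K F, Dt v = v.ord C.t)
  (hn : finrank K⟮C.t⟯ F = (q + 1) * finrank k⟮x⟯ E)
  (hcart : ∀ V : Submodule K F, FiniteDimensional K V → (R.lat V).FG)
  (hL2 : C.IsL2) (hL2₀ : C.swap.IsL2)
  (he : ∃ c : E, IsIntegral (Algebra.adjoin k {C.T.2}) c ∧ ((1 : E), c * C.T.2) ∈ C.Bbar)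
  (he₀ : ∃ c : E, IsIntegral (Algebra.adjoin k {C.Ti.2}) c ∧
    ((1 : E), c * C.Ti.2) ∈ C.swap.Bbar)
  {r : ℕ} (hr : 2 ≤ r)
  (hN1 : ∀ g : C.B₂, ∃ g' : C.B₂, ((0 : C.B₁), g - g' ^ r) ∈ C.BbarT)
  {r₀ : ℕ} (hr₀ : 2 ≤ r₀)
  (hN1₀ : ∀ g : C.swap.B₂, ∃ g' : C.swap.B₂, ((0 : C.swap.B₁), g - g' ^ r₀) ∈ C.swap.BbarT)

include hx hq hT ht hDt hn hcart hL2 hL2₀ he he₀ hr hN1 hr₀ hN1₀ in
/-- **Existence of a Cech datum** for the divisor `D` of a normalised Kummer pair `(w, D)`,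
`p ^ e D = div w`, `res w = 1`, `p = char k` (LAYER 1, `exists_res_eq_one_of_prod` applied to
`(w, D)` and to `(w⁻¹, -D)`). -/
theorem nonempty_cechDatum_of_prod (p : ℕ) [Fact p.Prime] [CharP k p] {e : ℕ}
    {w : F} (hw0 : w ≠ 0) (hwO : w ∈ S.O) (hwiO : w⁻¹ ∈ S.O) (hw1 : R.res ⟨w, hwO⟩ = 1)
    {D : Divisor K F} (hD : ∀ v : Place K F, ((p ^ e : ℕ) : ℤ) * D v = v.ord w) :
    Nonempty (CechDatum R Dt D) := by
  obtain ⟨⟨b, hoo, hooL, hooO, hoo1⟩, ⟨a, h0, h0L, h0O, h01⟩⟩ :=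
    exists_res_eq_one_of_prod hx hq C hT ht hDt hn hcart hL2 hL2₀ he he₀ hr hN1 hr₀ hN1₀ p
      hw0 hwO hwiO hw1 hD
  have hwi0 : w⁻¹ ≠ 0 := inv_ne_zero hw0
  have hwiiO : w⁻¹⁻¹ ∈ S.O := by rw [inv_inv]; exact hwO
  obtain ⟨⟨b', hoo', hooL', hooO', hoo1'⟩, ⟨a', h0', h0L', h0O', h01'⟩⟩ :=
    exists_res_eq_one_of_prod hx hq C hT ht hDt hn hcart hL2 hL2₀ he he₀ hr hN1 hr₀ hN1₀ p
      (e := e) hwi0 hwiO hwiiO (res_inv_eq_one hw0 hwO hwiO hw1) (ord_inv_of_ord hD)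
  exact ⟨{ hoo := hoo, h0 := h0, hoo' := hoo', h0' := h0'
           hoo_mem := ⟨b, hooL, hooO⟩
           h0_mem := ⟨a, h0L, h0O⟩
           hoo'_mem := ⟨b', hooL', hooO'⟩
           h0'_mem := ⟨a', h0L', h0O'⟩
           res_hoo := ⟨hooO, hoo1⟩
           res_h0 := ⟨h0O, h01⟩
           res_hoo' := ⟨hooO', hoo1'⟩
           res_h0' := ⟨h0O', h01'⟩ }⟩

end existence

end Fermat.Agent.S33x.Cech.Datum
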