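/-
P-S33, LAYER 2, final instantiation, leaf (I1) (helper49): the family of Cech cocycles `Cyc` of the
classes of `K_m`, and the hypotheses `cyc_ne`, `cyc_one`, `cyc_zero`, `cyc_mul` of the architect
literal `S33-IFACE-L2-B5`.

Vocabulary: `R : RedSetup2 A S k κ`, `C : ChartCoord R`, `Dt = div C.t`, `CechDatum R Dt D`
(`Cech/Datum`), `UnitOne R w` (`KummerPn`), `BxAlg C : Subalgebra A F` (`H1/InstC4`, helper50).

GENERAL PART (any `RedSetup2`):
* `IsData R m ξ w D` : `(w, D)` is a NORMALISED Kummer pair of exponent `m` of the class `ξ`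
  (`w ≠ 0`, `w` a unit of `S.O` with reduction `1`, `m D = div w`, `[D] = ξ`);
  `IsData.zero`, `IsData.mul`, `IsData.inv`, `exists_isData_iff`;
* `Cyc R Dt m ξ : Set F` : the cocycles `d.cocycle` of all Cech data `d : CechDatum R Dt D` of all
  normalised Kummer pairs `(w, D)` of `ξ`; `one_mem_cyc_zero`, `mul_mem_cyc`, `exists_neg_cyc`,
  `cyc_subset_Bx`, `exists_dvd_sub_one`;
* `CycB C Dt m ξ : Set ↥(BxAlg C)` : the same set inside the TYPE `↥(BxAlg C)`;
  `cycB_zero`, `cycB_mul`, `cycB_one` (the literals `cyc_zero`, `cyc_mul`, `cyc_one`).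

CONCRETE PART (context of `S34x/Inst/TheoremBMq`, level `M q`, exponent `q ^ n`):
* `exists_isData_of_mem_Km`, `mem_Km_iff_exists_isData`;
* `cyc_nonempty`, `cycB_nonempty` : `Cyc` of a class of `K_{q^n}` is nonempty (LAYER 1);
* `cyc_family` : the four literals for `Cyc := fun x => CycB C Dt (q ^ n) (φ x)`, for any additive
  map `φ : X →+ Pic0` with values in `K_{q^n}`.
-/
import Fermat.Agent.S33x.Cech.Datum
import Fermat.Agent.S33x.KummerPn
import Fermat.Agent.S33x.L1.InstMq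
import Fermat.Agent.S33x.H1.InstC4

set_option autoImplicit false
set_option linter.unusedSectionVars false
set_option linter.style.haveILetI false

noncomputable section

namespace Fermat.Agent.S33x.Cech.CycKm

open AlgebraicCurve Module IntermediateField IsLocalRing
open Fermat.Agent.Gateway.C0 Fermat.Agent.S34x Fermat.Agent.S34x.C0two Fermat.Agent.S34x.Lattice2
open Fermat.Agent.S33x.H1.InstC1 Fermat.Agent.S33x.H1.InstC4
open Fermat.Agent.S33x.Cech.Datum Fermat.Agent.S33x.KummerPn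

/-! ## General part -/

section general

variable {K : Type*} [Field K] {A : ValuationSubring K} {F : Type*} [Field F] [Algebra K F]
  {S : SmallRing F} {k κ : Type*} [Field k] [CommRing κ] [Algebra k κ]

/-- `(w, D)` is a NORMALISED Kummer pair of exponent `m` of the class `ξ`. -/
structure IsData (R : RedSetup2 A S k κ) (m : ℕ) (ξ : Pic0 K F) (w : F) (D : Divisor K F) :
    Prop where
  ne_zero : w ≠ 0
  unitOne : UnitOne R w
  ord : ∀ v : Place K F, (m : ℤ) * D v = v.ord w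
  cls : ∃ hD : D ∈ Divisor.degZero (K := K) (F := F), Pic0.mk ⟨D, hD⟩ = ξ

namespace IsData

variable {R : RedSetup2 A S k κ} {m : ℕ}

theorem mem_O {ξ : Pic0 K F} {w : F} {D : Divisor K F} (h : IsData R m ξ w D) : w ∈ S.O :=
  h.unitOne.1

theorem inv_mem_O {ξ : Pic0 K F} {w : F} {D : Divisor K F} (h : IsData R m ξ w D) :
    w⁻¹ ∈ S.O := h.unitOne.2.1

theorem res_eq {ξ : Pic0 K F} {w : F} {D : Divisor K F} (h : IsData R m ξ w D) :
    R.res ⟨w, h.mem_O⟩ = 1 := h.unitOne.2.2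

theorem degZero {ξ : Pic0 K F} {w : F} {D : Divisor K F} (h : IsData R m ξ w D) :
    D ∈ Divisor.degZero (K := K) (F := F) := h.cls.1

theorem mk_eq {ξ : Pic0 K F} {w : F} {D : Divisor K F} (h : IsData R m ξ w D) :
    Pic0.mk ⟨D, h.degZero⟩ = ξ := h.cls.2

/-- the trivial pair `(1, 0)` of the class `0` -/
theorem zero : IsData R m (0 : Pic0 K F) (1 : F) (0 : Divisor K F) where
  ne_zero := one_ne_zero
  unitOne := unitOne_one
  ord := fun v => by simp
  cls := ⟨(Divisor.degZero (K := K) (F := F)).zero_mem, rfl⟩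

/-- the product pair `(w w', D + D')` of the class `ξ + ξ'` -/
theorem mul {ξ ξ' : Pic0 K F} {w w' : F} {D D' : Divisor K F} (h : IsData R m ξ w D)
    (h' : IsData R m ξ' w' D') : IsData R m (ξ + ξ') (w * w') (D + D') where
  ne_zero := mul_ne_zero h.ne_zero h'.ne_zero
  unitOne := h.unitOne.mul h'.unitOne
  ord := fun v => by
    rw [v.ord_mul h.ne_zero h'.ne_zero, ← h.ord v, ← h'.ord v, Finsupp.add_apply, mul_add]
  cls := by
    obtain ⟨hD, rfl⟩ := h.cls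
    obtain ⟨hD', rfl⟩ := h'.cls
    exact ⟨(Divisor.degZero (K := K) (F := F)).add_mem hD hD', rfl⟩

/-- the inverse pair `(w⁻¹, -D)` of the class `-ξ` -/
theorem inv [Nontrivial κ] {ξ : Pic0 K F} {w : F} {D : Divisor K F} (h : IsData R m ξ w D) :
    IsData R m (-ξ) w⁻¹ (-D) where
  ne_zero := inv_ne_zero h.ne_zero
  unitOne := h.unitOne.inv
  ord := fun v => by
    rw [v.ord_inv, ← h.ord v, Finsupp.neg_apply, mul_neg]
  cls := by
    obtain ⟨hD, rfl⟩ := h.cls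
    exact ⟨(Divisor.degZero (K := K) (F := F)).neg_mem hD, rfl⟩

/-- a normalised Kummer pair gives a normalised Kummer function -/
theorem isKummerRep {ξ : Pic0 K F} {w : F} {D : Divisor K F} (h : IsData R m ξ w D) :
    Fermat.Agent.Gateway.Kummer.IsKummerRep m ξ w :=
  ⟨h.ne_zero, ⟨D, h.degZero⟩, h.mk_eq, h.ord⟩

end IsData

/-- the classes with normalised Kummer data are those with a normalised Kummer function -/
theorem exists_isData_iff {R : RedSetup2 A S k κ} {m : ℕ} {ξ : Pic0 K F} :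
    (∃ (w : F) (D : Divisor K F), IsData R m ξ w D) ↔
      ∃ w : F, Fermat.Agent.Gateway.Kummer.IsKummerRep m ξ w ∧ UnitOne R w := by
  constructor
  · rintro ⟨w, D, h⟩
    exact ⟨w, h.isKummerRep, h.unitOne⟩
  · rintro ⟨w, ⟨hw0, D, hDξ, hD⟩, hw1⟩
    exact ⟨w, (D : Divisor K F), hw0, hw1, hD, D.2, hDξ⟩

/-! ### the family of cocycles, inside `F` -/

/-- **The cocycles of a class**: all `d.cocycle`, `d` a Cech datum of the divisor `D` of a normalised
Kummer pair `(w, D)` of exponent `m` of the class `ξ`. -/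
def Cyc (R : RedSetup2 A S k κ) (Dt : Divisor K F) (m : ℕ) (ξ : Pic0 K F) : Set F :=
  {c | ∃ (w : F) (D : Divisor K F), IsData R m ξ w D ∧ ∃ d : CechDatum R Dt D, d.cocycle = c}

variable {R : RedSetup2 A S k κ} {Dt : Divisor K F} {m : ℕ}

theorem mem_cyc_iff {ξ : Pic0 K F} {c : F} :
    c ∈ Cyc R Dt m ξ ↔
      ∃ (w : F) (D : Divisor K F), IsData R m ξ w D ∧ ∃ d : CechDatum R Dt D, d.cocycle = c :=
  Iff.rfl

theorem cocycle_mem_cyc {ξ : Pic0 K F} {w : F} {D : Divisor K F} (h : IsData R m ξ w D)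
    (d : CechDatum R Dt D) : d.cocycle ∈ Cyc R Dt m ξ :=
  ⟨w, D, h, d, rfl⟩

/-- **`cyc_zero`** (inside `F`) -/
theorem one_mem_cyc_zero : (1 : F) ∈ Cyc R Dt m (0 : Pic0 K F) :=
  ⟨1, 0, IsData.zero, CechDatum.one, CechDatum.cocycle_one⟩

/-- **`cyc_mul`** (inside `F`) -/
theorem mul_mem_cyc {ξ ξ' : Pic0 K F} {c c' : F} (hc : c ∈ Cyc R Dt m ξ)
    (hc' : c' ∈ Cyc R Dt m ξ') : c * c' ∈ Cyc R Dt m (ξ + ξ') := by
  obtain ⟨w, D, h, d, rfl⟩ := hc
  obtain ⟨w', D', h', d', rfl⟩ := hc'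
  exact ⟨w * w', D + D', h.mul h', d.mul d', CechDatum.cocycle_mul d d'⟩

/-- every cocycle reduces to `1` -/
theorem resOne_of_mem_cyc {ξ : Pic0 K F} {c : F} (hc : c ∈ Cyc R Dt m ξ) : ResOne R c := by
  obtain ⟨w, D, -, d, rfl⟩ := hc
  exact d.cocycle_resOne

/-- a cocycle of `ξ` times a suitable cocycle of `-ξ` is a product of a function on the chart `∞`
and a function on the chart `0`, both reducing to `1`. -/
theorem exists_neg_cyc [Nontrivial κ] {ξ : Pic0 K F} {c : F} (hc : c ∈ Cyc R Dt m ξ) :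
    ∃ c' ∈ Cyc R Dt m (-ξ), ∃ Eoo E0 : F, c * c' = Eoo * E0 ∧
      (∃ b, Eoo ∈ LamD R Dt 0 0 b) ∧ ResOne R Eoo ∧ (∃ a, E0 ∈ LamD R Dt 0 a 0) ∧ ResOne R E0 := by
  obtain ⟨w, D, h, d, rfl⟩ := hc
  exact ⟨d.neg.cocycle, ⟨w⁻¹, -D, h.inv, d.neg, rfl⟩, d.hoo * d.hoo', d.h0 * d.h0',
    d.cocycle_mul_cocycle_neg, d.hoo_mul_hoo'_mem, d.hoo_mul_hoo'_resOne, d.h0_mul_h0'_mem,
    d.h0_mul_h0'_resOne⟩

/-! ### comparison with the overlap ring -/

section compare

variable (C : ChartCoord R)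
  (ht : Transcendental K C.t) [FiniteDimensional K⟮C.t⟯ F] [Algebra.IsSeparable K⟮C.t⟯ F]
  (hDt : ∀ v : Place K F, Dt v = v.ord C.t)

include ht hDt in
/-- the cocycles lie in the overlap ring `Bx` -/
theorem cyc_subset_Bx {ξ : Pic0 K F} {c : F} (hc : c ∈ Cyc R Dt m ξ) : c ∈ Bx C := by
  obtain ⟨w, D, -, d, rfl⟩ := hc
  exact cocycle_mem_Bx C ht hDt d

include ht hDt in
theorem cyc_subset_BxAlg {ξ : Pic0 K F} {c : F} (hc : c ∈ Cyc R Dt m ξ) : c ∈ BxAlg C := by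
  have h := cyc_subset_Bx C ht hDt hc
  rwa [← toSubmodule_BxAlg, Subalgebra.mem_toSubmodule] at h

include ht hDt in
/-- **`cyc_one`** (inside `F`): `c - 1 = π • z` with `π ∈ 𝔪`, `π ≠ 0`, `z ∈ Bx`. -/
theorem exists_dvd_sub_one {ξ : Pic0 K F} {c : F} (hc : c ∈ Cyc R Dt m ξ) :
    ∃ π ∈ maximalIdeal A, π ≠ 0 ∧ ∃ z ∈ Bx C, c - 1 = π • z := by
  obtain ⟨w, D, -, d, rfl⟩ := hc
  obtain ⟨ϖ, hϖ, z, hz, h⟩ := cocycle_sub_one_mem C ht hDt d
  by_cases h0 : ϖ = 0
  · obtain ⟨π, hπ, hπ0⟩ := R.exists_ne_zero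
    refine ⟨π, hπ, hπ0, 0, Submodule.zero_mem _, ?_⟩
    rw [h, h0, zero_smul, smul_zero]
  · exact ⟨ϖ, hϖ, h0, z, hz, h⟩

end compare

/-! ### the family of cocycles, inside the TYPE `↥(BxAlg C)` -/

/-- **`Cyc` inside the type `B := ↥(BxAlg C)`** -/
def CycB (C : ChartCoord R) (Dt : Divisor K F) (m : ℕ) (ξ : Pic0 K F) : Set (BxAlg C) :=
  {c | (c : F) ∈ Cyc R Dt m ξ}

theorem mem_cycB_iff {C : ChartCoord R} {ξ : Pic0 K F} {c : BxAlg C} :
    c ∈ CycB C Dt m ξ ↔ (c : F) ∈ Cyc R Dt m ξ := Iff.rfl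

/-- **`cyc_zero`** -/
theorem cycB_zero (C : ChartCoord R) : (1 : BxAlg C) ∈ CycB C Dt m (0 : Pic0 K F) :=
  one_mem_cyc_zero

/-- **`cyc_mul`** -/
theorem cycB_mul (C : ChartCoord R) {ξ ξ' : Pic0 K F} {c c' : BxAlg C} (hc : c ∈ CycB C Dt m ξ)
    (hc' : c' ∈ CycB C Dt m ξ') : c * c' ∈ CycB C Dt m (ξ + ξ') :=
  mul_mem_cyc hc hc'

section compareB

variable (C : ChartCoord R)
  (ht : Transcendental K C.t) [FiniteDimensional K⟮C.t⟯ F] [Algebra.IsSeparable K⟮C.t⟯ F]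
  (hDt : ∀ v : Place K F, Dt v = v.ord C.t)

include ht hDt in
/-- an element of `Cyc` as an element of the type `↥(BxAlg C)` -/
theorem exists_cycB_of_mem_cyc {ξ : Pic0 K F} {c : F} (hc : c ∈ Cyc R Dt m ξ) :
    ∃ c' : BxAlg C, c' ∈ CycB C Dt m ξ ∧ (c' : F) = c :=
  ⟨⟨c, cyc_subset_BxAlg C ht hDt hc⟩, hc, rfl⟩

include ht hDt in
/-- **`cyc_one`** -/
theorem cycB_one {ξ : Pic0 K F} {c : BxAlg C} (hc : c ∈ CycB C Dt m ξ) :
    ∃ π ∈ maximalIdeal A, π ≠ 0 ∧ algebraMap A (BxAlg C) π ∣ c - 1 := by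
  obtain ⟨π, hπ, hπ0, z, hz, h⟩ := exists_dvd_sub_one C ht hDt hc
  have hz' : z ∈ BxAlg C := by
    rwa [← toSubmodule_BxAlg, Subalgebra.mem_toSubmodule] at hz
  refine ⟨π, hπ, hπ0, ⟨z, hz'⟩, Subtype.ext ?_⟩
  show (c : F) - 1 = algebraMap A F π * z
  rw [h, Algebra.smul_def]

end compareB

end general

/-! ## Concrete part: level `M q`, exponent `q ^ n` -/

section Mq

open ModularCurve
open Fermat.Agent.Gateway.Hecke Fermat.Agent.Gateway.ESC
open Fermat.Agent.Gateway.Red Fermat.Agent.Gateway.GoodRed Fermat.Agent.Gateway.AuxLevel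
open Fermat.Agent.Gateway.GoodRed.ConjFamily Fermat.Agent.S24.Setup
open Fermat.Agent.S34x.TwoVal
open Fermat.Agent.S34x.Inst.L2 Fermat.Agent.S34x.Inst.IsL2Inst
open Fermat.Agent.S34x.Inst.RedSetupInst Fermat.Agent.S34x.Inst.ElementYRed
open Fermat.Agent.S34x.Inst.ElementYInt Fermat.Agent.S34x.Inst.ElementYInt9
open Fermat.Agent.S34x.Inst.Charts Fermat.Agent.S34x.Inst.TheoremBMq
open Fermat.Agent.S34x.Inst

attribute [-instance] IsScalarTower.of_algHom

variable {L : Type} [Field L] [Algebra ℚ L] [IsAlgClosed L] [Algebra.IsAlgebraic ℚ L]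
  {A : ValuationSubring L} {k : Type} [Field k] {π : A →+* k} [IsAlgClosed k]
variable {M q : ℕ} [NeZero M] [NeZero q] [Fact q.Prime] [CharP k q]
variable {hdeg : finrankAlong L (heckeAlphaBar L M q) = q + 1} {hq : q.Prime} {hqM : ¬ q ∣ M}
variable {hrk : ∀ x ∈ maximalIdeal A, ∀ c : A, c ≠ 0 → ∃ j : ℕ, c ∣ x ^ j}
  {hπ : Function.Surjective π}
variable (H : ResidueFacts A π M q hdeg hq hqM hrk hπ) (hA : A.LiesOverPrime q)

/-- the normalised Kummer data of a class of `K_m` -/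
theorem exists_isData_of_mem_Km {m : ℕ} {ξ : Pic0 L (FL L (M * q))} (hξ : ξ ∈ Km H hA m) :
    ∃ (w : FL L (M * q)) (D : Divisor L (FL L (M * q))), IsData (redSetup2 H hA) m ξ w D :=
  exists_isData_iff.mpr hξ

/-- `K_m` is the set of the classes with normalised Kummer data -/
theorem mem_Km_iff_exists_isData {m : ℕ} {ξ : Pic0 L (FL L (M * q))} :
    ξ ∈ Km H hA m ↔
      ∃ (w : FL L (M * q)) (D : Divisor L (FL L (M * q))), IsData (redSetup2 H hA) m ξ w D :=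
  exists_isData_iff.symm

/-- a class with a cocycle lies in `K_m` -/
theorem mem_Km_of_cyc_nonempty {m : ℕ} {Dt : Divisor L (FL L (M * q))}
    {ξ : Pic0 L (FL L (M * q))} (h : (Cyc (redSetup2 H hA) Dt m ξ).Nonempty) : ξ ∈ Km H hA m := by
  obtain ⟨c, w, D, hd, -⟩ := h
  exact (mem_Km_iff_exists_isData H hA).mpr ⟨w, D, hd⟩

variable [PerfectRing k q]
  (x : LaurentSeries ℤ) (hx : coeffMap (Int.castRingHom L) x ∈ FBar L M)
  (Hx : GoodLevelFactsT A π M q hπ hqM (tInt M x hx))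

include Hx in
/-- every normalised Kummer pair of exponent `q ^ n` has a Cech datum (LAYER 1) -/
theorem nonempty_cechDatum (hxk : tbar k x ≠ 0) (hY : YFacts M q x hx)
    {Dt : Divisor L (FL L (M * q))}
    (hDt : ∀ v : Place L (FL L (M * q)), Dt v = v.ord (tA M q x hx)) {n : ℕ}
    {ξ : Pic0 L (FL L (M * q))} {w : FL L (M * q)} {D : Divisor L (FL L (M * q))}
    (hd : IsData (redSetup2 H hA) (q ^ n) ξ w D) :
    Nonempty (CechDatum (redSetup2 H hA) Dt D) := by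
  obtain ⟨⟨⟨b, hoo, hooO, hooL, hoo1⟩, ⟨a, h0, h0O, h0L, h01⟩⟩,
      ⟨⟨b', hoo', hooO', hooL', hoo1'⟩, ⟨a', h0', h0O', h0L', h01'⟩⟩⟩ :=
    L1.InstMq.exists_one_chart H hA x hx Hx hxk hY hDt n hd.ne_zero hd.mem_O hd.inv_mem_O
      hd.res_eq hd.ord
  exact ⟨{ hoo := hoo, h0 := h0, hoo' := hoo', h0' := h0'
           hoo_mem := ⟨b, hooL, hooO⟩
           h0_mem := ⟨a, h0L, h0O⟩
           hoo'_mem := ⟨b', hooL', hooO'⟩
           h0'_mem := ⟨a', h0L', h0O'⟩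
           res_hoo := ⟨hooO, hoo1⟩
           res_h0 := ⟨h0O, h01⟩
           res_hoo' := ⟨hooO', hoo1'⟩
           res_h0' := ⟨h0O', h01'⟩ }⟩

include Hx in
/-- **`cyc_ne`** (inside `F`): the classes of `K_{q^n}` have cocycles. -/
theorem cyc_nonempty (hxk : tbar k x ≠ 0) (hY : YFacts M q x hx)
    {Dt : Divisor L (FL L (M * q))}
    (hDt : ∀ v : Place L (FL L (M * q)), Dt v = v.ord (tA M q x hx)) {n : ℕ}
    {ξ : Pic0 L (FL L (M * q))} (hξ : ξ ∈ Km H hA (q ^ n)) :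
    (Cyc (redSetup2 H hA) Dt (q ^ n) ξ).Nonempty := by
  obtain ⟨w, D, hd⟩ := exists_isData_of_mem_Km H hA hξ
  obtain ⟨d⟩ := nonempty_cechDatum H hA x hx Hx hxk hY hDt hd
  exact ⟨d.cocycle, cocycle_mem_cyc hd d⟩

/-! ### the concrete chart -/

include Hx in
theorem transcendental_chart_t : Transcendental L (chart H hA x hx Hx).t := by
  rw [chart_t]
  exact Charts.transcendental_tα L M q Hx.trans

include Hx in
theorem finiteDimensional_chart_t :
    FiniteDimensional L⟮(chart H hA x hx Hx).t⟯ (FL L (M * q)) := by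
  rw [chart_t]
  exact finiteDimensional_tA x hx Hx

include Hx in
theorem isSeparable_chart_t :
    Algebra.IsSeparable L⟮(chart H hA x hx Hx).t⟯ (FL L (M * q)) :=
  haveI : CharZero L := algebraRat.charZero L
  haveI := finiteDimensional_chart_t H hA x hx Hx
  Lattice2.isSeparable_adjoin_of_charZero (K := L) _

include Hx in
/-- **`cyc_ne`**: the classes of `K_{q^n}` have cocycles in the type `↥(BxAlg C)`,
`C = chart H hA x hx Hx`. -/
theorem cycB_nonempty (hxk : tbar k x ≠ 0) (hY : YFacts M q x hx)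
    {Dt : Divisor L (FL L (M * q))}
    (hDt : ∀ v : Place L (FL L (M * q)), Dt v = v.ord (chart H hA x hx Hx).t) {n : ℕ}
    {ξ : Pic0 L (FL L (M * q))} (hξ : ξ ∈ Km H hA (q ^ n)) :
    (CycB (chart H hA x hx Hx) Dt (q ^ n) ξ).Nonempty := by
  haveI := finiteDimensional_chart_t H hA x hx Hx
  haveI := isSeparable_chart_t H hA x hx Hx
  obtain ⟨c, hc⟩ := cyc_nonempty H hA x hx Hx hxk hY hDt hξ
  obtain ⟨c', hc', -⟩ := exists_cycB_of_mem_cyc (chart H hA x hx Hx)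
    (transcendental_chart_t H hA x hx Hx) hDt hc
  exact ⟨c', hc'⟩

include Hx in
/-- **The four literals `cyc_ne`, `cyc_one`, `cyc_zero`, `cyc_mul`** of `S33-IFACE-L2-B5` for the
family `Cyc := fun x => CycB C Dt (q ^ n) (φ x)`, `C = chart H hA x hx Hx`, for ANY additive map
`φ : X →+ Pic0` with values in `K_{q^n}` (for us: `X = KmTors`, `φ` the inclusion). -/
theorem cyc_family (hxk : tbar k x ≠ 0) (hY : YFacts M q x hx)
    {Dt : Divisor L (FL L (M * q))}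
    (hDt : ∀ v : Place L (FL L (M * q)), Dt v = v.ord (chart H hA x hx Hx).t) {n : ℕ}
    {X : Type*} [AddCommGroup X] (φ : X →+ Pic0 L (FL L (M * q)))
    (hφ : ∀ y, φ y ∈ Km H hA (q ^ n)) :
    (∀ y, (CycB (chart H hA x hx Hx) Dt (q ^ n) (φ y)).Nonempty) ∧
    (∀ y, ∀ c ∈ CycB (chart H hA x hx Hx) Dt (q ^ n) (φ y), ∃ ϖ ∈ maximalIdeal A, ϖ ≠ 0 ∧
      algebraMap A (BxAlg (chart H hA x hx Hx)) ϖ ∣ c - 1) ∧
    ((1 : BxAlg (chart H hA x hx Hx)) ∈ CycB (chart H hA x hx Hx) Dt (q ^ n) (φ 0)) ∧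
    (∀ y y', ∀ c ∈ CycB (chart H hA x hx Hx) Dt (q ^ n) (φ y),
      ∀ c' ∈ CycB (chart H hA x hx Hx) Dt (q ^ n) (φ y'),
        c * c' ∈ CycB (chart H hA x hx Hx) Dt (q ^ n) (φ (y + y'))) := by
  haveI := finiteDimensional_chart_t H hA x hx Hx
  haveI := isSeparable_chart_t H hA x hx Hx
  refine ⟨fun y => cycB_nonempty H hA x hx Hx hxk hY hDt (hφ y), fun y c hc =>
    cycB_one (chart H hA x hx Hx) (transcendental_chart_t H hA x hx Hx) hDt hc, ?_,
    fun y y' c hc c' hc' => ?_⟩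
  · rw [map_zero]
    exact cycB_zero _
  · rw [map_add]
    exact cycB_mul _ hc hc'

end Mq

end Fermat.Agent.S33x.Cech.CycKm
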