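/-
S33 study (LAYER 2, pure algebra; helper91).  The Čech normal form.

`A` a commutative ring, `B` an `A`-algebra, `Boo B0 : Subalgebra A B` (the two charts), `a : Fin g → B`
(representatives of a basis of `H¹ = B / (Boo + B0)`).

* `exists_normalForm` (N1, ideal-adic, needs only the decomposition `B = Boo + B0 + ∑ A a_i`): every
  `u ∈ 1 + I B` can be written, to every order `I ^ (n+1)`, as
  `u * voo * v0 = 1 + ∑ t_i a_i` with `voo ∈ 1 + I Boo`, `v0 ∈ 1 + I B0`, `t ∈ I ^ g`.
* `normalForm_unique` (N2, `π`-adic for ONE regular `π`, needs saturation of the decomposition and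
  `H⁰ = A` modulo `π`): the vector `t` is unique modulo `π ^ n`, for ALL presentations (no inverses, no
  completeness, no Noetherian hypothesis).
-/
import Mathlib

set_option autoImplicit false

namespace Fermat.Agent.S33x.Cech

variable {A : Type*} [CommRing A] {B : Type*} [CommRing B] [Algebra A B]
variable (Boo B0 : Subalgebra A B) {g : ℕ} (a : Fin g → B)

/-- the combination `∑ s_i a_i` -/
noncomputable abbrev comb : (Fin g → A) →ₗ[A] B := Fintype.linearCombination A a

theorem comb_mem_map {J : Ideal A} {s : Fin g → A} (hs : ∀ i, s i ∈ J) :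
    comb a s ∈ J.map (algebraMap A B) := by
  rw [comb, Fintype.linearCombination_apply]
  refine Ideal.sum_mem _ fun i _ => ?_
  rw [Algebra.smul_def]
  exact Ideal.mul_mem_right _ _ (Ideal.mem_map_of_mem _ (hs i))

theorem coe_mem_map (S : Subalgebra A B) {J : Ideal A} {y : S} (hy : y ∈ J.map (algebraMap A S)) :
    (y : B) ∈ J.map (algebraMap A B) := by
  have h := Ideal.mem_map_of_mem (S.val : S →+* B) hy
  rw [Ideal.map_map] at h
  have : (S.val : S →+* B).comp (algebraMap A S) = algebraMap A B := by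
    ext x
    rfl
  rw [this] at h
  exact h

/-- The decomposition hypothesis (F1): `B = Boo + B0 + ∑ A a_i`. -/
def Decomp : Prop :=
  ∀ b : B, ∃ (βoo : Boo) (β0 : B0) (s : Fin g → A), b = βoo + β0 + comb a s

variable {Boo B0 a}

theorem exists_decomp_of_mem_map (hdec : Decomp Boo B0 a) (J : Ideal A) {E : B}
    (hE : E ∈ J.map (algebraMap A B)) :
    ∃ (βoo : Boo) (β0 : B0) (s : Fin g → A), βoo ∈ J.map (algebraMap A Boo) ∧
      β0 ∈ J.map (algebraMap A B0) ∧ (∀ i, s i ∈ J) ∧ E = βoo + β0 + comb a s := by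
  have hE' : E ∈ J • (⊤ : Submodule A B) := by
    rw [Ideal.smul_top_eq_map]
    exact hE
  refine Submodule.smul_induction_on hE' ?_ ?_
  · intro c hc b _
    obtain ⟨βoo, β0, s, hb⟩ := hdec b
    refine ⟨c • βoo, c • β0, c • s, ?_, ?_, ?_, ?_⟩
    · rw [Algebra.smul_def]
      exact Ideal.mul_mem_right _ _ (Ideal.mem_map_of_mem _ hc)
    · rw [Algebra.smul_def]
      exact Ideal.mul_mem_right _ _ (Ideal.mem_map_of_mem _ hc)
    · intro i
      exact Ideal.mul_mem_right _ _ hc
    · rw [hb, smul_add, smul_add, map_smul]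
      rfl
  · rintro x y ⟨βoo, β0, s, h1, h2, h3, hx⟩ ⟨γoo, γ0, r, k1, k2, k3, hy⟩
    refine ⟨βoo + γoo, β0 + γ0, s + r, Ideal.add_mem _ h1 k1, Ideal.add_mem _ h2 k2,
      fun i => Ideal.add_mem _ (h3 i) (k3 i), ?_⟩
    rw [hx, hy, map_add]
    push_cast
    ring

/-- (N1) Existence of the normal form to every `I`-adic order. -/
theorem exists_normalForm (hdec : Decomp Boo B0 a) (I : Ideal A) (u : B)
    (hu : u - 1 ∈ I.map (algebraMap A B)) (n : ℕ) :
    ∃ (voo : Boo) (v0 : B0) (t : Fin g → A), voo - 1 ∈ I.map (algebraMap A Boo) ∧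
      v0 - 1 ∈ I.map (algebraMap A B0) ∧ (∀ i, t i ∈ I) ∧
      u * voo * v0 - (1 + comb a t) ∈ (I ^ (n + 1)).map (algebraMap A B) := by
  induction n with
  | zero =>
    refine ⟨1, 1, 0, by simp, by simp, fun i => I.zero_mem, ?_⟩
    simpa using hu
  | succ n ih =>
    obtain ⟨voo, v0, t, hvoo, hv0, ht, hE⟩ := ih
    obtain ⟨βoo, β0, s, hβoo, hβ0, hs, hEq⟩ := exists_decomp_of_mem_map hdec (I ^ (n + 1)) hE
    have hle : I ^ (n + 1) ≤ I := Ideal.pow_le_self (Nat.succ_ne_zero n)
    refine ⟨voo * (1 - βoo), v0 * (1 - β0), t + s, ?_, ?_, fun i => I.add_mem (ht i) (hle (hs i)), ?_⟩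
    · have : voo * (1 - βoo) - 1 = (voo - 1) * (1 - βoo) - βoo := by ring
      rw [this]
      exact Ideal.sub_mem _ (Ideal.mul_mem_right _ _ hvoo) (Ideal.map_mono hle hβoo)
    · have : v0 * (1 - β0) - 1 = (v0 - 1) * (1 - β0) - β0 := by ring
      rw [this]
      exact Ideal.sub_mem _ (Ideal.mul_mem_right _ _ hv0) (Ideal.map_mono hle hβ0)
    · -- the error term
      set E : B := u * voo * v0 - (1 + comb a t) with hEdef
      have hkey : u * ((voo * (1 - βoo) : Boo) : B) * ((v0 * (1 - β0) : B0) : B)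
          - (1 + comb a (t + s)) =
          -((comb a t + E) * ((βoo : B) + β0)) + (u * voo * v0) * ((βoo : B) * β0) := by
        rw [map_add]
        push_cast
        have h2 : comb a s = E - βoo - β0 := by rw [hEq]; ring
        rw [h2, hEdef]
        ring
      rw [hkey]
      have hβ : ((βoo : B) + β0) ∈ (I ^ (n + 1)).map (algebraMap A B) :=
        Ideal.add_mem _ (coe_mem_map Boo hβoo) (coe_mem_map B0 hβ0)
      have h1 : comb a t + E ∈ I.map (algebraMap A B) :=
        Ideal.add_mem _ (comb_mem_map a ht) (Ideal.map_mono hle hE)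
      have hpow : (I ^ (n + 1 + 1)).map (algebraMap A B) =
          I.map (algebraMap A B) * (I ^ (n + 1)).map (algebraMap A B) := by
        rw [← Ideal.map_mul, ← pow_succ']
      refine Ideal.add_mem _ (neg_mem ?_) (Ideal.mul_mem_left _ _ ?_)
      · rw [hpow]
        exact Ideal.mul_mem_mul h1 hβ
      · have h3 : (βoo : B) * β0 ∈ I.map (algebraMap A B) * (I ^ (n + 1)).map (algebraMap A B) :=
          Ideal.mul_mem_mul (Ideal.map_mono hle (coe_mem_map Boo hβoo)) (coe_mem_map B0 hβ0)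
        rwa [hpow]


/-! ### (N2) uniqueness modulo `π ^ n` -/

variable (Boo B0 a)

/-- Saturation of the decomposition (sat) and `H⁰ = A` modulo `π` (F2), for ONE regular `π`. -/
structure SatData (π : A) : Prop where
  reg : IsSMulRegular B π
  sat : ∀ (βoo : Boo) (β0 : B0) (s : Fin g → A),
    algebraMap A B π ∣ (βoo : B) + β0 + comb a s → ∀ i, π ∣ s i
  h0 : ∀ (βoo : Boo) (β0 : B0), algebraMap A B π ∣ (βoo : B) + β0 →
    ∃ α : A, algebraMap A Boo π ∣ βoo - algebraMap A Boo α ∧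
      algebraMap A B0 π ∣ β0 + algebraMap A B0 α

variable {Boo B0 a}

theorem comb_eq_of_dvd {π : A} {t : Fin g → A} (ht : ∀ i, π ∣ t i) :
    ∃ τ : Fin g → A, t = π • τ ∧ comb a t = algebraMap A B π * comb a τ := by
  choose τ hτ using ht
  refine ⟨τ, funext fun i => by simp [hτ i], ?_⟩
  have : t = π • τ := funext fun i => by simp [hτ i]
  rw [this, map_smul, Algebra.smul_def]

/-- One step of the uniqueness induction. -/
theorem unique_step {π : A} (H : SatData Boo B0 a π) {j0 m : ℕ} {t t' : Fin g → A}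
    (ht' : ∀ i, π ∣ t' i) {voo woo : Boo} {v0 w0 : B0}
    (hvoo : algebraMap A Boo π ∣ voo - 1) (hw0 : algebraMap A B0 π ∣ w0 - 1)
    (hv0 : algebraMap A B0 π ∣ v0 - 1)
    (h : algebraMap A B π ^ (j0 + 1 + 1 + m) ∣
      (1 + comb a t) * woo * w0 - (1 + comb a t') * voo * v0)
    (hd : ∀ i, π ^ (j0 + 1) ∣ t i - t' i) (υ : A) (hυ : π ∣ υ - 1)
    (h1 : algebraMap A Boo π ^ (j0 + 1) ∣ woo - υ • voo)
    (h2 : algebraMap A B0 π ^ (j0 + 1) ∣ υ • w0 - v0) :
    (∀ i, π ^ (j0 + 1 + 1) ∣ t i - t' i) ∧ ∃ υ' : A, π ∣ υ' - 1 ∧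
      algebraMap A Boo π ^ (j0 + 1 + 1) ∣ woo - υ' • voo ∧
      algebraMap A B0 π ^ (j0 + 1 + 1) ∣ υ' • w0 - v0 := by
  set ϖ : B := algebraMap A B π with hϖ
  choose d hd using hd
  obtain ⟨x, hx⟩ := hυ
  obtain ⟨boo, hboo⟩ := h1
  obtain ⟨b0, hb0⟩ := h2
  obtain ⟨poo, hpoo⟩ := hvoo
  obtain ⟨p0, hp0⟩ := hv0
  obtain ⟨q0, hq0⟩ := hw0
  obtain ⟨e, he⟩ := h
  obtain ⟨τ', -, hT'⟩ := comb_eq_of_dvd (a := a) ht'
  -- relations in `B`
  have hT : comb a t = comb a t' + ϖ ^ (j0 + 1) * comb a d := by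
    have : t = t' + (π ^ (j0 + 1)) • d := funext fun i => by
      have := hd i
      simp only [Pi.add_apply, Pi.smul_apply, smul_eq_mul]
      rw [← this]
      ring
    rw [this, map_add, map_smul, Algebra.smul_def, map_pow]
  have hυB : algebraMap A B υ = 1 + ϖ * algebraMap A B x := by
    have : υ = 1 + π * x := by rw [← hx]; ring
    rw [this, map_add, map_one, map_mul]
  have hwooB : (woo : B) = algebraMap A B υ * voo + ϖ ^ (j0 + 1) * boo := by
    have := congrArg (Subtype.val : Boo → B) hboo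
    simp only [Subalgebra.coe_sub, Subalgebra.coe_smul, Subalgebra.coe_mul, Subalgebra.coe_pow,
      Subalgebra.coe_algebraMap] at this
    rw [Algebra.smul_def] at this
    rw [hϖ]
    linear_combination this
  have hw0B : algebraMap A B υ * (w0 : B) = v0 + ϖ ^ (j0 + 1) * b0 := by
    have := congrArg (Subtype.val : B0 → B) hb0
    simp only [Subalgebra.coe_sub, Subalgebra.coe_smul, Subalgebra.coe_mul, Subalgebra.coe_pow,
      Subalgebra.coe_algebraMap] at this
    rw [Algebra.smul_def] at this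
    rw [hϖ]
    linear_combination this
  have hvooB : (voo : B) = 1 + ϖ * poo := by
    have := congrArg (Subtype.val : Boo → B) hpoo
    simp only [Subalgebra.coe_sub, Subalgebra.coe_one, Subalgebra.coe_mul,
      Subalgebra.coe_algebraMap] at this
    rw [hϖ]
    linear_combination this
  have hv0B : (v0 : B) = 1 + ϖ * p0 := by
    have := congrArg (Subtype.val : B0 → B) hp0
    simp only [Subalgebra.coe_sub, Subalgebra.coe_one, Subalgebra.coe_mul,
      Subalgebra.coe_algebraMap] at this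
    rw [hϖ]
    linear_combination this
  -- the main identity divided by `ϖ ^ (j0+1)`
  set T' : B := comb a t' with hT'def
  set Dd : B := comb a d with hDd
  set uB : B := algebraMap A B υ with huB
  set X : B := (1 + T') * (uB * voo * b0 + boo * v0) + Dd * uB * voo * v0 with hX
  set R : B := ϖ ^ m * uB * e - ϖ ^ j0 * ((1 + T') * boo * b0 + Dd * (uB * voo * b0 + boo * v0))
    - ϖ ^ (j0 + (j0 + 1)) * Dd * boo * b0 with hR
  have hmain : ϖ ^ (j0 + 1) * X = ϖ ^ (j0 + 1) * (ϖ * R) := by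
    rw [hX, hR]
    linear_combination uB * he - (1 + comb a t) * woo * hw0B
      - (1 + comb a t) * ((v0 : B) + ϖ ^ (j0 + 1) * b0) * hwooB
      - (uB * voo + ϖ ^ (j0 + 1) * boo) * ((v0 : B) + ϖ ^ (j0 + 1) * b0) * hT
  have hXR : X = ϖ * R := by
    have hreg : IsSMulRegular B (π ^ (j0 + 1)) := H.reg.pow _
    apply hreg
    simp only [Algebra.smul_def, map_pow]
    exact hmain
  -- reduction modulo `ϖ`
  set y1 : B := algebraMap A B x + poo + ϖ * algebraMap A B x * poo with hy1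
  set S : B := (y1 * b0 + p0 * boo) + comb a τ' * ((b0 : B) + boo) +
    ϖ * comb a τ' * (y1 * b0 + p0 * boo) + Dd * (y1 + p0 + ϖ * y1 * p0) with hS
  have hXS : X = (boo : B) + b0 + Dd + ϖ * S := by
    rw [hX, hS, hy1, hvooB, hv0B, hυB, hT']
    ring
  have hdvd1 : ϖ ∣ (boo : B) + b0 + comb a d := ⟨R - S, by
    rw [← hDd]
    linear_combination hXS.symm.trans hXR⟩
  have hdd := H.sat boo b0 d hdvd1
  obtain ⟨d', hd'eq, hDd'⟩ := comb_eq_of_dvd (a := a) hdd
  have hdvd2 : ϖ ∣ (boo : B) + b0 := ⟨R - S - comb a d', by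
    rw [← hDd] at hDd'
    linear_combination hXS.symm.trans hXR - hDd'⟩
  obtain ⟨α, ⟨b'oo, hb'oo⟩, ⟨b'0, hb'0⟩⟩ := H.h0 boo b0 hdvd2
  refine ⟨fun i => ?_, υ + π ^ (j0 + 1) * α, ?_, ?_, ?_⟩
  · rw [hd i]
    have : d i = π * d' i := by rw [hd'eq]; rfl
    rw [this]
    exact ⟨d' i, by ring⟩
  · exact ⟨x + π ^ j0 * α, by rw [← sub_eq_zero]; linear_combination hx⟩
  · refine ⟨b'oo - algebraMap A Boo α * poo, ?_⟩
    rw [add_smul, Algebra.smul_def (π ^ (j0 + 1) * α) voo, map_mul, map_pow]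
    linear_combination hboo + algebraMap A Boo π ^ (j0 + 1) * hb'oo
      - algebraMap A Boo π ^ (j0 + 1) * algebraMap A Boo α * hpoo
  · refine ⟨b'0 + algebraMap A B0 α * q0, ?_⟩
    rw [add_smul, Algebra.smul_def (π ^ (j0 + 1) * α) w0, map_mul, map_pow]
    linear_combination hb0 + algebraMap A B0 π ^ (j0 + 1) * hb'0
      + algebraMap A B0 π ^ (j0 + 1) * algebraMap A B0 α * hq0


/-- (N2) Uniqueness of the normal form modulo `π ^ n`, in cross-multiplied form (no inverses):
two presentations `(t, woo, w0)`, `(t', voo, v0)` with `(1 + ∑ t a) woo w0 ≡ (1 + ∑ t' a) voo v0`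
modulo `π ^ n B` have `t ≡ t'` modulo `π ^ n`. -/
theorem normalForm_unique {π : A} (H : SatData Boo B0 a π) (n : ℕ) {t t' : Fin g → A}
    (ht : ∀ i, π ∣ t i) (ht' : ∀ i, π ∣ t' i) {voo woo : Boo} {v0 w0 : B0}
    (hvoo : algebraMap A Boo π ∣ voo - 1) (hwoo : algebraMap A Boo π ∣ woo - 1)
    (hv0 : algebraMap A B0 π ∣ v0 - 1) (hw0 : algebraMap A B0 π ∣ w0 - 1)
    (h : algebraMap A B π ^ n ∣ (1 + comb a t) * woo * w0 - (1 + comb a t') * voo * v0) :
    ∀ i, π ^ n ∣ t i - t' i := by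
  have key : ∀ j : ℕ, j + 1 ≤ n → (∀ i, π ^ (j + 1) ∣ t i - t' i) ∧ ∃ υ : A, π ∣ υ - 1 ∧
      algebraMap A Boo π ^ (j + 1) ∣ woo - υ • voo ∧
      algebraMap A B0 π ^ (j + 1) ∣ υ • w0 - v0 := by
    intro j
    induction j with
    | zero =>
      intro _
      refine ⟨fun i => ?_, 1, by simp, ?_, ?_⟩
      · rw [zero_add, pow_one]
        exact dvd_sub (ht i) (ht' i)
      · rw [zero_add, pow_one, one_smul]
        have : woo - voo = (woo - 1) - (voo - 1) := by ring
        rw [this]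
        exact dvd_sub hwoo hvoo
      · rw [zero_add, pow_one, one_smul]
        have : w0 - v0 = (w0 - 1) - (v0 - 1) := by ring
        rw [this]
        exact dvd_sub hw0 hv0
    | succ j ih =>
      intro hj
      obtain ⟨hd, υ, hυ, h1, h2⟩ := ih (by omega)
      obtain ⟨m, rfl⟩ : ∃ m, n = j + 1 + 1 + m := ⟨n - (j + 1 + 1), by omega⟩
      exact unique_step H ht' hvoo hw0 hv0 h hd υ hυ h1 h2
  rcases n with _ | k
  · intro i
    rw [pow_zero]
    exact one_dvd _
  · exact (key k le_rfl).1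

end Fermat.Agent.S33x.Cech
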