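/-
P-S33 (blueprint v2, LAYER 2, leaf L2-A1; helper33): ADAPTER from the literal export of block H1
(`S33_H1_PLAN` (c5): generation + uniqueness of the decomposition `Bx = Boo + B0 + ∑ A aᵢ` for
subalgebras of the function field `F`) to the abstract Cech normal form API of
`Cech/NormalForm.lean` (helper91): `Decomp` and `SatData π` for EVERY `π ≠ 0`, on the TYPE `↥Bx`.

Saturation is FORMAL from generation + uniqueness: if `f + h + ∑ sᵢ aᵢ = π y`, decompose `y` and apply
uniqueness to the difference.  No valuation, no reduction, no finiteness is used.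
-/
import Fermat.Agent.S33x.Cech.NormalForm

set_option autoImplicit false

namespace Fermat.Agent.S33x.Cech.OfDirectSum

open Fermat.Agent.S33x.Cech

variable {A : Type*} [CommRing A] {F : Type*} [Field F] [Algebra A F]
variable (Bx Boo B0 : Subalgebra A F) {g : ℕ} (a : Fin g → F)

/-- **The literal export of block H1**: `Bx = Boo + B0 + ∑ A aᵢ` with uniqueness of the
`H¹`-coordinates and `Boo ∩ B0 = A` (constants). -/
structure DirectSum : Prop where
  oo_le : Boo ≤ Bx
  zero_le : B0 ≤ Bx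
  a_mem : ∀ i, a i ∈ Bx
  gen : ∀ x ∈ Bx, ∃ f ∈ Boo, ∃ h ∈ B0, ∃ s : Fin g → A, x = f + h + ∑ i, s i • a i
  uniq : ∀ f ∈ Boo, ∀ h ∈ B0, ∀ s : Fin g → A, f + h + ∑ i, s i • a i = 0 →
    s = 0 ∧ ∃ α : A, f = algebraMap A F α

/-- the chart `∞` inside the TYPE `↥Bx` -/
def ooIn : Subalgebra A Bx := Boo.comap Bx.val

/-- the chart `0` inside the TYPE `↥Bx` -/
def zeroIn : Subalgebra A Bx := B0.comap Bx.val

variable {Bx Boo B0 a}

/-- the `aᵢ` as elements of the TYPE `↥Bx` -/
def aIn (H : DirectSum Bx Boo B0 a) : Fin g → Bx := fun i => ⟨a i, H.a_mem i⟩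

theorem coe_comb (H : DirectSum Bx Boo B0 a) (s : Fin g → A) :
    ((comb (aIn H) s : Bx) : F) = ∑ i, s i • a i := by
  rw [comb, Fintype.linearCombination_apply]
  simp only [AddSubmonoidClass.coe_finsetSum, Subalgebra.coe_smul]
  rfl

theorem mem_ooIn {x : Bx} : x ∈ ooIn Bx Boo ↔ (x : F) ∈ Boo := Iff.rfl

theorem mem_zeroIn {x : Bx} : x ∈ zeroIn Bx B0 ↔ (x : F) ∈ B0 := Iff.rfl

/-- (F1), existence part, in the form of `NormalForm.Decomp`. -/
theorem decomp (H : DirectSum Bx Boo B0 a) : Decomp (ooIn Bx Boo) (zeroIn Bx B0) (aIn H) := by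
  intro b
  obtain ⟨f, hf, h, hh, s, hs⟩ := H.gen b b.2
  refine ⟨⟨⟨f, H.oo_le hf⟩, hf⟩, ⟨⟨h, H.zero_le hh⟩, hh⟩, s, ?_⟩
  apply Subtype.ext
  rw [Subalgebra.coe_add, Subalgebra.coe_add, coe_comb]
  exact hs

/-- the key computation: a relation `f + h + ∑ sᵢ aᵢ = π y` with `y ∈ Bx` can be divided by `π`. -/
theorem exists_div (H : DirectSum Bx Boo B0 a) (π : A) {f h y : F} (hf : f ∈ Boo) (hh : h ∈ B0)
    (hy : y ∈ Bx) (s : Fin g → A) (hrel : f + h + ∑ i, s i • a i = algebraMap A F π * y) :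
    ∃ f' ∈ Boo, ∃ h' ∈ B0, ∃ s' : Fin g → A, ∃ α : A, s = π • s' ∧
      f = algebraMap A F α + algebraMap A F π * f' ∧ h = -algebraMap A F α + algebraMap A F π * h' := by
  obtain ⟨f', hf', h', hh', s', hy'⟩ := H.gen y hy
  have hsum : ∑ i, (s - π • s') i • a i = ∑ i, s i • a i - algebraMap A F π * ∑ i, s' i • a i := by
    rw [Finset.mul_sum, ← Finset.sum_sub_distrib]
    refine Finset.sum_congr rfl fun i _ => ?_
    rw [Pi.sub_apply, Pi.smul_apply, smul_eq_mul, sub_smul, mul_smul, Algebra.smul_def π]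
  have h0 : (f - algebraMap A F π * f') + (h - algebraMap A F π * h')
      + ∑ i, (s - π • s') i • a i = 0 := by
    rw [hsum]
    rw [hy'] at hrel
    linear_combination hrel
  have hfm : f - algebraMap A F π * f' ∈ Boo :=
    Boo.sub_mem hf (Boo.mul_mem (Boo.algebraMap_mem π) hf')
  have hhm : h - algebraMap A F π * h' ∈ B0 :=
    B0.sub_mem hh (B0.mul_mem (B0.algebraMap_mem π) hh')
  obtain ⟨hs0, α, hα⟩ := H.uniq _ hfm _ hhm _ h0
  refine ⟨f', hf', h', hh', s', α, ?_, ?_, ?_⟩
  · exact sub_eq_zero.mp hs0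
  · linear_combination hα
  · rw [hs0] at h0
    simp only [Pi.zero_apply, zero_smul, Finset.sum_const_zero, add_zero] at h0
    linear_combination h0 - hα

/-- (F1) saturation + (F2) at EVERY nonzero `π`, in the form of `NormalForm.SatData`. -/
theorem satData [IsDomain A] [FaithfulSMul A F] (H : DirectSum Bx Boo B0 a) {π : A} (hπ : π ≠ 0) :
    SatData (ooIn Bx Boo) (zeroIn Bx B0) (aIn H) π where
  reg := by
    intro x y hxy
    have hπF : algebraMap A F π ≠ 0 := by
      rw [Ne, ← (algebraMap A F).map_zero]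
      exact fun h => hπ (FaithfulSMul.algebraMap_injective A F h)
    apply Subtype.ext
    have h := congrArg (Subtype.val : Bx → F) hxy
    simp only [Algebra.smul_def] at h
    exact mul_left_cancel₀ hπF h
  sat := by
    intro βoo β0 s ⟨y, hy⟩
    have hrel : ((βoo : Bx) : F) + ((β0 : Bx) : F) + ∑ i, s i • a i
        = algebraMap A F π * (y : F) := by
      have h := congrArg (Subtype.val : Bx → F) hy
      rw [Subalgebra.coe_add, Subalgebra.coe_add, coe_comb, Subalgebra.coe_mul] at h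
      exact h
    obtain ⟨f', -, h', -, s', α, hs, -, -⟩ :=
      exists_div H π (f := ((βoo : Bx) : F)) (h := ((β0 : Bx) : F)) βoo.2 β0.2 y.2 s hrel
    intro i
    rw [hs]
    exact ⟨s' i, rfl⟩
  h0 := by
    intro βoo β0 ⟨y, hy⟩
    have hrel : ((βoo : Bx) : F) + ((β0 : Bx) : F) + ∑ i, (0 : Fin g → A) i • a i
        = algebraMap A F π * (y : F) := by
      have h := congrArg (Subtype.val : Bx → F) hy
      rw [Subalgebra.coe_add, Subalgebra.coe_mul] at h
      simp only [Pi.zero_apply, zero_smul, Finset.sum_const_zero, add_zero]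
      exact h
    obtain ⟨f', hf', h', hh', s', α, -, hf, hh⟩ :=
      exists_div H π (f := ((βoo : Bx) : F)) (h := ((β0 : Bx) : F)) βoo.2 β0.2 y.2 0 hrel
    refine ⟨α, ⟨⟨⟨f', H.oo_le hf'⟩, hf'⟩, ?_⟩, ⟨⟨⟨h', H.zero_le hh'⟩, hh'⟩, ?_⟩⟩
    · apply Subtype.ext
      apply Subtype.ext
      show ((βoo : Bx) : F) - algebraMap A F α = algebraMap A F π * f'
      linear_combination hf
    · apply Subtype.ext
      apply Subtype.ext
      show ((β0 : Bx) : F) + algebraMap A F α = algebraMap A F π * h'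
      linear_combination hh

end Fermat.Agent.S33x.Cech.OfDirectSum
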