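/-
P-S33, LAYER 2, final instantiation, leaf (I3), GENERAL half (helper49): Galois transport of Cech
data, of normalised Kummer pairs and of the cocycle family `Cyc`, and the induced ring
endomorphisms of the TYPE `↥(BxAlg C)`.

`g : SemilinearAut K F` is ADMISSIBLE for `(R, Dt)` (`Adm R Dt g`) if
(i) `g • Dt = Dt` (e.g. `g • t = t`, `Dt = div t`: `adm_of_smul_t`),
(ii) `g` preserves `S.O`, and (iii) `g` preserves the elements of `S.O` with reduction `1`
(the inertia group: `CtxMq.CtxGal`, `adm_of_ctxGal`; more generally the decomposition group).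

* `smul_mem_LamD` : `g` maps `Lam(D; a, b)` to `Lam(g • D; a, b)`;
* `smulDatum g hg d : CechDatum R Dt (g • D)` with `cocycle = g • cocycle d`;
* `IsData.smul` : `(w, D)` normalised Kummer pair of `ξ` ⟹ `(g • w, g • D)` one of `g • ξ`;
* `smul_mem_cyc` : **`cyc_gal` inside `F`**: `c ∈ Cyc R Dt m ξ → g • c ∈ Cyc R Dt m (g • ξ)`;
* `smul_mem_Lam`, `smul_mem_Boo`, `smul_mem_Bzero`, `smul_mem_Bx` : `g` preserves the three chart
  rings;
* `actB C g hg : ↥(BxAlg C) →+* ↥(BxAlg C)`, `coe_actB`, `actB_mem_oo` / `actB_mem_zero` (the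
  hypotheses `hoo`, `h0` of the literal), `actB_algebraMap` (`hAB`, with `actA` the restriction of
  `baseAut g` to `A`), `actB_fixed` (`ha` for `g`-fixed `aᵢ`), `cycB_gal` (**`cyc_gal`**).
-/
import Fermat.Agent.S33x.Cech.CycKm
import Fermat.Agent.S33x.Cech.CtxMq
import Fermat.Agent.S34x.Inst.DivGalois
import Fermat.Agent.S33x.Cech.OfDirectSum

set_option autoImplicit false
set_option linter.unusedSectionVars false
set_option linter.style.haveILetI false

noncomputable section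

namespace Fermat.Agent.S33x.Cech.CycGal

open AlgebraicCurve Module IntermediateField IsLocalRing
open Fermat.Agent.Gateway.C0 Fermat.Agent.S34x Fermat.Agent.S34x.C0two Fermat.Agent.S34x.Lattice2
open Fermat.Agent.S33x.H1.InstC1 Fermat.Agent.S33x.H1.InstC4
open Fermat.Agent.S33x.Cech.Datum Fermat.Agent.S33x.KummerPn Fermat.Agent.S33x.Cech.CycKm
open Fermat.Agent.S34x.Inst Fermat.Agent.S33x.Cech

variable {K : Type*} [Field K] {A : ValuationSubring K} {F : Type*} [Field F] [Algebra K F]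
  {S : SmallRing F} {k κ : Type*} [Field k] [CommRing κ] [Algebra k κ]

/-- **Admissible semilinear automorphisms**: `g` fixes `Dt`, preserves `S.O` and preserves the
elements with reduction `1`. -/
structure Adm (R : RedSetup2 A S k κ) (Dt : Divisor K F) (g : SemilinearAut K F) : Prop where
  smul_Dt : g • Dt = Dt
  smul_mem : ∀ f ∈ S.O, g • f ∈ S.O
  resOne : ∀ f : F, ResOne R f → ResOne R (g • f)

/-- an automorphism fixing `t`, preserving `S.O` and acting trivially on the reduction is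
admissible for `Dt = div t` -/
theorem adm_of_smul_t {R : RedSetup2 A S k κ} {Dt : Divisor K F} {g : SemilinearAut K F} {t : F}
    (hgt : g • t = t) (hDt : ∀ v : Place K F, Dt v = v.ord t)
    (hmem : ∀ f ∈ S.O, g • f ∈ S.O)
    (hres : ∀ (f : F) (hf : f ∈ S.O), R.res ⟨g • f, hmem f hf⟩ = R.res ⟨f, hf⟩) :
    Adm R Dt g where
  smul_Dt := DivGalois.smul_divisor_eq_of_smul_eq g hgt hDt
  smul_mem := hmem
  resOne := by
    rintro f ⟨hf, h1⟩
    exact ⟨hmem f hf, by rw [hres f hf, h1]⟩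

/-- the elements of an inertia set `G` (`CtxMq.CtxGal`) are admissible -/
theorem adm_of_ctxGal {k E : Type*} [Field k] [Field E] [Algebra k E]
    {R : RedSetup2 A S k (E × E)} {C : ChartCoord R} {G : Set (SemilinearAut K F)}
    (hG : CtxMq.CtxGal R C G) {Dt : Divisor K F} (hDt : ∀ v : Place K F, Dt v = v.ord C.t)
    {g : SemilinearAut K F} (hg : g ∈ G) : Adm R Dt g :=
  adm_of_smul_t (hG.smul_t g hg) hDt (hG.smul_mem g hg) (fun f hf => hG.res_smul g hg f hf)

variable {R : RedSetup2 A S k κ} {Dt : Divisor K F} {g : SemilinearAut K F}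

/-! ### transport of Cech data -/

/-- `g` maps `Lam(D; a, b)` to `Lam(g • D; a, b)` -/
theorem smul_mem_LamD (hg : Adm R Dt g) {D : Divisor K F} {a b : ℕ} {f : F}
    (hf : f ∈ LamD R Dt D a b) : g • f ∈ LamD R Dt (g • D) a b :=
  ⟨DivGalois.smul_mem_LM g hg.smul_Dt D hf.1, hg.smul_mem f hf.2⟩

/-- **Galois transport of a Cech datum** -/
def smulDatum (g : SemilinearAut K F) (hg : Adm R Dt g) {D : Divisor K F}
    (d : CechDatum R Dt D) : CechDatum R Dt (g • D) where
  hoo := g • d.hoo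
  h0 := g • d.h0
  hoo' := g • d.hoo'
  h0' := g • d.h0'
  hoo_mem := by
    obtain ⟨b, hb⟩ := d.hoo_mem
    exact ⟨b, smul_mem_LamD hg hb⟩
  h0_mem := by
    obtain ⟨a, ha⟩ := d.h0_mem
    exact ⟨a, smul_mem_LamD hg ha⟩
  hoo'_mem := by
    obtain ⟨b, hb⟩ := d.hoo'_mem
    refine ⟨b, ?_⟩
    have h := smul_mem_LamD hg hb
    rwa [smul_neg] at h
  h0'_mem := by
    obtain ⟨a, ha⟩ := d.h0'_mem
    refine ⟨a, ?_⟩
    have h := smul_mem_LamD hg ha
    rwa [smul_neg] at h
  res_hoo := hg.resOne _ d.res_hoo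
  res_h0 := hg.resOne _ d.res_h0
  res_hoo' := hg.resOne _ d.res_hoo'
  res_h0' := hg.resOne _ d.res_h0'

theorem cocycle_smulDatum (hg : Adm R Dt g) {D : Divisor K F} (d : CechDatum R Dt D) :
    (smulDatum g hg d).cocycle = g • d.cocycle := by
  simp only [CechDatum.cocycle, smulDatum, smul_mul']

/-! ### transport of normalised Kummer pairs -/

/-- **Galois transport of a normalised Kummer pair** -/
theorem IsData.smul (hg : Adm R Dt g) {m : ℕ} {ξ : Pic0 K F} {w : F} {D : Divisor K F}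
    (h : IsData R m ξ w D) : IsData R m (g • ξ) (g • w) (g • D) where
  ne_zero := by simpa using h.ne_zero
  unitOne := by
    obtain ⟨hO, hiO, h1⟩ := h.unitOne
    obtain ⟨hgO, hg1⟩ := hg.resOne w ⟨hO, h1⟩
    refine ⟨hgO, ?_, hg1⟩
    have := hg.smul_mem _ hiO
    rwa [smul_inv''] at this
  ord := fun v => by
    rw [SemilinearAut.divisor_smul_apply, DivGalois.ord_smul_eq]
    exact h.ord _
  cls := by
    obtain ⟨hD, rfl⟩ := h.cls
    exact ⟨SemilinearAut.smul_mem_degZero g hD, (SemilinearAut.pic0_smul_mk g ⟨D, hD⟩).symm⟩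

/-- **`cyc_gal` inside `F`** -/
theorem smul_mem_cyc (hg : Adm R Dt g) {m : ℕ} {ξ : Pic0 K F} {c : F}
    (hc : c ∈ Cyc R Dt m ξ) : g • c ∈ Cyc R Dt m (g • ξ) := by
  obtain ⟨w, D, h, d, rfl⟩ := hc
  exact ⟨g • w, g • D, IsData.smul hg h, smulDatum g hg d, cocycle_smulDatum hg d⟩

/-! ### the three chart rings are preserved -/

section chart

variable (C : ChartCoord R)
  (ht : Transcendental K C.t) [FiniteDimensional K⟮C.t⟯ F] [Algebra.IsSeparable K⟮C.t⟯ F]
  (hDt : ∀ v : Place K F, Dt v = v.ord C.t)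

include ht hDt in
theorem smul_mem_Lam (hg : Adm R Dt g) {a b : ℕ} {f : F} (hf : f ∈ Lam C a b) :
    g • f ∈ Lam C a b := by
  rw [← LamD_zero_eq C ht hDt] at hf ⊢
  have h := smul_mem_LamD hg hf
  rwa [smul_zero] at h

include ht hDt in
theorem smul_mem_Boo (hg : Adm R Dt g) {f : F} (hf : f ∈ Boo C) : g • f ∈ Boo C := by
  obtain ⟨b, hb⟩ := (mem_Boo C).mp hf
  exact (mem_Boo C).mpr ⟨b, smul_mem_Lam C ht hDt hg hb⟩

include ht hDt in
theorem smul_mem_Bzero (hg : Adm R Dt g) {f : F} (hf : f ∈ Bzero C) : g • f ∈ Bzero C := by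
  obtain ⟨a, ha⟩ := (mem_Bzero C).mp hf
  exact (mem_Bzero C).mpr ⟨a, smul_mem_Lam C ht hDt hg ha⟩

include ht hDt in
theorem smul_mem_Bx (hg : Adm R Dt g) {f : F} (hf : f ∈ Bx C) : g • f ∈ Bx C := by
  obtain ⟨a, b, hab⟩ := (mem_Bx' C).mp hf
  exact (mem_Bx' C).mpr ⟨a, b, smul_mem_Lam C ht hDt hg hab⟩

include ht hDt in
theorem smul_mem_BooAlg (hg : Adm R Dt g) {f : F} (hf : f ∈ BooAlg C) : g • f ∈ BooAlg C := by
  obtain ⟨b, hb⟩ := (mem_BooAlg C).mp hf
  exact (mem_BooAlg C).mpr ⟨b, smul_mem_Lam C ht hDt hg hb⟩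

include ht hDt in
theorem smul_mem_BzeroAlg (hg : Adm R Dt g) {f : F} (hf : f ∈ BzeroAlg C) :
    g • f ∈ BzeroAlg C := by
  obtain ⟨a, ha⟩ := (mem_BzeroAlg C).mp hf
  exact (mem_BzeroAlg C).mpr ⟨a, smul_mem_Lam C ht hDt hg ha⟩

include ht hDt in
theorem smul_mem_BxAlg (hg : Adm R Dt g) {f : F} (hf : f ∈ BxAlg C) : g • f ∈ BxAlg C := by
  obtain ⟨a, b, hab⟩ := (mem_BxAlg' C).mp hf
  exact (mem_BxAlg' C).mpr ⟨a, b, smul_mem_Lam C ht hDt hg hab⟩

end chart

/-! ### the induced ring endomorphism of the TYPE `↥(BxAlg C)` -/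

/-- the ring endomorphism of `↥(BxAlg C)` induced by a semilinear automorphism preserving `Bx` -/
def actB (C : ChartCoord R) (g : SemilinearAut K F) (hg : ∀ f ∈ BxAlg C, g • f ∈ BxAlg C) :
    BxAlg C →+* BxAlg C where
  toFun f := ⟨g • (f : F), hg f f.2⟩
  map_one' := Subtype.ext (smul_one g)
  map_mul' a b := Subtype.ext (smul_mul' g (a : F) (b : F))
  map_zero' := Subtype.ext (smul_zero g)
  map_add' a b := Subtype.ext (smul_add g (a : F) (b : F))

@[simp] theorem coe_actB (C : ChartCoord R) (g : SemilinearAut K F)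
    (hg : ∀ f ∈ BxAlg C, g • f ∈ BxAlg C) (f : BxAlg C) :
    ((actB C g hg f : BxAlg C) : F) = g • (f : F) := rfl

/-- `ha` of the literal: `actB` fixes the `g`-fixed elements -/
theorem actB_fixed (C : ChartCoord R) (g : SemilinearAut K F)
    (hg : ∀ f ∈ BxAlg C, g • f ∈ BxAlg C) {f : BxAlg C} (hf : g • (f : F) = f) :
    actB C g hg f = f := Subtype.ext hf

/-- the restriction of `baseAut g` to `A`, for `g` whose base automorphism preserves `A` -/
def actA (g : SemilinearAut K F) (hA : ∀ c ∈ A, SemilinearAut.baseAut g c ∈ A) : A →+* A where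
  toFun c := ⟨SemilinearAut.baseAut g c, hA c c.2⟩
  map_one' := Subtype.ext (map_one _)
  map_mul' a b := Subtype.ext (map_mul _ (a : K) (b : K))
  map_zero' := Subtype.ext (map_zero _)
  map_add' a b := Subtype.ext (map_add _ (a : K) (b : K))

@[simp] theorem coe_actA (g : SemilinearAut K F) (hA : ∀ c ∈ A, SemilinearAut.baseAut g c ∈ A)
    (c : A) : ((actA g hA c : A) : K) = SemilinearAut.baseAut g c := rfl

/-- **`hAB`** of the literal -/
theorem actB_algebraMap (C : ChartCoord R) (g : SemilinearAut K F)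
    (hg : ∀ f ∈ BxAlg C, g • f ∈ BxAlg C) (hA : ∀ c ∈ A, SemilinearAut.baseAut g c ∈ A)
    (c : A) :
    actB C g hg (algebraMap A (BxAlg C) c) = algebraMap A (BxAlg C) (actA g hA c) := by
  apply Subtype.ext
  show g • algebraMap K F (c : K) = algebraMap K F (SemilinearAut.baseAut g (c : K))
  exact SemilinearAut.smul_algebraMap g c

section chartB

variable (C : ChartCoord R)
  (ht : Transcendental K C.t) [FiniteDimensional K⟮C.t⟯ F] [Algebra.IsSeparable K⟮C.t⟯ F]
  (hDt : ∀ v : Place K F, Dt v = v.ord C.t)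

/-- the ring endomorphism of `↥(BxAlg C)` induced by an admissible `g` -/
def actBAdm (hg : Adm R Dt g) : BxAlg C →+* BxAlg C :=
  actB C g (fun _ hf => smul_mem_BxAlg C ht hDt hg hf)

@[simp] theorem coe_actBAdm (hg : Adm R Dt g) (f : BxAlg C) :
    ((actBAdm C ht hDt hg f : BxAlg C) : F) = g • (f : F) := rfl

/-- **`hoo`** of the literal -/
theorem actBAdm_mem_oo (hg : Adm R Dt g) {f : BxAlg C}
    (hf : f ∈ OfDirectSum.ooIn (BxAlg C) (BooAlg C)) :
    actBAdm C ht hDt hg f ∈ OfDirectSum.ooIn (BxAlg C) (BooAlg C) :=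
  smul_mem_BooAlg C ht hDt hg (f := (f : F)) hf

/-- **`h0`** of the literal -/
theorem actBAdm_mem_zero (hg : Adm R Dt g) {f : BxAlg C}
    (hf : f ∈ OfDirectSum.zeroIn (BxAlg C) (BzeroAlg C)) :
    actBAdm C ht hDt hg f ∈ OfDirectSum.zeroIn (BxAlg C) (BzeroAlg C) :=
  smul_mem_BzeroAlg C ht hDt hg (f := (f : F)) hf

/-- **`cyc_gal`** -/
theorem cycB_gal (hg : Adm R Dt g) {m : ℕ} {ξ : Pic0 K F} {c : BxAlg C}
    (hc : c ∈ CycB C Dt m ξ) : actBAdm C ht hDt hg c ∈ CycB C Dt m (g • ξ) :=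
  smul_mem_cyc hg (c := (c : F)) hc

end chartB

end Fermat.Agent.S33x.Cech.CycGal
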