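/-
P-S33 (LAYER 2, helper91).  Convenience corollaries of `Cech/NormalForm.lean` in the principal
(`π`-adic, divisibility) form used by the assembly leaf (L2-B5):

* `exists_normalForm_dvd`: existence of the normal form of `u ∈ 1 + π B` modulo `π ^ (n+1)`;
* `normalForm_unique_of_eq`: two presentations of the SAME `u` have the same coordinates mod `π ^ n`;
* `normalForm_unique_of_rel`: the same for two cocycles related by approximate coboundaries
  `u' * eoo * e0 ≡ u * goo * g0`;
* `normalForm_map`: transport of a presentation by a semilinear ring automorphism preserving the two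
  charts and fixing the `a_i` (equivariance), when `σ π` is associated to `π`.
-/
import Fermat.Agent.S33x.Cech.NormalForm

set_option autoImplicit false

namespace Fermat.Agent.S33x.Cech.Aux

open Fermat.Agent.S33x.Cech

variable {A : Type*} [CommRing A] {B : Type*} [CommRing B] [Algebra A B]
variable {Boo B0 : Subalgebra A B} {g : ℕ} {a : Fin g → B}

theorem map_span_singleton_pow (S : Type*) [CommRing S] [Algebra A S] (π : A) (k : ℕ) :
    (Ideal.span {π} ^ k).map (algebraMap A S) = Ideal.span {algebraMap A S π ^ k} := by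
  rw [Ideal.span_singleton_pow, Ideal.map_span, Set.image_singleton, map_pow]

theorem mem_map_span_singleton_pow {S : Type*} [CommRing S] [Algebra A S] {π : A} {k : ℕ} {x : S} :
    x ∈ (Ideal.span {π} ^ k).map (algebraMap A S) ↔ algebraMap A S π ^ k ∣ x := by
  rw [map_span_singleton_pow, Ideal.mem_span_singleton]

theorem mem_map_span_singleton {S : Type*} [CommRing S] [Algebra A S] {π : A} {x : S} :
    x ∈ (Ideal.span {π}).map (algebraMap A S) ↔ algebraMap A S π ∣ x := by
  have := mem_map_span_singleton_pow (S := S) (π := π) (k := 1) (x := x)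
  rwa [pow_one, pow_one] at this

/-- Existence of the normal form, principal version. -/
theorem exists_normalForm_dvd (hdec : Decomp Boo B0 a) (π : A) (u : B)
    (hu : algebraMap A B π ∣ u - 1) (n : ℕ) :
    ∃ (voo : Boo) (v0 : B0) (t : Fin g → A), algebraMap A Boo π ∣ voo - 1 ∧
      algebraMap A B0 π ∣ v0 - 1 ∧ (∀ i, π ∣ t i) ∧
      algebraMap A B π ^ (n + 1) ∣ u * voo * v0 - (1 + comb a t) := by
  obtain ⟨voo, v0, t, h1, h2, h3, h4⟩ :=
    exists_normalForm hdec (Ideal.span {π}) u (mem_map_span_singleton.mpr hu) n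
  exact ⟨voo, v0, t, mem_map_span_singleton.mp h1, mem_map_span_singleton.mp h2,
    fun i => Ideal.mem_span_singleton.mp (h3 i), mem_map_span_singleton_pow.mp h4⟩

/-- Two cocycles related by approximate coboundaries have the same coordinates mod `π ^ n`. -/
theorem normalForm_unique_of_rel {π : A} (H : SatData Boo B0 a π) (n : ℕ) {u u' : B}
    {t t' : Fin g → A} (ht : ∀ i, π ∣ t i) (ht' : ∀ i, π ∣ t' i)
    {voo woo eoo goo : Boo} {v0 w0 e0 g0 : B0}
    (hvoo : algebraMap A Boo π ∣ voo - 1) (hwoo : algebraMap A Boo π ∣ woo - 1)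
    (heoo : algebraMap A Boo π ∣ eoo - 1) (hgoo : algebraMap A Boo π ∣ goo - 1)
    (hv0 : algebraMap A B0 π ∣ v0 - 1) (hw0 : algebraMap A B0 π ∣ w0 - 1)
    (he0 : algebraMap A B0 π ∣ e0 - 1) (hg0 : algebraMap A B0 π ∣ g0 - 1)
    (hrel : algebraMap A B π ^ n ∣ u' * eoo * e0 - u * goo * g0)
    (h1 : algebraMap A B π ^ n ∣ u * voo * v0 - (1 + comb a t))
    (h2 : algebraMap A B π ^ n ∣ u' * woo * w0 - (1 + comb a t')) :
    ∀ i, π ^ n ∣ t i - t' i := by
  have hmul : ∀ {R : Type _} [CommRing R] {c x y : R}, c ∣ x - 1 → c ∣ y - 1 → c ∣ x * y - 1 := by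
    intro R _ c x y hx hy
    have : x * y - 1 = (x - 1) * y + (y - 1) := by ring
    rw [this]
    exact dvd_add (Dvd.dvd.mul_right hx y) hy
  refine normalForm_unique H n ht ht' (voo := eoo * voo) (woo := goo * woo) (v0 := e0 * v0)
    (w0 := g0 * w0) (hmul heoo hvoo) (hmul hgoo hwoo) (hmul he0 hv0) (hmul hg0 hw0) ?_
  obtain ⟨er, her⟩ := hrel
  obtain ⟨e1, he1⟩ := h1
  obtain ⟨e2, he2⟩ := h2
  push_cast
  refine ⟨-e1 * (goo * g0 * woo * w0) - er * (voo * v0 * woo * w0) + e2 * (eoo * e0 * voo * v0), ?_⟩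
  linear_combination (-((goo : B) * g0 * woo * w0)) * he1 - ((voo : B) * v0 * woo * w0) * her
    + ((eoo : B) * e0 * voo * v0) * he2

/-- Two presentations of the same `u` have the same coordinates mod `π ^ n`. -/
theorem normalForm_unique_of_eq {π : A} (H : SatData Boo B0 a π) (n : ℕ) {u : B}
    {t t' : Fin g → A} (ht : ∀ i, π ∣ t i) (ht' : ∀ i, π ∣ t' i)
    {voo woo : Boo} {v0 w0 : B0}
    (hvoo : algebraMap A Boo π ∣ voo - 1) (hwoo : algebraMap A Boo π ∣ woo - 1)
    (hv0 : algebraMap A B0 π ∣ v0 - 1) (hw0 : algebraMap A B0 π ∣ w0 - 1)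
    (h1 : algebraMap A B π ^ n ∣ u * voo * v0 - (1 + comb a t))
    (h2 : algebraMap A B π ^ n ∣ u * woo * w0 - (1 + comb a t')) :
    ∀ i, π ^ n ∣ t i - t' i :=
  normalForm_unique_of_rel H n ht ht' (eoo := 1) (goo := 1) (e0 := 1) (g0 := 1) hvoo hwoo
    (by simp) (by simp) hv0 hw0 (by simp) (by simp) (by simp) h1 h2

/-- Transport of a presentation by a semilinear ring automorphism. -/
theorem normalForm_map (σA : A →+* A) (σB : B →+* B)
    (hσ : ∀ (x : A), σB (algebraMap A B x) = algebraMap A B (σA x))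
    (hoo : ∀ x ∈ Boo, σB x ∈ Boo) (h0 : ∀ x ∈ B0, σB x ∈ B0) (ha : ∀ i, σB (a i) = a i)
    {π : A} (hπ : π ∣ σA π) (n : ℕ) {u : B} {t : Fin g → A} (ht : ∀ i, π ∣ t i)
    {voo : Boo} {v0 : B0} (hvoo : algebraMap A Boo π ∣ voo - 1) (hv0 : algebraMap A B0 π ∣ v0 - 1)
    (h : algebraMap A B π ^ n ∣ u * voo * v0 - (1 + comb a t)) :
    (∀ i, π ∣ σA (t i)) ∧ ∃ (woo : Boo) (w0 : B0), (woo : B) = σB voo ∧ (w0 : B) = σB v0 ∧
      algebraMap A Boo π ∣ woo - 1 ∧ algebraMap A B0 π ∣ w0 - 1 ∧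
      algebraMap A B π ^ n ∣ σB u * woo * w0 - (1 + comb a (fun i => σA (t i))) := by
  obtain ⟨c, hc⟩ := hπ
  have hϖ : σB (algebraMap A B π) = algebraMap A B π * algebraMap A B c := by
    rw [hσ, hc, map_mul]
  refine ⟨fun i => ?_, ⟨σB voo, hoo _ voo.2⟩, ⟨σB v0, h0 _ v0.2⟩, rfl, rfl, ?_, ?_, ?_⟩
  · obtain ⟨d, hd⟩ := ht i
    exact ⟨c * σA d, by rw [hd, map_mul, hc]; ring⟩
  · obtain ⟨b, hb⟩ := hvoo
    refine ⟨⟨algebraMap A B c * σB b, Boo.mul_mem (Boo.algebraMap_mem _) (hoo _ b.2)⟩,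
      Subtype.ext ?_⟩
    have hb' := congrArg (fun z : Boo => σB (z : B)) hb
    simp only [Subalgebra.coe_sub, Subalgebra.coe_one, Subalgebra.coe_mul,
      Subalgebra.coe_algebraMap, map_sub, map_one, map_mul, hϖ] at hb'
    simp only [Subalgebra.coe_sub, Subalgebra.coe_one, Subalgebra.coe_mul,
      Subalgebra.coe_algebraMap]
    rw [hb']
    ring
  · obtain ⟨b, hb⟩ := hv0
    refine ⟨⟨algebraMap A B c * σB b, B0.mul_mem (B0.algebraMap_mem _) (h0 _ b.2)⟩,
      Subtype.ext ?_⟩
    have hb' := congrArg (fun z : B0 => σB (z : B)) hb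
    simp only [Subalgebra.coe_sub, Subalgebra.coe_one, Subalgebra.coe_mul,
      Subalgebra.coe_algebraMap, map_sub, map_one, map_mul, hϖ] at hb'
    simp only [Subalgebra.coe_sub, Subalgebra.coe_one, Subalgebra.coe_mul,
      Subalgebra.coe_algebraMap]
    rw [hb']
    ring
  · obtain ⟨e, he⟩ := h
    have hcomb : σB (comb a t) = comb a (fun i => σA (t i)) := by
      rw [comb, Fintype.linearCombination_apply, Fintype.linearCombination_apply, map_sum]
      refine Finset.sum_congr rfl fun i _ => ?_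
      rw [Algebra.smul_def, Algebra.smul_def, map_mul, hσ, ha]
    refine ⟨algebraMap A B c ^ n * σB e, ?_⟩
    have he' := congrArg σB he
    simp only [map_sub, map_add, map_one, map_mul, map_pow, hϖ, hcomb] at he'
    rw [he']
    ring

end Fermat.Agent.S33x.Cech.Aux
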