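import Fermat.Agent.S33x.Cech.GroupLaw
import Fermat.Agent.S33x.Cech.NormalFormAux

/-!
# P-S33, LAYER 2, leaf (L2-B5): abstract assembly of the approximate Cech coordinates

Pure algebra on top of `Cech/NormalForm.lean`, `Cech/NormalFormAux.lean`, `Cech/GroupLaw.lean`
(helper91).

`A` the constants (a valuation ring: divisibility is total), `B` the functions on the overlap of
the two charts, `Boo B0 : Subalgebra A B`, `a : Fin g → B` representatives of a basis of `H¹`,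
`sm : Set A` the nonzero elements of the maximal ideal, `p : A` with `p ∣ ε ^ k` for every
`ε ∈ sm` (rank one).

* `Rel sm q u v` : `u` and `v` define the same class modulo `q` (cross-multiplied form, no
  inverses): `u r s ≡ v r' s'` modulo `q B` with `r, r' ∈ 1 + ε Boo`, `s, s' ∈ 1 + ε B0` for SOME
  `ε ∈ sm` depending on the relation (the value group is not discrete: no single `ε` works for all
  relations).  Reflexive, symmetric, transitive, multiplicative, monotone in `q`, compatible with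
  semilinear ring maps preserving the charts.
* `exists_comb` (E), `dvd_sub_of_rel_comb` (U): existence of the normal form and uniqueness of its
  coordinates in `Rel` form; (U) applies `normalForm_unique` at a common divisor `δ` of `ϖ` and of
  the `ε` of the relation, with the exponent `m` minimal such that `p ^ n ∣ δ ^ m`.
* `exists_charts` : the assembly.  From ONE representative cocycle `c x` per point of a finite
  abelian group `X`, related by `Rel sm 0` under zero, sums and a family of semilinear operators,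
  and not coboundaries modulo `p ^ N0` for `x ≠ 0`: there is `c0` such that for every `n` there are
  coordinates `t : X → Fin g → A` with values in `ϖ A`, `ϖ ∈ sm`, equivariant and additive (for
  ONE polynomial law over `W`) modulo `p ^ n`, and separating the points modulo `p ^ c0`.
* `exists_charts_of_cyc` : the same from a family of sets of cocycles `Cyc x`.
-/

set_option autoImplicit false

namespace Fermat.Agent.S33x.Cech.Coord

open Fermat.Agent.S33x.Cech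

variable {A : Type*} [CommRing A] {B : Type*} [CommRing B] [Algebra A B]
variable (Boo B0 : Subalgebra A B) {g : ℕ} (a : Fin g → B)

/-- `u` and `v` define the same class modulo `q`, up to coboundaries congruent to `1` modulo some
element of `sm`. -/
def Rel (sm : Set A) (q : A) (u v : B) : Prop :=
  ∃ ε ∈ sm, ∃ (r r' : Boo) (s s' : B0), algebraMap A Boo ε ∣ r - 1 ∧ algebraMap A Boo ε ∣ r' - 1 ∧
    algebraMap A B0 ε ∣ s - 1 ∧ algebraMap A B0 ε ∣ s' - 1 ∧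
    algebraMap A B q ∣ u * r * s - v * r' * s'

variable {Boo B0 a}

theorem algebraMap_dvd_of_dvd {S : Type*} [CommRing S] [Algebra A S] {δ ε : A} (h : δ ∣ ε) {y : S}
    (hy : algebraMap A S ε ∣ y) : algebraMap A S δ ∣ y :=
  (map_dvd (algebraMap A S) h).trans hy

namespace Rel

variable {sm : Set A} {q : A} {u v w u' v' : B}

theorem refl {ε : A} (hε : ε ∈ sm) (q : A) (u : B) : Rel Boo B0 sm q u u :=
  ⟨ε, hε, 1, 1, 1, 1, by simp, by simp, by simp, by simp, by simp⟩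

theorem of_eq {ε : A} (hε : ε ∈ sm) (h : u = v) : Rel Boo B0 sm q u v := h ▸ refl hε q u

theorem symm (h : Rel Boo B0 sm q u v) : Rel Boo B0 sm q v u := by
  obtain ⟨ε, hε, r, r', s, s', h1, h2, h3, h4, h5⟩ := h
  refine ⟨ε, hε, r', r, s', s, h2, h1, h4, h3, ?_⟩
  have : v * r' * s' - u * r * s = -(u * r * s - v * r' * s') := by ring
  rw [this]
  exact (dvd_neg).mpr h5

theorem mono {q' : A} (hq : q' ∣ q) (h : Rel Boo B0 sm q u v) : Rel Boo B0 sm q' u v := by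
  obtain ⟨ε, hε, r, r', s, s', h1, h2, h3, h4, h5⟩ := h
  exact ⟨ε, hε, r, r', s, s', h1, h2, h3, h4, algebraMap_dvd_of_dvd hq h5⟩

theorem of_zero (h : Rel Boo B0 sm 0 u v) (q : A) : Rel Boo B0 sm q u v := h.mono (dvd_zero q)

section gcd

variable (hgcd : ∀ ε ∈ sm, ∀ ε' ∈ sm, ∃ δ ∈ sm, δ ∣ ε ∧ δ ∣ ε')
include hgcd

theorem trans (h : Rel Boo B0 sm q u v) (h' : Rel Boo B0 sm q v w) : Rel Boo B0 sm q u w := by
  obtain ⟨ε, hε, r, r', s, s', h1, h2, h3, h4, ⟨e, he⟩⟩ := h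
  obtain ⟨ε', hε', p, p', t, t', k1, k2, k3, k4, ⟨f, hf⟩⟩ := h'
  obtain ⟨δ, hδ, d1, d2⟩ := hgcd ε hε ε' hε'
  refine ⟨δ, hδ, r * p, r' * p', s * t, s' * t',
    dvd_mul_sub_one (algebraMap_dvd_of_dvd d1 h1) (algebraMap_dvd_of_dvd d2 k1),
    dvd_mul_sub_one (algebraMap_dvd_of_dvd d1 h2) (algebraMap_dvd_of_dvd d2 k2),
    dvd_mul_sub_one (algebraMap_dvd_of_dvd d1 h3) (algebraMap_dvd_of_dvd d2 k3),
    dvd_mul_sub_one (algebraMap_dvd_of_dvd d1 h4) (algebraMap_dvd_of_dvd d2 k4),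
    ⟨e * (p * t) + f * (r' * s'), ?_⟩⟩
  push_cast
  linear_combination ((p : B) * t) * he + ((r' : B) * s') * hf

theorem mul (h : Rel Boo B0 sm q u v) (h' : Rel Boo B0 sm q u' v') :
    Rel Boo B0 sm q (u * u') (v * v') := by
  obtain ⟨ε, hε, r, r', s, s', h1, h2, h3, h4, ⟨e, he⟩⟩ := h
  obtain ⟨ε', hε', p, p', t, t', k1, k2, k3, k4, ⟨f, hf⟩⟩ := h'
  obtain ⟨δ, hδ, d1, d2⟩ := hgcd ε hε ε' hε'
  refine ⟨δ, hδ, r * p, r' * p', s * t, s' * t',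
    dvd_mul_sub_one (algebraMap_dvd_of_dvd d1 h1) (algebraMap_dvd_of_dvd d2 k1),
    dvd_mul_sub_one (algebraMap_dvd_of_dvd d1 h2) (algebraMap_dvd_of_dvd d2 k2),
    dvd_mul_sub_one (algebraMap_dvd_of_dvd d1 h3) (algebraMap_dvd_of_dvd d2 k3),
    dvd_mul_sub_one (algebraMap_dvd_of_dvd d1 h4) (algebraMap_dvd_of_dvd d2 k4),
    ⟨e * (u' * p * t) + f * (v * r' * s'), ?_⟩⟩
  push_cast
  linear_combination (u' * (p : B) * t) * he + (v * (r' : B) * s') * hf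

end gcd

end Rel

/-! ### Transport of `Rel` along semilinear ring maps preserving the charts -/

section map

variable {A' : Type*} [CommRing A'] {B' : Type*} [CommRing B'] [Algebra A' B']
  {Boo' B0' : Subalgebra A' B'}
  (fA : A' →+* A) (fB : B' →+* B)
  (hf : ∀ r, fB (algebraMap A' B' r) = algebraMap A B (fA r))

include hf in
/-- divisibility `π' ∣ y - 1` inside a chart is preserved -/
theorem dvd_sub_one_map {S' : Subalgebra A' B'} {S : Subalgebra A B}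
    (hS : ∀ x ∈ S', fB x ∈ S) {π' : A'} {π : A} (hπ : π ∣ fA π') {y : S'}
    (hy : algebraMap A' S' π' ∣ y - 1) :
    algebraMap A S π ∣ (⟨fB y, hS y y.2⟩ : S) - 1 := by
  obtain ⟨z, hz⟩ := hy
  obtain ⟨υ, hυ⟩ := hπ
  refine ⟨algebraMap A S υ * ⟨fB z, hS z z.2⟩, Subtype.ext ?_⟩
  have h1 : ((y : B') - 1) = algebraMap A' B' π' * z := by
    have := congrArg (Subtype.val) hz
    simpa using this
  have h2 : fB y - 1 = algebraMap A B (fA π') * fB z := by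
    rw [← hf, ← map_mul, ← h1, map_sub, map_one]
  simp only [Subalgebra.coe_sub, Subalgebra.coe_one, Subalgebra.coe_mul,
    Subalgebra.coe_algebraMap]
  rw [h2, hυ, map_mul]
  ring

include hf in
theorem Rel.map (hoo : ∀ x ∈ Boo', fB x ∈ Boo) (h0 : ∀ x ∈ B0', fB x ∈ B0)
    {sm' : Set A'} {sm : Set A} (hsm : ∀ ε' ∈ sm', ∃ ε ∈ sm, ε ∣ fA ε')
    {q' : A'} {q : A} (hq : q ∣ fA q') {u v : B'}
    (h : Rel Boo' B0' sm' q' u v) : Rel Boo B0 sm q (fB u) (fB v) := by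
  obtain ⟨ε', hε', r, r', s, s', h1, h2, h3, h4, ⟨e, he⟩⟩ := h
  obtain ⟨ε, hε, hεd⟩ := hsm ε' hε'
  refine ⟨ε, hε, ⟨fB r, hoo r r.2⟩, ⟨fB r', hoo r' r'.2⟩, ⟨fB s, h0 s s.2⟩, ⟨fB s', h0 s' s'.2⟩,
    dvd_sub_one_map fA fB hf hoo hεd h1, dvd_sub_one_map fA fB hf hoo hεd h2,
    dvd_sub_one_map fA fB hf h0 hεd h3, dvd_sub_one_map fA fB hf h0 hεd h4, ?_⟩
  obtain ⟨υ, hυ⟩ := hq
  refine ⟨algebraMap A B υ * fB e, ?_⟩
  have h5 := congrArg fB he
  rw [map_sub, map_mul, map_mul, map_mul, map_mul, map_mul, hf, hυ, map_mul] at h5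
  simp only []
  rw [h5]
  ring

include hf in
theorem map_comb {a' : Fin g → B'} (ha : ∀ i, fB (a' i) = a i) (t : Fin g → A') :
    fB (comb a' t) = comb a (fun i => fA (t i)) := by
  rw [comb, comb, Fintype.linearCombination_apply, Fintype.linearCombination_apply, map_sum]
  refine Finset.sum_congr rfl fun i _ => ?_
  rw [Algebra.smul_def, Algebra.smul_def, map_mul, hf, ha]

end map

/-! ### The three inputs in `Rel` form -/

section inputs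

variable {sm : Set A}

/-- **(E)** existence of the normal form, `Rel` form. -/
theorem exists_comb (hdec : Decomp Boo B0 a) {ϖ : A} (hϖ : ϖ ∈ sm) {u : B}
    (hu : algebraMap A B ϖ ∣ u - 1) (M : ℕ) :
    ∃ t : Fin g → A, (∀ i, ϖ ∣ t i) ∧ Rel Boo B0 sm (ϖ ^ (M + 1)) u (1 + comb a t) := by
  obtain ⟨voo, v0, t, hvoo, hv0, ht, hE⟩ := Aux.exists_normalForm_dvd hdec ϖ u hu M
  refine ⟨t, ht, ϖ, hϖ, voo, 1, v0, 1, hvoo, by simp, hv0, by simp, ?_⟩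
  rw [map_pow]
  simpa using hE

/-- two coordinate vectors congruent modulo `q` give related normal forms. -/
theorem rel_comb_of_dvd_sub {ε : A} (hε : ε ∈ sm) {q : A} {t t' : Fin g → A}
    (h : ∀ i, q ∣ t i - t' i) : Rel Boo B0 sm q (1 + comb a t) (1 + comb a t') := by
  refine ⟨ε, hε, 1, 1, 1, 1, by simp, by simp, by simp, by simp, ?_⟩
  have h1 : (1 + comb a t) * ((1 : Boo) : B) * ((1 : B0) : B)
      - (1 + comb a t') * ((1 : Boo) : B) * ((1 : B0) : B) = comb a (t - t') := by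
    rw [map_sub]; push_cast; ring
  rw [h1, comb, Fintype.linearCombination_apply]
  refine Finset.dvd_sum fun i _ => ?_
  obtain ⟨d, hd⟩ := h i
  rw [Pi.sub_apply, hd, Algebra.smul_def, map_mul, mul_assoc]
  exact Dvd.intro _ rfl

/-- the exponent trick: if `δ ∣ ϖ` and `p ^ n ∣ ϖ ^ N`, the minimal `m` with `p ^ n ∣ δ ^ m` has
`δ ^ m ∣ ϖ ^ (N + 1)` (divisibility is total). -/
theorem exists_exponent (htot : ∀ x y : A, x ∣ y ∨ y ∣ x) {p ϖ δ : A} {n N : ℕ} (hδ : δ ∣ ϖ)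
    (hN : p ^ n ∣ ϖ ^ N) (hk : ∃ k : ℕ, p ∣ δ ^ k) :
    ∃ m : ℕ, p ^ n ∣ δ ^ m ∧ δ ^ m ∣ ϖ ^ (N + 1) := by
  classical
  have hex : ∃ m : ℕ, p ^ n ∣ δ ^ m := by
    obtain ⟨k, hk⟩ := hk
    exact ⟨k * n, by rw [pow_mul]; exact pow_dvd_pow_of_dvd hk n⟩
  refine ⟨Nat.find hex, Nat.find_spec hex, ?_⟩
  rcases Nat.eq_zero_or_eq_succ_pred (Nat.find hex) with h0 | hs
  · rw [h0, pow_zero]; exact one_dvd _
  · have hmin : ¬ p ^ n ∣ δ ^ (Nat.find hex).pred := Nat.find_min hex (Nat.pred_lt (by omega))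
    have h1 : δ ^ (Nat.find hex).pred ∣ p ^ n := (htot _ _).resolve_right hmin
    rw [hs, pow_succ, pow_succ]
    exact mul_dvd_mul (h1.trans hN) hδ

/-- **(U)** uniqueness of the coordinates modulo `p ^ n`, `Rel` form. -/
theorem dvd_sub_of_rel_comb (htot : ∀ x y : A, x ∣ y ∨ y ∣ x)
    (hgcd : ∀ ε ∈ sm, ∀ ε' ∈ sm, ∃ δ ∈ sm, δ ∣ ε ∧ δ ∣ ε')
    {p : A} (hrank : ∀ ε ∈ sm, ∃ k : ℕ, p ∣ ε ^ k) (hsat : ∀ ε ∈ sm, SatData Boo B0 a ε)
    {ϖ : A} (hϖ : ϖ ∈ sm) {n N : ℕ} (hN : p ^ n ∣ ϖ ^ N) {t t' : Fin g → A}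
    (ht : ∀ i, ϖ ∣ t i) (ht' : ∀ i, ϖ ∣ t' i)
    (h : Rel Boo B0 sm (ϖ ^ (N + 1)) (1 + comb a t) (1 + comb a t')) :
    ∀ i, p ^ n ∣ t i - t' i := by
  obtain ⟨ε, hε, r, r', s, s', h1, h2, h3, h4, h5⟩ := h
  obtain ⟨δ, hδ, d1, d2⟩ := hgcd ϖ hϖ ε hε
  obtain ⟨m, hm1, hm2⟩ := exists_exponent htot d1 hN (hrank δ hδ)
  have h6 : algebraMap A B δ ^ m ∣ (1 + comb a t) * r * s - (1 + comb a t') * r' * s' := by
    rw [← map_pow]
    exact algebraMap_dvd_of_dvd hm2 h5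
  have h7 := normalForm_unique (hsat δ hδ) m (fun i => d1.trans (ht i)) (fun i => d1.trans (ht' i))
    (algebraMap_dvd_of_dvd d2 h2) (algebraMap_dvd_of_dvd d2 h1) (algebraMap_dvd_of_dvd d2 h4)
    (algebraMap_dvd_of_dvd d2 h3) h6
  exact fun i => hm1.trans (h7 i)

end inputs

/-! ### The universal group law as a hypothesis -/

section law

variable (Boo B0 a)

/-- The property of the universal group law `F` at precision `N + 1` (conclusion of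
`Cech.exists_groupLaw`, restricted to `π ∈ sm`). -/
def IsLaw (sm : Set A) {W : Type*} [CommRing W] [Algebra W A]
    (F : Fin g → MvPolynomial (Fin g ⊕ Fin g) W) (N : ℕ) : Prop :=
  ∀ π ∈ sm, ∀ (t t' : Fin g → A), (∀ i, π ∣ t i) → (∀ i, π ∣ t' i) →
    (∀ k, π ∣ MvPolynomial.aeval (Sum.elim t t') (F k)) ∧
      ∃ (voo : Boo) (v0 : B0), algebraMap A Boo π ∣ voo - 1 ∧ algebraMap A B0 π ∣ v0 - 1 ∧
        algebraMap A B π ^ (N + 1) ∣ (1 + comb a t) * (1 + comb a t') * voo * v0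
          - (1 + comb a (fun k => MvPolynomial.aeval (Sum.elim t t') (F k)))

variable {Boo B0 a}

theorem IsLaw.rel {sm : Set A} {W : Type*} [CommRing W] [Algebra W A]
    {F : Fin g → MvPolynomial (Fin g ⊕ Fin g) W} {N : ℕ} (hF : IsLaw Boo B0 a sm F N)
    {π : A} (hπ : π ∈ sm) {t t' : Fin g → A} (ht : ∀ i, π ∣ t i) (ht' : ∀ i, π ∣ t' i) :
    (∀ k, π ∣ MvPolynomial.aeval (Sum.elim t t') (F k)) ∧
      Rel Boo B0 sm (π ^ (N + 1)) ((1 + comb a t) * (1 + comb a t'))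
        (1 + comb a (fun k => MvPolynomial.aeval (Sum.elim t t') (F k))) := by
  obtain ⟨h1, voo, v0, h2, h3, h4⟩ := hF π hπ t t' ht ht'
  refine ⟨h1, π, hπ, voo, 1, v0, 1, h2, by simp, h3, by simp, ?_⟩
  rw [map_pow]
  simpa using h4

/-- `Cech.exists_groupLaw` provides the hypothesis `hG` of `exists_charts`. -/
theorem exists_isLaw {W : Type*} [CommRing W] {RW : Type*} [CommRing RW] [Algebra W RW]
    [Algebra W A] [Algebra W B] [IsScalarTower W A B]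
    (Boo B0 : Subalgebra A B) (a : Fin g → B)
    {RooW R0W : Subalgebra W RW} {aW : Fin g → RW} (hdecW : Decomp RooW R0W aW)
    (ι : RW →ₐ[W] B) (hιoo : ∀ x ∈ RooW, ι x ∈ Boo) (hι0 : ∀ x ∈ R0W, ι x ∈ B0)
    (hιa : ∀ i, ι (aW i) = a i) (sm : Set A) (N : ℕ) :
    ∃ F : Fin g → MvPolynomial (Fin g ⊕ Fin g) W, IsLaw Boo B0 a sm F N := by
  obtain ⟨F, -, -, hF⟩ := exists_groupLaw Boo B0 a hdecW ι hιoo hι0 hιa N
  exact ⟨F, fun π _ t t' ht ht' => hF π t t' ht ht'⟩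

end law

/-! ### The assembly -/

section assembly

variable {sm : Set A}

theorem exists_common_dvd (hgcd : ∀ ε ∈ sm, ∀ ε' ∈ sm, ∃ δ ∈ sm, δ ∣ ε ∧ δ ∣ ε')
    {ι : Type*} (s : Finset ι) (f : ι → A) (hf : ∀ i ∈ s, f i ∈ sm) {ε0 : A} (h0 : ε0 ∈ sm) :
    ∃ δ ∈ sm, ∀ i ∈ s, δ ∣ f i := by
  classical
  induction s using Finset.induction_on with
  | empty => exact ⟨ε0, h0, fun i hi => absurd hi (Finset.notMem_empty i)⟩
  | insert j s _ ih =>
    obtain ⟨δ, hδ, hδs⟩ := ih fun i hi => hf i (Finset.mem_insert_of_mem hi)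
    obtain ⟨δ', hδ', d1, d2⟩ := hgcd δ hδ (f j) (hf j (Finset.mem_insert_self j s))
    refine ⟨δ', hδ', fun i hi => ?_⟩
    rcases Finset.mem_insert.mp hi with rfl | hi
    · exact d2
    · exact d1.trans (hδs i hi)

/-- **Abstract assembly (L2-B5).**  `t` = the coefficients of the `a_i` in the normal form of the
representative cocycles modulo `ϖ ^ (N + 1)`, `ϖ ∈ sm` a common divisor of the `c x - 1` and
`p ^ (max n c0) ∣ ϖ ^ N`. -/
theorem exists_charts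
    (htot : ∀ x y : A, x ∣ y ∨ y ∣ x)
    (hgcd : ∀ ε ∈ sm, ∀ ε' ∈ sm, ∃ δ ∈ sm, δ ∣ ε ∧ δ ∣ ε')
    (p : A) (hrank : ∀ ε ∈ sm, ∃ k : ℕ, p ∣ ε ^ k)
    (hdec : Decomp Boo B0 a) (hsat : ∀ ε ∈ sm, SatData Boo B0 a ε)
    {W : Type*} [CommRing W] [Algebra W A]
    (hG : ∀ N : ℕ, ∃ F : Fin g → MvPolynomial (Fin g ⊕ Fin g) W, IsLaw Boo B0 a sm F N)
    {X : Type*} [AddCommGroup X] [Finite X]
    {Γ : Type*} (σA : Γ → A →+* A) (σB : Γ → B →+* B) (σX : Γ → X → X)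
    (hσ : ∀ τ (x : A), σB τ (algebraMap A B x) = algebraMap A B (σA τ x))
    (hσoo : ∀ τ, ∀ x ∈ Boo, σB τ x ∈ Boo) (hσ0 : ∀ τ, ∀ x ∈ B0, σB τ x ∈ B0)
    (hσa : ∀ τ i, σB τ (a i) = a i)
    (hσdvd : ∀ τ, ∀ ε ∈ sm, ε ∣ σA τ ε)
    (c : X → B) (hc1 : ∀ x, ∃ ε ∈ sm, algebraMap A B ε ∣ c x - 1)
    (hc0 : Rel Boo B0 sm 0 (c 0) 1)
    (hcadd : ∀ x y, Rel Boo B0 sm 0 (c (x + y)) (c x * c y))
    (hcgal : ∀ τ x, Rel Boo B0 sm 0 (c (σX τ x)) (σB τ (c x)))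
    (hcinj : ∀ x, x ≠ 0 → ∃ N0 : ℕ, ¬ Rel Boo B0 sm (p ^ N0) (c x) 1) :
    ∃ c0 : ℕ, ∀ n : ℕ, ∃ t : X → Fin g → A,
      (∃ ϖ ∈ sm, ∀ x i, ϖ ∣ t x i) ∧
      (∀ τ x i, p ^ n ∣ t (σX τ x) i - σA τ (t x i)) ∧
      (∃ F : Fin g → MvPolynomial (Fin g ⊕ Fin g) W, ∀ x y i,
        p ^ n ∣ t (x + y) i - MvPolynomial.aeval (Sum.elim (t x) (t y)) (F i)) ∧
      (∀ x y, x ≠ y → ∃ i, ¬ p ^ c0 ∣ t x i - t y i) := by
  classical
  have : Fintype X := Fintype.ofFinite X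
  -- one `ϖ` for all the representatives
  obtain ⟨ϖ, hϖ, hϖc⟩ : ∃ ϖ ∈ sm, ∀ x, algebraMap A B ϖ ∣ c x - 1 := by
    choose ε hε hεc using hc1
    obtain ⟨δ, hδ, hδd⟩ := exists_common_dvd hgcd (Finset.univ : Finset X) ε
      (fun i _ => hε i) (hε 0)
    exact ⟨δ, hδ, fun x => algebraMap_dvd_of_dvd (hδd x (Finset.mem_univ x)) (hεc x)⟩
  -- the separation level
  choose! N0 hN0 using hcinj
  refine ⟨(Finset.univ : Finset X).sup N0, fun n => ?_⟩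
  set c0 := (Finset.univ : Finset X).sup N0 with hc0def
  obtain ⟨k, hk⟩ := hrank ϖ hϖ
  set n' := max n c0 with hn'
  set N := k * n' with hNdef
  have hN : p ^ n' ∣ ϖ ^ N := by
    rw [hNdef, pow_mul]
    exact pow_dvd_pow_of_dvd hk n'
  have hnn' : p ^ n ∣ p ^ n' := pow_dvd_pow p (le_max_left n c0)
  choose t ht hrel using fun x => exists_comb (sm := sm) hdec hϖ (hϖc x) N
  have hU : ∀ {s s' : Fin g → A}, (∀ i, ϖ ∣ s i) → (∀ i, ϖ ∣ s' i) →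
      Rel Boo B0 sm (ϖ ^ (N + 1)) (1 + comb a s) (1 + comb a s') → ∀ i, p ^ n ∣ s i - s' i :=
    fun hs hs' h i => hnn'.trans (dvd_sub_of_rel_comb htot hgcd hrank hsat hϖ hN hs hs' h i)
  refine ⟨t, ⟨ϖ, hϖ, ht⟩, ?_, ?_, ?_⟩
  · -- equivariance
    intro τ x i
    have h1 : Rel Boo B0 sm (ϖ ^ (N + 1)) (σB τ (c x)) (σB τ (1 + comb a (t x))) :=
      Rel.map (σA τ) (σB τ) (hσ τ) (hσoo τ) (hσ0 τ) (fun ε hε => ⟨ε, hε, hσdvd τ ε hε⟩)
        (by rw [map_pow]; exact pow_dvd_pow_of_dvd (hσdvd τ ϖ hϖ) _) (hrel x)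
    rw [map_add, map_one, map_comb (σA τ) (σB τ) (hσ τ) (hσa τ)] at h1
    have h3 : Rel Boo B0 sm (ϖ ^ (N + 1)) (c (σX τ x)) (σB τ (c x)) := (hcgal τ x).of_zero _
    have h4 := ((hrel (σX τ x)).symm.trans hgcd h3).trans hgcd h1
    exact hU (ht _) (fun i => (hσdvd τ ϖ hϖ).trans (map_dvd (σA τ) (ht x i))) h4 i
  · -- the group law
    obtain ⟨F, hF⟩ := hG N
    refine ⟨F, fun x y i => ?_⟩
    obtain ⟨hFπ, hFrel⟩ := hF.rel hϖ (ht x) (ht y)
    have h1 : Rel Boo B0 sm (ϖ ^ (N + 1)) (c x * c y)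
        ((1 + comb a (t x)) * (1 + comb a (t y))) := Rel.mul hgcd (hrel x) (hrel y)
    have h2 : Rel Boo B0 sm (ϖ ^ (N + 1)) (c (x + y)) (c x * c y) := (hcadd x y).of_zero _
    have h4 := (hrel (x + y)).symm.trans hgcd (h2.trans hgcd (h1.trans hgcd hFrel))
    exact hU (ht _) hFπ h4 i
  · -- separation
    intro x y hxy
    by_contra hcon
    push Not at hcon
    have hq : p ^ c0 ∣ ϖ ^ (N + 1) :=
      (pow_dvd_pow p (le_max_right n c0)).trans (hN.trans (pow_dvd_pow ϖ (Nat.le_succ N)))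
    have h1 : Rel Boo B0 sm (p ^ c0) (1 + comb a (t x)) (1 + comb a (t y)) :=
      rel_comb_of_dvd_sub hϖ hcon
    have h2 : Rel Boo B0 sm (p ^ c0) (c x) (c y) :=
      (((hrel x).mono hq).trans hgcd h1).trans hgcd ((hrel y).mono hq).symm
    have h3 : Rel Boo B0 sm (p ^ c0) (c x * c (-y)) (c y * c (-y)) :=
      Rel.mul hgcd h2 (Rel.refl hϖ _ _)
    have h4 : Rel Boo B0 sm (p ^ c0) (c (x + -y)) (c x * c (-y)) := (hcadd x (-y)).of_zero _
    have h5 : Rel Boo B0 sm (p ^ c0) (c (y + -y)) (c y * c (-y)) := (hcadd y (-y)).of_zero _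
    rw [add_neg_cancel] at h5
    have h6 : Rel Boo B0 sm (p ^ c0) (c 0) 1 := hc0.of_zero _
    have h7 : Rel Boo B0 sm (p ^ c0) (c (x + -y)) 1 :=
      h4.trans hgcd (h3.trans hgcd (h5.symm.trans hgcd h6))
    have hz : x + -y ≠ 0 := fun h => hxy (add_neg_eq_zero.mp h)
    exact hN0 _ hz (h7.mono (pow_dvd_pow p (Finset.le_sup (Finset.mem_univ _))))

/-- **Abstract assembly (L2-B5), `Cyc` form.**  `Cyc x` = the set of all cocycles attached to the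
class `x` (all Cech data of all divisors of the class). -/
theorem exists_charts_of_cyc
    (htot : ∀ x y : A, x ∣ y ∨ y ∣ x)
    (hgcd : ∀ ε ∈ sm, ∀ ε' ∈ sm, ∃ δ ∈ sm, δ ∣ ε ∧ δ ∣ ε')
    (p : A) (hrank : ∀ ε ∈ sm, ∃ k : ℕ, p ∣ ε ^ k)
    (hdec : Decomp Boo B0 a) (hsat : ∀ ε ∈ sm, SatData Boo B0 a ε)
    {W : Type*} [CommRing W] [Algebra W A]
    (hG : ∀ N : ℕ, ∃ F : Fin g → MvPolynomial (Fin g ⊕ Fin g) W, IsLaw Boo B0 a sm F N)
    {X : Type*} [AddCommGroup X] [Finite X]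
    {Γ : Type*} (σA : Γ → A →+* A) (σB : Γ → B →+* B) (σX : Γ → X → X)
    (hσ : ∀ τ (x : A), σB τ (algebraMap A B x) = algebraMap A B (σA τ x))
    (hσoo : ∀ τ, ∀ x ∈ Boo, σB τ x ∈ Boo) (hσ0 : ∀ τ, ∀ x ∈ B0, σB τ x ∈ B0)
    (hσa : ∀ τ i, σB τ (a i) = a i)
    (hσdvd : ∀ τ, ∀ ε ∈ sm, ε ∣ σA τ ε)
    (Cyc : X → Set B) (hne : ∀ x, (Cyc x).Nonempty)
    (hcyc1 : ∀ x, ∀ c ∈ Cyc x, ∃ ε ∈ sm, algebraMap A B ε ∣ c - 1)
    (hcyc0 : (1 : B) ∈ Cyc 0)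
    (hcycmul : ∀ x y, ∀ c ∈ Cyc x, ∀ c' ∈ Cyc y, c * c' ∈ Cyc (x + y))
    (hcycrel : ∀ x, ∀ c ∈ Cyc x, ∀ c' ∈ Cyc x, Rel Boo B0 sm 0 c c')
    (hcycgal : ∀ τ x, ∀ c ∈ Cyc x, σB τ c ∈ Cyc (σX τ x))
    (hcycinj : ∀ x, x ≠ 0 → ∃ c ∈ Cyc x, ∃ N0 : ℕ, ¬ Rel Boo B0 sm (p ^ N0) c 1) :
    ∃ c0 : ℕ, ∀ n : ℕ, ∃ t : X → Fin g → A,
      (∃ ϖ ∈ sm, ∀ x i, ϖ ∣ t x i) ∧
      (∀ τ x i, p ^ n ∣ t (σX τ x) i - σA τ (t x i)) ∧
      (∃ F : Fin g → MvPolynomial (Fin g ⊕ Fin g) W, ∀ x y i,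
        p ^ n ∣ t (x + y) i - MvPolynomial.aeval (Sum.elim (t x) (t y)) (F i)) ∧
      (∀ x y, x ≠ y → ∃ i, ¬ p ^ c0 ∣ t x i - t y i) := by
  choose c hc using hne
  refine exists_charts htot hgcd p hrank hdec hsat hG σA σB σX hσ hσoo hσ0 hσa hσdvd c
    (fun x => hcyc1 x (c x) (hc x)) (hcycrel 0 (c 0) (hc 0) 1 hcyc0)
    (fun x y => hcycrel (x + y) _ (hc _) _ (hcycmul x y _ (hc x) _ (hc y)))
    (fun τ x => hcycrel _ _ (hc _) _ (hcycgal τ x _ (hc x))) (fun x hx => ?_)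
  obtain ⟨c', hc', N0, hN0⟩ := hcycinj x hx
  exact ⟨N0, fun h => hN0 (((hcycrel x c' hc' (c x) (hc x)).of_zero _).trans hgcd h)⟩

end assembly

end Fermat.Agent.S33x.Cech.Coord
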