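/-
P-S33 (blueprint v2), LAYER 2, leaf (L2-B5), independent SECOND (helper3): abstract assembly of the
Cech coordinates, CORE part (Mathlib + `Cech/NormalForm` only).

`A` a valuation domain of rank one, `B` an `A`-algebra with the two charts `Boo B0 : Subalgebra A B`
and `a : Fin g → B` (the decomposition `Decomp Boo B0 a` and its saturation `SatData Boo B0 a π` for
every non-zero `π`).  A unit of a chart is *near one* if it is `≡ 1` modulo some element of the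
maximal ideal (no uniformity asked).  `CobEq δ u u'` : the cocycles `u, u'` agree modulo `δ` up to
near-one coboundaries, in cross-multiplied form (no inverses).

For `ϖ ≠ 0` in the maximal ideal and `N : ℕ`, `IsNF ϖ N u t` says that `t ∈ (ϖ A)^g` is a normal
form of the cocycle `u` to the precision `ϖ ^ (N + 1)`.  We prove

* `exists_isNF`          : normal forms exist (`exists_normalForm`);
* `IsNF.unique`          : `CobEq (ϖ^(N+1)) u u'` ⟹ the normal forms agree modulo `ϖ ^ N`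
                           (MIXED precision: the coboundaries are only near one; loss of one `ϖ`);
* `IsNF.map`             : transport by a semilinear ring endomorphism preserving the charts;
* `IsNF.mul`             : additivity modulo `ϖ ^ N` for a group law valid at `ϖ`;
* `cobEq_of_isNF_of_dvd` : equal normal forms modulo `δ` ⟹ `CobEq δ`  (separation).
-/
import Mathlib
import Fermat.Agent.S33x.Cech.NormalForm

set_option autoImplicit false

namespace Fermat.Agent.S33x.Cech.CoordB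

open Fermat.Agent.S33x.Cech IsLocalRing

variable {A : Type*} [CommRing A] [IsDomain A] [ValuationRing A]
variable {B : Type*} [CommRing B] [Algebra A B]

/-! ### Valuation-ring arithmetic -/

/-- Rank one: every non-zero element divides a power of every element of the maximal ideal. -/
def RankOne (A : Type*) [CommRing A] [IsLocalRing A] : Prop :=
  ∀ x ∈ maximalIdeal A, ∀ c : A, c ≠ 0 → ∃ j : ℕ, c ∣ x ^ j

/-- A finite family of elements of the maximal ideal has a non-zero common divisor in the maximal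
ideal (given one non-zero element `ϖ₀` of it). -/
theorem exists_common_dvd {ϖ₀ : A} (h₀ : ϖ₀ ∈ maximalIdeal A) (h₀0 : ϖ₀ ≠ 0) (s : Finset A)
    (hs : ∀ x ∈ s, x ∈ maximalIdeal A) :
    ∃ ϖ : A, ϖ ∈ maximalIdeal A ∧ ϖ ≠ 0 ∧ ϖ ∣ ϖ₀ ∧ ∀ x ∈ s, ϖ ∣ x := by
  classical
  induction s using Finset.induction_on with
  | empty => exact ⟨ϖ₀, h₀, h₀0, dvd_rfl, by simp⟩
  | insert x s hx ih =>
    obtain ⟨ϖ, hϖ, hϖ0, hϖϖ₀, hdvd⟩ := ih fun y hy => hs y (Finset.mem_insert_of_mem hy)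
    by_cases hx0 : x = 0
    · refine ⟨ϖ, hϖ, hϖ0, hϖϖ₀, fun y hy => ?_⟩
      rcases Finset.mem_insert.mp hy with rfl | hy
      · rw [hx0]; exact dvd_zero _
      · exact hdvd y hy
    · rcases ValuationRing.dvd_total ϖ x with h | h
      · refine ⟨ϖ, hϖ, hϖ0, hϖϖ₀, fun y hy => ?_⟩
        rcases Finset.mem_insert.mp hy with rfl | hy
        · exact h
        · exact hdvd y hy
      · refine ⟨x, hs x (Finset.mem_insert_self x s), hx0, h.trans hϖϖ₀, fun y hy => ?_⟩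
        rcases Finset.mem_insert.mp hy with rfl | hy
        · exact dvd_rfl
        · exact h.trans (hdvd y hy)

/-- For `π ∣ ϖ` in the maximal ideal there is an exponent `N'` with
`π ^ N' ∣ ϖ ^ (N + 1)` and `ϖ ^ N ∣ π ^ N'` (rank one; loss of at most one factor). -/
theorem exists_pow_between (hrank : RankOne A) {ϖ π : A} (hϖ : ϖ ∈ maximalIdeal A)
    (hπ : π ∈ maximalIdeal A) (hϖ0 : ϖ ≠ 0) (hπ0 : π ≠ 0) (hπϖ : π ∣ ϖ) (N : ℕ) :
    ∃ N' : ℕ, π ^ N' ∣ ϖ ^ (N + 1) ∧ ϖ ^ N ∣ π ^ N' := by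
  classical
  have hex : ∃ j : ℕ, ϖ ^ (N + 1) ∣ π ^ j := hrank π hπ _ (pow_ne_zero _ hϖ0)
  set j0 := Nat.find hex with hj0
  have hj0spec : ϖ ^ (N + 1) ∣ π ^ j0 := Nat.find_spec hex
  have hj0pos : j0 ≠ 0 := by
    intro h
    rw [h, pow_zero] at hj0spec
    have hu : IsUnit (ϖ ^ (N + 1)) := isUnit_of_dvd_one hj0spec
    have hu' : IsUnit ϖ := (isUnit_pow_iff (Nat.succ_ne_zero N)).mp hu
    exact (mem_maximalIdeal ϖ).mp hϖ hu'
  obtain ⟨N', hN'⟩ : ∃ N', j0 = N' + 1 := Nat.exists_eq_succ_of_ne_zero hj0pos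
  have hnot : ¬ ϖ ^ (N + 1) ∣ π ^ N' := Nat.find_min hex (by omega)
  refine ⟨N', (ValuationRing.dvd_total _ _).resolve_right hnot, ?_⟩
  obtain ⟨w, hw⟩ := hπϖ
  rw [hN'] at hj0spec
  obtain ⟨u, hu⟩ := hj0spec
  refine ⟨w * u, mul_left_cancel₀ hπ0 ?_⟩
  rw [pow_succ] at hu
  calc π * π ^ N' = π ^ N' * π := mul_comm _ _
    _ = ϖ ^ (N + 1) * u := hu
    _ = π * (ϖ ^ N * (w * u)) := by rw [pow_succ, hw]; ring

/-! ### Near-one units and the coboundary relation -/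

theorem dvd_mul_sub_one_of_dvd {R : Type*} [CommRing R] {c x y : R} (hx : c ∣ x - 1)
    (hy : c ∣ y - 1) : c ∣ x * y - 1 := by
  have : x * y - 1 = (x - 1) * y + (y - 1) := by ring
  rw [this]
  exact dvd_add (Dvd.dvd.mul_right hx y) hy

variable (Boo B0 : Subalgebra A B)

/-- `r ≡ 1` modulo some element of the maximal ideal. -/
def NearOne (S : Subalgebra A B) (r : S) : Prop :=
  ∃ π ∈ maximalIdeal A, algebraMap A S π ∣ r - 1

theorem nearOne_one (S : Subalgebra A B) : NearOne S 1 :=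
  ⟨0, (maximalIdeal A).zero_mem, by simp⟩

theorem NearOne.of_dvd {S : Subalgebra A B} {r : S} {π : A} (hπ : π ∈ maximalIdeal A)
    (h : algebraMap A S π ∣ r - 1) : NearOne S r := ⟨π, hπ, h⟩

theorem NearOne.mul {S : Subalgebra A B} {r r' : S} (h : NearOne S r) (h' : NearOne S r') :
    NearOne S (r * r') := by
  obtain ⟨π, hπ, hr⟩ := h
  obtain ⟨π', hπ', hr'⟩ := h'
  rcases ValuationRing.dvd_total π π' with hd | hd
  · exact ⟨π, hπ, dvd_mul_sub_one_of_dvd hr (((algebraMap A S).map_dvd hd).trans hr')⟩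
  · exact ⟨π', hπ', dvd_mul_sub_one_of_dvd (((algebraMap A S).map_dvd hd).trans hr) hr'⟩

/-- `u` and `u'` agree modulo `δ` up to near-one coboundaries (cross-multiplied form). -/
def CobEq (δ : A) (u u' : B) : Prop :=
  ∃ (r r' : Boo) (s s' : B0), NearOne Boo r ∧ NearOne Boo r' ∧ NearOne B0 s ∧ NearOne B0 s' ∧
    algebraMap A B δ ∣ u * r * s - u' * r' * s'

variable {Boo B0}

theorem CobEq.of_dvd {δ δ' : A} {u u' : B} (h : CobEq Boo B0 δ u u') (hδ : δ' ∣ δ) :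
    CobEq Boo B0 δ' u u' := by
  obtain ⟨r, r', s, s', hr, hr', hs, hs', hd⟩ := h
  exact ⟨r, r', s, s', hr, hr', hs, hs', ((algebraMap A B).map_dvd hδ).trans hd⟩

theorem CobEq.refl (δ : A) (u : B) : CobEq Boo B0 δ u u :=
  ⟨1, 1, 1, 1, nearOne_one _, nearOne_one _, nearOne_one _, nearOne_one _, by simp⟩

theorem CobEq.symm {δ : A} {u u' : B} (h : CobEq Boo B0 δ u u') : CobEq Boo B0 δ u' u := by
  obtain ⟨r, r', s, s', hr, hr', hs, hs', hd⟩ := h
  refine ⟨r', r, s', s, hr', hr, hs', hs, ?_⟩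
  have : u' * (r' : B) * s' - u * r * s = -(u * r * s - u' * r' * s') := by ring
  rw [this]
  exact (dvd_neg).mpr hd

/-! ### Normal forms -/

variable {g : ℕ} (a : Fin g → B)

variable (Boo B0) in
/-- `t` is a normal form of the cocycle `u` to the precision `ϖ ^ (N + 1)`. -/
def IsNF (ϖ : A) (N : ℕ) (u : B) (t : Fin g → A) : Prop :=
  (∀ i, ϖ ∣ t i) ∧ ∃ (voo : Boo) (v0 : B0), NearOne Boo voo ∧ NearOne B0 v0 ∧
    algebraMap A B ϖ ^ (N + 1) ∣ u * voo * v0 - (1 + comb a t)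

variable {a}

/-- Existence of normal forms. -/
theorem exists_isNF (hdec : Decomp Boo B0 a) {ϖ : A} (hϖ : ϖ ∈ maximalIdeal A) (N : ℕ) {u : B}
    (hu : algebraMap A B ϖ ∣ u - 1) : ∃ t : Fin g → A, IsNF Boo B0 a ϖ N u t := by
  have hu' : u - 1 ∈ (Ideal.span {ϖ}).map (algebraMap A B) := by
    rw [Ideal.map_span, Set.image_singleton, Ideal.mem_span_singleton]
    exact hu
  obtain ⟨voo, v0, t, hvoo, hv0, ht, hE⟩ := exists_normalForm hdec (Ideal.span {ϖ}) u hu' N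
  refine ⟨t, fun i => Ideal.mem_span_singleton.mp (ht i), voo, v0, ⟨ϖ, hϖ, ?_⟩, ⟨ϖ, hϖ, ?_⟩, ?_⟩
  · rw [Ideal.map_span, Set.image_singleton, Ideal.mem_span_singleton] at hvoo
    exact hvoo
  · rw [Ideal.map_span, Set.image_singleton, Ideal.mem_span_singleton] at hv0
    exact hv0
  · rw [Ideal.span_singleton_pow, Ideal.map_span, Set.image_singleton,
      Ideal.mem_span_singleton, map_pow] at hE
    exact hE

/-- **Mixed-precision uniqueness.**  Two presentations with near-one units which agree modulo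
`ϖ ^ (N + 1)` have the same coordinates modulo `ϖ ^ N`. -/
theorem unique_mixed (hrank : RankOne A) (hsat : ∀ π : A, π ≠ 0 → SatData Boo B0 a π)
    {ϖ : A} (hϖ : ϖ ∈ maximalIdeal A) (hϖ0 : ϖ ≠ 0) {N : ℕ} {t t' : Fin g → A}
    (ht : ∀ i, ϖ ∣ t i) (ht' : ∀ i, ϖ ∣ t' i) {voo woo : Boo} {v0 w0 : B0}
    (hvoo : NearOne Boo voo) (hwoo : NearOne Boo woo) (hv0 : NearOne B0 v0)
    (hw0 : NearOne B0 w0)
    (h : algebraMap A B ϖ ^ (N + 1) ∣
      (1 + comb a t) * woo * w0 - (1 + comb a t') * voo * v0) :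
    ∀ i, ϖ ^ N ∣ t i - t' i := by
  classical
  obtain ⟨π1, hπ1, h1⟩ := hvoo
  obtain ⟨π2, hπ2, h2⟩ := hwoo
  obtain ⟨π3, hπ3, h3⟩ := hv0
  obtain ⟨π4, hπ4, h4⟩ := hw0
  obtain ⟨π, hπ, hπ0, hπϖ, hdvd⟩ := exists_common_dvd hϖ hϖ0 ({π1, π2, π3, π4} : Finset A)
    (by
      intro x hx
      simp only [Finset.mem_insert, Finset.mem_singleton] at hx
      rcases hx with rfl | rfl | rfl | rfl <;> assumption)
  have hd1 : π ∣ π1 := hdvd π1 (by simp)
  have hd2 : π ∣ π2 := hdvd π2 (by simp)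
  have hd3 : π ∣ π3 := hdvd π3 (by simp)
  have hd4 : π ∣ π4 := hdvd π4 (by simp)
  obtain ⟨N', hN'1, hN'2⟩ := exists_pow_between hrank hϖ hπ hϖ0 hπ0 hπϖ N
  have hkey := normalForm_unique (hsat π hπ0) N' (fun i => hπϖ.trans (ht i))
    (fun i => hπϖ.trans (ht' i))
    (((algebraMap A Boo).map_dvd hd1).trans h1) (((algebraMap A Boo).map_dvd hd2).trans h2)
    (((algebraMap A B0).map_dvd hd3).trans h3) (((algebraMap A B0).map_dvd hd4).trans h4)
    (by
      have := (algebraMap A B).map_dvd hN'1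
      rw [map_pow, map_pow] at this
      exact this.trans h)
  exact fun i => hN'2.trans (hkey i)

/-- **Uniqueness of normal forms** up to near-one coboundaries, with loss of one `ϖ`. -/
theorem IsNF.unique (hrank : RankOne A) (hsat : ∀ π : A, π ≠ 0 → SatData Boo B0 a π)
    {ϖ : A} (hϖ : ϖ ∈ maximalIdeal A) (hϖ0 : ϖ ≠ 0) {N : ℕ} {u u' : B} {t t' : Fin g → A}
    (h : IsNF Boo B0 a ϖ N u t) (h' : IsNF Boo B0 a ϖ N u' t')
    (hrel : CobEq Boo B0 (ϖ ^ (N + 1)) u u') : ∀ i, ϖ ^ N ∣ t i - t' i := by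
  obtain ⟨ht, voo, v0, hvoo, hv0, e, he⟩ := h
  obtain ⟨ht', voo', v0', hvoo', hv0', e', he'⟩ := h'
  obtain ⟨r, r', s, s', hr, hr', hs, hs', d, hd⟩ := hrel
  refine unique_mixed hrank hsat hϖ hϖ0 ht ht' (voo := r' * voo) (woo := r * voo')
    (v0 := s' * v0) (w0 := s * v0') (hr'.mul hvoo) (hr.mul hvoo') (hs'.mul hv0) (hs.mul hv0') ?_
  rw [map_pow] at hd
  refine ⟨(voo : B) * v0 * voo' * v0' * d - e * (r * voo' * s * v0')
    + e' * (r' * voo * s' * v0), ?_⟩
  push_cast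
  linear_combination ((voo : B) * v0 * voo' * v0') * hd - ((r : B) * voo' * s * v0') * he
    + ((r' : B) * voo * s' * v0) * he'

/-- Transport of a normal form by a semilinear ring endomorphism preserving the charts, fixing
the `a i` and not decreasing valuations. -/
theorem IsNF.map {ϖ : A} {N : ℕ} {u : B} {t : Fin g → A} (h : IsNF Boo B0 a ϖ N u t)
    (σA : A →+* A) (φ : B →+* B)
    (hsemi : ∀ x : A, φ (algebraMap A B x) = algebraMap A B (σA x))
    (hnorm : ∀ x : A, x ∣ σA x) (hoo : ∀ b ∈ Boo, φ b ∈ Boo) (h0 : ∀ b ∈ B0, φ b ∈ B0)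
    (ha : ∀ i, φ (a i) = a i) :
    IsNF Boo B0 a ϖ N (φ u) (fun i => σA (t i)) := by
  obtain ⟨ht, voo, v0, ⟨π1, hπ1, b1, hb1⟩, ⟨π3, hπ3, b3, hb3⟩, e, he⟩ := h
  have hmem : ∀ π : A, π ∈ maximalIdeal A → σA π ∈ maximalIdeal A := by
    intro π hπ
    obtain ⟨w, hw⟩ := hnorm π
    rw [hw]
    exact Ideal.mul_mem_right _ _ hπ
  refine ⟨fun i => ?_, ⟨φ voo, hoo _ voo.2⟩, ⟨φ v0, h0 _ v0.2⟩,
    ⟨σA π1, hmem π1 hπ1, ⟨φ b1, hoo _ b1.2⟩, ?_⟩, ⟨σA π3, hmem π3 hπ3, ⟨φ b3, h0 _ b3.2⟩, ?_⟩, ?_⟩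
  · obtain ⟨w, hw⟩ := ht i
    change ϖ ∣ σA (t i)
    rw [hw, map_mul]
    exact (hnorm ϖ).mul_right _
  · apply Subtype.ext
    have := congrArg (fun z : Boo => φ (z : B)) hb1
    simp only [Subalgebra.coe_sub, Subalgebra.coe_one, Subalgebra.coe_mul,
      Subalgebra.coe_algebraMap, map_sub, map_one, map_mul, hsemi] at this
    simp only [Subalgebra.coe_sub, Subalgebra.coe_one, Subalgebra.coe_mul,
      Subalgebra.coe_algebraMap]
    exact this
  · apply Subtype.ext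
    have := congrArg (fun z : B0 => φ (z : B)) hb3
    simp only [Subalgebra.coe_sub, Subalgebra.coe_one, Subalgebra.coe_mul,
      Subalgebra.coe_algebraMap, map_sub, map_one, map_mul, hsemi] at this
    simp only [Subalgebra.coe_sub, Subalgebra.coe_one, Subalgebra.coe_mul,
      Subalgebra.coe_algebraMap]
    exact this
  · have hcomb : φ (comb a t) = comb a (fun i => σA (t i)) := by
      rw [comb, Fintype.linearCombination_apply, Fintype.linearCombination_apply, map_sum]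
      refine Finset.sum_congr rfl fun i _ => ?_
      rw [Algebra.smul_def, Algebra.smul_def, map_mul, hsemi, ha]
    have h1 := congrArg φ he
    simp only [map_sub, map_add, map_one, map_mul, map_pow, hsemi, hcomb] at h1
    obtain ⟨w, hw⟩ := hnorm ϖ
    refine ⟨algebraMap A B (w ^ (N + 1)) * φ e, ?_⟩
    change φ u * φ voo * φ v0 - (1 + comb a fun i => σA (t i)) = _
    rw [h1, hw, map_mul, mul_pow, map_pow]
    ring

/-- **Additivity** of the normal-form coordinates modulo `ϖ ^ N`, for a group law valid at `ϖ`. -/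
theorem IsNF.mul (hrank : RankOne A) (hsat : ∀ π : A, π ≠ 0 → SatData Boo B0 a π)
    {ϖ : A} (hϖ : ϖ ∈ maximalIdeal A) (hϖ0 : ϖ ≠ 0) {N : ℕ} {ux uy uz : B}
    {tx ty tz T : Fin g → A}
    (hx : IsNF Boo B0 a ϖ N ux tx) (hy : IsNF Boo B0 a ϖ N uy ty) (hz : IsNF Boo B0 a ϖ N uz tz)
    (hrel : CobEq Boo B0 (ϖ ^ (N + 1)) uz (ux * uy)) (hT : ∀ k, ϖ ∣ T k)
    (hF : ∃ (voo : Boo) (v0 : B0), algebraMap A Boo ϖ ∣ voo - 1 ∧ algebraMap A B0 ϖ ∣ v0 - 1 ∧
      algebraMap A B ϖ ^ (N + 1) ∣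
        (1 + comb a tx) * (1 + comb a ty) * voo * v0 - (1 + comb a T)) :
    ∀ i, ϖ ^ N ∣ tz i - T i := by
  obtain ⟨Voo, V0, hVoo, hV0, hG⟩ := hF
  have hprod : IsNF Boo B0 a ϖ N ((1 + comb a tx) * (1 + comb a ty)) T :=
    ⟨hT, Voo, V0, ⟨ϖ, hϖ, hVoo⟩, ⟨ϖ, hϖ, hV0⟩, hG⟩
  refine IsNF.unique hrank hsat hϖ hϖ0 hz hprod ?_
  obtain ⟨-, px, qx, hpx, hqx, ex, hex⟩ := hx
  obtain ⟨-, py, qy, hpy, hqy, ey, hey⟩ := hy
  obtain ⟨r, r', s, s', hr, hr', hs, hs', d, hd⟩ := hrel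
  refine ⟨r * px * py, r', s * qx * qy, s', (hr.mul hpx).mul hpy, hr', (hs.mul hqx).mul hqy,
    hs', ?_⟩
  rw [map_pow] at hd ⊢
  refine ⟨d * (px * py * qx * qy) + (r' : B) * s' * (ex * (1 + comb a ty)
    + ey * (1 + comb a tx) + algebraMap A B ϖ ^ (N + 1) * ex * ey), ?_⟩
  push_cast
  linear_combination ((px : B) * py * qx * qy) * hd
    + ((r' : B) * s' * (uy * py * qy)) * hex
    + ((r' : B) * s' * ((1 + comb a tx) + algebraMap A B ϖ ^ (N + 1) * ex)) * hey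

/-- **Separation.**  If the normal forms of `ux`, `uy` agree modulo `δ` (a divisor of the
precision), then `ux` and `uy` agree modulo `δ` up to near-one coboundaries. -/
theorem cobEq_of_isNF {ϖ : A} {N : ℕ} {ux uy : B} {tx ty : Fin g → A}
    (hx : IsNF Boo B0 a ϖ N ux tx) (hy : IsNF Boo B0 a ϖ N uy ty) {δ : A}
    (hδ : δ ∣ ϖ ^ (N + 1)) (hd : ∀ i, δ ∣ tx i - ty i) : CobEq Boo B0 δ ux uy := by
  obtain ⟨-, px, qx, hpx, hqx, ex, hex⟩ := hx
  obtain ⟨-, py, qy, hpy, hqy, ey, hey⟩ := hy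
  obtain ⟨w, hw⟩ := hδ
  obtain ⟨τ, -, hτ⟩ := comb_eq_of_dvd (a := a) (t := tx - ty) hd
  rw [map_sub] at hτ
  refine ⟨px, py, qx, qy, hpx, hpy, hqx, hqy, algebraMap A B w * (ex - ey) + comb a τ, ?_⟩
  have hE : algebraMap A B ϖ ^ (N + 1) = algebraMap A B δ * algebraMap A B w := by
    rw [← map_pow, hw, map_mul]
  rw [hE] at hex hey
  linear_combination hex - hey + hτ

end Fermat.Agent.S33x.Cech.CoordB
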