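import Fermat.Agent.S33x.Cech.InjectCross
import Fermat.Agent.S33x.Cech.CoordB

/-!
# P-S33 Layer 2 (L2-I4, helper61): injectivity, UNIFORM cross-multiplied form (`cyc_sep`)

Strengthening of `Cech/InjectCross.lean` asked for by the architect (ruling B5 v4): ONE modulus
`δ = cD * ε ≠ 0` works for ALL near-one coboundaries, whatever the elements `π₁, π₂, π₃ ∈ 𝔪`
modulo which they are `≡ 1`:

  `hoo * h0' * (1 + π₁ boo) * (1 + π₂ β) - (1 + π₃ b) * w0 ∉ δ Bx`.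

(The truncated inverse of `1 + π₃ b` modulo `δ` exists by rank one: `δ ∣ π₃ ^ j`.)

* `not_cross_coboundary_unif`, `exists_sep` : submodules / subalgebras of an ambient algebra `F`;
* `exists_sep_typed` : on the TYPE `↥Bx`, with `OfDirectSum.ooIn`, `OfDirectSum.zeroIn` and
  `CoordB.NearOne`, in the literal inner shape of the hypothesis `cyc_sep` of B5.
-/

set_option autoImplicit false
set_option linter.unusedSectionVars false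

namespace Fermat.Agent.S33x.Cech.InjectSep

open IsLocalRing

section field

variable {A : Type*} [CommRing A] [IsDomain A] [ValuationRing A]
variable {F : Type*} [CommRing F] [Algebra A F] [Module.IsTorsionFree A F]

/-- **Injectivity, uniform cross-multiplied form.**  Same hypotheses as
`InjectCross.not_cross_coboundary`; the modulus `cD * ε` does not depend on the coboundaries. -/
theorem not_cross_coboundary_unif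
    (hrank : ∀ x ∈ maximalIdeal A, ∀ c : A, c ≠ 0 → ∃ j : ℕ, c ∣ x ^ j)
    {M Moo M0 : Submodule A F} {Bx Boo B0 : Subalgebra A F}
    (hooBx : Boo ≤ Bx) (h0Bx : B0 ≤ Bx)
    (hMoo : Moo ≤ M) (hM0 : M0 ≤ M)
    (hMooB : ∀ x ∈ Moo, ∀ b ∈ Boo, x * b ∈ Moo)
    (hM0B : ∀ x ∈ M0, ∀ b ∈ B0, x * b ∈ M0)
    (hMBx : ∀ x ∈ M, ∀ b ∈ Bx, x * b ∈ M)
    (hinf : ∀ x, x ∈ Moo → x ∈ M0 → x = 0)
    {cD : A} (hcD : cD ≠ 0)
    (htors : ∀ y ∈ M, (∃ d : A, d ≠ 0 ∧ d • y ∈ Moo ⊔ M0) → cD • y ∈ Moo ⊔ M0)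
    {hoo h0 h0' : F} (hhoo : hoo ∈ Moo) (hns : hoo ∉ maximalIdeal A • Moo) (hh0 : h0 ∈ M0)
    {ϖ₀ : A} (hϖ₀ : ϖ₀ ∈ maximalIdeal A) {γ : F} (hγ : γ ∈ B0) (hu : h0 * h0' = 1 + ϖ₀ • γ)
    {ε : A} (hε : ε ∈ maximalIdeal A) (hε0 : ε ≠ 0)
    {π₁ π₂ π₃ : A} (hπ₁ : π₁ ∈ maximalIdeal A) (hπ₂ : π₂ ∈ maximalIdeal A)
    (hπ₃ : π₃ ∈ maximalIdeal A)
    {boo b β w0 z : F} (hboo : boo ∈ Boo) (hb : b ∈ Boo) (hβ : β ∈ B0) (hw0 : w0 ∈ B0)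
    (hz : z ∈ Bx) :
    hoo * h0' * (1 + π₁ • boo) * (1 + π₂ • β) - (1 + π₃ • b) * w0 ≠ (cD * ε) • z := by
  intro heq
  set δ : A := cD * ε with hδ
  have hδ0 : δ ≠ 0 := mul_ne_zero hcD hε0
  obtain ⟨j, q, hq⟩ := hrank π₃ hπ₃ δ hδ0
  -- the truncated inverse of `1 + π₃ b` modulo `δ`
  set x : F := π₃ • (-b) with hx
  have hxB : x ∈ Boo := Boo.smul_mem (Boo.neg_mem hb) π₃
  set g : F := ∑ i ∈ Finset.range j, x ^ i with hg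
  have hgB : g ∈ Boo := Boo.sum_mem fun i _ => Boo.pow_mem hxB i
  set wt : F := ∑ i ∈ Finset.range (j + 1), x ^ i with hwt
  have hwt1 : wt = 1 + π₃ • ((-b) * g) := by
    rw [hwt, Finset.sum_range_succ', pow_zero, hg, Finset.mul_sum, Finset.smul_sum, add_comm]
    congr 1
    refine Finset.sum_congr rfl fun i _ => ?_
    rw [pow_succ', hx, smul_mul_assoc]
  have hwtB : wt ∈ Boo := Boo.sum_mem fun i _ => Boo.pow_mem hxB i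
  set w : F := (q * π₃) • (-b) ^ (j + 1) with hw
  have hwB : w ∈ Boo := Boo.smul_mem (Boo.pow_mem (Boo.neg_mem hb) _) _
  have hgeom : (1 + π₃ • b) * wt = 1 - δ • w := by
    have h1 : (1 + π₃ • b) = 1 - x := by rw [hx, smul_neg, sub_neg_eq_add]
    have h2 : π₃ ^ (j + 1) = δ * (q * π₃) := by rw [pow_succ, hq]; ring
    rw [h1, hwt, mul_neg_geom_sum, hx, smul_pow, h2, mul_smul]
  -- `voo * wt = 1 + ϖ₁ boo'`
  obtain ⟨ϖ₁, hϖ₁, boo', hboo'B, hvw⟩ := InjectCross.exists_one_add_mul (B := Boo) hπ₁ hπ₃ hboo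
    (Boo.mul_mem (Boo.neg_mem hb) hgB)
  rw [← hwt1] at hvw
  -- `(h0 h0') v0 = 1 + ϖ₂ β₂`
  obtain ⟨ϖ₂, hϖ₂, β₂, hβ₂, hprod⟩ := InjectCross.exists_one_add_mul (B := B0) hϖ₀ hπ₂ hγ hβ
  -- the new relation
  have hh0w0 : h0 * w0 ∈ M0 := hM0B h0 hh0 w0 hw0
  set y' : F := h0 * (wt * z) - (h0 * w0) * w with hy'
  have hy'M : y' ∈ M :=
    M.sub_mem (hMBx h0 (hM0 hh0) _ (Bx.mul_mem (hooBx hwtB) hz))
      (hMBx _ (hM0 hh0w0) _ (hooBx hwB))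
  have hrel : hoo * (1 + ϖ₁ • boo') * (1 + ϖ₂ • β₂) - h0 * w0 = δ • y' := by
    rw [← hvw, ← hprod, ← hu, hy']
    have h2 : h0 * wt * (hoo * h0' * (1 + π₁ • boo) * (1 + π₂ • β) - (1 + π₃ • b) * w0)
        = h0 * wt * (δ • z) := by rw [heq]
    have h3 : h0 * w0 * ((1 + π₃ • b) * wt) = h0 * w0 * (1 - δ • w) := by
      rw [hgeom]
    simp only [Algebra.smul_def] at h2 h3 ⊢
    linear_combination h2 + h3
  have hMB0 : ∀ x ∈ M, ∀ b ∈ B0, x * b ∈ M := fun x hx b hb => hMBx x hx b (h0Bx hb)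
  exact Inject.not_coboundary_core hrank hMoo hMooB hM0B hMB0 hinf hcD htors hhoo hns hh0w0
    hε hε0 hϖ₁ hϖ₂ hboo'B hβ₂ hy'M hrel

/-- Existential form: ONE `δ ≠ 0` for all near-one coboundaries. -/
theorem exists_sep
    (hrank : ∀ x ∈ maximalIdeal A, ∀ c : A, c ≠ 0 → ∃ j : ℕ, c ∣ x ^ j)
    (hne : ∃ ε ∈ maximalIdeal A, ε ≠ 0)
    {M Moo M0 : Submodule A F} {Bx Boo B0 : Subalgebra A F}
    (hooBx : Boo ≤ Bx) (h0Bx : B0 ≤ Bx)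
    (hMoo : Moo ≤ M) (hM0 : M0 ≤ M)
    (hMooB : ∀ x ∈ Moo, ∀ b ∈ Boo, x * b ∈ Moo)
    (hM0B : ∀ x ∈ M0, ∀ b ∈ B0, x * b ∈ M0)
    (hMBx : ∀ x ∈ M, ∀ b ∈ Bx, x * b ∈ M)
    (hinf : ∀ x, x ∈ Moo → x ∈ M0 → x = 0)
    (htors : ∃ cD : A, cD ≠ 0 ∧
      ∀ y ∈ M, (∃ d : A, d ≠ 0 ∧ d • y ∈ Moo ⊔ M0) → cD • y ∈ Moo ⊔ M0)
    {hoo h0 h0' : F} (hhoo : hoo ∈ Moo) (hns : hoo ∉ maximalIdeal A • Moo) (hh0 : h0 ∈ M0)
    {ϖ₀ : A} (hϖ₀ : ϖ₀ ∈ maximalIdeal A) {γ : F} (hγ : γ ∈ B0) (hu : h0 * h0' = 1 + ϖ₀ • γ) :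
    ∃ δ : A, δ ≠ 0 ∧ ∀ π₁ ∈ maximalIdeal A, ∀ π₂ ∈ maximalIdeal A, ∀ π₃ ∈ maximalIdeal A,
      ∀ boo ∈ Boo, ∀ b ∈ Boo, ∀ β ∈ B0, ∀ w0 ∈ B0, ∀ z ∈ Bx,
        hoo * h0' * (1 + π₁ • boo) * (1 + π₂ • β) - (1 + π₃ • b) * w0 ≠ δ • z := by
  obtain ⟨ε, hε, hε0⟩ := hne
  obtain ⟨cD, hcD, htors'⟩ := htors
  refine ⟨cD * ε, mul_ne_zero hcD hε0, ?_⟩
  intro π₁ hπ₁ π₂ hπ₂ π₃ hπ₃ boo hboo b hb β hβ w0 hw0 z hz
  exact not_cross_coboundary_unif hrank hooBx h0Bx hMoo hM0 hMooB hM0B hMBx hinf hcD htors'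
    hhoo hns hh0 hϖ₀ hγ hu hε hε0 hπ₁ hπ₂ hπ₃ hboo hb hβ hw0 hz

end field

section typed

open OfDirectSum

variable {A : Type*} [CommRing A] [IsDomain A] [ValuationRing A]
variable {F : Type*} [Field F] [Algebra A F] [Module.IsTorsionFree A F]

/-- a near-one element of a subalgebra `B` of the type `↥Bx`, read in `F` -/
theorem exists_eq_one_add_of_nearOne {Bx : Subalgebra A F} (B : Subalgebra A Bx) {v : B}
    (h : CoordB.NearOne B v) :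
    ∃ π ∈ maximalIdeal A, ∃ r : Bx, r ∈ B ∧ (((v : Bx) : F) = 1 + π • ((r : Bx) : F)) := by
  obtain ⟨π, hπ, hd⟩ := h
  obtain ⟨r, hr, hv⟩ := InjectCross.exists_eq_one_add_of_dvd_sub_one B hd
  exact ⟨π, hπ, r, hr, hv⟩

/-- **`cyc_sep` for ONE cocycle `c = hoo * h0'`, on the type `↥Bx`**: one `δ ≠ 0` such that `c`
is not a near-one coboundary modulo `δ` in the cross-multiplied sense. -/
theorem exists_sep_typed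
    (hrank : ∀ x ∈ maximalIdeal A, ∀ c : A, c ≠ 0 → ∃ j : ℕ, c ∣ x ^ j)
    (hne : ∃ ε ∈ maximalIdeal A, ε ≠ 0)
    {M Moo M0 : Submodule A F} {Bx Boo B0 : Subalgebra A F}
    (hooBx : Boo ≤ Bx) (h0Bx : B0 ≤ Bx)
    (hMoo : Moo ≤ M) (hM0 : M0 ≤ M)
    (hMooB : ∀ x ∈ Moo, ∀ b ∈ Boo, x * b ∈ Moo)
    (hM0B : ∀ x ∈ M0, ∀ b ∈ B0, x * b ∈ M0)
    (hMBx : ∀ x ∈ M, ∀ b ∈ Bx, x * b ∈ M)
    (hinf : ∀ x, x ∈ Moo → x ∈ M0 → x = 0)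
    (htors : ∃ cD : A, cD ≠ 0 ∧
      ∀ y ∈ M, (∃ d : A, d ≠ 0 ∧ d • y ∈ Moo ⊔ M0) → cD • y ∈ Moo ⊔ M0)
    {hoo h0 h0' : F} (hhoo : hoo ∈ Moo) (hns : hoo ∉ maximalIdeal A • Moo) (hh0 : h0 ∈ M0)
    {ϖ₀ : A} (hϖ₀ : ϖ₀ ∈ maximalIdeal A) {γ : F} (hγ : γ ∈ B0) (hu : h0 * h0' = 1 + ϖ₀ • γ)
    {c : Bx} (hc : (c : F) = hoo * h0') :
    ∃ δ : A, δ ≠ 0 ∧
      ¬ ∃ (voo woo : ooIn Bx Boo) (v0 w0 : zeroIn Bx B0),
        CoordB.NearOne (ooIn Bx Boo) voo ∧ CoordB.NearOne (ooIn Bx Boo) woo ∧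
        CoordB.NearOne (zeroIn Bx B0) v0 ∧ CoordB.NearOne (zeroIn Bx B0) w0 ∧
        algebraMap A Bx δ ∣ c * voo * v0 - woo * w0 := by
  obtain ⟨δ, hδ0, hδ⟩ := exists_sep hrank hne hooBx h0Bx hMoo hM0 hMooB hM0B hMBx hinf htors
    hhoo hns hh0 hϖ₀ hγ hu
  refine ⟨δ, hδ0, ?_⟩
  rintro ⟨voo, woo, v0, w0, hvoo, hwoo, hv0, -, z, hz⟩
  obtain ⟨π₁, hπ₁, boo, hboo, hvoo'⟩ := exists_eq_one_add_of_nearOne _ hvoo
  obtain ⟨π₃, hπ₃, b, hb, hwoo'⟩ := exists_eq_one_add_of_nearOne _ hwoo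
  obtain ⟨π₂, hπ₂, β, hβ, hv0'⟩ := exists_eq_one_add_of_nearOne _ hv0
  refine hδ π₁ hπ₁ π₂ hπ₂ π₃ hπ₃ (boo : F) hboo (b : F) hb (β : F) hβ ((w0 : Bx) : F) w0.2
    (z : F) z.2 ?_
  have h := congrArg (Subtype.val : Bx → F) hz
  rw [Subalgebra.coe_sub, Subalgebra.coe_mul, Subalgebra.coe_mul, Subalgebra.coe_mul,
    Subalgebra.coe_mul, Subalgebra.coe_algebraMap, hc, hvoo', hwoo', hv0'] at h
  rw [h, Algebra.smul_def]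

end typed

end Fermat.Agent.S33x.Cech.InjectSep
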