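import Fermat.Agent.S33x.Cech.InjectTypedB
import Fermat.Agent.S33x.Cech.InjectSep

/-!
# P-S33, LAYER 2, (I4) `cyc_sep` at the instance, UNIFORM `δ`-form, independent second (helper63)

The uniform form `cyc_sep` (helper33's ruling B5 v4: `NearOne` units, each `≡ 1` modulo ITS OWN
element of `𝔪_A`; ONE modulus `δ ≠ 0`) of the injectivity hypothesis of the abstract assembly,
at the instance: on the TYPE `↥(BxAlg C)` with `OfDirectSum.ooIn`, `OfDirectSum.zeroIn`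
(`H1/InstC4`), for the cocycles of ALL Cech data (`Cech/Datum`) of a NON-principal divisor `D` of
degree `0` of a normalised Kummer pair `(w, D)`, `m D = div w`, `res w = 1`, any `m > 0`.
Context = the variable block of `Cech/TwistH1`.

`exists_sep_datum`: ONE `δ ≠ 0`, uniform in the datum `d`, such that no cocycle `c = cocycle d`
is a near-one coboundary modulo `δ` in the cross-multiplied sense.

Proof: `InjectInstB.not_cocycle_cross_latM` only asks the units to have reduction `1` (not to be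
`≡ 1` modulo the modulus), so `δ := ϖ ^ N₀` for any `ϖ ∈ 𝔪_A`, `ϖ ≠ 0` works.
-/

set_option autoImplicit false
set_option linter.unusedSectionVars false
set_option linter.style.haveILetI false

noncomputable section

namespace Fermat.Agent.S33x.Cech.InjectSepInstB

open AlgebraicCurve Module IntermediateField IsLocalRing
open Fermat.Agent.Gateway.C0 Fermat.Agent.S34x Fermat.Agent.S34x.C0two Fermat.Agent.S34x.Lattice2
open Fermat.Agent.S33x.H1.InstC1 Fermat.Agent.S33x.H1.InstC4 Fermat.Agent.Lib.RiemannRoch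
open Fermat.Agent.S33x.Cech.OfDirectSum Fermat.Agent.S33x.Cech.Datum

variable {K : Type*} [Field K] [IsAlgClosed K] [CharZero K] {A : ValuationSubring K}
  {F : Type*} [Field F] [Algebra K F] {S : SmallRing F}
  {k κ : Type*} [Field k] [CommRing κ] [Algebra k κ] [Nontrivial κ]
  {R : RedSetup2 A S k κ} (C : ChartCoord R)
  (ht : Transcendental K C.t) [FiniteDimensional K⟮C.t⟯ F]
  {Dt : Divisor K F} (hDt : ∀ v : Place K F, Dt v = v.ord C.t)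
  (hcart : ∀ V : Submodule K F, FiniteDimensional K V → (R.lat V).FG)
  [hPfin : ∀ b, FiniteDimensional k (C.Pk 0 b)] {b₀ : ℕ}
  (hgen : ∀ b, b₀ ≤ b → ∀ x ∈ C.Pk 0 (b + 1), ∃ y ∈ C.Pk 0 b, ∃ z ∈ C.Pk 0 b, x = y + C.T * z)
  {m : ℕ} (hm : 0 < m) {w : F} (hw0 : w ≠ 0) (hwO : w ∈ S.O)
  (hw1 : R.res ⟨w, hwO⟩ = 1) {D : Divisor K F}
  (hD : ∀ v : Place K F, (m : ℤ) * D v = v.ord w)

include ht hDt hcart hgen hm hw0 hw1 hD in
/-- **`cyc_sep` at the instance, uniform in the Cech datum.** -/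
theorem exists_sep_datum (hdeg : Divisor.degree D = 0) (hnp : ¬ Divisor.IsPrincipal D) :
    ∃ δ : A, δ ≠ 0 ∧ ∀ (d : CechDatum R Dt D) (c : BxAlg C), (c : F) = d.cocycle →
      ¬ ∃ (voo woo : ooIn (BxAlg C) (BooAlg C)) (v0 w0 : zeroIn (BxAlg C) (BzeroAlg C)),
        CoordB.NearOne (ooIn (BxAlg C) (BooAlg C)) voo ∧
        CoordB.NearOne (ooIn (BxAlg C) (BooAlg C)) woo ∧
        CoordB.NearOne (zeroIn (BxAlg C) (BzeroAlg C)) v0 ∧
        CoordB.NearOne (zeroIn (BxAlg C) (BzeroAlg C)) w0 ∧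
        algebraMap A (BxAlg C) δ ∣ c * voo * v0 - woo * w0 := by
  haveI := isSeparable_adjoin_of_charZero (K := K) C.t
  obtain ⟨ϖ, hϖ, hϖ0⟩ := R.base.exists_ne_zero
  by_cases hne : Nonempty (CechDatum R Dt D)
  swap
  · exact ⟨ϖ, hϖ0, fun d => (hne ⟨d⟩).elim⟩
  obtain ⟨d₀⟩ := hne
  have hSC : ∀ (b : ℕ) (f : F) (hf : f ∈ S.O), f ∈ (TwoCharts.ofDivisor Dt).LN 0 b →
      R.res ⟨f, hf⟩ ∈ C.Pk 0 b := by
    intro b f hf hfL
    rw [LN_eq C ht hDt] at hfL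
    exact C.SC 0 b f hf hfL
  have hrad : ∀ (b : ℕ) (x : κ), x ^ m ∈ C.Pk 0 (m * b) → x ∈ C.Pk 0 b := by
    intro b x hx
    refine twoPole_radical hm 0 b x ?_
    rw [Nat.mul_zero]
    exact hx
  have hone : ∃ (n : ℕ) (g : F) (hg : g ∈ S.O),
      g ∈ (TwoCharts.ofDivisor Dt).LM D 0 n ∧ R.res ⟨g, hg⟩ = 1 := by
    obtain ⟨b, hb⟩ := d₀.hoo_mem
    exact ⟨b, d₀.hoo, hb.2, hb.1, d₀.res_hoo.res_eq hb.2⟩
  have hone' : ∃ (n : ℕ) (g : F) (hg : g ∈ S.O),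
      g ∈ (TwoCharts.ofDivisor Dt).LM D n 0 ∧ R.res ⟨g, hg⟩ = 1 := by
    obtain ⟨a, ha⟩ := d₀.h0_mem
    exact ⟨a, d₀.h0, ha.2, ha.1, d₀.res_h0.res_eq ha.2⟩
  obtain ⟨N₀, hN₀⟩ := InjectInstB.not_cocycle_cross_latM R ht hDt C.t_mem C.tinv_mem hcart (C.Pk 0)
    hgen hSC hrad hw0 hwO hw1 hD hdeg hnp hone hone' hϖ hϖ0
  refine ⟨ϖ ^ N₀, pow_ne_zero _ hϖ0, fun d c hc => ?_⟩
  rintro ⟨voo, woo, v0, w0, hvoo, hwoo, hv0, -, z, hz⟩
  obtain ⟨π₁, hπ₁, rvoo, -, hvoo'⟩ := InjectSep.exists_eq_one_add_of_nearOne _ hvoo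
  obtain ⟨π₂, hπ₂, rwoo, -, hwoo'⟩ := InjectSep.exists_eq_one_add_of_nearOne _ hwoo
  obtain ⟨π₃, hπ₃, rv0, -, hv0'⟩ := InjectSep.exists_eq_one_add_of_nearOne _ hv0
  obtain ⟨b₁, hb₁⟩ := (mem_BooAlg C).mp voo.2
  obtain ⟨b₂, hb₂⟩ := (mem_BooAlg C).mp woo.2
  obtain ⟨a₁, ha₁⟩ := (mem_BzeroAlg C).mp v0.2
  obtain ⟨a₂, ha₂⟩ := (mem_BzeroAlg C).mp w0.2
  obtain ⟨a₃, b₃, hz₃⟩ := (mem_BxAlg' C).mp z.2
  rw [InjectTypedB.Lam_eq_latN C ht hDt] at hb₁ hb₂ ha₁ ha₂ hz₃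
  obtain ⟨b, hb⟩ := d.hoo_mem
  obtain ⟨a, ha⟩ := d.h0_mem
  obtain ⟨a', ha'⟩ := d.h0'_mem
  refine hN₀ N₀ le_rfl (hoo := d.hoo) (h0 := d.h0) (h0' := d.h0') (voo := ((voo : BxAlg C) : F))
    (v0 := ((v0 : BxAlg C) : F)) (woo := ((woo : BxAlg C) : F)) (w0 := ((w0 : BxAlg C) : F))
    (r := (z : F)) hb (d.res_hoo.res_eq hb.2) ha ha' (d.h0_mul_h0'_resOne.res_eq _)
    hb₁ (InjectTypedB.res_eq_one_of_eq_one_add R hb₁.2 (mem_O_of_mem_BxAlg C rvoo.2) hπ₁ hvoo')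
    ha₁ (InjectTypedB.res_eq_one_of_eq_one_add R ha₁.2 (mem_O_of_mem_BxAlg C rv0.2) hπ₃ hv0')
    hb₂ (InjectTypedB.res_eq_one_of_eq_one_add R hb₂.2 (mem_O_of_mem_BxAlg C rwoo.2) hπ₂ hwoo')
    ha₂ hz₃ ?_
  have h := congrArg (Subtype.val : BxAlg C → F) hz
  rw [Subalgebra.coe_sub, Subalgebra.coe_mul, Subalgebra.coe_mul, Subalgebra.coe_mul,
    Subalgebra.coe_mul, Subalgebra.coe_algebraMap, hc] at h
  rw [CechDatum.cocycle] at h
  rw [h, Algebra.smul_def]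

end Fermat.Agent.S33x.Cech.InjectSepInstB
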