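/-
P-S33, LAYER 2, leaf (I6) (helper73): the ABSTRACT ASSEMBLY of the approximate Cech coordinates on
a finite group of classes with normalised Kummer data.

Context = the bundle `CtxMq.Ctx R C p q x Dt` (helper43) of a two-component special fibre `E × E`,
`T̄ = (x, x ^ q)`, residue characteristic `p`; chart rings `BxAlg C`, `BooAlg C`, `BzeroAlg C`
(`H1/InstC4`, helper50), cocycles `CycKm.CycB C Dt m ξ` (helper49), separation
`InjectSepInstB.exists_sep_datum` (helper63), abstract assembly `Coord.exists_charts_of_cyc`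
(helper8).

`exists_charts_abs`: for a finite abelian group `X` with an injective additive map
`φ : X →+ Pic0 K F` whose values have normalised Kummer data of exponent `p ^ e`, a direct-sum
decomposition `Hds` of the chart rings, a universal group law `hG` over a ring `W`, operators
`σA`, `σB`, `σX` (the inertia group) compatible with everything, the relation hypothesis `hrel`
(two cocycles of one class differ by near-one coboundaries; leaf I2) and the Galois hypothesis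
`hgal` (leaf I3): the conclusion of `Coord.exists_charts_of_cyc` with `p := (p : A)`.
-/
import Fermat.Agent.S33x.Cech.Coord
import Fermat.Agent.S33x.Cech.CycKm
import Fermat.Agent.S33x.Cech.CtxMq
import Fermat.Agent.S33x.Cech.InjectSepInstB

set_option autoImplicit false
set_option linter.unusedSectionVars false
set_option linter.style.haveILetI false

noncomputable section

namespace Fermat.Agent.S33x.Cech.InstAbs

open AlgebraicCurve Module IntermediateField IsLocalRing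
open Fermat.Agent.Gateway.C0 Fermat.Agent.S34x Fermat.Agent.S34x.C0two Fermat.Agent.S34x.Lattice2
open Fermat.Agent.S33x.H1.InstC1 Fermat.Agent.S33x.H1.InstC4
open Fermat.Agent.S33x.Cech Fermat.Agent.S33x.Cech.OfDirectSum Fermat.Agent.S33x.Cech.Datum
open Fermat.Agent.S33x.Cech.CycKm Fermat.Agent.S33x.Cech.CtxMq Fermat.Agent.S33x.Cech.Coord

/-! ### The small elements of a valuation ring -/

section Small

variable {A : Type*} [CommRing A] [IsDomain A] [ValuationRing A] [IsLocalRing A]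

/-- the nonzero elements of the maximal ideal -/
def smA (A : Type*) [CommRing A] [IsLocalRing A] : Set A := {ε | ε ∈ maximalIdeal A ∧ ε ≠ 0}

theorem smA_le {ε : A} (h : ε ∈ smA A) : ε ∈ maximalIdeal A := h.1

theorem htot_smA (x y : A) : x ∣ y ∨ y ∣ x := ValuationRing.dvd_total x y

theorem hgcd_smA : ∀ ε ∈ smA A, ∀ ε' ∈ smA A, ∃ δ ∈ smA A, δ ∣ ε ∧ δ ∣ ε' := by
  intro ε hε ε' hε'
  rcases ValuationRing.dvd_total ε ε' with h | h
  · exact ⟨ε, hε, dvd_rfl, h⟩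
  · exact ⟨ε', hε', h, dvd_rfl⟩

theorem hrank_smA (hrk : ∀ x ∈ maximalIdeal A, ∀ c : A, c ≠ 0 → ∃ j : ℕ, c ∣ x ^ j) {p : A}
    (hp0 : p ≠ 0) : ∀ ε ∈ smA A, ∃ k : ℕ, p ∣ ε ^ k :=
  fun ε hε => hrk ε hε.1 p hp0

variable {B : Type*} [CommRing B] [Algebra A B]

/-- a near-one unit is `≡ 1` modulo every small element dividing its own modulus (or modulo every
small element if its modulus is zero). -/
theorem exists_smA_dvd_of_nearOne {S : Subalgebra A B} {r : S} (hr : CoordB.NearOne S r)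
    {ε : A} (hε : ε ∈ smA A) : ∃ δ ∈ smA A, δ ∣ ε ∧ algebraMap A S δ ∣ r - 1 := by
  obtain ⟨π, hπ, hπr⟩ := hr
  by_cases h0 : π = 0
  · refine ⟨ε, hε, dvd_rfl, ?_⟩
    rw [h0, map_zero, zero_dvd_iff] at hπr
    rw [hπr]
    exact dvd_zero _
  · obtain ⟨δ, hδ, h1, h2⟩ := hgcd_smA ε hε π ⟨hπ, h0⟩
    exact ⟨δ, hδ, h1, (map_dvd (algebraMap A S) h2).trans hπr⟩

/-- four near-one units and an exact cross-multiplied identity give `Rel .. 0`. -/
theorem rel_zero_of_nearOne (hne : (smA A).Nonempty) {Boo B0 : Subalgebra A B} {c c' : B}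
    {Eoo Goo : Boo} {E0 G0 : B0}
    (h1 : CoordB.NearOne Boo Eoo) (h2 : CoordB.NearOne Boo Goo) (h3 : CoordB.NearOne B0 E0)
    (h4 : CoordB.NearOne B0 G0) (h : c' * Eoo * E0 = c * Goo * G0) :
    Rel Boo B0 (smA A) 0 c' c := by
  obtain ⟨ε₀, hε₀⟩ := hne
  obtain ⟨δ₁, hδ₁, -, k1⟩ := exists_smA_dvd_of_nearOne h1 hε₀
  obtain ⟨δ₂, hδ₂, d2, k2⟩ := exists_smA_dvd_of_nearOne h2 hδ₁
  obtain ⟨δ₃, hδ₃, d3, k3⟩ := exists_smA_dvd_of_nearOne h3 hδ₂
  obtain ⟨δ₄, hδ₄, d4, k4⟩ := exists_smA_dvd_of_nearOne h4 hδ₃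
  refine ⟨δ₄, hδ₄, Eoo, Goo, E0, G0,
    (map_dvd (algebraMap A Boo) ((d4.trans d3).trans d2)).trans k1,
    (map_dvd (algebraMap A Boo) (d4.trans d3)).trans k2,
    (map_dvd (algebraMap A B0) d4).trans k3, k4, ?_⟩
  rw [h, sub_self]
  exact dvd_zero _

/-- `Rel` modulo `q` gives the cross-multiplied near-one coboundary relation modulo any divisor of
`q`. -/
theorem nearOne_of_rel {Boo B0 : Subalgebra A B} {q δ : A} (hδ : δ ∣ q) {c : B}
    (h : Rel Boo B0 (smA A) q c 1) :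
    ∃ (voo woo : Boo) (v0 w0 : B0), CoordB.NearOne Boo voo ∧ CoordB.NearOne Boo woo ∧
      CoordB.NearOne B0 v0 ∧ CoordB.NearOne B0 w0 ∧ algebraMap A B δ ∣ c * voo * v0 - woo * w0 := by
  obtain ⟨ε, hε, r, r', s, s', h1, h2, h3, h4, h5⟩ := h
  refine ⟨r, r', s, s', ⟨ε, hε.1, h1⟩, ⟨ε, hε.1, h2⟩, ⟨ε, hε.1, h3⟩, ⟨ε, hε.1, h4⟩, ?_⟩
  have h6 := (map_dvd (algebraMap A B) hδ).trans h5
  rwa [one_mul] at h6

end Small

/-! ### The assembly -/

section Main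

variable {K : Type*} [Field K] [IsAlgClosed K] [CharZero K] {A : ValuationSubring K}
  {F : Type*} [Field F] [Algebra K F] {S : SmallRing F}
  {k : Type*} [Field k] [IsAlgClosed k] {E : Type*} [Field E] [Algebra k E]
  {R : RedSetup2 A S k (E × E)} {C : ChartCoord R} {p q : ℕ} {x : E} {Dt : Divisor K F}

/-- `A` acts faithfully on `F`. -/
theorem faithfulSMul_A : FaithfulSMul A F := by
  rw [faithfulSMul_iff_algebraMap_injective]
  intro a b hab
  have h1 : algebraMap K F (a : K) = algebraMap K F (b : K) := hab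
  exact Subtype.ext ((algebraMap K F).injective h1)

/-- every normalised Kummer pair of exponent `p ^ e` has a Cech datum (LAYER 1, abstract form). -/
theorem nonempty_cechDatum (h : Ctx R C p q x Dt) {e : ℕ} {ξ : Pic0 K F} {w : F}
    {D : Divisor K F} (hd : IsData R (p ^ e) ξ w D) : Nonempty (CechDatum R Dt D) := by
  haveI := h.fin_x
  haveI := h.sep_x
  haveI := h.fin_t
  haveI : Fact p.Prime := ⟨h.hp⟩
  haveI := h.charP
  obtain ⟨r, hr, hN1⟩ := h.hN1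
  obtain ⟨r₀, hr₀, hN1₀⟩ := h.hN1₀
  exact nonempty_cechDatum_of_prod h.hx h.hq C h.hT h.ht h.hDt h.hn h.hcart h.hL2 h.hL2₀ h.he
    h.he₀ hr hN1 hr₀ hN1₀ p hd.ne_zero hd.mem_O hd.inv_mem_O hd.res_eq hd.ord

/-- **`cyc_ne`** in the abstract context. -/
theorem cycB_nonempty (h : Ctx R C p q x Dt) {e : ℕ} {ξ : Pic0 K F}
    (hξ : ∃ (w : F) (D : Divisor K F), IsData R (p ^ e) ξ w D) :
    (CycB C Dt (p ^ e) ξ).Nonempty := by
  haveI := h.fin_t
  haveI := h.isSeparable_t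
  obtain ⟨w, D, hd⟩ := hξ
  obtain ⟨d⟩ := nonempty_cechDatum h hd
  obtain ⟨c', hc', -⟩ := exists_cycB_of_mem_cyc C h.ht h.hDt (cocycle_mem_cyc hd d)
  exact ⟨c', hc'⟩

/-- **`cyc_sep`** for a nonzero class, in `Rel` form: some cocycle of the class is not a near-one
coboundary modulo a power of `p`. -/
theorem exists_not_rel (h : Ctx R C p q x Dt)
    (hrk : ∀ x ∈ maximalIdeal A, ∀ c : A, c ≠ 0 → ∃ j : ℕ, c ∣ x ^ j)
    (hpm : (p : A) ∈ maximalIdeal A) {e : ℕ} {ξ : Pic0 K F} (hξ0 : ξ ≠ 0)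
    {c : BxAlg C} (hc : c ∈ CycB C Dt (p ^ e) ξ) :
    ∃ N0 : ℕ, ¬ Rel (ooIn (BxAlg C) (BooAlg C)) (zeroIn (BxAlg C) (BzeroAlg C)) (smA A)
      ((p : A) ^ N0) c 1 := by
  haveI := h.fin_t
  haveI : ∀ b, FiniteDimensional k (C.Pk 0 b) := fun b => h.finite_Pk 0 b
  obtain ⟨b₀, hgen⟩ := h.exists_hgen
  obtain ⟨w, D, hd, d, hdc⟩ := hc
  have hdeg : Divisor.degree D = 0 := Divisor.mem_degZero.mp hd.degZero
  have hnp : ¬ Divisor.IsPrincipal D := by
    intro hP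
    apply hξ0
    rw [← hd.mk_eq, Fermat.Agent.Gateway.Kummer.mk_eq_zero_iff]
    exact hP
  have hm : 0 < p ^ e := pow_pos h.hp.pos e
  obtain ⟨δ, hδ0, hδ⟩ := InjectSepInstB.exists_sep_datum C h.ht h.hDt h.hcart hgen hm hd.ne_zero
    hd.mem_O hd.res_eq hd.ord hdeg hnp
  obtain ⟨N0, hN0⟩ := hrk (p : A) hpm δ hδ0
  refine ⟨N0, fun hrel => hδ d c hdc.symm (nearOne_of_rel hN0 hrel)⟩

/-- **The abstract assembly at the instance.** -/
theorem exists_charts_abs (h : Ctx R C p q x Dt)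
    (hrk : ∀ x ∈ maximalIdeal A, ∀ c : A, c ≠ 0 → ∃ j : ℕ, c ∣ x ^ j)
    (hpm : (p : A) ∈ maximalIdeal A) (e : ℕ)
    {X : Type*} [AddCommGroup X] [Finite X] (φ : X →+ Pic0 K F) (hφ : Function.Injective φ)
    (hdata : ∀ y, ∃ (w : F) (D : Divisor K F), IsData R (p ^ e) (φ y) w D)
    {g : ℕ} {a : Fin g → F} (Hds : DirectSum (BxAlg C) (BooAlg C) (BzeroAlg C) a)
    {W : Type*} [CommRing W] [Algebra W A]
    (hG : ∀ N : ℕ, ∃ Φ : Fin g → MvPolynomial (Fin g ⊕ Fin g) W,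
      IsLaw (ooIn (BxAlg C) (BooAlg C)) (zeroIn (BxAlg C) (BzeroAlg C)) (aIn Hds) (smA A) Φ N)
    {Γ : Type*} (σA : Γ → A →+* A) (σB : Γ → BxAlg C →+* BxAlg C) (σX : Γ → X → X)
    (hσ : ∀ γ (c : A), σB γ (algebraMap A (BxAlg C) c) = algebraMap A (BxAlg C) (σA γ c))
    (hσoo : ∀ γ, ∀ b ∈ ooIn (BxAlg C) (BooAlg C), σB γ b ∈ ooIn (BxAlg C) (BooAlg C))
    (hσ0 : ∀ γ, ∀ b ∈ zeroIn (BxAlg C) (BzeroAlg C), σB γ b ∈ zeroIn (BxAlg C) (BzeroAlg C))
    (hσa : ∀ γ i, σB γ (aIn Hds i) = aIn Hds i)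
    (hσdvd : ∀ γ (ε : A), ε ∣ σA γ ε)
    (hrel : ∀ ξ : Pic0 K F, ∀ c ∈ CycB C Dt (p ^ e) ξ, ∀ c' ∈ CycB C Dt (p ^ e) ξ,
      ∃ (Eoo Goo : ooIn (BxAlg C) (BooAlg C)) (E0 G0 : zeroIn (BxAlg C) (BzeroAlg C)),
        CoordB.NearOne (ooIn (BxAlg C) (BooAlg C)) Eoo ∧
        CoordB.NearOne (ooIn (BxAlg C) (BooAlg C)) Goo ∧
        CoordB.NearOne (zeroIn (BxAlg C) (BzeroAlg C)) E0 ∧
        CoordB.NearOne (zeroIn (BxAlg C) (BzeroAlg C)) G0 ∧ c' * Eoo * E0 = c * Goo * G0)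
    (hgal : ∀ γ y, ∀ c ∈ CycB C Dt (p ^ e) (φ y), σB γ c ∈ CycB C Dt (p ^ e) (φ (σX γ y))) :
    ∃ c0 : ℕ, ∀ n : ℕ, ∃ t : X → Fin g → A,
      (∃ ϖ ∈ smA A, ∀ x i, ϖ ∣ t x i) ∧
      (∀ γ x i, (p : A) ^ n ∣ t (σX γ x) i - σA γ (t x i)) ∧
      (∃ Φ : Fin g → MvPolynomial (Fin g ⊕ Fin g) W, ∀ x y i,
        (p : A) ^ n ∣ t (x + y) i - MvPolynomial.aeval (Sum.elim (t x) (t y)) (Φ i)) ∧
      (∀ x y, x ≠ y → ∃ i, ¬ (p : A) ^ c0 ∣ t x i - t y i) := by
  haveI := h.fin_t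
  haveI := h.isSeparable_t
  haveI : FaithfulSMul A F := faithfulSMul_A
  have hp0 : (p : A) ≠ 0 := by
    intro h0
    have h1 : ((p : A) : K) = 0 := by rw [h0]; rfl
    have h2 : (p : K) = 0 := by
      rw [← h1]
      push_cast
      rfl
    exact h.hp.ne_zero (Nat.cast_eq_zero.mp h2)
  have hne : (smA A).Nonempty := ⟨(p : A), hpm, hp0⟩
  refine exists_charts_of_cyc (sm := smA A) htot_smA hgcd_smA (p : A) (hrank_smA hrk hp0)
    (OfDirectSum.decomp Hds) (fun ε hε => OfDirectSum.satData Hds hε.2) hG σA σB σX hσ hσoo hσ0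
    hσa (fun γ ε _ => hσdvd γ ε) (fun y => CycB C Dt (p ^ e) (φ y))
    (fun y => cycB_nonempty h (hdata y)) ?_ ?_ ?_ ?_ hgal ?_
  · intro y c hc
    obtain ⟨π, hπ, hπ0, hπc⟩ := cycB_one C h.ht h.hDt hc
    exact ⟨π, ⟨hπ, hπ0⟩, hπc⟩
  · show (1 : BxAlg C) ∈ CycB C Dt (p ^ e) (φ 0)
    rw [map_zero]
    exact cycB_zero C
  · intro y y' c hc c' hc'
    show c * c' ∈ CycB C Dt (p ^ e) (φ (y + y'))
    rw [map_add]
    exact cycB_mul C hc hc'
  · intro y c hc c' hc'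
    obtain ⟨Eoo, Goo, E0, G0, h1, h2, h3, h4, h5⟩ := hrel (φ y) c' hc' c hc
    exact rel_zero_of_nearOne hne h1 h2 h3 h4 h5
  · intro y hy
    obtain ⟨c, hc⟩ := cycB_nonempty h (hdata y)
    have hξ0 : φ y ≠ 0 := fun h0 => hy (hφ (by rw [h0, map_zero]))
    obtain ⟨N0, hN0⟩ := exists_not_rel h hrk hpm hξ0 hc
    exact ⟨c, hc, N0, hN0⟩

end Main

end Fermat.Agent.S33x.Cech.InstAbs
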