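import Fermat.Agent.S34x.C0two.Count
import Fermat.Agent.Gateway.C0.DivSide

/-!
# P-S33, LAYER 2, leaf (L2-B2), independent second (helper58): change of Kummer datum

`R : C0two.RedSetup2 A S k κ` (S34x): a small ring `S = (O, I)` of `F ⊇ K` over the valuation
subring `A` of `K`, with residue RING `κ` (for us `κ = κ_∞ × κ_0`, reduced, of characteristic `p`).

* `mem_of_algebraMap_mem` : `S.O ∩ K = A`;
* `res_eq_one_of_pow` : in a reduced ring of characteristic `p`, `y ^ p ^ n = 1 → y = 1`;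
* `exists_kummer_normalise` : **Kummer normalisation**.  If `e = λ • f0 ^ (p ^ n)` is a unit of `S.O`
  with reduction `1`, then a constant multiple `f = μ • f0` of `f0` is a unit of `S.O` with
  reduction `1`.
* `exists_change` : two normalised Kummer pairs `(D, w)`, `(D', w')` of exponent `p ^ m` of the same
  class differ by `D' = D + div f` with `f` a unit of `S.O` of reduction `1`;
* `cocycle_identity` : the field identity comparing the Cech cocycles of two normalised data of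
  the same class; `Goo_mem_lat`, `Gzero_mem_lat` : the two coboundary factors lie in
  `L((b + b') C_∞) ∩ S.O`, `L((a + a') C_0) ∩ S.O` and have reduction `1`.
-/

set_option autoImplicit false
set_option linter.unusedSectionVars false

namespace Fermat.Agent.S33x.Cech.ChangeDatumB

open IsLocalRing AlgebraicCurve Fermat.Agent.S34x.C0two Fermat.Agent.Gateway.C0

section Abstract

variable {K : Type*} [Field K] {A : ValuationSubring K} {F : Type*} [Field F] [Algebra K F]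
  {S : SmallRing F} {k κ : Type*} [Field k] [CommRing κ] [Algebra k κ]
  (R : RedSetup2 A S k κ)

/-- In a reduced ring of characteristic `p`, a `p ^ n`-th root of `1` is `1`. -/
theorem eq_one_of_pow_eq_one {κ : Type*} [CommRing κ] [IsReduced κ] (p : ℕ) [Fact p.Prime]
    [CharP κ p] {y : κ} {n : ℕ} (h : y ^ p ^ n = 1) : y = 1 := by
  have h1 : (y - 1) ^ p ^ n = 0 := by
    rw [sub_pow_char_pow, h, one_pow, sub_self]
  have h2 : IsNilpotent (y - 1) := ⟨p ^ n, h1⟩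
  exact sub_eq_zero.mp h2.eq_zero

include R in
/-- `S.O ∩ K = A`. -/
theorem mem_of_algebraMap_mem [Nontrivial κ] {c : K} (hc : algebraMap K F c ∈ S.O) : c ∈ A := by
  by_contra hcA
  have hc0 : c ≠ 0 := fun h => hcA (h ▸ A.zero_mem)
  have hci : c⁻¹ ∈ A := (A.mem_or_inv_mem c).resolve_left hcA
  have hcm : (⟨c⁻¹, hci⟩ : A) ∈ maximalIdeal A := by
    rw [mem_maximalIdeal, mem_nonunits_iff]
    intro hu
    obtain ⟨d, hd⟩ := hu.exists_right_inv
    have hd' : c⁻¹ * (d : K) = 1 := by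
      have := congrArg Subtype.val hd
      simpa using this
    have hdc : (d : K) = c := by
      field_simp at hd'
      exact hd'
    exact hcA (hdc ▸ d.2)
  have hsm : Small S (algebraMap K F c⁻¹) := R.base.algebraMap_small ⟨c⁻¹, hci⟩ hcm
  have h1 : Small S (algebraMap K F c * algebraMap K F c⁻¹) := Small.mul_left hc hsm
  rw [← map_mul, mul_inv_cancel₀ hc0, map_one] at h1
  have h2 := (R.small_iff S.O.one_mem).mp h1
  have h3 : (⟨1, S.O.one_mem⟩ : S.O) = 1 := rfl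
  rw [h3, map_one] at h2
  exact one_ne_zero h2

include R in
/-- **Kummer normalisation.**  `κ` reduced of characteristic `p`, `k` has `p ^ n`-th roots.  If
`e = lam • f0 ^ (p ^ n)` is a unit of `S.O` with reduction `1`, then some constant multiple
`mu • f0` of `f0` is a unit of `S.O` with reduction `1`. -/
theorem exists_kummer_normalise [Nontrivial κ] [IsReduced κ] (p : ℕ) [Fact p.Prime] [CharP κ p]
    (n : ℕ) (hroot : ∀ x : k, ∃ y : k, y ^ p ^ n = x)
    {f0 : F} (hf0 : f0 ≠ 0) {lam : K} (hlam : lam ≠ 0)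
    (he : lam • f0 ^ p ^ n ∈ S.O) (hei : (lam • f0 ^ p ^ n)⁻¹ ∈ S.O)
    (hres : R.res ⟨lam • f0 ^ p ^ n, he⟩ = 1) :
    ∃ mu : K, mu ≠ 0 ∧ ∃ hf : mu • f0 ∈ S.O, (mu • f0)⁻¹ ∈ S.O ∧ R.res ⟨mu • f0, hf⟩ = 1 := by
  classical
  have hq0 : p ^ n ≠ 0 := pow_ne_zero _ (Fact.out : p.Prime).ne_zero
  generalize hq : p ^ n = q at *
  obtain ⟨mu0, hmu0, hgO, hgns⟩ := R.scal f0 hf0
  have hf0q : f0 ^ q ≠ 0 := pow_ne_zero _ hf0
  have he0 : lam • f0 ^ q ≠ 0 := by
    rw [Algebra.smul_def]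
    exact mul_ne_zero ((map_ne_zero _).mpr hlam) hf0q
  -- the constant `α = mu0 ^ q / lam`
  have hα0 : mu0 ^ q / lam ≠ 0 := div_ne_zero (pow_ne_zero _ hmu0) hlam
  have hgq : (mu0 • f0) ^ q = algebraMap K F (mu0 ^ q / lam) * (lam • f0 ^ q) := by
    rw [smul_pow, Algebra.smul_def, Algebra.smul_def, ← mul_assoc, ← map_mul,
      div_mul_cancel₀ _ hlam]
  have hαO : algebraMap K F (mu0 ^ q / lam) ∈ S.O := by
    have h1 : algebraMap K F (mu0 ^ q / lam) = (mu0 • f0) ^ q * (lam • f0 ^ q)⁻¹ := by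
      rw [hgq, mul_assoc, mul_inv_cancel₀ he0, mul_one]
    rw [h1]
    exact S.O.mul_mem (S.O.pow_mem hgO q) hei
  have hαA : mu0 ^ q / lam ∈ A := mem_of_algebraMap_mem R hαO
  -- residues
  have hresg : R.res ⟨mu0 • f0, hgO⟩ ≠ 0 := fun h => hgns ((R.small_iff hgO).mpr h)
  have hresgq : R.res ⟨mu0 • f0, hgO⟩ ^ q = algebraMap k κ (R.π ⟨mu0 ^ q / lam, hαA⟩) := by
    rw [← map_pow]
    have h1 : (⟨mu0 • f0, hgO⟩ : S.O) ^ q
        = ⟨algebraMap K F (mu0 ^ q / lam), hαO⟩ * ⟨lam • f0 ^ q, he⟩ :=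
      Subtype.ext (by simpa using hgq)
    rw [h1, map_mul, hres, mul_one]
    exact R.res_algebraMap ⟨mu0 ^ q / lam, hαA⟩
  have hπα : R.π ⟨mu0 ^ q / lam, hαA⟩ ≠ 0 := by
    intro h
    rw [h, map_zero] at hresgq
    exact hresg (IsNilpotent.eq_zero ⟨q, hresgq⟩)
  -- `α` is a unit of `A`
  have hαu : IsUnit (⟨mu0 ^ q / lam, hαA⟩ : A) := by
    by_contra hnu
    exact hπα ((R.π_eq_zero_iff _).mpr ((mem_maximalIdeal _).mpr (mem_nonunits_iff.mpr hnu)))
  obtain ⟨αinv, hαinv⟩ := hαu.exists_right_inv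
  -- a `q`-th root `β` of `α` modulo the maximal ideal
  obtain ⟨βbar, hβbar⟩ := hroot (R.π ⟨mu0 ^ q / lam, hαA⟩)
  obtain ⟨β, hβ⟩ := R.π_surj βbar
  have hπβ : R.π β ≠ 0 := by
    intro h
    rw [hβ] at h
    rw [h, zero_pow hq0] at hβbar
    exact hπα hβbar.symm
  have hβu : IsUnit β := by
    by_contra hnu
    exact hπβ ((R.π_eq_zero_iff _).mpr ((mem_maximalIdeal _).mpr (mem_nonunits_iff.mpr hnu)))
  obtain ⟨βinv, hβinv⟩ := hβu.exists_right_inv
  have hβinvK : (β : K) * (βinv : K) = 1 := by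
    have := congrArg Subtype.val hβinv
    simpa using this
  have hβ0 : (β : K) ≠ 0 := left_ne_zero_of_mul_eq_one hβinvK
  have hβinv0 : (βinv : K) ≠ 0 := right_ne_zero_of_mul_eq_one hβinvK
  have hαinvK : (mu0 ^ q / lam) * (αinv : K) = 1 := by
    have := congrArg Subtype.val hαinv
    simpa using this
  -- the normalised function
  have hfeq : ((βinv : K) * mu0) • f0 = algebraMap K F (βinv : K) * (mu0 • f0) := by
    rw [mul_smul, Algebra.smul_def (βinv : K)]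
  have hfO : ((βinv : K) * mu0) • f0 ∈ S.O := by
    rw [hfeq]
    exact S.O.mul_mem (R.algebraMap_mem βinv) hgO
  refine ⟨(βinv : K) * mu0, mul_ne_zero hβinv0 hmu0, hfO, ?_, ?_⟩
  · -- the inverse
    have hfq : (((βinv : K) * mu0) • f0) ^ q
        = algebraMap K F ((βinv : K) ^ q * (mu0 ^ q / lam)) * (lam • f0 ^ q) := by
      rw [hfeq, mul_pow, hgq, ← map_pow, ← mul_assoc, ← map_mul]
    have hcK : ((β ^ q * αinv : A) : K) = (β : K) ^ q * (αinv : K) := by push_cast; rfl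
    have hone : (βinv : K) ^ q * (mu0 ^ q / lam) * ((β : K) ^ q * (αinv : K)) = 1 := by
      calc (βinv : K) ^ q * (mu0 ^ q / lam) * ((β : K) ^ q * (αinv : K))
          = ((β : K) * (βinv : K)) ^ q * ((mu0 ^ q / lam) * (αinv : K)) := by ring
        _ = 1 := by rw [hβinvK, hαinvK, one_pow, mul_one]
    have hmul : ((βinv : K) * mu0) • f0
        * ((((βinv : K) * mu0) • f0) ^ (q - 1)
          * (algebraMap K F (((β ^ q * αinv : A) : K)) * (lam • f0 ^ q)⁻¹)) = 1 := by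
      rw [← mul_assoc, mul_pow_sub_one hq0, hfq, hcK]
      generalize (βinv : K) ^ q * (mu0 ^ q / lam) = a at hone ⊢
      generalize (β : K) ^ q * (αinv : K) = b at hone ⊢
      calc algebraMap K F a * (lam • f0 ^ q) * (algebraMap K F b * (lam • f0 ^ q)⁻¹)
          = algebraMap K F (a * b) * ((lam • f0 ^ q) * (lam • f0 ^ q)⁻¹) := by
            rw [map_mul]; ring
        _ = 1 := by rw [hone, map_one, mul_inv_cancel₀ he0, mul_one]
    rw [inv_eq_of_mul_eq_one_right hmul]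
    exact S.O.mul_mem (S.O.pow_mem hfO _) (S.O.mul_mem (R.algebraMap_mem _) hei)
  · -- the residue
    have h1 : (⟨((βinv : K) * mu0) • f0, hfO⟩ : S.O)
        = ⟨algebraMap K F (βinv : K), R.algebraMap_mem βinv⟩ * ⟨mu0 • f0, hgO⟩ :=
      Subtype.ext hfeq
    have h3 : R.π βinv ^ q * R.π β ^ q = 1 := by
      rw [← mul_pow, ← map_mul, mul_comm, hβinv, map_one, one_pow]
    have h2 : R.res ⟨((βinv : K) * mu0) • f0, hfO⟩ ^ q = 1 := by
      rw [h1, map_mul, R.res_algebraMap, mul_pow, hresgq, ← map_pow, ← map_mul, ← hβbar, ← hβ,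
        h3, map_one]
    rw [← hq] at h2
    exact eq_one_of_pow_eq_one p h2

end Abstract

/-! ### (b) The comparison identity -/

section Identity

variable {K : Type*} [Field K] {F : Type*} [Field F] [Algebra K F]

/-- **The cocycle identity** (a field identity).  For two data `(hoo, h0, hoo', h0')` of `D` and
`(too, t0, too', t0')` of `D + div f`, with cocycles `c = hoo * h0'`, `c~ = too * t0'`:
`c~ * (hoo * hoo') * (h0 * h0') = c * (f * too * hoo') * (t0' * h0 * f⁻¹)`. -/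
theorem cocycle_identity {f : F} (hf : f ≠ 0) (hoo h0 hoo' h0' too t0' : F) :
    (too * t0') * (hoo * hoo') * (h0 * h0')
      = (hoo * h0') * (f * too * hoo') * (t0' * h0 * f⁻¹) := by
  field_simp

variable (T : TwoCharts K F)

/-- `f` with `D' = D + div f` lies in `L(D - D')`. -/
theorem mem_rrs_sub_of_ord {D D' : Divisor K F} {f : F} (hf : f ≠ 0)
    (hDD' : ∀ v : Place K F, D' v = D v + v.ord f) : f ∈ riemannRochSpace (D - D') := by
  intro v
  rw [adicValuation_eq_exp_neg_ord v hf, Finsupp.sub_apply, hDD' v]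
  apply le_of_eq
  congr 1
  ring

/-- `f⁻¹` with `D' = D + div f` lies in `L(D' - D)`. -/
theorem inv_mem_rrs_sub_of_ord {D D' : Divisor K F} {f : F} (hf : f ≠ 0)
    (hDD' : ∀ v : Place K F, D' v = D v + v.ord f) : f⁻¹ ∈ riemannRochSpace (D' - D) := by
  intro v
  rw [adicValuation_eq_exp_neg_ord v (inv_ne_zero hf), Place.ord_inv, Finsupp.sub_apply, hDD' v]
  apply le_of_eq
  congr 1
  ring

/-- `G_∞ = f * t_∞ * h_∞'` lies in `L((b + b') C_∞)`. -/
theorem Goo_mem_LN {D D' : Divisor K F} {f : F} (hf : f ≠ 0)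
    (hDD' : ∀ v : Place K F, D' v = D v + v.ord f) {b b' : ℕ} {too hoo' : F}
    (htoo : too ∈ T.LM D' 0 b) (hhoo' : hoo' ∈ T.LM (-D) 0 b') :
    f * too * hoo' ∈ T.LN 0 (b + b') := by
  have h1 := mul_mem_rrs (mul_mem_rrs (mem_rrs_sub_of_ord hf hDD') htoo) hhoo'
  have h2 : D - D' + (D' + T.dv 0 b) + (-D + T.dv 0 b') = T.dv (0 + 0) (b + b') := by
    rw [T.dv_add]; abel
  rw [h2] at h1
  exact h1

/-- `G_0 = t_0' * h_0 * f⁻¹` lies in `L((a + a') C_0)`. -/
theorem Gzero_mem_LN {D D' : Divisor K F} {f : F} (hf : f ≠ 0)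
    (hDD' : ∀ v : Place K F, D' v = D v + v.ord f) {a a' : ℕ} {t0' h0 : F}
    (ht0' : t0' ∈ T.LM (-D') a 0) (hh0 : h0 ∈ T.LM D a' 0) :
    t0' * h0 * f⁻¹ ∈ T.LN (a + a') 0 := by
  have h1 := mul_mem_rrs (mul_mem_rrs ht0' hh0) (inv_mem_rrs_sub_of_ord hf hDD')
  have h2 : -D' + T.dv a 0 + (D + T.dv a' 0) + (D' - D) = T.dv (a + a') (0 + 0) := by
    rw [T.dv_add]; abel
  rw [h2] at h1
  exact h1

end Identity

/-! ### Application: two normalised Kummer pairs of the same class -/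

section Change

variable {K : Type*} [Field K] {A : ValuationSubring K} {F : Type*} [Field F] [Algebra K F]
  {S : SmallRing F} {k κ : Type*} [Field k] [CommRing κ] [Algebra k κ]
  (R : RedSetup2 A S k κ)

include R in
/-- the reduction of the inverse of a unit of `S.O` with reduction `1` is `1`. -/
theorem res_inv_eq_one {w : F} (hw : w ≠ 0) (hwO : w ∈ S.O) (hwiO : w⁻¹ ∈ S.O)
    (hwres : R.res ⟨w, hwO⟩ = 1) : R.res ⟨w⁻¹, hwiO⟩ = 1 := by
  have h1 : (⟨w, hwO⟩ : S.O) * ⟨w⁻¹, hwiO⟩ = 1 := Subtype.ext (mul_inv_cancel₀ hw)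
  have h2 := congrArg R.res h1
  rwa [map_mul, hwres, one_mul, map_one] at h2

include R in
/-- the reduction of a product of two elements with reduction `1` is `1`. -/
theorem res_mul_eq_one {x y : F} (hx : x ∈ S.O) (hy : y ∈ S.O) (hxr : R.res ⟨x, hx⟩ = 1)
    (hyr : R.res ⟨y, hy⟩ = 1) : R.res ⟨x * y, S.O.mul_mem hx hy⟩ = 1 := by
  have h1 : (⟨x * y, S.O.mul_mem hx hy⟩ : S.O) = ⟨x, hx⟩ * ⟨y, hy⟩ := rfl
  rw [h1, map_mul, hxr, hyr, one_mul]

theorem ord_pow' (v : Place K F) (f : F) (n : ℕ) : v.ord (f ^ n) = n * v.ord f := by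
  rcases eq_or_ne f 0 with rfl | hf
  · rcases Nat.eq_zero_or_pos n with rfl | hn
    · simp
    · rw [zero_pow hn.ne', Place.ord_zero, mul_zero]
  induction n with
  | zero => simp
  | succ n ih =>
    rw [pow_succ, Place.ord_mul v (pow_ne_zero n hf) hf, ih]
    push_cast
    ring

include R in
/-- **Change of Kummer pair.**  Two Kummer pairs `(D, w)`, `(D', w')` of exponent `p ^ m`, both
normalised (`w`, `w'` units of `S.O` with reduction `1`), with `D' = D + div f0`.  Then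
`D' = D + div f` for a unit `f` of `S.O` with reduction `1`.  `hconst` : functions without zeros and
poles are constant. -/
theorem exists_change [Nontrivial κ] [IsReduced κ] (p : ℕ) [Fact p.Prime] [CharP κ p]
    (m : ℕ) (hroot : ∀ x : k, ∃ y : k, y ^ p ^ m = x)
    (hconst : ∀ g : F, g ≠ 0 → (∀ v : Place K F, v.ord g = 0) → ∃ c : K, g = algebraMap K F c)
    {D D' : Divisor K F} {w w' f0 : F} (hw : w ≠ 0) (hw' : w' ≠ 0) (hf0 : f0 ≠ 0)
    (hD : ∀ v : Place K F, ((p ^ m : ℕ) : ℤ) * D v = v.ord w)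
    (hD' : ∀ v : Place K F, ((p ^ m : ℕ) : ℤ) * D' v = v.ord w')
    (hDD' : ∀ v : Place K F, D' v = D v + v.ord f0)
    (hwO : w ∈ S.O) (hwiO : w⁻¹ ∈ S.O) (hwres : R.res ⟨w, hwO⟩ = 1)
    (hw'O : w' ∈ S.O) (hw'iO : w'⁻¹ ∈ S.O) (hw'res : R.res ⟨w', hw'O⟩ = 1) :
    ∃ f : F, f ≠ 0 ∧ (∀ v : Place K F, D' v = D v + v.ord f) ∧
      ∃ hf : f ∈ S.O, f⁻¹ ∈ S.O ∧ R.res ⟨f, hf⟩ = 1 := by
  have hf0q : f0 ^ p ^ m ≠ 0 := pow_ne_zero _ hf0
  have hden : w * f0 ^ p ^ m ≠ 0 := mul_ne_zero hw hf0q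
  -- `w' / (w f0^q)` has trivial divisor
  have hg0 : w' * (w * f0 ^ p ^ m)⁻¹ ≠ 0 := mul_ne_zero hw' (inv_ne_zero hden)
  have hgord : ∀ v : Place K F, v.ord (w' * (w * f0 ^ p ^ m)⁻¹) = 0 := by
    intro v
    rw [Place.ord_mul v hw' (inv_ne_zero hden), Place.ord_inv, Place.ord_mul v hw hf0q, ord_pow',
      ← hD v, ← hD' v, hDD' v]
    ring
  obtain ⟨c, hc⟩ := hconst _ hg0 hgord
  have hc0 : c ≠ 0 := by
    rintro rfl
    rw [map_zero] at hc
    exact hg0 hc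
  -- `e = c • f0^q = w' / w`
  have he : c • f0 ^ p ^ m = w' * w⁻¹ := by
    rw [Algebra.smul_def, ← hc, mul_inv, mul_assoc, mul_assoc, inv_mul_cancel₀ hf0q, mul_one]
  have heO : c • f0 ^ p ^ m ∈ S.O := by rw [he]; exact S.O.mul_mem hw'O hwiO
  have heiO : (c • f0 ^ p ^ m)⁻¹ ∈ S.O := by
    rw [he, mul_inv, inv_inv]
    exact S.O.mul_mem hw'iO hwO
  have heres : R.res ⟨c • f0 ^ p ^ m, heO⟩ = 1 := by
    have h1 : (⟨c • f0 ^ p ^ m, heO⟩ : S.O) = ⟨w' * w⁻¹, S.O.mul_mem hw'O hwiO⟩ :=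
      Subtype.ext he
    rw [h1]
    exact res_mul_eq_one R hw'O hwiO hw'res (res_inv_eq_one R hw hwO hwiO hwres)
  obtain ⟨mu, hmu, hfO, hfiO, hfres⟩ :=
    exists_kummer_normalise R p m hroot hf0 hc0 heO heiO heres
  refine ⟨mu • f0, ?_, ?_, hfO, hfiO, hfres⟩
  · rw [Algebra.smul_def]
    exact mul_ne_zero ((map_ne_zero _).mpr hmu) hf0
  · intro v
    rw [Algebra.smul_def, Place.ord_mul v ((map_ne_zero _).mpr hmu) hf0,
      Fermat.Agent.S24.ord_algebraMap, zero_add]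
    exact hDD' v

end Change

/-! ### The two coboundary factors `G_∞`, `G_0` in the lattices, with reduction `1` -/

section Lattice

variable {K : Type*} [Field K] {A : ValuationSubring K} {F : Type*} [Field F] [Algebra K F]
  {S : SmallRing F} {k κ : Type*} [Field k] [CommRing κ] [Algebra k κ]
  (R : RedSetup2 A S k κ) (T : TwoCharts K F)

include R in
/-- `G_∞ = f * t_∞ * h_∞' ∈ L((b + b') C_∞) ∩ S.O`, with reduction `1`. -/
theorem Goo_mem_lat {D D' : Divisor K F} {f : F} (hf : f ≠ 0)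
    (hDD' : ∀ v : Place K F, D' v = D v + v.ord f) (hfO : f ∈ S.O) (hfres : R.res ⟨f, hfO⟩ = 1)
    {b b' : ℕ} {too hoo' : F}
    (htoo : too ∈ R.lat (T.LM D' 0 b)) (htoores : R.res ⟨too, htoo.2⟩ = 1)
    (hhoo' : hoo' ∈ R.lat (T.LM (-D) 0 b')) (hhoo'res : R.res ⟨hoo', hhoo'.2⟩ = 1) :
    ∃ h : f * too * hoo' ∈ R.lat (T.LN 0 (b + b')), R.res ⟨f * too * hoo', h.2⟩ = 1 :=
  ⟨⟨Goo_mem_LN T hf hDD' htoo.1 hhoo'.1, S.O.mul_mem (S.O.mul_mem hfO htoo.2) hhoo'.2⟩,
    res_mul_eq_one R (S.O.mul_mem hfO htoo.2) hhoo'.2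
      (res_mul_eq_one R hfO htoo.2 hfres htoores) hhoo'res⟩

include R in
/-- `G_0 = t_0' * h_0 * f⁻¹ ∈ L((a + a') C_0) ∩ S.O`, with reduction `1`. -/
theorem Gzero_mem_lat {D D' : Divisor K F} {f : F} (hf : f ≠ 0)
    (hDD' : ∀ v : Place K F, D' v = D v + v.ord f) (hfO : f ∈ S.O) (hfiO : f⁻¹ ∈ S.O)
    (hfres : R.res ⟨f, hfO⟩ = 1) {a a' : ℕ} {t0' h0 : F}
    (ht0' : t0' ∈ R.lat (T.LM (-D') a 0)) (ht0'res : R.res ⟨t0', ht0'.2⟩ = 1)
    (hh0 : h0 ∈ R.lat (T.LM D a' 0)) (hh0res : R.res ⟨h0, hh0.2⟩ = 1) :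
    ∃ h : t0' * h0 * f⁻¹ ∈ R.lat (T.LN (a + a') 0), R.res ⟨t0' * h0 * f⁻¹, h.2⟩ = 1 :=
  ⟨⟨Gzero_mem_LN T hf hDD' ht0'.1 hh0.1, S.O.mul_mem (S.O.mul_mem ht0'.2 hh0.2) hfiO⟩,
    res_mul_eq_one R (S.O.mul_mem ht0'.2 hh0.2) hfiO
      (res_mul_eq_one R ht0'.2 hh0.2 ht0'res hh0res) (res_inv_eq_one R hf hfO hfiO hfres)⟩

end Lattice

end Fermat.Agent.S33x.Cech.ChangeDatumB
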