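/-
P-S33, LAYER 2, instance leaf (I2), independent second (helper58): `cyc_rel` at the instance.

Vocabulary: `R : RedSetup2 A S k κ`, `C : ChartCoord R`, `Dt = div C.t`,
`Lam C a b = L(a C₀ + b C∞) ∩ S.O` (`H1/InstC1`), chart rings `Bx Boo B0 : Subalgebra A F`
(`BxAlg C`, `BooAlg C`, `BzeroAlg C` of `H1/InstC4` or of `H1/InstBBasic`), the TYPE `B := ↥Bx` with the
charts `ooIn Bx Boo`, `zeroIn Bx B0` (`Cech/OfDirectSum`),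
Cech data `CechDatum R Dt D` with `cocycle d = d.hoo * d.h0'` (`Cech/Datum`).

* `exists_dvd_pair`, `exists_dvd_four` : ONE nonzero `π ∈ 𝔪` dividing finitely many elements of `𝔪`;
* `exists_sub_one_eq_smul` : `x ∈ Lam(a,b)` with `res x = 1` is `1 + ϖ z`, `z ∈ Lam(a,b)`;
* `rel_datum_Lam` : the relation between the cocycles of two data `d` (of `D`) and `d'` (of
  `D' = D + div f`, `f` a unit of `S.O` reducing to `1`), with ONE `π` for the four coboundaries, in `F`;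
* `RelLit Bx Boo B0 c c'` : the architect literal of `cyc_rel` (note `S33-IFACE-L2-B5`) for two
  elements of the TYPE `↥Bx`; `RelLit.coordRel` : the shape `Coord.Rel … 0` of `Cech/Coord.lean`;
* `rel_datum` : `RelLit` for the cocycles of `d`, `d'`, for ANY presentation `Bx Boo B0` of the
  chart rings as subalgebras (both `H1/InstC4` and `H1/InstBBasic` qualify);
* `rel_kummer` : for two NORMALISED Kummer pairs `(w, D)`, `(w', D')` of exponent `p ^ m` whose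
  divisors differ by a principal divisor;
* `rel_pic0` : the same with the hypothesis `Pic0.mk D = Pic0.mk D'`.
-/
import Fermat.Agent.S33x.Cech.ChangeDatumB
import Fermat.Agent.S33x.Cech.Datum
import Fermat.Agent.S33x.Cech.OfDirectSum
import Fermat.Agent.S33x.Cech.Coord
import Fermat.Agent.S33x.H1.InstBBasic
import Fermat.Agent.Gateway.BaseChange.ModularConst

set_option autoImplicit false
set_option linter.unusedSectionVars false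
set_option linter.style.haveILetI false

noncomputable section

namespace Fermat.Agent.S33x.Cech.RelKmB

open AlgebraicCurve Module IntermediateField IsLocalRing
open Fermat.Agent.Gateway.C0 Fermat.Agent.S34x Fermat.Agent.S34x.C0two Fermat.Agent.S34x.Lattice2
open Fermat.Agent.S33x.H1.InstC1
open Fermat.Agent.S33x.Cech.Datum Fermat.Agent.S33x.Cech.OfDirectSum

/-! ### One uniformising element for finitely many -/

section Val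

variable {K : Type*} [Field K] {A : ValuationSubring K}

/-- in a valuation ring, a nonzero `π ∈ 𝔪` and any `ϖ ∈ 𝔪` have a common nonzero divisor in `𝔪`. -/
theorem exists_dvd_pair {π ϖ : A} (hπ : π ∈ maximalIdeal A) (hπ0 : π ≠ 0)
    (hϖ : ϖ ∈ maximalIdeal A) :
    ∃ π' ∈ maximalIdeal A, π' ≠ 0 ∧ π' ∣ π ∧ π' ∣ ϖ := by
  rcases ValuationRing.dvd_total π ϖ with h | h
  · exact ⟨π, hπ, hπ0, dvd_rfl, h⟩
  · refine ⟨ϖ, hϖ, ?_, h, dvd_rfl⟩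
    rintro rfl
    exact hπ0 (zero_dvd_iff.mp h)

/-- ONE nonzero `π ∈ 𝔪` dividing four given elements of `𝔪`. -/
theorem exists_dvd_four {π₀ ϖ₁ ϖ₂ ϖ₃ ϖ₄ : A} (hπ₀ : π₀ ∈ maximalIdeal A) (hπ₀0 : π₀ ≠ 0)
    (h₁ : ϖ₁ ∈ maximalIdeal A) (h₂ : ϖ₂ ∈ maximalIdeal A) (h₃ : ϖ₃ ∈ maximalIdeal A)
    (h₄ : ϖ₄ ∈ maximalIdeal A) :
    ∃ π ∈ maximalIdeal A, π ≠ 0 ∧ π ∣ ϖ₁ ∧ π ∣ ϖ₂ ∧ π ∣ ϖ₃ ∧ π ∣ ϖ₄ := by
  obtain ⟨π₁, hm₁, hn₁, hd₁, hd₁'⟩ := exists_dvd_pair hπ₀ hπ₀0 h₁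
  obtain ⟨π₂, hm₂, hn₂, hd₂, hd₂'⟩ := exists_dvd_pair hm₁ hn₁ h₂
  obtain ⟨π₃, hm₃, hn₃, hd₃, hd₃'⟩ := exists_dvd_pair hm₂ hn₂ h₃
  obtain ⟨π₄, hm₄, hn₄, hd₄, hd₄'⟩ := exists_dvd_pair hm₃ hn₃ h₄
  exact ⟨π₄, hm₄, hn₄, (hd₄.trans hd₃).trans (hd₂.trans hd₁'), hd₄.trans (hd₃.trans hd₂'),
    hd₄.trans hd₃', hd₄'⟩

end Val

/-! ### Elements of the lattices reducing to `1` -/

section Formal

variable {K : Type*} [Field K] {A : ValuationSubring K} {F : Type*} [Field F] [Algebra K F]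
  {S : SmallRing F} {k κ : Type*} [Field k] [CommRing κ] [Algebra k κ]
  {R : RedSetup2 A S k κ} (C : ChartCoord R)

/-- `x ∈ Lam(a,b)` with `res x = 1` is `1 + ϖ z` with `ϖ ∈ 𝔪`, `z ∈ Lam(a,b)`. -/
theorem exists_sub_one_eq_smul {a b : ℕ} {x : F} (hx : x ∈ Lam C a b)
    (h1 : R.res ⟨x, hx.2⟩ = 1) :
    ∃ ϖ ∈ maximalIdeal A, ∃ z ∈ Lam C a b, x - 1 = ϖ • z := by
  have h1m : (1 : F) ∈ Lam C a b := Lam_mono C (Nat.zero_le a) (Nat.zero_le b) (one_mem_Lam C)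
  have hsub : x - 1 ∈ Lam C a b := (Lam C a b).sub_mem hx h1m
  have hres : R.res ⟨x - 1, hsub.2⟩ = 0 := by
    have e : (⟨x - 1, hsub.2⟩ : S.O) = ⟨x, hx.2⟩ - 1 := rfl
    rw [e, map_sub, h1, map_one, sub_self]
  exact Fermat.Agent.S33x.H1.InstBBasic.exists_smul_of_res_eq_zero C hsub hres

/-- change of the uniformising element -/
theorem exists_smul_of_dvd {a b : ℕ} {y z : F} {π ϖ : A} (hz : z ∈ Lam C a b)
    (hy : y = ϖ • z) (hd : π ∣ ϖ) : ∃ z' ∈ Lam C a b, y = π • z' := by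
  obtain ⟨c, rfl⟩ := hd
  exact ⟨c • z, (Lam C a b).smul_mem c hz, by rw [hy, mul_smul]⟩

/-- **Four elements reducing to `1`, ONE uniformising element.** -/
theorem exists_common {b₁ b₂ a₃ a₄ : ℕ} {x₁ x₂ x₃ x₄ : F}
    (hx₁ : x₁ ∈ Lam C 0 b₁) (hr₁ : R.res ⟨x₁, hx₁.2⟩ = 1)
    (hx₂ : x₂ ∈ Lam C 0 b₂) (hr₂ : R.res ⟨x₂, hx₂.2⟩ = 1)
    (hx₃ : x₃ ∈ Lam C a₃ 0) (hr₃ : R.res ⟨x₃, hx₃.2⟩ = 1)
    (hx₄ : x₄ ∈ Lam C a₄ 0) (hr₄ : R.res ⟨x₄, hx₄.2⟩ = 1) :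
    ∃ π ∈ maximalIdeal A, π ≠ 0 ∧ (∃ z ∈ Lam C 0 b₁, x₁ - 1 = π • z) ∧
      (∃ z ∈ Lam C 0 b₂, x₂ - 1 = π • z) ∧ (∃ z ∈ Lam C a₃ 0, x₃ - 1 = π • z) ∧
      (∃ z ∈ Lam C a₄ 0, x₄ - 1 = π • z) := by
  obtain ⟨π₀, hπ₀, hπ₀0⟩ := R.exists_ne_zero
  obtain ⟨ϖ₁, hm₁, z₁, hz₁, e₁⟩ := exists_sub_one_eq_smul C hx₁ hr₁
  obtain ⟨ϖ₂, hm₂, z₂, hz₂, e₂⟩ := exists_sub_one_eq_smul C hx₂ hr₂
  obtain ⟨ϖ₃, hm₃, z₃, hz₃, e₃⟩ := exists_sub_one_eq_smul C hx₃ hr₃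
  obtain ⟨ϖ₄, hm₄, z₄, hz₄, e₄⟩ := exists_sub_one_eq_smul C hx₄ hr₄
  obtain ⟨π, hπ, hπ0, d₁, d₂, d₃, d₄⟩ := exists_dvd_four hπ₀ hπ₀0 hm₁ hm₂ hm₃ hm₄
  exact ⟨π, hπ, hπ0, exists_smul_of_dvd C hz₁ e₁ d₁, exists_smul_of_dvd C hz₂ e₂ d₂,
    exists_smul_of_dvd C hz₃ e₃ d₃, exists_smul_of_dvd C hz₄ e₄ d₄⟩

end Formal

/-! ### The relation between the cocycles of two data, in `F` -/

section Rel

variable {K : Type*} [Field K] [IsAlgClosed K] [CharZero K] {A : ValuationSubring K}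
  {F : Type*} [Field F] [Algebra K F] {S : SmallRing F}
  {k κ : Type*} [Field k] [CommRing κ] [Algebra k κ]
  {R : RedSetup2 A S k κ} (C : ChartCoord R)
  (ht : Transcendental K C.t) [FiniteDimensional K⟮C.t⟯ F] [Algebra.IsSeparable K⟮C.t⟯ F]
  {Dt : Divisor K F} (hDt : ∀ v : Place K F, Dt v = v.ord C.t)

include ht hDt in
/-- **`cyc_rel`, in `F`, lattice form.**  `d` a Cech datum of `D`, `d'` a Cech datum of
`D' = D + div f` with `f` a unit of `S.O` reducing to `1`: the two cocycles differ by coboundaries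
`E∞ = h∞ h∞'`, `E₀ = h₀ h₀'`, `G∞ = f h̃∞ h∞'`, `G₀ = h̃₀' h₀ f⁻¹`, all four `≡ 1` modulo ONE nonzero
`π ∈ 𝔪` in their lattices. -/
theorem rel_datum_Lam {D D' : Divisor K F} (d : CechDatum R Dt D) (d' : CechDatum R Dt D')
    {f : F} (hf : f ≠ 0) (hDD' : ∀ v : Place K F, D' v = D v + v.ord f)
    (hfO : f ∈ S.O) (hfiO : f⁻¹ ∈ S.O) (hfres : R.res ⟨f, hfO⟩ = 1) :
    ∃ π ∈ maximalIdeal A, π ≠ 0 ∧ ∃ (Eoo Goo E0 G0 : F) (b₁ b₂ a₃ a₄ : ℕ),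
      (∃ z ∈ Lam C 0 b₁, Eoo - 1 = π • z) ∧ (∃ z ∈ Lam C 0 b₂, Goo - 1 = π • z) ∧
      (∃ z ∈ Lam C a₃ 0, E0 - 1 = π • z) ∧ (∃ z ∈ Lam C a₄ 0, G0 - 1 = π • z) ∧
      Eoo ∈ Lam C 0 b₁ ∧ Goo ∈ Lam C 0 b₂ ∧ E0 ∈ Lam C a₃ 0 ∧ G0 ∈ Lam C a₄ 0 ∧
      d'.cocycle * Eoo * E0 = d.cocycle * Goo * G0 := by
  -- the four coboundaries in the lattices
  obtain ⟨bE, hE⟩ := d.hoo_mul_hoo'_mem
  obtain ⟨aE, hE0⟩ := d.h0_mul_h0'_mem
  rw [LamD_zero_eq C ht hDt] at hE hE0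
  obtain ⟨b, hb⟩ := d'.hoo_mem
  obtain ⟨b', hb'⟩ := d.hoo'_mem
  obtain ⟨a, ha⟩ := d'.h0'_mem
  obtain ⟨a', ha'⟩ := d.h0_mem
  obtain ⟨hG, hGres⟩ := ChangeDatumB.Goo_mem_lat R (TwoCharts.ofDivisor Dt) hf hDD' hfO hfres
    (too := d'.hoo) (hoo' := d.hoo') hb (d'.res_hoo.res_eq hb.2) hb' (d.res_hoo'.res_eq hb'.2)
  obtain ⟨hG0, hG0res⟩ := ChangeDatumB.Gzero_mem_lat R (TwoCharts.ofDivisor Dt) hf hDD' hfO hfiO
    hfres (t0' := d'.h0') (h0 := d.h0) ha (d'.res_h0'.res_eq ha.2) ha' (d.res_h0.res_eq ha'.2)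
  have hG' : f * d'.hoo * d.hoo' ∈ Lam C 0 (b + b') := by
    have := hG
    rw [← TwoCharts.LM_zero_eq] at this
    have h2 : f * d'.hoo * d.hoo' ∈ LamD R Dt 0 0 (b + b') := this
    rwa [LamD_zero_eq C ht hDt] at h2
  have hG0' : d'.h0' * d.h0 * f⁻¹ ∈ Lam C (a + a') 0 := by
    have := hG0
    rw [← TwoCharts.LM_zero_eq] at this
    have h2 : d'.h0' * d.h0 * f⁻¹ ∈ LamD R Dt 0 (a + a') 0 := this
    rwa [LamD_zero_eq C ht hDt] at h2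
  obtain ⟨π, hπ, hπ0, h₁, h₂, h₃, h₄⟩ :=
    exists_common C hE (d.hoo_mul_hoo'_resOne.res_eq hE.2) hG' hGres
      hE0 (d.h0_mul_h0'_resOne.res_eq hE0.2) hG0' hG0res
  refine ⟨π, hπ, hπ0, d.hoo * d.hoo', f * d'.hoo * d.hoo', d.h0 * d.h0', d'.h0' * d.h0 * f⁻¹,
    bE, b + b', aE, a + a', h₁, h₂, h₃, h₄, hE, hG', hE0, hG0', ?_⟩
  simp only [CechDatum.cocycle]
  field_simp

/-! ### The same on the TYPE `↥Bx`, for any presentation of the chart rings as subalgebras -/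

section Typed

variable (Bx Boo B0 : Subalgebra A F)

variable {Bx Boo B0} in
/-- an element of `B∞` as an element of the chart `∞` of the TYPE `↥Bx` -/
def toOo (hooBx : Boo ≤ Bx) {x : F} (hx : x ∈ Boo) : ooIn Bx Boo := ⟨⟨x, hooBx hx⟩, hx⟩

variable {Bx Boo B0} in
/-- an element of `B₀` as an element of the chart `0` of the TYPE `↥Bx` -/
def toZero (h0Bx : B0 ≤ Bx) {x : F} (hx : x ∈ B0) : zeroIn Bx B0 := ⟨⟨x, h0Bx hx⟩, hx⟩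

variable {Bx Boo B0} in
theorem dvd_toOo_sub_one (hooBx : Boo ≤ Bx) {x z : F} {π : A} (hx : x ∈ Boo) (hz : z ∈ Boo)
    (e : x - 1 = π • z) : algebraMap A (ooIn Bx Boo) π ∣ toOo hooBx hx - 1 := by
  refine ⟨toOo hooBx hz, ?_⟩
  apply Subtype.ext
  apply Subtype.ext
  show x - 1 = algebraMap A F π * z
  rw [e, Algebra.smul_def]

variable {Bx Boo B0} in
theorem dvd_toZero_sub_one (h0Bx : B0 ≤ Bx) {x z : F} {π : A} (hx : x ∈ B0) (hz : z ∈ B0)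
    (e : x - 1 = π • z) : algebraMap A (zeroIn Bx B0) π ∣ toZero h0Bx hx - 1 := by
  refine ⟨toZero h0Bx hz, ?_⟩
  apply Subtype.ext
  apply Subtype.ext
  show x - 1 = algebraMap A F π * z
  rw [e, Algebra.smul_def]

/-- the architect literal of `cyc_rel` for two elements `c`, `c'` of the TYPE `↥Bx` -/
def RelLit (c c' : Bx) : Prop :=
  ∃ π ∈ maximalIdeal A, π ≠ 0 ∧ ∃ (Eoo Goo : ooIn Bx Boo) (E0 G0 : zeroIn Bx B0),
    algebraMap A (ooIn Bx Boo) π ∣ Eoo - 1 ∧ algebraMap A (ooIn Bx Boo) π ∣ Goo - 1 ∧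
    algebraMap A (zeroIn Bx B0) π ∣ E0 - 1 ∧ algebraMap A (zeroIn Bx B0) π ∣ G0 - 1 ∧
    c' * Eoo * E0 = c * Goo * G0

variable {Bx Boo B0} in
/-- from the architect literal of `cyc_rel` to `Coord.Rel … 0` (`sm` = any set of small elements
containing the nonzero elements of `𝔪`). -/
theorem RelLit.coordRel {sm : Set A} (hsm : ∀ π ∈ maximalIdeal A, π ≠ 0 → π ∈ sm) {c c' : Bx}
    (h : RelLit Bx Boo B0 c c') : Coord.Rel (ooIn Bx Boo) (zeroIn Bx B0) sm 0 c c' := by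
  obtain ⟨π, hπ, hπ0, Eoo, Goo, E0, G0, h1, h2, h3, h4, h5⟩ := h
  refine ⟨π, hsm π hπ hπ0, Goo, Eoo, G0, E0, h2, h1, h4, h3, ?_⟩
  rw [h5, sub_self]
  exact dvd_zero _

variable (hooBx : Boo ≤ Bx) (h0Bx : B0 ≤ Bx)
  (hBoo : ∀ x : F, (∃ b, x ∈ Lam C 0 b) → x ∈ Boo) (hB0 : ∀ x : F, (∃ a, x ∈ Lam C a 0) → x ∈ B0)

include ht hDt hooBx h0Bx hBoo hB0 in
/-- **`cyc_rel` on the TYPE `↥Bx`, literally in the shape of the abstract assembly**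
(`Boo := ooIn Bx Boo`, `B0 := zeroIn Bx B0`), for two Cech data of `D` and `D' = D + div f`. -/
theorem rel_datum {D D' : Divisor K F} (d : CechDatum R Dt D) (d' : CechDatum R Dt D')
    {f : F} (hf : f ≠ 0) (hDD' : ∀ v : Place K F, D' v = D v + v.ord f)
    (hfO : f ∈ S.O) (hfiO : f⁻¹ ∈ S.O) (hfres : R.res ⟨f, hfO⟩ = 1)
    {c c' : Bx} (hc : (c : F) = d.cocycle) (hc' : (c' : F) = d'.cocycle) :
    RelLit Bx Boo B0 c c' := by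
  obtain ⟨π, hπ, hπ0, Eoo, Goo, E0, G0, b₁, b₂, a₃, a₄, ⟨z₁, hz₁, e₁⟩, ⟨z₂, hz₂, e₂⟩,
    ⟨z₃, hz₃, e₃⟩, ⟨z₄, hz₄, e₄⟩, hEoo, hGoo, hE0, hG0, hrel⟩ :=
    rel_datum_Lam C ht hDt d d' hf hDD' hfO hfiO hfres
  have mEoo := hBoo _ ⟨b₁, hEoo⟩
  have mGoo := hBoo _ ⟨b₂, hGoo⟩
  have mE0 := hB0 _ ⟨a₃, hE0⟩
  have mG0 := hB0 _ ⟨a₄, hG0⟩
  refine ⟨π, hπ, hπ0, toOo hooBx mEoo, toOo hooBx mGoo, toZero h0Bx mE0, toZero h0Bx mG0,
    dvd_toOo_sub_one hooBx mEoo (hBoo _ ⟨b₁, hz₁⟩) e₁,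
    dvd_toOo_sub_one hooBx mGoo (hBoo _ ⟨b₂, hz₂⟩) e₂,
    dvd_toZero_sub_one h0Bx mE0 (hB0 _ ⟨a₃, hz₃⟩) e₃,
    dvd_toZero_sub_one h0Bx mG0 (hB0 _ ⟨a₄, hz₄⟩) e₄, ?_⟩
  apply Subtype.ext
  show (c' : F) * Eoo * E0 = (c : F) * Goo * G0
  rw [hc, hc']
  exact hrel

/-! ### Two normalised Kummer pairs of one class -/

include ht hDt hooBx h0Bx hBoo hB0 in
/-- **`cyc_rel` for two normalised Kummer pairs** `(w, D)`, `(w', D')` of exponent `p ^ m`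
(`w`, `w'` units of `S.O` reducing to `1`) whose divisors differ by a principal divisor. -/
theorem rel_kummer [Nontrivial κ] [IsReduced κ] (p : ℕ) [Fact p.Prime] [CharP κ p] (m : ℕ)
    (hroot : ∀ x : k, ∃ y : k, y ^ p ^ m = x)
    {D D' : Divisor K F} {w w' f0 : F} (hw : w ≠ 0) (hw' : w' ≠ 0) (hf0 : f0 ≠ 0)
    (hD : ∀ v : Place K F, ((p ^ m : ℕ) : ℤ) * D v = v.ord w)
    (hD' : ∀ v : Place K F, ((p ^ m : ℕ) : ℤ) * D' v = v.ord w')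
    (hDD' : ∀ v : Place K F, D' v = D v + v.ord f0)
    (hwO : w ∈ S.O) (hwiO : w⁻¹ ∈ S.O) (hwres : R.res ⟨w, hwO⟩ = 1)
    (hw'O : w' ∈ S.O) (hw'iO : w'⁻¹ ∈ S.O) (hw'res : R.res ⟨w', hw'O⟩ = 1)
    (d : CechDatum R Dt D) (d' : CechDatum R Dt D')
    {c c' : Bx} (hc : (c : F) = d.cocycle) (hc' : (c' : F) = d'.cocycle) :
    RelLit Bx Boo B0 c c' := by
  have hconst : ∀ g : F, g ≠ 0 → (∀ v : Place K F, v.ord g = 0) →
      ∃ c : K, g = algebraMap K F c := fun g _ h =>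
    Fermat.Agent.Gateway.BaseChange.ModularConst.exists_const_of_ord_eq_zero ht g h
  obtain ⟨f, hf, hDf, hfO, hfiO, hfres⟩ :=
    ChangeDatumB.exists_change R p m hroot hconst hw hw' hf0 hD hD' hDD' hwO hwiO hwres
      hw'O hw'iO hw'res
  exact rel_datum C ht hDt Bx Boo B0 hooBx h0Bx hBoo hB0 d d' hf hDf hfO hfiO hfres hc hc'

include ht hDt hooBx h0Bx hBoo hB0 in
/-- **`cyc_rel` for two normalised Kummer pairs of the same class of `Pic⁰`.** -/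
theorem rel_pic0 [Nontrivial κ] [IsReduced κ] (p : ℕ) [Fact p.Prime] [CharP κ p] (m : ℕ)
    (hroot : ∀ x : k, ∃ y : k, y ^ p ^ m = x)
    {D D' : Divisor K F} {w w' : F} (hw : w ≠ 0) (hw' : w' ≠ 0)
    (hD : ∀ v : Place K F, ((p ^ m : ℕ) : ℤ) * D v = v.ord w)
    (hD' : ∀ v : Place K F, ((p ^ m : ℕ) : ℤ) * D' v = v.ord w')
    (hD0 : D ∈ Divisor.degZero (K := K) (F := F)) (hD0' : D' ∈ Divisor.degZero (K := K) (F := F))
    (hcls : Pic0.mk ⟨D, hD0⟩ = Pic0.mk ⟨D', hD0'⟩)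
    (hwO : w ∈ S.O) (hwiO : w⁻¹ ∈ S.O) (hwres : R.res ⟨w, hwO⟩ = 1)
    (hw'O : w' ∈ S.O) (hw'iO : w'⁻¹ ∈ S.O) (hw'res : R.res ⟨w', hw'O⟩ = 1)
    (d : CechDatum R Dt D) (d' : CechDatum R Dt D')
    {c c' : Bx} (hc : (c : F) = d.cocycle) (hc' : (c' : F) = d'.cocycle) :
    RelLit Bx Boo B0 c c' := by
  -- `D' - D` is principal
  have h0 : Pic0.mk ((⟨D', hD0'⟩ : Divisor.degZero (K := K) (F := F)) - ⟨D, hD0⟩) = 0 := by
    have e : Pic0.mk ((⟨D', hD0'⟩ : Divisor.degZero (K := K) (F := F)) - ⟨D, hD0⟩)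
        = Pic0.mk ⟨D', hD0'⟩ - Pic0.mk ⟨D, hD0⟩ := rfl
    rw [e, hcls, sub_self]
  rw [Pic0.mk, QuotientAddGroup.eq_zero_iff, AddSubgroup.mem_addSubgroupOf] at h0
  obtain ⟨f0, hf0, hDf0⟩ := h0
  have hDD' : ∀ v : Place K F, D' v = D v + v.ord f0 := by
    intro v
    have h1 := hDf0 v
    have h2 : ((((⟨D', hD0'⟩ : Divisor.degZero (K := K) (F := F)) - ⟨D, hD0⟩ :
        Divisor.degZero (K := K) (F := F)) : Divisor K F)) v = D' v - D v := rfl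
    rw [h2] at h1
    linarith
  exact rel_kummer C ht hDt Bx Boo B0 hooBx h0Bx hBoo hB0 p m hroot hw hw' hf0 hD hD' hDD'
    hwO hwiO hwres hw'O hw'iO hw'res d d' hc hc'

end Typed

end Rel

end Fermat.Agent.S33x.Cech.RelKmB
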