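/-
P-S33, LAYER 2, instance leaf (I2), independent second (helper58): `cyc_rel` for the family
`CycB C Dt (p ^ m) ξ` of `Cech/CycKm` (helper49), on the chart rings `BxAlg C`, `BooAlg C`,
`BzeroAlg C` of `H1/InstC4` (helper50).

* `cycB_rel` : the architect literal `cyc_rel` (note `S33-IFACE-L2-B5`) for `CycB`, any class `ξ`;
* `cycB_coordRel` : the same in the shape `Coord.Rel … 0` of `Cech/Coord.lean`;
* `cycB_rel_family`, `cycB_coordRel_family` : for `Cyc := fun x => CycB C Dt (p ^ m) (φ x)`.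
-/
import Fermat.Agent.S33x.Cech.RelKmB
import Fermat.Agent.S33x.Cech.CycKm

set_option autoImplicit false
set_option linter.unusedSectionVars false
set_option linter.style.haveILetI false

noncomputable section

namespace Fermat.Agent.S33x.Cech.RelKmBInst

open AlgebraicCurve Module IntermediateField IsLocalRing
open Fermat.Agent.Gateway.C0 Fermat.Agent.S34x Fermat.Agent.S34x.C0two Fermat.Agent.S34x.Lattice2
open Fermat.Agent.S33x.H1.InstC1 Fermat.Agent.S33x.H1.InstC4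
open Fermat.Agent.S33x.Cech.Datum Fermat.Agent.S33x.Cech.OfDirectSum
open Fermat.Agent.S33x.Cech.CycKm Fermat.Agent.S33x.Cech.RelKmB

variable {K : Type*} [Field K] [IsAlgClosed K] [CharZero K] {A : ValuationSubring K}
  {F : Type*} [Field F] [Algebra K F] {S : SmallRing F}
  {k κ : Type*} [Field k] [CommRing κ] [Algebra k κ]
  {R : RedSetup2 A S k κ} (C : ChartCoord R)
  (ht : Transcendental K C.t) [FiniteDimensional K⟮C.t⟯ F] [Algebra.IsSeparable K⟮C.t⟯ F]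
  {Dt : Divisor K F} (hDt : ∀ v : Place K F, Dt v = v.ord C.t)

include ht hDt in
/-- **`cyc_rel` for `CycB`** (architect literal). -/
theorem cycB_rel [Nontrivial κ] [IsReduced κ] (p : ℕ) [Fact p.Prime] [CharP κ p] (m : ℕ)
    (hroot : ∀ x : k, ∃ y : k, y ^ p ^ m = x) {ξ : Pic0 K F} {c c' : BxAlg C}
    (hc : c ∈ CycB C Dt (p ^ m) ξ) (hc' : c' ∈ CycB C Dt (p ^ m) ξ) :
    RelLit (BxAlg C) (BooAlg C) (BzeroAlg C) c c' := by
  obtain ⟨w, D, hd, d, hdc⟩ := hc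
  obtain ⟨w', D', hd', d', hdc'⟩ := hc'
  exact rel_pic0 C ht hDt (BxAlg C) (BooAlg C) (BzeroAlg C) (BooAlg_le C) (BzeroAlg_le C)
    (fun x hx => (mem_BooAlg C).mpr hx) (fun x hx => (mem_BzeroAlg C).mpr hx) p m hroot
    hd.ne_zero hd'.ne_zero hd.ord hd'.ord hd.degZero hd'.degZero (hd.mk_eq.trans hd'.mk_eq.symm)
    hd.mem_O hd.inv_mem_O hd.res_eq hd'.mem_O hd'.inv_mem_O hd'.res_eq d d' hdc.symm hdc'.symm

include ht hDt in
/-- **`cyc_rel` for `CycB`** in the shape `Coord.Rel … 0` of the primary abstract assembly. -/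
theorem cycB_coordRel {sm : Set A} (hsm : ∀ π ∈ maximalIdeal A, π ≠ 0 → π ∈ sm)
    [Nontrivial κ] [IsReduced κ] (p : ℕ) [Fact p.Prime] [CharP κ p] (m : ℕ)
    (hroot : ∀ x : k, ∃ y : k, y ^ p ^ m = x) {ξ : Pic0 K F} {c c' : BxAlg C}
    (hc : c ∈ CycB C Dt (p ^ m) ξ) (hc' : c' ∈ CycB C Dt (p ^ m) ξ) :
    Coord.Rel (ooIn (BxAlg C) (BooAlg C)) (zeroIn (BxAlg C) (BzeroAlg C)) sm 0 c c' :=
  (cycB_rel C ht hDt p m hroot hc hc').coordRel hsm

include ht hDt in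
/-- **The literal `cyc_rel`** of `S33-IFACE-L2-B5` for the family
`Cyc := fun x => CycB C Dt (p ^ m) (φ x)`, for any map `φ : X → Pic0`. -/
theorem cycB_rel_family [Nontrivial κ] [IsReduced κ] (p : ℕ) [Fact p.Prime] [CharP κ p] (m : ℕ)
    (hroot : ∀ x : k, ∃ y : k, y ^ p ^ m = x) {X : Type*} (φ : X → Pic0 K F) :
    ∀ x, ∀ c ∈ CycB C Dt (p ^ m) (φ x), ∀ c' ∈ CycB C Dt (p ^ m) (φ x),
      ∃ π ∈ maximalIdeal A, π ≠ 0 ∧
        ∃ (Eoo Goo : ooIn (BxAlg C) (BooAlg C)) (E0 G0 : zeroIn (BxAlg C) (BzeroAlg C)),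
          algebraMap A (ooIn (BxAlg C) (BooAlg C)) π ∣ Eoo - 1 ∧
          algebraMap A (ooIn (BxAlg C) (BooAlg C)) π ∣ Goo - 1 ∧
          algebraMap A (zeroIn (BxAlg C) (BzeroAlg C)) π ∣ E0 - 1 ∧
          algebraMap A (zeroIn (BxAlg C) (BzeroAlg C)) π ∣ G0 - 1 ∧
          c' * Eoo * E0 = c * Goo * G0 :=
  fun _ _ hc _ hc' => cycB_rel C ht hDt p m hroot hc hc'

include ht hDt in
/-- the same in the shape `Coord.Rel … 0`. -/
theorem cycB_coordRel_family {sm : Set A} (hsm : ∀ π ∈ maximalIdeal A, π ≠ 0 → π ∈ sm)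
    [Nontrivial κ] [IsReduced κ] (p : ℕ) [Fact p.Prime] [CharP κ p] (m : ℕ)
    (hroot : ∀ x : k, ∃ y : k, y ^ p ^ m = x) {X : Type*} (φ : X → Pic0 K F) :
    ∀ x, ∀ c ∈ CycB C Dt (p ^ m) (φ x), ∀ c' ∈ CycB C Dt (p ^ m) (φ x),
      Coord.Rel (ooIn (BxAlg C) (BooAlg C)) (zeroIn (BxAlg C) (BzeroAlg C)) sm 0 c c' :=
  fun _ _ hc _ hc' => cycB_coordRel C ht hDt hsm p m hroot hc hc'

end Fermat.Agent.S33x.Cech.RelKmBInst
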