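/-
P-S33, LAYER 2, instance leaf (I2) (helper58): `cyc_rel` for `CycB` in the `NearOne` vocabulary of
`Cech/CoordB.lean` (helper3): the target literal of the architect's ruling v6 and the corollary
`CoordB.CobEq … 0`.

* `RelLit.nearOne` : the architect literal (one nonzero `π ∈ 𝔪` for the four coboundaries) gives the
  `NearOne` literal;
* `RelLit.cobEq` : and `CoordB.CobEq (ooIn Bx Boo) (zeroIn Bx B0) 0 c c'`;
* `cycB_nearOne`, `cycB_cobEq`, `cycB_nearOne_family`, `cycB_cobEq_family` : for the family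
  `CycB C Dt (p ^ m) ξ` of `Cech/CycKm` on the chart rings of `H1/InstC4`.
-/
import Fermat.Agent.S33x.Cech.RelKmBInst
import Fermat.Agent.S33x.Cech.CoordB

set_option autoImplicit false
set_option linter.unusedSectionVars false
set_option linter.style.haveILetI false

noncomputable section

namespace Fermat.Agent.S33x.Cech.RelKmBNear

open AlgebraicCurve Module IntermediateField IsLocalRing
open Fermat.Agent.Gateway.C0 Fermat.Agent.S34x Fermat.Agent.S34x.C0two Fermat.Agent.S34x.Lattice2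
open Fermat.Agent.S33x.H1.InstC1 Fermat.Agent.S33x.H1.InstC4
open Fermat.Agent.S33x.Cech.Datum Fermat.Agent.S33x.Cech.OfDirectSum
open Fermat.Agent.S33x.Cech.CycKm Fermat.Agent.S33x.Cech.RelKmB Fermat.Agent.S33x.Cech.RelKmBInst

section Generic

variable {K : Type*} [Field K] {A : ValuationSubring K} {F : Type*} [Field F] [Algebra K F]
  {Bx Boo B0 : Subalgebra A F}

/-- the `NearOne` literal of `cyc_rel` (ruling v6). -/
theorem RelLit.nearOne {c c' : Bx} (h : RelLit Bx Boo B0 c c') :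
    ∃ (Eoo Goo : ooIn Bx Boo) (E0 G0 : zeroIn Bx B0),
      CoordB.NearOne (ooIn Bx Boo) Eoo ∧ CoordB.NearOne (ooIn Bx Boo) Goo ∧
      CoordB.NearOne (zeroIn Bx B0) E0 ∧ CoordB.NearOne (zeroIn Bx B0) G0 ∧
      c' * Eoo * E0 = c * Goo * G0 := by
  obtain ⟨π, hπ, -, Eoo, Goo, E0, G0, h1, h2, h3, h4, h5⟩ := h
  exact ⟨Eoo, Goo, E0, G0, ⟨π, hπ, h1⟩, ⟨π, hπ, h2⟩, ⟨π, hπ, h3⟩, ⟨π, hπ, h4⟩, h5⟩

/-- the shape `CoordB.CobEq … 0` (exact equivalence up to near-one coboundaries). -/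
theorem RelLit.cobEq {c c' : Bx} (h : RelLit Bx Boo B0 c c') :
    CoordB.CobEq (ooIn Bx Boo) (zeroIn Bx B0) 0 c c' := by
  obtain ⟨Eoo, Goo, E0, G0, h1, h2, h3, h4, h5⟩ := RelLit.nearOne h
  refine ⟨Goo, Eoo, G0, E0, h2, h1, h4, h3, ?_⟩
  rw [h5, sub_self]
  exact dvd_zero _

end Generic

variable {K : Type*} [Field K] [IsAlgClosed K] [CharZero K] {A : ValuationSubring K}
  {F : Type*} [Field F] [Algebra K F] {S : SmallRing F}
  {k κ : Type*} [Field k] [CommRing κ] [Algebra k κ]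
  {R : RedSetup2 A S k κ} (C : ChartCoord R)
  (ht : Transcendental K C.t) [FiniteDimensional K⟮C.t⟯ F] [Algebra.IsSeparable K⟮C.t⟯ F]
  {Dt : Divisor K F} (hDt : ∀ v : Place K F, Dt v = v.ord C.t)

include ht hDt in
/-- **`cyc_rel` for `CycB`, `NearOne` literal** (ruling v6). -/
theorem cycB_nearOne [Nontrivial κ] [IsReduced κ] (p : ℕ) [Fact p.Prime] [CharP κ p] (m : ℕ)
    (hroot : ∀ x : k, ∃ y : k, y ^ p ^ m = x) {ξ : Pic0 K F} {c c' : BxAlg C}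
    (hc : c ∈ CycB C Dt (p ^ m) ξ) (hc' : c' ∈ CycB C Dt (p ^ m) ξ) :
    ∃ (Eoo Goo : ooIn (BxAlg C) (BooAlg C)) (E0 G0 : zeroIn (BxAlg C) (BzeroAlg C)),
      CoordB.NearOne (ooIn (BxAlg C) (BooAlg C)) Eoo ∧
      CoordB.NearOne (ooIn (BxAlg C) (BooAlg C)) Goo ∧
      CoordB.NearOne (zeroIn (BxAlg C) (BzeroAlg C)) E0 ∧
      CoordB.NearOne (zeroIn (BxAlg C) (BzeroAlg C)) G0 ∧
      c' * Eoo * E0 = c * Goo * G0 :=
  RelLit.nearOne (cycB_rel C ht hDt p m hroot hc hc')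

include ht hDt in
/-- **`cyc_rel` for `CycB`** in the shape `CoordB.CobEq … 0`. -/
theorem cycB_cobEq [Nontrivial κ] [IsReduced κ] (p : ℕ) [Fact p.Prime] [CharP κ p] (m : ℕ)
    (hroot : ∀ x : k, ∃ y : k, y ^ p ^ m = x) {ξ : Pic0 K F} {c c' : BxAlg C}
    (hc : c ∈ CycB C Dt (p ^ m) ξ) (hc' : c' ∈ CycB C Dt (p ^ m) ξ) :
    CoordB.CobEq (ooIn (BxAlg C) (BooAlg C)) (zeroIn (BxAlg C) (BzeroAlg C)) 0 c c' :=
  RelLit.cobEq (cycB_rel C ht hDt p m hroot hc hc')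

include ht hDt in
/-- the `NearOne` literal, quantified over all classes (ruling v6, verbatim). -/
theorem cycB_nearOne_family [Nontrivial κ] [IsReduced κ] (p : ℕ) [Fact p.Prime] [CharP κ p]
    (m : ℕ) (hroot : ∀ x : k, ∃ y : k, y ^ p ^ m = x) :
    ∀ ξ : Pic0 K F, ∀ c ∈ CycB C Dt (p ^ m) ξ, ∀ c' ∈ CycB C Dt (p ^ m) ξ,
      ∃ (Eoo Goo : ooIn (BxAlg C) (BooAlg C)) (E0 G0 : zeroIn (BxAlg C) (BzeroAlg C)),
        CoordB.NearOne (ooIn (BxAlg C) (BooAlg C)) Eoo ∧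
        CoordB.NearOne (ooIn (BxAlg C) (BooAlg C)) Goo ∧
        CoordB.NearOne (zeroIn (BxAlg C) (BzeroAlg C)) E0 ∧
        CoordB.NearOne (zeroIn (BxAlg C) (BzeroAlg C)) G0 ∧
        c' * Eoo * E0 = c * Goo * G0 :=
  fun _ _ hc _ hc' => cycB_nearOne C ht hDt p m hroot hc hc'

include ht hDt in
/-- the shape `CoordB.CobEq … 0`, quantified over all classes. -/
theorem cycB_cobEq_family [Nontrivial κ] [IsReduced κ] (p : ℕ) [Fact p.Prime] [CharP κ p]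
    (m : ℕ) (hroot : ∀ x : k, ∃ y : k, y ^ p ^ m = x) :
    ∀ ξ : Pic0 K F, ∀ c ∈ CycB C Dt (p ^ m) ξ, ∀ c' ∈ CycB C Dt (p ^ m) ξ,
      CoordB.CobEq (ooIn (BxAlg C) (BooAlg C)) (zeroIn (BxAlg C) (BzeroAlg C)) 0 c c' :=
  fun _ _ hc _ hc' => cycB_cobEq C ht hDt p m hroot hc hc'

end Fermat.Agent.S33x.Cech.RelKmBNear
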