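/-
S33 study (LAYER 2, pure algebra; helper91).  The universal Čech group law.

On top of `Cech/NormalForm.lean`:
* `Decomp.baseChange`: the decomposition (F1) over `W` base-changes to `A' ⊗[W] R_W` over any `A'`.
* `exists_groupLaw` (N3/(G)): polynomials `F_k ∈ W[T, T']`, depending only on the `W`-forms of the two
  charts, with `(1 + ∑ t a)(1 + ∑ t' a) * voo * v0 ≡ 1 + ∑ F(t,t') a` modulo `π ^ (n+1)`, for EVERY
  `π : A` and all `t, t' ∈ (π A)^g` (apply `exists_normalForm` in `W[T,T'] ⊗[W] R_W` with the ideal of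
  the variables, then evaluate).
* `normalForm_mul` (N4): additivity `t_z ≡ F(t_x, t_y)` modulo `π ^ n` whenever the cocycle of `z` is,
  up to approximate coboundaries, the product of those of `x` and `y` (uses `normalForm_unique`).
-/
import Fermat.Agent.S33x.Cech.NormalForm

set_option autoImplicit false

namespace Fermat.Agent.S33x.Cech

open TensorProduct

variable {W : Type*} [CommRing W] {RW : Type*} [CommRing RW] [Algebra W RW] {g : ℕ}

/-- base change of the decomposition (F1) along `W → A'` -/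
theorem Decomp.baseChange (A' : Type*) [CommRing A'] [Algebra W A'] {RooW R0W : Subalgebra W RW}
    {aW : Fin g → RW} (h : Decomp RooW R0W aW) :
    Decomp (Algebra.TensorProduct.map (AlgHom.id A' A') RooW.val).range
      (Algebra.TensorProduct.map (AlgHom.id A' A') R0W.val).range
      (fun i => (1 : A') ⊗ₜ[W] aW i) := by
  intro x
  induction x using TensorProduct.induction_on with
  | zero => exact ⟨0, 0, 0, by simp⟩
  | tmul r b =>
    obtain ⟨βoo, β0, s, hb⟩ := h b
    refine ⟨⟨r ⊗ₜ (βoo : RW), ⟨r ⊗ₜ βoo, by simp⟩⟩, ⟨r ⊗ₜ (β0 : RW), ⟨r ⊗ₜ β0, by simp⟩⟩,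
      fun i => s i • r, ?_⟩
    rw [hb, comb, comb, Fintype.linearCombination_apply, Fintype.linearCombination_apply,
      TensorProduct.tmul_add, TensorProduct.tmul_add, TensorProduct.tmul_sum]
    congr 1
    refine Finset.sum_congr rfl fun i _ => ?_
    rw [TensorProduct.smul_tmul', smul_eq_mul, mul_one, TensorProduct.tmul_smul,
      TensorProduct.smul_tmul']
  | add x y hx hy =>
    obtain ⟨βoo, β0, s, hx⟩ := hx
    obtain ⟨γoo, γ0, r, hy⟩ := hy
    refine ⟨βoo + γoo, β0 + γ0, s + r, ?_⟩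
    rw [hx, hy, map_add]
    push_cast
    ring


section eval

variable {A : Type*} [CommRing A] {B : Type*} [CommRing B] [Algebra A B]
  [Algebra W A] [Algebra W B] [IsScalarTower W A B]
  {A' : Type*} [CommRing A'] [Algebra W A']

/-- evaluation `A' ⊗[W] RW → B` attached to `φ : A' → A` and `ι : RW → B` -/
noncomputable def evalMap (φ : A' →ₐ[W] A) (ι : RW →ₐ[W] B) : A' ⊗[W] RW →ₐ[W] B :=
  Algebra.TensorProduct.productMap ((IsScalarTower.toAlgHom W A B).comp φ) ι

variable (φ : A' →ₐ[W] A) (ι : RW →ₐ[W] B)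

@[simp] theorem evalMap_tmul (r : A') (b : RW) :
    evalMap φ ι (r ⊗ₜ b) = algebraMap A B (φ r) * ι b := by
  rw [evalMap, Algebra.TensorProduct.productMap_apply_tmul]
  rfl

theorem evalMap_algebraMap (r : A') :
    evalMap φ ι (algebraMap A' (A' ⊗[W] RW) r) = algebraMap A B (φ r) := by
  rw [Algebra.TensorProduct.algebraMap_apply, evalMap_tmul, map_one, mul_one]
  rfl

theorem evalMap_smul (r : A') (x : A' ⊗[W] RW) :
    evalMap φ ι (r • x) = φ r • evalMap φ ι x := by
  rw [Algebra.smul_def, map_mul, evalMap_algebraMap, Algebra.smul_def]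

theorem evalMap_mem_of_mem_range {RooW : Subalgebra W RW} {Boo : Subalgebra A B}
    (hι : ∀ x ∈ RooW, ι x ∈ Boo) {x : A' ⊗[W] RW}
    (hx : x ∈ (Algebra.TensorProduct.map (AlgHom.id A' A') RooW.val).range) :
    evalMap φ ι x ∈ Boo := by
  rw [AlgHom.mem_range] at hx
  obtain ⟨y, rfl⟩ := hx
  induction y using TensorProduct.induction_on with
  | zero => simp
  | tmul r β =>
    rw [Algebra.TensorProduct.map_tmul, evalMap_tmul]
    exact Boo.mul_mem (Boo.algebraMap_mem _) (hι _ β.2)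
  | add x y hx hy =>
    rw [map_add, map_add]
    exact Boo.add_mem hx hy

theorem evalMap_dvd_of_mem_map {π : A} {I' : Ideal A'} (hφ : ∀ c ∈ I', π ∣ φ c) {k : ℕ}
    {x : A' ⊗[W] RW} (hx : x ∈ (I' ^ k).map (algebraMap A' (A' ⊗[W] RW))) :
    algebraMap A B π ^ k ∣ evalMap φ ι x := by
  have h := Ideal.mem_map_of_mem (evalMap φ ι : A' ⊗[W] RW →+* B) hx
  rw [Ideal.map_map] at h
  have hcomp : (evalMap φ ι : A' ⊗[W] RW →+* B).comp (algebraMap A' (A' ⊗[W] RW)) =
      (algebraMap A B).comp (φ : A' →+* A) := by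
    ext r
    exact evalMap_algebraMap φ ι r
  rw [hcomp, Ideal.map_pow] at h
  have hle : Ideal.map ((algebraMap A B).comp (φ : A' →+* A)) I' ≤
      Ideal.span {algebraMap A B π} := by
    rw [Ideal.map_le_iff_le_comap]
    intro c hc
    obtain ⟨c', hc'⟩ := hφ c hc
    rw [Ideal.mem_comap, Ideal.mem_span_singleton]
    refine ⟨algebraMap A B c', ?_⟩
    change algebraMap A B (φ c) = _
    rw [hc', map_mul]
  have h2 := Ideal.pow_right_mono hle k h
  rw [Ideal.span_singleton_pow, Ideal.mem_span_singleton] at h2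
  exact h2

theorem evalMap_eq_mul_of_mem_map {π : A} {I' : Ideal A'} (hφ : ∀ c ∈ I', π ∣ φ c)
    (S' : Subalgebra A' (A' ⊗[W] RW)) (S : Subalgebra A B)
    (hS : ∀ x ∈ S', evalMap φ ι x ∈ S) {z : S'} (hz : z ∈ I'.map (algebraMap A' S')) :
    ∃ b ∈ S, evalMap φ ι (z : A' ⊗[W] RW) = algebraMap A B π * b := by
  have hz' : z ∈ I' • (⊤ : Submodule A' S') := by
    rw [Ideal.smul_top_eq_map]
    exact hz
  refine Submodule.smul_induction_on hz' ?_ ?_
  · intro c hc y _
    obtain ⟨c', hc'⟩ := hφ c hc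
    refine ⟨c' • evalMap φ ι (y : A' ⊗[W] RW), S.smul_mem (hS _ y.2) _, ?_⟩
    rw [Subalgebra.coe_smul, evalMap_smul, hc', mul_smul, Algebra.smul_def π]
  · rintro x y ⟨b, hb, hx⟩ ⟨c, hc, hy⟩
    exact ⟨b + c, S.add_mem hb hc, by rw [Subalgebra.coe_add, map_add, hx, hy, mul_add]⟩

theorem evalMap_comb {aW : Fin g → RW} {a : Fin g → B} (hιa : ∀ i, ι (aW i) = a i)
    (s : Fin g → A') :
    evalMap φ ι (comb (fun i => (1 : A') ⊗ₜ[W] aW i) s) = comb a (fun i => φ (s i)) := by
  rw [comb, comb, Fintype.linearCombination_apply, Fintype.linearCombination_apply, map_sum]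
  refine Finset.sum_congr rfl fun i _ => ?_
  rw [evalMap_smul, evalMap_tmul, map_one, map_one, one_mul, hιa]

end eval

section groupLaw

variable {A : Type*} [CommRing A] {B : Type*} [CommRing B] [Algebra A B]
  [Algebra W A] [Algebra W B] [IsScalarTower W A B]

/-- (N3) The universal Čech group law: polynomials `F` over `W`, depending only on the `W`-forms,
such that `(1 + ∑ t a)(1 + ∑ t' a) ≡ 1 + ∑ F(t,t') a` up to approximate coboundaries, modulo
`π ^ (n+1)`, for EVERY `π` and all `t, t' ∈ (π A)^g`. -/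
theorem exists_groupLaw (Boo B0 : Subalgebra A B) (a : Fin g → B)
    {RooW R0W : Subalgebra W RW} {aW : Fin g → RW} (hdecW : Decomp RooW R0W aW)
    (ι : RW →ₐ[W] B) (hιoo : ∀ x ∈ RooW, ι x ∈ Boo) (hι0 : ∀ x ∈ R0W, ι x ∈ B0)
    (hιa : ∀ i, ι (aW i) = a i) (n : ℕ) :
    ∃ F : Fin g → MvPolynomial (Fin g ⊕ Fin g) W,
      (∀ k, F k ∈ Ideal.span (Set.range
        (MvPolynomial.X : Fin g ⊕ Fin g → MvPolynomial (Fin g ⊕ Fin g) W))) ∧
      (∀ k, MvPolynomial.constantCoeff (F k) = 0) ∧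
      ∀ (π : A) (t t' : Fin g → A), (∀ i, π ∣ t i) → (∀ i, π ∣ t' i) →
        (∀ k, π ∣ MvPolynomial.aeval (Sum.elim t t') (F k)) ∧
        ∃ (voo : Boo) (v0 : B0), algebraMap A Boo π ∣ voo - 1 ∧ algebraMap A B0 π ∣ v0 - 1 ∧
          algebraMap A B π ^ (n + 1) ∣ (1 + comb a t) * (1 + comb a t') * voo * v0
            - (1 + comb a (fun k => MvPolynomial.aeval (Sum.elim t t') (F k))) := by
  classical
  set A' := MvPolynomial (Fin g ⊕ Fin g) W with hA'
  set I' : Ideal A' := Ideal.span (Set.range (MvPolynomial.X : Fin g ⊕ Fin g → A')) with hI'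
  set Boo' := (Algebra.TensorProduct.map (AlgHom.id A' A') RooW.val).range with hBoo'
  set B0' := (Algebra.TensorProduct.map (AlgHom.id A' A') R0W.val).range with hB0'
  set a' : Fin g → A' ⊗[W] RW := fun i => (1 : A') ⊗ₜ[W] aW i with ha'
  set X1 : Fin g → A' := fun i => MvPolynomial.X (Sum.inl i) with hX1
  set X2 : Fin g → A' := fun i => MvPolynomial.X (Sum.inr i) with hX2
  have hX1I : ∀ i, X1 i ∈ I' := fun i => Ideal.subset_span ⟨_, rfl⟩
  have hX2I : ∀ i, X2 i ∈ I' := fun i => Ideal.subset_span ⟨_, rfl⟩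
  set u' : A' ⊗[W] RW := (1 + comb a' X1) * (1 + comb a' X2) with hu'
  have hu'mem : u' - 1 ∈ I'.map (algebraMap A' (A' ⊗[W] RW)) := by
    have : u' - 1 = comb a' X1 + comb a' X2 + comb a' X1 * comb a' X2 := by rw [hu']; ring
    rw [this]
    exact Ideal.add_mem _ (Ideal.add_mem _ (comb_mem_map a' hX1I) (comb_mem_map a' hX2I))
      (Ideal.mul_mem_right _ _ (comb_mem_map a' hX1I))
  obtain ⟨voo', v0', T, hvoo', hv0', hT, hE⟩ :=
    exists_normalForm (Decomp.baseChange A' hdecW) I' u' hu'mem n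
  have hconst : ∀ c ∈ I', MvPolynomial.constantCoeff c = 0 := by
    have hle : I' ≤ RingHom.ker (MvPolynomial.constantCoeff : A' →+* W) := by
      rw [hI', Ideal.span_le]
      rintro _ ⟨s, rfl⟩
      rw [SetLike.mem_coe, RingHom.mem_ker, MvPolynomial.constantCoeff_X]
    intro c hc
    exact (RingHom.mem_ker).mp (hle hc)
  refine ⟨T, hT, fun k => hconst _ (hT k), fun π t t' ht ht' => ?_⟩
  set φ : A' →ₐ[W] A := MvPolynomial.aeval (Sum.elim t t') with hφdef
  have hφ : ∀ c ∈ I', π ∣ φ c := by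
    have hle : I' ≤ Ideal.comap (φ : A' →+* A) (Ideal.span {π}) := by
      rw [hI', Ideal.span_le]
      rintro _ ⟨s, rfl⟩
      rw [SetLike.mem_coe, Ideal.mem_comap, Ideal.mem_span_singleton]
      change π ∣ φ (MvPolynomial.X s)
      rw [hφdef, MvPolynomial.aeval_X]
      cases s with
      | inl i => exact ht i
      | inr i => exact ht' i
    intro c hc
    have := hle hc
    rwa [Ideal.mem_comap, Ideal.mem_span_singleton] at this
  have hSoo : ∀ x ∈ Boo', evalMap φ ι x ∈ Boo := fun x hx =>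
    evalMap_mem_of_mem_range φ ι hιoo hx
  have hS0 : ∀ x ∈ B0', evalMap φ ι x ∈ B0 := fun x hx =>
    evalMap_mem_of_mem_range φ ι hι0 hx
  refine ⟨fun k => hφ _ (hT k), ⟨evalMap φ ι voo', hSoo _ voo'.2⟩, ⟨evalMap φ ι v0', hS0 _ v0'.2⟩,
    ?_, ?_, ?_⟩
  · obtain ⟨b, hb, hbe⟩ := evalMap_eq_mul_of_mem_map φ ι hφ Boo' Boo hSoo hvoo'
    refine ⟨⟨b, hb⟩, Subtype.ext ?_⟩
    rw [Subalgebra.coe_sub, Subalgebra.coe_one, Subalgebra.coe_mul, Subalgebra.coe_algebraMap]
    rw [Subalgebra.coe_sub, Subalgebra.coe_one, map_sub, map_one] at hbe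
    exact hbe
  · obtain ⟨b, hb, hbe⟩ := evalMap_eq_mul_of_mem_map φ ι hφ B0' B0 hS0 hv0'
    refine ⟨⟨b, hb⟩, Subtype.ext ?_⟩
    rw [Subalgebra.coe_sub, Subalgebra.coe_one, Subalgebra.coe_mul, Subalgebra.coe_algebraMap]
    rw [Subalgebra.coe_sub, Subalgebra.coe_one, map_sub, map_one] at hbe
    exact hbe
  · have h := evalMap_dvd_of_mem_map φ ι hφ hE
    have e1 : (fun i => φ (X1 i)) = t := funext fun i => by
      rw [hφdef, hX1, MvPolynomial.aeval_X, Sum.elim_inl]
    have e2 : (fun i => φ (X2 i)) = t' := funext fun i => by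
      rw [hφdef, hX2, MvPolynomial.aeval_X, Sum.elim_inr]
    rw [map_sub, map_add, map_one, map_mul, map_mul, hu', map_mul, map_add, map_add, map_one,
      evalMap_comb φ ι hιa, evalMap_comb φ ι hιa, evalMap_comb φ ι hιa, e1, e2] at h
    exact h

theorem dvd_mul_sub_one {R : Type*} [CommRing R] {c x y : R} (hx : c ∣ x - 1) (hy : c ∣ y - 1) :
    c ∣ x * y - 1 := by
  have : x * y - 1 = (x - 1) * y + (y - 1) := by ring
  rw [this]
  exact dvd_add (Dvd.dvd.mul_right hx y) hy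

omit [Algebra W B] [IsScalarTower W A B] in
/-- (N4) Additivity of the normal-form coordinates: if `u_z` is, up to approximate coboundaries,
the product `u_x u_y`, then `t_z ≡ F(t_x, t_y)` modulo `π ^ n`, for any `F` with the property of
`exists_groupLaw` at `π`, `t_x`, `t_y`. -/
theorem normalForm_mul {Boo B0 : Subalgebra A B} {a : Fin g → B} {π : A}
    (H : SatData Boo B0 a π) (n : ℕ) {F : Fin g → MvPolynomial (Fin g ⊕ Fin g) W}
    {ux uy uz : B} {tx ty tz : Fin g → A}
    (hF : (∀ k, π ∣ MvPolynomial.aeval (Sum.elim tx ty) (F k)) ∧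
      ∃ (voo : Boo) (v0 : B0), algebraMap A Boo π ∣ voo - 1 ∧ algebraMap A B0 π ∣ v0 - 1 ∧
        algebraMap A B π ^ n ∣ (1 + comb a tx) * (1 + comb a ty) * voo * v0
          - (1 + comb a (fun k => MvPolynomial.aeval (Sum.elim tx ty) (F k))))
    (htz : ∀ i, π ∣ tz i)
    {px py pz r r' : Boo} {qx qy qz s s' : B0}
    (hpx : algebraMap A Boo π ∣ px - 1) (hpy : algebraMap A Boo π ∣ py - 1)
    (hpz : algebraMap A Boo π ∣ pz - 1) (hr : algebraMap A Boo π ∣ r - 1)
    (hr' : algebraMap A Boo π ∣ r' - 1)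
    (hqx : algebraMap A B0 π ∣ qx - 1) (hqy : algebraMap A B0 π ∣ qy - 1)
    (hqz : algebraMap A B0 π ∣ qz - 1) (hs : algebraMap A B0 π ∣ s - 1)
    (hs' : algebraMap A B0 π ∣ s' - 1)
    (hx : algebraMap A B π ^ n ∣ ux * px * qx - (1 + comb a tx))
    (hy : algebraMap A B π ^ n ∣ uy * py * qy - (1 + comb a ty))
    (hz : algebraMap A B π ^ n ∣ uz * pz * qz - (1 + comb a tz))
    (hrel : algebraMap A B π ^ n ∣ uz * r * s - ux * uy * r' * s') :
    ∀ i, π ^ n ∣ tz i - MvPolynomial.aeval (Sum.elim tx ty) (F i) := by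
  obtain ⟨hFπ, Voo, V0, hVoo, hV0, hG⟩ := hF
  refine normalForm_unique H n htz hFπ (voo := r' * pz) (woo := r * px * py * Voo)
    (v0 := s' * qz) (w0 := s * qx * qy * V0) (dvd_mul_sub_one hr' hpz)
    (dvd_mul_sub_one (dvd_mul_sub_one (dvd_mul_sub_one hr hpx) hpy) hVoo)
    (dvd_mul_sub_one hs' hqz)
    (dvd_mul_sub_one (dvd_mul_sub_one (dvd_mul_sub_one hs hqx) hqy) hV0) ?_
  obtain ⟨ex, hex⟩ := hx
  obtain ⟨ey, hey⟩ := hy
  obtain ⟨ez, hez⟩ := hz
  obtain ⟨er, her⟩ := hrel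
  obtain ⟨eG, heG⟩ := hG
  set Tx : B := comb a tx
  set Ty : B := comb a ty
  set Tz : B := comb a tz
  set TF : B := comb a (fun k => MvPolynomial.aeval (Sum.elim tx ty) (F k))
  set ϖ : B := algebraMap A B π
  push_cast
  set M : B := (r : B) * s * px * py * qx * qy * Voo * V0 with hM
  set N : B := (r' : B) * pz * s' * qz with hN
  set cr : B := (pz : B) * qz * (px * py * qx * qy * Voo * V0) with hcr
  refine ⟨-ez * M + er * cr + ex * (uy * py * qy) * Voo * V0 * N + ey * (1 + Tx) * Voo * V0 * N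
    + eG * N, ?_⟩
  rw [hM, hN, hcr]
  linear_combination (-((r : B) * s * px * py * qx * qy * Voo * V0)) * hez
    + ((pz : B) * qz * (px * py * qx * qy * Voo * V0)) * her
    + ((uy * py * qy) * Voo * V0 * ((r' : B) * pz * s' * qz)) * hex
    + ((1 + Tx) * Voo * V0 * ((r' : B) * pz * s' * qz)) * hey
    + ((r' : B) * pz * s' * qz) * heG

end groupLaw

end Fermat.Agent.S33x.Cech
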