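/-
P-S33 (LAYER 2, leaf Cech/WAdapter; helper91).  ADAPTER from the final export of block W
(`S33x/W/CechFixed`: the SAME inertia-fixed `aᵢ` give `DirectSum Bx Boo B0 a` over the valuation ring `A`
and `DirectSum BxW BooW B0W a` over the inertia-fixed ring `Wf`, for subalgebras of the function field
`F`) to the hypothesis bundle of `GroupLaw.exists_groupLaw` / `GroupLaw.normalForm_mul`, on the TYPES
`↥Bx` (over `A`) and `↥BxW` (over `Wf`).

`Wf` is an arbitrary commutative ring with `Algebra Wf A`, `Algebra Wf F`, `IsScalarTower Wf A F`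
(a subring of `A`, `inertiaInt P`, ...).  Output:

* `incl` : `↥BxW →ₐ[Wf] ↥Bx`, with `incl_mem_ooIn`, `incl_mem_zeroIn`, `incl_aIn`;
* `exists_groupLaw_fixed` : the universal group law `F` over `Wf` for the charts `ooIn Bx Boo`,
  `zeroIn Bx B0` and the elements `aIn H` of `↥Bx`;
* `coord_add_fixed` : the same `F` computes the coordinates of a product cocycle (all `π ≠ 0`).
-/
import Fermat.Agent.S33x.Cech.GroupLaw
import Fermat.Agent.S33x.Cech.OfDirectSum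

set_option autoImplicit false

namespace Fermat.Agent.S33x.Cech.WAdapter

open Fermat.Agent.S33x.Cech Fermat.Agent.S33x.Cech.OfDirectSum

variable {A : Type*} [CommRing A] {F : Type*} [Field F] [Algebra A F]
variable {Wf : Type*} [CommRing Wf] [Algebra Wf A] [Algebra Wf F] [IsScalarTower Wf A F]
variable {Bx Boo B0 : Subalgebra A F} {BxW BooW B0W : Subalgebra Wf F} {g : ℕ} {a : Fin g → F}

instance isScalarTower_sub (Bx : Subalgebra A F) : IsScalarTower Wf A Bx :=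
  ⟨fun w x y => Subtype.ext (smul_assoc w x (y : F))⟩

/-- the inclusion of the `Wf`-form into the `A`-chart ring, as a `Wf`-algebra map of TYPES -/
def incl (hx : ∀ x ∈ BxW, x ∈ Bx) : BxW →ₐ[Wf] Bx where
  toFun x := ⟨x, hx x x.2⟩
  map_one' := rfl
  map_mul' _ _ := rfl
  map_zero' := rfl
  map_add' _ _ := rfl
  commutes' w := by
    apply Subtype.ext
    show algebraMap Wf F w = ((algebraMap Wf Bx w : Bx) : F)
    rw [Algebra.algebraMap_eq_smul_one, Algebra.algebraMap_eq_smul_one]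
    rfl

@[simp] theorem coe_incl (hx : ∀ x ∈ BxW, x ∈ Bx) (x : BxW) : ((incl hx x : Bx) : F) = x := rfl

theorem incl_mem_ooIn (hx : ∀ x ∈ BxW, x ∈ Bx) (hoo : ∀ x ∈ BooW, x ∈ Boo) :
    ∀ x ∈ ooIn BxW BooW, incl hx x ∈ ooIn Bx Boo := fun _ h => hoo _ h

theorem incl_mem_zeroIn (hx : ∀ x ∈ BxW, x ∈ Bx) (h0 : ∀ x ∈ B0W, x ∈ B0) :
    ∀ x ∈ zeroIn BxW B0W, incl hx x ∈ zeroIn Bx B0 := fun _ h => h0 _ h

theorem incl_aIn (H : DirectSum Bx Boo B0 a) (HW : DirectSum BxW BooW B0W a)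
    (hx : ∀ x ∈ BxW, x ∈ Bx) (i : Fin g) : incl hx (aIn HW i) = aIn H i := rfl

/-- The universal Čech group law with coefficients in the inertia-fixed ring `Wf`. -/
theorem exists_groupLaw_fixed (H : DirectSum Bx Boo B0 a) (HW : DirectSum BxW BooW B0W a)
    (hx : ∀ x ∈ BxW, x ∈ Bx) (hoo : ∀ x ∈ BooW, x ∈ Boo) (h0 : ∀ x ∈ B0W, x ∈ B0) (n : ℕ) :
    ∃ Φ : Fin g → MvPolynomial (Fin g ⊕ Fin g) Wf,
      (∀ k, Φ k ∈ Ideal.span (Set.range
        (MvPolynomial.X : Fin g ⊕ Fin g → MvPolynomial (Fin g ⊕ Fin g) Wf))) ∧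
      (∀ k, MvPolynomial.constantCoeff (Φ k) = 0) ∧
      ∀ (π : A) (t t' : Fin g → A), (∀ i, π ∣ t i) → (∀ i, π ∣ t' i) →
        (∀ k, π ∣ MvPolynomial.aeval (Sum.elim t t') (Φ k)) ∧
        ∃ (voo : ooIn Bx Boo) (v0 : zeroIn Bx B0),
          algebraMap A (ooIn Bx Boo) π ∣ voo - 1 ∧ algebraMap A (zeroIn Bx B0) π ∣ v0 - 1 ∧
          algebraMap A Bx π ^ (n + 1) ∣
            (1 + comb (aIn H) t) * (1 + comb (aIn H) t') * voo * v0
              - (1 + comb (aIn H) (fun k => MvPolynomial.aeval (Sum.elim t t') (Φ k))) :=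
  exists_groupLaw (ooIn Bx Boo) (zeroIn Bx B0) (aIn H) (OfDirectSum.decomp HW) (incl hx)
    (incl_mem_ooIn hx hoo) (incl_mem_zeroIn hx h0) (incl_aIn H HW hx) n

/-- Additivity of the coordinates with the group law over `Wf`: ONE `Φ` (depending on `n` only)
for all `π ≠ 0` and all presentations. -/
theorem coord_add_fixed [IsDomain A] [FaithfulSMul A F] (H : DirectSum Bx Boo B0 a)
    (HW : DirectSum BxW BooW B0W a)
    (hx : ∀ x ∈ BxW, x ∈ Bx) (hoo : ∀ x ∈ BooW, x ∈ Boo) (h0 : ∀ x ∈ B0W, x ∈ B0) (n : ℕ) :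
    ∃ Φ : Fin g → MvPolynomial (Fin g ⊕ Fin g) Wf,
      (∀ k, MvPolynomial.constantCoeff (Φ k) = 0) ∧
      ∀ (π : A), π ≠ 0 → ∀ (ux uy uz : Bx) (tx ty tz : Fin g → A),
        (∀ i, π ∣ tx i) → (∀ i, π ∣ ty i) → (∀ i, π ∣ tz i) →
        ∀ (px py pz r r' : ooIn Bx Boo) (qx qy qz s s' : zeroIn Bx B0),
        algebraMap A (ooIn Bx Boo) π ∣ px - 1 → algebraMap A (ooIn Bx Boo) π ∣ py - 1 →
        algebraMap A (ooIn Bx Boo) π ∣ pz - 1 → algebraMap A (ooIn Bx Boo) π ∣ r - 1 →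
        algebraMap A (ooIn Bx Boo) π ∣ r' - 1 →
        algebraMap A (zeroIn Bx B0) π ∣ qx - 1 → algebraMap A (zeroIn Bx B0) π ∣ qy - 1 →
        algebraMap A (zeroIn Bx B0) π ∣ qz - 1 → algebraMap A (zeroIn Bx B0) π ∣ s - 1 →
        algebraMap A (zeroIn Bx B0) π ∣ s' - 1 →
        algebraMap A Bx π ^ (n + 1) ∣ ux * px * qx - (1 + comb (aIn H) tx) →
        algebraMap A Bx π ^ (n + 1) ∣ uy * py * qy - (1 + comb (aIn H) ty) →
        algebraMap A Bx π ^ (n + 1) ∣ uz * pz * qz - (1 + comb (aIn H) tz) →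
        algebraMap A Bx π ^ (n + 1) ∣ uz * r * s - ux * uy * r' * s' →
        ∀ i, π ^ (n + 1) ∣ tz i - MvPolynomial.aeval (Sum.elim tx ty) (Φ i) := by
  obtain ⟨Φ, -, hΦ0, hΦ⟩ := exists_groupLaw_fixed H HW hx hoo h0 n
  refine ⟨Φ, hΦ0, ?_⟩
  intro π hπ ux uy uz tx ty tz htx hty htz px py pz r r' qx qy qz s s' hpx hpy hpz hr hr' hqx hqy
    hqz hs hs' hxx hyy hzz hrel
  exact normalForm_mul (OfDirectSum.satData H hπ) (n + 1) (hΦ π tx ty htx hty) htz hpx hpy hpz hr hr'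
    hqx hqy hqz hs hs' hxx hyy hzz hrel

end Fermat.Agent.S33x.Cech.WAdapter
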