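/-
P-S33, LAYER 2, leaf (I6) (helper73): the ABSTRACT ASSEMBLY with the inertia data discharged.

Context = the bundle `CtxMq.Ctx R C p q x Dt` + `CtxMq.CtxGal R C Gam` (helper43) + the fixed-point
data `H1.LatticeFixed2.FixData2 R Gam` and `span K {f | IsFixed Gam f} = ⊤` (block W).

`exists_charts_gal` discharges, from these four inputs, every hypothesis of
`InstAbs.exists_charts_abs` which concerns the chart rings:

* the direct sum decomposition `Hds` with `Gam`-fixed `aᵢ` : `H1/InstCtxFixed.exists_directSum_fixed`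
  (helper26, helper50);
* the universal group law over `W = A^Gam = FixedDecomp.fixedSubring Gam` :
  `W/InstW.directSum_fixedC` + `W/InstW.exists_groupLaw_fixed'` (helper5, helper17, helper91);
* the operators `σB γ := CycGal.actBAdm` (helper49) for a family `gam : Γ → SemilinearAut K F` of
  elements of `Gam`, with `hσ`, `hσoo`, `hσ0`, `hσa`;
* `hrel` : `RelKmBNear.cycB_nearOne_family` (helper58); `hgal` : `CycGal.cycB_gal` (helper49).

What remains are the purely arithmetic inputs: the finite group `X` of classes with normalised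
Kummer data, the restriction `σA γ` of `baseAut (gam γ)` to `A` with `ε ∣ σA γ ε`, and the action
`σX` on `X` compatible with the action of `gam γ` on `Pic0`.
-/
import Fermat.Agent.S33x.Cech.InstAbs
import Fermat.Agent.S33x.Cech.CycGal
import Fermat.Agent.S33x.Cech.RelKmBNear
import Fermat.Agent.S33x.H1.InstCtxFixed
import Fermat.Agent.S33x.W.InstW

set_option autoImplicit false
set_option linter.unusedSectionVars false
set_option linter.style.haveILetI false

noncomputable section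

namespace Fermat.Agent.S33x.Cech.InstGal

open AlgebraicCurve Module IntermediateField IsLocalRing
open Fermat.Agent.Gateway.C0 Fermat.Agent.S34x Fermat.Agent.S34x.C0two Fermat.Agent.S34x.Lattice2
open Fermat.Agent.S33x.H1.InstC1 Fermat.Agent.S33x.H1.InstC4
open Fermat.Agent.S33x.Cech Fermat.Agent.S33x.Cech.OfDirectSum Fermat.Agent.S33x.Cech.Datum
open Fermat.Agent.S33x.Cech.CycKm Fermat.Agent.S33x.Cech.CtxMq Fermat.Agent.S33x.Cech.Coord
open Fermat.Agent.S33x.Cech.InstAbs Fermat.Agent.S33x.Cech.CycGal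
open Fermat.Agent.S19x.Geo.LatticeFixed (IsFixed)
open Fermat.Agent.S33x.H1.LatticeFixed2 (FixData2)
open Fermat.Agent.S33x.H1.FixedDecomp (fixedSubring)

variable {K : Type*} [Field K] [IsAlgClosed K] [CharZero K] {A : ValuationSubring K}
  {F : Type*} [Field F] [Algebra K F] {S : SmallRing F}
  {k : Type*} [Field k] [IsAlgClosed k] {E : Type*} [Field E] [Algebra k E]
  {R : RedSetup2 A S k (E × E)} {C : ChartCoord R} {p q : ℕ} {x : E} {Dt : Divisor K F}

/-- **The universal group law over `W = A^Gam`** in the context bundle, in the shape `Coord.IsLaw`,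
together with the decomposition it refers to. -/
theorem exists_directSum_isLaw (h : Ctx R C p q x Dt) {Gam : Set (SemilinearAut K F)}
    (hGal : CtxGal R C Gam) (hD : FixData2 R Gam)
    (hF : Submodule.span K {f : F | IsFixed Gam f} = ⊤) :
    ∃ (g : ℕ) (a : Fin g → F) (Hds : DirectSum (BxAlg C) (BooAlg C) (BzeroAlg C) a),
      (∀ i, IsFixed Gam (a i)) ∧
      ∀ N : ℕ, ∃ Φ : Fin g → MvPolynomial (Fin g ⊕ Fin g) (fixedSubring (A := A) Gam),
        IsLaw (ooIn (BxAlg C) (BooAlg C)) (zeroIn (BxAlg C) (BzeroAlg C)) (aIn Hds) (smA A) Φ N := by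
  haveI := h.fin_x
  haveI := h.sep_x
  haveI := h.fin_t
  haveI hPfin : ∀ b, FiniteDimensional k (C.Pk 0 b) := fun b => h.finite_Pk 0 b
  obtain ⟨b₁, g, a, ha, hafix, Hds⟩ :=
    Fermat.Agent.S33x.H1.InstCtxFixed.exists_directSum_fixed h hGal hD hF
  haveI hfinLN : ∀ a b, FiniteDimensional K (C.LN a b) :=
    fun a b => Fermat.Agent.S33x.H1.InstFixed.finiteDimensional_LN C h.ht h.hDt a b
  have hstab := Fermat.Agent.S33x.H1.StableLN.stable_LN C hGal.smul_t
  have HW := Fermat.Agent.S33x.W.InstW.directSum_fixedC C hD hF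
    (fun a b => h.hcart _ (hfinLN a b)) hstab hafix ha Hds
  refine ⟨g, a, Hds, hafix, fun N => ?_⟩
  obtain ⟨Φ, -, hΦ⟩ := Fermat.Agent.S33x.W.InstW.exists_groupLaw_fixed' Hds HW N
  exact ⟨Φ, fun π _ t t' ht ht' => hΦ π t t' ht ht'⟩

/-- **The abstract assembly with the inertia data discharged.** -/
theorem exists_charts_gal (h : Ctx R C p q x Dt) {Gam : Set (SemilinearAut K F)}
    (hGal : CtxGal R C Gam) (hD : FixData2 R Gam)
    (hF : Submodule.span K {f : F | IsFixed Gam f} = ⊤)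
    (hrk : ∀ x ∈ maximalIdeal A, ∀ c : A, c ≠ 0 → ∃ j : ℕ, c ∣ x ^ j)
    (hpm : (p : A) ∈ maximalIdeal A) (e : ℕ)
    {X : Type*} [AddCommGroup X] [Finite X] (φ : X →+ Pic0 K F) (hφ : Function.Injective φ)
    (hdata : ∀ y, ∃ (w : F) (D : Divisor K F), IsData R (p ^ e) (φ y) w D)
    {Γ : Type*} (gam : Γ → SemilinearAut K F) (hgam : ∀ γ, gam γ ∈ Gam)
    (σA : Γ → A →+* A)
    (hσA : ∀ γ (c : A), ((σA γ c : A) : K) = SemilinearAut.baseAut (gam γ) (c : K))
    (hσdvd : ∀ γ (ε : A), ε ∣ σA γ ε)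
    (σX : Γ → X → X) (hσX : ∀ γ y, φ (σX γ y) = gam γ • φ y) :
    ∃ (g c0 : ℕ), ∀ n : ℕ, ∃ t : X → Fin g → A,
      (∃ ϖ ∈ smA A, ∀ x i, ϖ ∣ t x i) ∧
      (∀ γ x i, (p : A) ^ n ∣ t (σX γ x) i - σA γ (t x i)) ∧
      (∃ Φ : Fin g → MvPolynomial (Fin g ⊕ Fin g) (fixedSubring (A := A) Gam), ∀ x y i,
        (p : A) ^ n ∣ t (x + y) i - MvPolynomial.aeval (Sum.elim (t x) (t y)) (Φ i)) ∧
      (∀ x y, x ≠ y → ∃ i, ¬ (p : A) ^ c0 ∣ t x i - t y i) := by
  haveI := h.fin_t
  haveI := h.isSeparable_t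
  haveI : Fact p.Prime := ⟨h.hp⟩
  haveI := h.charP
  obtain ⟨g, a, Hds, hafix, hlaw⟩ := exists_directSum_isLaw h hGal hD hF
  have hadm : ∀ γ, Adm R Dt (gam γ) := fun γ => adm_of_ctxGal hGal h.hDt (hgam γ)
  have hroot : ∀ y : k, ∃ z : k, z ^ p ^ e = y :=
    fun y => IsAlgClosed.exists_pow_nat_eq y (pow_pos h.hp.pos e)
  haveI : CharP E p := charP_of_injective_algebraMap (algebraMap k E).injective p
  haveI : CharP (E × E) p := Prod.charP E E p
  refine ⟨g, exists_charts_abs h hrk hpm e φ hφ hdata Hds hlaw σA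
    (fun γ => actBAdm C h.ht h.hDt (hadm γ)) σX ?_ ?_ ?_ ?_ hσdvd
    (Fermat.Agent.S33x.Cech.RelKmBNear.cycB_nearOne_family C h.ht h.hDt p e hroot) ?_⟩
  · intro γ c
    apply Subtype.ext
    show gam γ • algebraMap K F (c : K) = algebraMap K F ((σA γ c : A) : K)
    rw [SemilinearAut.smul_algebraMap, hσA]
  · intro γ b hb
    exact actBAdm_mem_oo C h.ht h.hDt (hadm γ) hb
  · intro γ b hb
    exact actBAdm_mem_zero C h.ht h.hDt (hadm γ) hb
  · intro γ i
    exact Subtype.ext (hafix i (gam γ) (hgam γ))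
  · intro γ y c hc
    rw [hσX]
    exact cycB_gal C h.ht h.hDt (hadm γ) hc

end Fermat.Agent.S33x.Cech.InstGal
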