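import Mathlib
import Fermat.Prelude.Def_FLTPrelim_Ramification

/-!
# P-S33, LAYER 2, instance plumbing (I6 support): valuation subrings of an algebraic extension of `ℚ`

Generic context of the instantiation (`L` algebraic over `ℚ`, `A : ValuationSubring L`), no `ℚ̄`:

* `exists_pow_apply_eq` : some positive power of `σ : L ≃ₐ[ℚ] L` fixes a given `x` (finite orbits);
* `Preserves A H`, `preserves_decomposition`, `preserves_inertia` : the decomposition group and the
  inertia group of `A` preserve `A`;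
* `val_map` : a subgroup preserving `A` preserves the valuation of `A` (orbit argument; port of
  `S33x/Ax/AxLemma.val_map`, helper57, from `ℚ̄` to `L`);
* `resA` : the restriction of `σ` to a ring endomorphism of `A`; `dvd_resA`, `associated_resA` :
  `c ∣ σ c` and `σ c ∼ c` in `A` (hypotheses `hσdvd` of `Coord.exists_charts_of_cyc`, `hAss` of the
  architect literal);
* `small A` : the nonzero elements of the maximal ideal, with `small_gcd`, `dvd_total`,
  `small_rank` (hypotheses `hgcd`, `htot`, `hrank`), `natCast_ne_zero`.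
-/

set_option autoImplicit false
set_option linter.unusedSectionVars false

open Polynomial IsLocalRing
open scoped Pointwise

namespace Fermat.Agent.S33x.Cech.InstVal

variable {L : Type*} [Field L] [Algebra ℚ L]

/-- some positive power of `σ` fixes `x`. -/
theorem exists_pow_apply_eq [Algebra.IsAlgebraic ℚ L] (σ : L ≃ₐ[ℚ] L) (x : L) :
    ∃ m : ℕ, 0 < m ∧ (σ ^ m) x = x := by
  classical
  have hfin : ((minpoly ℚ x).rootSet L).Finite := rootSet_finite _ _
  have hint : IsIntegral ℚ x := (Algebra.IsAlgebraic.isAlgebraic x).isIntegral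
  have hmem : ∀ k : ℕ, (σ ^ k) x ∈ (minpoly ℚ x).rootSet L := by
    intro k
    rw [mem_rootSet]
    refine ⟨minpoly.ne_zero hint, ?_⟩
    have : aeval ((σ ^ k) x) (minpoly ℚ x) = (σ ^ k) (aeval x (minpoly ℚ x)) := by
      have := aeval_algHom_apply ((σ ^ k : L ≃ₐ[ℚ] L) : L →ₐ[ℚ] L) x (minpoly ℚ x)
      simpa using this
    rw [this, minpoly.aeval, map_zero]
  have hninj : ¬ Function.Injective (fun k : ℕ => (σ ^ k) x) := by
    intro hinj
    exact Set.infinite_of_injective_forall_mem hinj hmem hfin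
  rw [Function.Injective] at hninj
  push Not at hninj
  obtain ⟨i, j, hij, hne⟩ := hninj
  have key : ∀ i j : ℕ, i < j → (σ ^ i) x = (σ ^ j) x → ∃ m : ℕ, 0 < m ∧ (σ ^ m) x = x := by
    intro i j hlt h
    refine ⟨j - i, Nat.sub_pos_of_lt hlt, ?_⟩
    have hj : σ ^ j = σ ^ i * σ ^ (j - i) := by
      rw [← pow_add]
      congr 1
      omega
    rw [hj, AlgEquiv.mul_apply] at h
    exact ((σ ^ i).injective h).symm
  rcases Nat.lt_or_gt_of_ne hne with h | h
  · exact key i j h hij
  · exact key j i h hij.symm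

/-- `H` preserves `A`. -/
def Preserves (A : ValuationSubring L) (H : Subgroup (L ≃ₐ[ℚ] L)) : Prop :=
  ∀ σ ∈ H, ∀ a ∈ A, σ a ∈ A

theorem preserves_decomposition (A : ValuationSubring L) :
    Preserves A (A.decompositionSubgroup ℚ) := by
  intro σ hσ a ha
  have h1 : σ • A = A := hσ
  have h2 : σ • a ∈ σ • A := ValuationSubring.smul_mem_pointwise_smul σ a A ha
  rw [h1] at h2
  exact h2

theorem inertia_le_decomposition (A : ValuationSubring L) :
    A.inertiaSubgroupIn ℚ ≤ A.decompositionSubgroup ℚ := by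
  rintro σ ⟨τ, -, rfl⟩
  exact τ.2

theorem Preserves.mono {A : ValuationSubring L} {G H : Subgroup (L ≃ₐ[ℚ] L)}
    (hG : Preserves A G) (hHG : H ≤ G) : Preserves A H :=
  fun σ hσ a ha => hG σ (hHG hσ) a ha

theorem preserves_inertia (A : ValuationSubring L) : Preserves A (A.inertiaSubgroupIn ℚ) :=
  (preserves_decomposition A).mono (inertia_le_decomposition A)

section Invariance

variable {A : ValuationSubring L} {H : Subgroup (L ≃ₐ[ℚ] L)} (hH : Preserves A H)
include hH

theorem map_mem_iff {σ : L ≃ₐ[ℚ] L} (hσ : σ ∈ H) (a : L) : σ a ∈ A ↔ a ∈ A := by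
  refine ⟨fun h => ?_, hH σ hσ a⟩
  have := hH σ⁻¹ (H.inv_mem hσ) _ h
  rwa [show σ⁻¹ (σ a) = a from σ.symm_apply_apply a] at this

theorem val_map_le_iff {σ : L ≃ₐ[ℚ] L} (hσ : σ ∈ H) (a b : L) :
    A.valuation (σ a) ≤ A.valuation (σ b) ↔ A.valuation a ≤ A.valuation b := by
  by_cases hb : b = 0
  · subst hb
    simp
  · have hσb : σ b ≠ 0 := by simpa using hb
    have h1 : A.valuation a ≤ A.valuation b ↔ a / b ∈ A := by
      rw [← A.valuation_le_one_iff, map_div₀,
        div_le_one₀ (zero_lt_iff.mpr ((Valuation.ne_zero_iff _).mpr hb))]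
    have h2 : A.valuation (σ a) ≤ A.valuation (σ b) ↔ σ a / σ b ∈ A := by
      rw [← A.valuation_le_one_iff, map_div₀,
        div_le_one₀ (zero_lt_iff.mpr ((Valuation.ne_zero_iff _).mpr hσb))]
    rw [h1, h2, ← map_div₀, map_mem_iff hH hσ]

theorem val_map_lt_iff {σ : L ≃ₐ[ℚ] L} (hσ : σ ∈ H) (a b : L) :
    A.valuation (σ a) < A.valuation (σ b) ↔ A.valuation a < A.valuation b := by
  rw [← not_le, ← not_le, val_map_le_iff hH hσ]

/-- elements of `H` preserve the valuation. -/
theorem val_map [Algebra.IsAlgebraic ℚ L] {σ : L ≃ₐ[ℚ] L} (hσ : σ ∈ H) (x : L) :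
    A.valuation (σ x) = A.valuation x := by
  obtain ⟨m, hm, hmx⟩ := exists_pow_apply_eq σ x
  rcases lt_trichotomy (A.valuation (σ x)) (A.valuation x) with h | h | h
  · exfalso
    have : ∀ k : ℕ, 0 < k → A.valuation ((σ ^ k) x) < A.valuation x := by
      intro k hk
      induction k with
      | zero => omega
      | succ k ih =>
        rcases Nat.eq_zero_or_pos k with rfl | hk'
        · simpa using h
        · have h1 := (val_map_lt_iff hH hσ _ _).mpr (ih hk')
          have h2 : (σ ^ (k + 1)) x = σ ((σ ^ k) x) := by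
            rw [pow_succ', AlgEquiv.mul_apply]
          rw [h2]
          exact lt_trans h1 h
    have := this m hm
    rw [hmx] at this
    exact lt_irrefl _ this
  · exact h
  · exfalso
    have : ∀ k : ℕ, 0 < k → A.valuation x < A.valuation ((σ ^ k) x) := by
      intro k hk
      induction k with
      | zero => omega
      | succ k ih =>
        rcases Nat.eq_zero_or_pos k with rfl | hk'
        · simpa using h
        · have h1 := (val_map_lt_iff hH hσ _ _).mpr (ih hk')
          have h2 : (σ ^ (k + 1)) x = σ ((σ ^ k) x) := by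
            rw [pow_succ', AlgEquiv.mul_apply]
          rw [h2]
          exact lt_trans h h1
    have := this m hm
    rw [hmx] at this
    exact lt_irrefl _ this

end Invariance

/-! ### The restriction to `A` -/

/-- the restriction of `σ` to a ring endomorphism of `A`. -/
def resA (A : ValuationSubring L) (σ : L ≃ₐ[ℚ] L) (hσ : ∀ a ∈ A, σ a ∈ A) : A →+* A where
  toFun c := ⟨σ c, hσ c c.2⟩
  map_one' := Subtype.ext (by simp)
  map_mul' x y := Subtype.ext (by simp)
  map_zero' := Subtype.ext (by simp)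
  map_add' x y := Subtype.ext (by simp)

@[simp] theorem coe_resA (A : ValuationSubring L) (σ : L ≃ₐ[ℚ] L) (hσ : ∀ a ∈ A, σ a ∈ A)
    (c : A) : ((resA A σ hσ c : A) : L) = σ (c : L) := rfl

/-- `c ∣ σ c` in `A`, for `σ` in a subgroup preserving `A`. -/
theorem dvd_resA [Algebra.IsAlgebraic ℚ L] {A : ValuationSubring L} {H : Subgroup (L ≃ₐ[ℚ] L)}
    (hH : Preserves A H) {σ : L ≃ₐ[ℚ] L} (hσ : σ ∈ H) (c : A) :
    c ∣ resA A σ (hH σ hσ) c := by
  by_cases hc : (c : L) = 0
  · refine ⟨0, Subtype.ext ?_⟩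
    rw [coe_resA, hc, map_zero]
    simp
  · have hv : A.valuation (σ (c : L) / (c : L)) ≤ 1 := by
      rw [map_div₀, val_map hH hσ, div_self ((Valuation.ne_zero_iff _).mpr hc)]
    refine ⟨⟨σ (c : L) / (c : L), (A.valuation_le_one_iff _).mp hv⟩, Subtype.ext ?_⟩
    rw [coe_resA]
    show σ (c : L) = (c : L) * (σ (c : L) / (c : L))
    field_simp

/-- `σ c` and `c` are associated in `A`. -/
theorem associated_resA [Algebra.IsAlgebraic ℚ L] {A : ValuationSubring L}
    {H : Subgroup (L ≃ₐ[ℚ] L)} (hH : Preserves A H) {σ : L ≃ₐ[ℚ] L} (hσ : σ ∈ H) (c : A) :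
    Associated (resA A σ (hH σ hσ) c) c := by
  refine associated_of_dvd_dvd ?_ (dvd_resA hH hσ c)
  have h := dvd_resA hH (H.inv_mem hσ) (resA A σ (hH σ hσ) c)
  have e : resA A σ⁻¹ (hH σ⁻¹ (H.inv_mem hσ)) (resA A σ (hH σ hσ) c) = c :=
    Subtype.ext (by
      rw [coe_resA, coe_resA]
      exact σ.symm_apply_apply _)
  rwa [e] at h

/-! ### The nonzero elements of the maximal ideal -/

/-- the nonzero elements of the maximal ideal of `A`. -/
def small (A : ValuationSubring L) : Set A := {ε | ε ∈ maximalIdeal A ∧ ε ≠ 0}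

theorem dvd_total (A : ValuationSubring L) (x y : A) : x ∣ y ∨ y ∣ x :=
  ValuationRing.dvd_total x y

theorem small_gcd (A : ValuationSubring L) :
    ∀ ε ∈ small A, ∀ ε' ∈ small A, ∃ δ ∈ small A, δ ∣ ε ∧ δ ∣ ε' := by
  intro ε hε ε' hε'
  rcases ValuationRing.dvd_total ε ε' with h | h
  · exact ⟨ε, hε, dvd_rfl, h⟩
  · exact ⟨ε', hε', h, dvd_rfl⟩

theorem natCast_ne_zero (A : ValuationSubring L) {q : ℕ} (hq : q ≠ 0) : ((q : ℕ) : A) ≠ 0 := by
  have : CharZero L := algebraRat.charZero L
  intro h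
  have h1 : (((q : ℕ) : A) : L) = 0 := by rw [h]; rfl
  rw [show (((q : ℕ) : A) : L) = (q : L) by push_cast; rfl] at h1
  exact hq (by exact_mod_cast h1)

theorem small_rank (A : ValuationSubring L)
    (hrk : ∀ x ∈ maximalIdeal A, ∀ c : A, c ≠ 0 → ∃ j : ℕ, c ∣ x ^ j) {q : ℕ} (hq : q ≠ 0) :
    ∀ ε ∈ small A, ∃ k : ℕ, ((q : ℕ) : A) ∣ ε ^ k :=
  fun ε hε => hrk ε hε.1 _ (natCast_ne_zero A hq)

theorem small_mem_maximalIdeal (A : ValuationSubring L) : ∀ ε ∈ small A, ε ∈ maximalIdeal A :=
  fun _ hε => hε.1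

/-- `(q : A)` is small when `A` lies over `q`. -/
theorem natCast_mem_small (A : ValuationSubring L) {q : ℕ} (hq : q ≠ 0)
    (hA : A.LiesOverPrime q) : ((q : ℕ) : A) ∈ small A := by
  refine ⟨?_, natCast_ne_zero A hq⟩
  have h1 : (((q : ℕ) : A) : L) ∈ A.nonunits := by
    rw [show (((q : ℕ) : A) : L) = (q : L) by push_cast; rfl]
    exact hA
  exact ValuationSubring.coe_mem_nonunits_iff.mp h1

/-! ### The inertia group as an index type -/

/-- the restriction to `A` of an element of the inertia group. -/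
def inertiaRes (A : ValuationSubring L) (γ : A.inertiaSubgroupIn ℚ) : A →+* A :=
  resA A γ.1 (preserves_inertia A γ.1 γ.2)

@[simp] theorem coe_inertiaRes (A : ValuationSubring L) (γ : A.inertiaSubgroupIn ℚ) (c : A) :
    ((inertiaRes A γ c : A) : L) = (γ : L ≃ₐ[ℚ] L) (c : L) := rfl

/-- hypothesis `hσdvd` of `Coord.exists_charts_of_cyc` for the inertia group. -/
theorem dvd_inertiaRes [Algebra.IsAlgebraic ℚ L] (A : ValuationSubring L)
    (γ : A.inertiaSubgroupIn ℚ) (c : A) : c ∣ inertiaRes A γ c :=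
  dvd_resA (preserves_inertia A) γ.2 c

/-- hypothesis `hAss` of the architect literal for the inertia group. -/
theorem associated_inertiaRes [Algebra.IsAlgebraic ℚ L] (A : ValuationSubring L)
    (γ : A.inertiaSubgroupIn ℚ) (c : A) : Associated (inertiaRes A γ c) c :=
  associated_resA (preserves_inertia A) γ.2 c

/-- the inertia group preserves the maximal ideal. -/
theorem inertiaRes_mem_maximalIdeal [Algebra.IsAlgebraic ℚ L] (A : ValuationSubring L)
    (γ : A.inertiaSubgroupIn ℚ) {c : A} (hc : c ∈ maximalIdeal A) :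
    inertiaRes A γ c ∈ maximalIdeal A := by
  obtain ⟨u, hu⟩ := (associated_inertiaRes A γ c).symm
  rw [← hu]
  exact Ideal.mul_mem_right _ _ hc

end Fermat.Agent.S33x.Cech.InstVal
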