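/-
P-S33, LAYER 2, leaf (I6), FINAL (helper73): the generic-context export `InstIface.ChartsMq` at the
exponent `q ^ n`, from the fixed-point data of the inertia group.

Context = the variable block of `S34x/Inst/TheoremBMq.lean` / `S33x/KummerPn.lean`
(`L` an algebraic closure of `ℚ`, `A` a valuation subring of `L` over `q`, level `M q`, `q ∤ M`).

`chartsMq_gen` : for a good coordinate `x` (`hx`, `Hx`, `hxk`, `hY`), the fixed-point data
`hD : FixData2 (redSetup2 H hA) Gam` and `hF : span L {f | IsFixed Gam f} = ⊤` for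
`Gam = {arithmeticGalois τ | τ ∈ inertia group of A}` and a FINITE `K_{q^n}`:
`InstIface.ChartsMq H hA (q ^ n)`.

Proof = `InstGal.exists_charts_gal` (abstract assembly with the inertia data discharged) at
`C := TheoremBMq.chart H hA x hx Hx`, `Dt := Charts.divT`, context `CtxMq.ctx_of_chart`,
`CtxMq.ctxGal_inertia`, `X := ↥(Km H hA (q ^ n))`, `Γ := ↥(A.inertiaSubgroupIn ℚ)`,
`σA := InstVal.inertiaRes`, `σX := τ • ·` (`KummerPn.smul_mem_Km`), followed by the conversion
`InstConv.chartsMq_of_charts` with `W := FixedDecomp.fixedSubring Gam`.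
-/
import Fermat.Agent.S33x.Cech.InstGal
import Fermat.Agent.S33x.Cech.InstConv
import Fermat.Agent.S33x.Cech.InstVal

set_option autoImplicit false
set_option linter.unusedSectionVars false
set_option linter.style.haveILetI false

noncomputable section

namespace Fermat.Agent.S33x.Cech.Inst

open ModularCurve AlgebraicCurve IsLocalRing Module IntermediateField
open Fermat.Agent.Gateway.Hecke Fermat.Agent.Gateway.ESC
open Fermat.Agent.Gateway.Red Fermat.Agent.Gateway.GoodRed
open Fermat.Agent.Gateway.GoodRed.ConjFamily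
open Fermat.Agent.Gateway.C0 Fermat.Agent.S34x.C0two Fermat.Agent.S34x.Lattice2
open Fermat.Agent.S34x.TwoVal
open Fermat.Agent.S34x.Inst
open Fermat.Agent.S34x.Inst.L2 Fermat.Agent.S34x.Inst.IsL2Inst
open Fermat.Agent.S34x.Inst.RedSetupInst Fermat.Agent.S34x.Inst.ElementYRed
open Fermat.Agent.S34x.Inst.ElementYInt Fermat.Agent.S34x.Inst.Charts
open Fermat.Agent.S34x.Inst.TheoremBMq
open Fermat.Agent.S33x.KummerPn Fermat.Agent.S33x.Cech.InstIface
open Fermat.Agent.S33x.Cech.CtxMq Fermat.Agent.S33x.Cech.CycKm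
open Fermat.Agent.S19x.Geo.LatticeFixed (IsFixed)
open Fermat.Agent.S33x.H1.LatticeFixed2 (FixData2)
open Fermat.Agent.S33x.H1.FixedDecomp (fixedSubring)

attribute [-instance] IsScalarTower.of_algHom

variable {L : Type} [Field L] [Algebra ℚ L] [IsAlgClosed L] [Algebra.IsAlgebraic ℚ L]
  {A : ValuationSubring L} {k : Type} [Field k] {π : A →+* k} [IsAlgClosed k]
variable {M q : ℕ} [NeZero M] [NeZero q] [Fact q.Prime] [CharP k q]
variable {hdeg : finrankAlong L (heckeAlphaBar L M q) = q + 1} {hq : q.Prime} {hqM : ¬ q ∣ M}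
variable {hrk : ∀ x ∈ maximalIdeal A, ∀ c : A, c ≠ 0 → ∃ j : ℕ, c ∣ x ^ j}
  {hπ : Function.Surjective π}
variable (H : ResidueFacts A π M q hdeg hq hqM hrk hπ) (hA : A.LiesOverPrime q)

/-- **Layer 2 in the generic context**: approximate Cech coordinates on `K_{q^n}` at every
precision, from the fixed-point data of the inertia group. -/
theorem chartsMq_gen [PerfectRing k q]
    (x : LaurentSeries ℤ) (hx : coeffMap (Int.castRingHom L) x ∈ FBar L M)
    (Hx : GoodLevelFactsT A π M q hπ hqM (tInt M x hx))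
    (hxk : tbar k x ≠ 0) (hY : YFacts M q x hx)
    (hD : FixData2 (redSetup2 H hA)
      {g | ∃ τ ∈ A.inertiaSubgroupIn ℚ,
        g = arithmeticGalois (modularFunctionFieldFull (M * q)) τ})
    (hF : Submodule.span L {f : FL L (M * q) | IsFixed
      {g | ∃ τ ∈ A.inertiaSubgroupIn ℚ,
        g = arithmeticGalois (modularFunctionFieldFull (M * q)) τ} f} = ⊤)
    (n : ℕ) [Finite (Km H hA (q ^ n))] :
    ChartsMq H hA (q ^ n) := by
  haveI : CharZero L := algebraRat.charZero L
  haveI := finiteDimensional_chart_t H hA x hx Hx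
  have ht := transcendental_chart_t H hA x hx Hx
  have hDt := Charts.divT_apply ht
  have hctx := ctx_of_chart H hA x hx Hx (chart H hA x hx Hx) (chart_t H hA x hx Hx) hxk hY hDt
  have hgal := ctxGal_inertia H hA x hx Hx (chart H hA x hx Hx) (chart_t H hA x hx Hx)
  have hq0 : q ≠ 0 := (Fact.out : q.Prime).ne_zero
  have hpm : ((q : ℕ) : A) ∈ maximalIdeal A := (InstVal.natCast_mem_small A hq0 hA).1
  have hqn : 0 < q ^ n := pow_pos (Fact.out : q.Prime).pos n
  obtain ⟨g, hch⟩ := InstGal.exists_charts_gal hctx hgal hD hF hrk hpm n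
    (X := Km H hA (q ^ n)) (Km H hA (q ^ n)).subtype Subtype.coe_injective
    (fun y => exists_isData_of_mem_Km H hA y.2)
    (Γ := ↥(A.inertiaSubgroupIn ℚ))
    (fun τ => arithmeticGalois (modularFunctionFieldFull (M * q)) (τ : L ≃ₐ[ℚ] L))
    (fun τ => ⟨τ.1, τ.2, rfl⟩)
    (fun τ => InstVal.inertiaRes A τ) (fun _ _ => rfl) (fun τ ε => InstVal.dvd_inertiaRes A τ ε)
    (fun τ y => ⟨(τ : L ≃ₐ[ℚ] L) • (y : Pic0 L (FL L (M * q))), smul_mem_Km hqn τ.2 y.2⟩)
    (fun _ _ => rfl)
  refine InstConv.chartsMq_of_charts (m := q ^ n)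
    (W := fixedSubring (A := A) {g | ∃ τ ∈ A.inertiaSubgroupIn ℚ,
        g = arithmeticGalois (modularFunctionFieldFull (M * q)) τ})
    (fun w τ hτ => w.2 (arithmeticGalois (modularFunctionFieldFull (M * q)) τ) ⟨τ, hτ, rfl⟩)
    (Γ := ↥(A.inertiaSubgroupIn ℚ)) (fun τ => (τ : L ≃ₐ[ℚ] L)) (fun τ hτ => ⟨⟨τ, hτ⟩, rfl⟩)
    (fun τ => InstVal.inertiaRes A τ) (fun _ _ => rfl)
    (fun τ y => ⟨(τ : L ≃ₐ[ℚ] L) • (y : Pic0 L (FL L (M * q))), smul_mem_Km hqn τ.2 y.2⟩)
    (fun _ _ => rfl) (sm := InstAbs.smA A) (fun ε hε => hε.1) hch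

end Fermat.Agent.S33x.Cech.Inst
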