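/-
P-S33 (blueprint v2), LAYER 2, leaf (I6), the `ℚ̄` END of the chain (helper92; imported by
`Cech/Inst.lean`, helper73).

`Cech/InstIface.ChartsMq H hA m` is the export of Layer 2 in the generic context (`L`, `A`).  Here it is
specialised to `L := ℚ̄`, `A := P0` (a valuation subring of `ℚ̄` over `p`), `k := ResidueField P0`,
`H := ResidueInst.residueFacts ..` (exactly the `haveI` block of `KummerPn.KmQb`) and turned into the
literal export asked by the bridge (X4), `Bridge.TargetOfCharts.ChartsAtGoodLevels`: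

* `GenAt M₀ p hp hpM P0 hP0 n` : `ChartsMq` at that specialisation, exponent `p ^ n`;
* `finite_KmQb` : `K_m ≤ J₀(M₀ p)[m]` over `ℚ̄` is finite (`0 < m`);
* `hasApproxCharts_of_genAt` : `GenAt` gives `Iface.HasApproxCharts p P0 (KmTors ..) (restrictAct ..)`
  (coordinates transported along `↥KmTors → ↥KmQb`, polynomials descended to `inertiaInt P0`);
* `chartsAtGoodLevels_of_gen`, `qOrdTarget_of_gen` : the exports.
-/
import Fermat.Agent.S33x.Cech.InstIface
import Fermat.Agent.S33x.Bridge.TargetOfCharts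
import Fermat.Agent.S33x.L3.AssembleDone
import Fermat.Agent.Lib.FrobeniusExists

set_option autoImplicit false
set_option linter.unusedSectionVars false
set_option linter.unusedVariables false
set_option linter.style.haveILetI false

noncomputable section

namespace Fermat.Agent.S33x.Cech.InstQb

open ModularCurve AlgebraicCurve IsLocalRing
open Fermat.Agent.Gateway.Hecke Fermat.Agent.Gateway.ESC
open Fermat.Agent.Gateway.Red Fermat.Agent.Gateway.GoodRed
open Fermat.Agent.S34x.TwoVal Fermat.Agent.S34x.C0two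
open Fermat.Agent.S34x.Inst.RedSetupInst Fermat.Agent.S34x.Inst
open Fermat.Agent.S33x.KummerPn Fermat.Agent.S33x.Cech.InstIface
open Fermat.Agent.S33x.Iface Fermat.Agent.S33x.Consumer.OfSubgroup
open Fermat.Agent.S33x.Bridge.TargetOfCharts Fermat.Agent.Gateway.S31Red
open Fermat.Agent.S56x.Flat.InertiaField

local notation "Qb" => AlgebraicClosure ℚ
local notation "Γℚ" => (AlgebraicClosure ℚ ≃ₐ[ℚ] AlgebraicClosure ℚ)

/-- the Galois action on `J₀(N)[n]` as a plain family of maps -/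
abbrev actT (N n : ℕ) : Γℚ → JTors N n → JTors N n := fun σ x => galTors N n σ x

section level

variable (M₀ p : ℕ) [NeZero M₀] [NeZero p] (hp : p.Prime) (hpM : ¬ p ∣ M₀)
  (P0 : ValuationSubring Qb) (hP0 : P0.LiesOverPrime p)

/-- **The export of `Cech/Inst` (generic context) specialised to `ℚ̄`**: `L := ℚ̄`, `A := P0`,
`k := ResidueField P0`, with the instances of `KummerPn.KmQb`. -/
def GenAt (n : ℕ) : Prop :=
  haveI : Algebra.IsAlgebraic ℚ Qb := AlgebraicClosure.isAlgebraic ℚ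
  haveI : Fact p.Prime := ⟨hp⟩
  haveI : IsAlgClosed (ResidueField P0) := FinalBase.isAlgClosed_residueField P0
  haveI : CharP (ResidueField P0) p := FinalBase.charP_residueField P0 hP0
  ChartsMq (ResidueInst.residueFacts P0 (residue P0) M₀ p (hdegQb M₀ p hp hpM) hp hpM
    (FinalBase.rank_one P0 hp hP0) (FinalBase.residue_surjective P0)) hP0 (p ^ n)

variable {M₀ p hp hpM P0 hP0}

/-- `K_m` over `ℚ̄` is finite. -/
theorem finite_KmQb {m : ℕ} (hm : 0 < m) : Finite (KmQb M₀ p hp hpM P0 hP0 m) := by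
  haveI : NeZero (M₀ * p) := ⟨mul_ne_zero (NeZero.ne M₀) hp.ne_zero⟩
  haveI : Finite (JTors (M₀ * p) m) :=
    Fermat.Agent.Gateway.Assembly.finite_JTors
      (Fermat.Agent.Gateway.Export.coreInputs (M₀ * p)
        (Fermat.Agent.Gateway.Export.d5Input (M₀ * p))) m hm
  refine Finite.of_injective
    (fun x : KmQb M₀ p hp hpM P0 hP0 m =>
      (⟨(x : Pic0 Qb (FL Qb (M₀ * p))),
        Pic0.mem_torsion.mpr (zsmul_eq_zero_of_mem_KmQb x.2)⟩ : JTors (M₀ * p) m)) ?_
  intro x y hxy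
  exact Subtype.ext (congrArg (fun z : JTors (M₀ * p) m => (z : JZero (M₀ * p))) hxy)

/-- the point of `K_m` (as a subgroup of `Pic⁰`) under a point of `KmTors` -/
def toKm {m : ℕ} (w : KmTors M₀ p hp hpM P0 hP0 m) : KmQb M₀ p hp hpM P0 hP0 m :=
  ⟨((w : JTors (M₀ * p) m) : JZero (M₀ * p)), w.2⟩

theorem toKm_injective {m : ℕ} :
    Function.Injective (toKm : KmTors M₀ p hp hpM P0 hP0 m → KmQb M₀ p hp hpM P0 hP0 m) := by
  intro x y hxy
  have h := congrArg (fun z : KmQb M₀ p hp hpM P0 hP0 m => (z : Pic0 Qb (FL Qb (M₀ * p)))) hxy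
  exact Subtype.ext (Subtype.ext h)

theorem toKm_add {m : ℕ} (x y : KmTors M₀ p hp hpM P0 hP0 m) :
    toKm (x + y) = toKm x + toKm y := rfl

/-- the restricted Galois action on `KmTors`, read in `Pic⁰` -/
theorem coe_toKm_restrictAct {m : ℕ} (hm : 0 < m) {σ : Γℚ} (hσ : σ ∈ P0.inertiaSubgroupIn ℚ)
    (w : KmTors M₀ p hp hpM P0 hP0 m) :
    ((toKm (restrictAct (actT (M₀ * p) m) (KmTors M₀ p hp hpM P0 hP0 m) σ w) :
        KmQb M₀ p hp hpM P0 hP0 m) : Pic0 Qb (FL Qb (M₀ * p))) =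
      σ • ((toKm w : KmQb M₀ p hp hpM P0 hP0 m) : Pic0 Qb (FL Qb (M₀ * p))) := by
  have h := coe_restrictAct (actT (M₀ * p) m) (KmTors M₀ p hp hpM P0 hP0 m)
    (Iner := (P0.inertiaSubgroupIn ℚ : Set Γℚ)) (galTors_sub_mem_KmTors hm) hσ w
  have h2 := congrArg (fun z : JTors (M₀ * p) m => (z : JZero (M₀ * p))) h
  exact h2

/-- a polynomial over `ℚ̄` whose coefficients are inertia-fixed elements of `P0` comes from
`inertiaInt P0` -/
theorem exists_map_eq {σ : Type*} (G : MvPolynomial σ Qb)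
    (hG : ∀ d, MvPolynomial.coeff d G ∈ P0 ∧
      ∀ τ ∈ P0.inertiaSubgroupIn ℚ, τ (MvPolynomial.coeff d G) = MvPolynomial.coeff d G) :
    ∃ G' : MvPolynomial σ (inertiaInt P0), MvPolynomial.map (inertiaInt P0).subtype G' = G := by
  have : G ∈ Set.range (MvPolynomial.map (inertiaInt P0).subtype) := by
    rw [MvPolynomial.mem_range_map_iff_coeffs_subset]
    intro c hc
    rw [Finset.mem_coe, MvPolynomial.mem_coeffs_iff] at hc
    obtain ⟨d, -, rfl⟩ := hc
    exact ⟨⟨MvPolynomial.coeff d G, hG d⟩, rfl⟩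
  exact this

theorem aeval_eq_eval_map {σ : Type*} (G' : MvPolynomial σ (inertiaInt P0)) (f : σ → Qb) :
    MvPolynomial.aeval f G' = MvPolynomial.eval f (MvPolynomial.map (inertiaInt P0).subtype G') := by
  rw [MvPolynomial.aeval_def, MvPolynomial.eval₂_eq_eval_map]
  rfl

/-- **The specialisation**: the generic export at `ℚ̄` gives approximate charts on `KmTors` for the
canonical restricted Galois action. -/
theorem hasApproxCharts_of_genAt {n : ℕ} (h : GenAt M₀ p hp hpM P0 hP0 n) :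
    HasApproxCharts p P0 (KmTors M₀ p hp hpM P0 hP0 (p ^ n))
      (restrictAct (actT (M₀ * p) (p ^ n)) (KmTors M₀ p hp hpM P0 hP0 (p ^ n))) := by
  have hm : 0 < p ^ n := pow_pos hp.pos n
  obtain ⟨c0, hc0⟩ := h
  refine ⟨c0, fun N => ?_⟩
  obtain ⟨g, coord, F, hmem, hgal, hF, hadd, hsep⟩ := hc0 N
  choose F' hF' using fun i => exists_map_eq (P0 := P0) (F i) (hF i)
  refine ⟨⟨g, fun w i => coord (toKm w) i, fun w i => hmem (toKm w) i, ?_, ⟨F', ?_⟩⟩, ?_⟩
  · intro σ hσ w i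
    have hx : σ • ((toKm w : KmQb M₀ p hp hpM P0 hP0 (p ^ n)) : Pic0 Qb (FL Qb (M₀ * p))) ∈
        KmQb M₀ p hp hpM P0 hP0 (p ^ n) := smul_mem_KmQb hm hσ (toKm w).2
    have h1 := hgal σ hσ (toKm w) hx i
    have e : toKm (restrictAct (actT (M₀ * p) (p ^ n)) (KmTors M₀ p hp hpM P0 hP0 (p ^ n)) σ w) =
        ⟨σ • ((toKm w : KmQb M₀ p hp hpM P0 hP0 (p ^ n)) : Pic0 Qb (FL Qb (M₀ * p))), hx⟩ :=
      Subtype.ext (coe_toKm_restrictAct hm hσ w)
    show PowMem P0 p N (coord (toKm _) i - σ (coord (toKm w) i))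
    rw [e]
    exact h1
  · intro x y i
    have h1 := hadd (toKm x) (toKm y) i
    show PowMem P0 p N (coord (toKm (x + y)) i -
      MvPolynomial.aeval (Sum.elim (fun j => coord (toKm x) j) (fun j => coord (toKm y) j)) (F' i))
    rw [aeval_eq_eval_map, hF' i, toKm_add]
    exact h1
  · intro x y hxy
    have h3 := hsep (toKm x) (toKm y)
    have hne : toKm x ≠ toKm y := fun h => hxy (toKm_injective h)
    have h4 := h3 hne
    obtain ⟨i, hi⟩ := h4
    exact ⟨i, hi⟩

end level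

/-- **The export asked by the bridge (X4)** from the generic-context theorem of `Cech/Inst`
specialised to `ℚ̄`; the finiteness of `K_m` is supplied here. -/
theorem chartsAtGoodLevels_of_gen
    (hgen : ∀ (M₀ p : ℕ) [NeZero M₀] [NeZero p] (hp : p.Prime) (_hp2 : p ≠ 2) (hpM : ¬ p ∣ M₀)
      (_h4 : 4 ∣ M₀) (P0 : ValuationSubring Qb) (hP0 : P0.LiesOverPrime p) (n : ℕ),
      Finite (KmQb M₀ p hp hpM P0 hP0 (p ^ n)) → GenAt M₀ p hp hpM P0 hP0 n) :
    ChartsAtGoodLevels := by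
  apply chartsAtGoodLevels_of_restrictAct
  intro M₀ p _ hp hp2 hpM₀ h4
  haveI : NeZero p := ⟨hp.ne_zero⟩
  obtain ⟨P0, hP0⟩ := Fermat.Agent.Lib.exists_valuationSubring_liesOverPrime (L := Qb) p hp
  refine ⟨P0, hP0, fun m => ⟨KmTors M₀ p hp hpM₀ P0 hP0 (p ^ m), ?_, ?_⟩⟩
  · exact galTors_sub_mem_KmTors (pow_pos hp.pos m)
  · exact hasApproxCharts_of_genAt
      (hgen M₀ p hp hp2 hpM₀ h4 P0 hP0 m (finite_KmQb (pow_pos hp.pos m)))

/-- the target of the consumer (LAYER 3 is closed: `L3.AssembleDone.noTrivOfCharts`); then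
`Consumer.Final.s33_of_target (qOrdTarget_of_gen hgen)` is the frozen conclusion of S33. -/
theorem qOrdTarget_of_gen
    (hgen : ∀ (M₀ p : ℕ) [NeZero M₀] [NeZero p] (hp : p.Prime) (_hp2 : p ≠ 2) (hpM : ¬ p ∣ M₀)
      (_h4 : 4 ∣ M₀) (P0 : ValuationSubring Qb) (hP0 : P0.LiesOverPrime p) (n : ℕ),
      Finite (KmQb M₀ p hp hpM P0 hP0 (p ^ n)) → GenAt M₀ p hp hpM P0 hP0 n) :
    Fermat.Agent.S33x.Consumer.Final.QOrdTarget :=
  qOrdTarget_of_charts Fermat.Agent.S33x.L3.AssembleDone.noTrivOfCharts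
    (chartsAtGoodLevels_of_gen hgen)

end Fermat.Agent.S33x.Cech.InstQb
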