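/-
P-S33 (blueprint v2), LAYER 2, leaf (I6-Qb) (helper43): the DISCHARGE at `L = Qbar`, `A = P0`.

The generic theorem of `Cech/Inst.lean` (helper73) lives in the variable context of
`S34x/Inst/TheoremBMq.lean` (`L` any algebraic closure of `Q`) and keeps as hypotheses everything
that is only known over `Qbar`:

* the chart data `x`, `hx`, `Hx : GoodLevelFactsT ..`, `hxk`, `hY : YFacts ..`;
* the inertia-fixed structure `FixData2 (redSetup2 H hA) Gam` (both structures, of
  `S33x/H1/LatticeFixed2` and of `S33x/W/LatticeFixed2`) and `span {fixed functions} = top`;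
* the finiteness of `K_m`.

Here these are discharged at `L := Qbar`, `A := P0` over `p`, `k := ResidueField P0`,
`x := L4.x4` (`4 ∣ M₀`, `p` odd), and the result is EXACTLY the hypothesis `hgen` of
`Cech/InstQb.chartsAtGoodLevels_of_gen` / `qOrdTarget_of_gen` (helper92).

* `x4_Hx`, `x4_hY`, `x4_hxk` : the chart data of the Hauptmodul `x₄` (any `A`, `k`, `π` over `Qbar`);
* `GenericInst` : the statement of the generic theorem as a `Prop` (three forms of the set `Gam`:
  `galSL` / image, set-builder of `CtxMq.ctxGal_inertia`);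
* `genAt_of_generic*`, `qOrdTarget_of_generic*` : the discharge.
-/
import Fermat.Agent.S33x.Cech.InstQb
import Fermat.Agent.S33x.Cech.CtxMq
import Fermat.Agent.S33x.H1.FixData2Final
import Fermat.Agent.S33x.L1.InstMq

set_option autoImplicit false
set_option linter.unusedSectionVars false
set_option linter.unusedVariables false
set_option linter.style.haveILetI false

noncomputable section

namespace Fermat.Agent.S33x.Cech.InstQbCtx

open ModularCurve AlgebraicCurve IntermediateField IsLocalRing Module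
open Fermat.Agent.Gateway.Hecke Fermat.Agent.Gateway.ESC
open Fermat.Agent.Gateway.Red Fermat.Agent.Gateway.GoodRed Fermat.Agent.Gateway.AuxLevel
open Fermat.Agent.Gateway.GoodRed.ConjFamily Fermat.Agent.S24.Setup
open Fermat.Agent.Gateway.C0
open Fermat.Agent.S34x.TwoVal Fermat.Agent.S34x.C0two Fermat.Agent.S34x.Lattice2
open Fermat.Agent.S34x.Inst.L2 Fermat.Agent.S34x.Inst.IsL2Inst
open Fermat.Agent.S34x.Inst.RedSetupInst Fermat.Agent.S34x.Inst.ElementYRed
open Fermat.Agent.S34x.Inst.ElementYInt Fermat.Agent.S34x.Inst.ElementYInt9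
open Fermat.Agent.S34x.Inst.Charts Fermat.Agent.S34x.Inst.TheoremBMq
open Fermat.Agent.S34x.Inst
open Fermat.Agent.S19x.Geo.LatticeFixed (IsFixed IsFixedK)
open Fermat.Agent.S33x.KummerPn Fermat.Agent.S33x.Cech.InstIface
open Fermat.Agent.S33x.Cech.InstQb Fermat.Agent.S33x.Cech.CtxMq
open Fermat.Agent.S33x.H1.FixData2Inst Fermat.Agent.S33x.H1.FixData2Final
open Fermat.Agent.S33x.W.ScalFixed2

attribute [-instance] IsScalarTower.of_algHom

local notation "Qb" => AlgebraicClosure ℚ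

/-! ### The chart data of the Hauptmodul `x₄` -/

section Four

variable {A : ValuationSubring Kbar} {k : Type} [Field k] {π : A →+* k} [IsAlgClosed k]
variable {M : ℕ} [NeZero M]
variable {q : ℕ} [NeZero q] [Fact q.Prime] [CharP k q]
variable {hqM : ¬ q ∣ M} {hπ : Function.Surjective π}

/-- `x₄ ∈ F̄_M` for `4 ∣ M`. -/
theorem x4_hx (h4 : 4 ∣ M) : coeffMap (Int.castRingHom Kbar) L4.x4 ∈ FBar Kbar M :=
  x4_mem_FBar M h4

/-- the good level facts of `x₄` -/
theorem x4_Hx (h4 : 4 ∣ M) :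
    GoodLevelFactsT A π M q hπ hqM (tInt M L4.x4 (x4_hx h4)) :=
  LevelFactsTHaupt.l2Facts_x4 A π M q hπ hqM h4

/-- the reduction of `x₄` is not zero -/
theorem x4_hxk : tbar k L4.x4 ≠ 0 := L4.x4k_ne_zero k

/-- the integrality facts of the element `y` for `x₄`, `q` odd -/
theorem x4_hY (h4 : 4 ∣ M) (hq : q.Prime) (hq2 : q ≠ 2) : YFacts M q L4.x4 (x4_hx h4) :=
  ⟨isIntegral_elY_x4 (x4_hx h4) h4 hq hq2, isIntegral_elY_inv_x4 (x4_hx h4) h4 hq hq2,
    isIntegral_tB_x4 (x4_hx h4) h4 hq hq2, isIntegral_tB_inv_x4 (x4_hx h4) h4 hq hq2⟩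

end Four

/-! ### The generic theorem as a statement -/

/-- the set-builder form of the inertia action (the set of `CtxMq.ctxGal_inertia`) -/
abbrev GamSet {L : Type} [Field L] [Algebra ℚ L] (A : ValuationSubring L) (N : ℕ) [NeZero N] :
    Set (SemilinearAut L (FL L N)) :=
  {g | ∃ τ ∈ A.inertiaSubgroupIn ℚ, g = arithmeticGalois (modularFunctionFieldFull N) τ}

/-- **The planned generic theorem `Cech/Inst.chartsMq_gen` as a statement** (note
`S33-IFACE-L2-I6-final`): set-builder literal of `CtxMq.ctxGal_inertia`, the `FixData2` of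
`S33x/H1/LatticeFixed2`. -/
def ChartsMqGen : Prop :=
  ∀ {L : Type} [Field L] [Algebra ℚ L] [IsAlgClosed L] [Algebra.IsAlgebraic ℚ L]
    {A : ValuationSubring L} {k : Type} [Field k] {π : A →+* k} [IsAlgClosed k]
    {M q : ℕ} [NeZero M] [NeZero q] [Fact q.Prime] [CharP k q]
    {hdeg : finrankAlong L (heckeAlphaBar L M q) = q + 1} {hq : q.Prime} {hqM : ¬ q ∣ M}
    {hrk : ∀ x ∈ maximalIdeal A, ∀ c : A, c ≠ 0 → ∃ j : ℕ, c ∣ x ^ j}
    {hπ : Function.Surjective π}
    (H : ResidueFacts A π M q hdeg hq hqM hrk hπ) (hA : A.LiesOverPrime q)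
    [PerfectRing k q]
    (x : LaurentSeries ℤ) (hx : coeffMap (Int.castRingHom L) x ∈ FBar L M)
    (Hx : GoodLevelFactsT A π M q hπ hqM (tInt M x hx))
    (hxk : tbar k x ≠ 0) (hY : YFacts M q x hx)
    (hD : Fermat.Agent.S33x.H1.LatticeFixed2.FixData2 (redSetup2 H hA)
      {g | ∃ τ ∈ A.inertiaSubgroupIn ℚ,
        g = arithmeticGalois (modularFunctionFieldFull (M * q)) τ})
    (hF : Submodule.span L {f : FL L (M * q) | IsFixed
      {g | ∃ τ ∈ A.inertiaSubgroupIn ℚ,
        g = arithmeticGalois (modularFunctionFieldFull (M * q)) τ} f} = ⊤)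
    (n : ℕ) [Finite (Km H hA (q ^ n))],
    ChartsMq H hA (q ^ n)

/-- the same with the extra hypotheses `4 ∣ M`, `q ≠ 2` (before `n`) -/
def ChartsMqGen4 : Prop :=
  ∀ {L : Type} [Field L] [Algebra ℚ L] [IsAlgClosed L] [Algebra.IsAlgebraic ℚ L]
    {A : ValuationSubring L} {k : Type} [Field k] {π : A →+* k} [IsAlgClosed k]
    {M q : ℕ} [NeZero M] [NeZero q] [Fact q.Prime] [CharP k q]
    {hdeg : finrankAlong L (heckeAlphaBar L M q) = q + 1} {hq : q.Prime} {hqM : ¬ q ∣ M}
    {hrk : ∀ x ∈ maximalIdeal A, ∀ c : A, c ≠ 0 → ∃ j : ℕ, c ∣ x ^ j}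
    {hπ : Function.Surjective π}
    (H : ResidueFacts A π M q hdeg hq hqM hrk hπ) (hA : A.LiesOverPrime q)
    [PerfectRing k q]
    (x : LaurentSeries ℤ) (hx : coeffMap (Int.castRingHom L) x ∈ FBar L M)
    (Hx : GoodLevelFactsT A π M q hπ hqM (tInt M x hx))
    (hxk : tbar k x ≠ 0) (hY : YFacts M q x hx)
    (hD : Fermat.Agent.S33x.H1.LatticeFixed2.FixData2 (redSetup2 H hA)
      {g | ∃ τ ∈ A.inertiaSubgroupIn ℚ,
        g = arithmeticGalois (modularFunctionFieldFull (M * q)) τ})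
    (hF : Submodule.span L {f : FL L (M * q) | IsFixed
      {g | ∃ τ ∈ A.inertiaSubgroupIn ℚ,
        g = arithmeticGalois (modularFunctionFieldFull (M * q)) τ} f} = ⊤)
    (h4 : 4 ∣ M) (hq2 : q ≠ 2)
    (n : ℕ) [Finite (Km H hA (q ^ n))],
    ChartsMq H hA (q ^ n)

theorem ChartsMqGen.to4 (G : ChartsMqGen) : ChartsMqGen4 :=
  fun H hA _ x hx Hx hxk hY hD hF _ _ n _ => G H hA x hx Hx hxk hY hD hF n

/-- **The most permissive form**: any literal `Gam` of the set of semilinear automorphisms induced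
by the inertia group, both copies of `FixData2`, `4 ∣ M`, `q ≠ 2`. -/
def GenericInst
    (Gam : ∀ {L : Type} [Field L] [Algebra ℚ L] (A : ValuationSubring L) (N : ℕ) [NeZero N],
      Set (SemilinearAut L (FL L N))) : Prop :=
  ∀ {L : Type} [Field L] [Algebra ℚ L] [IsAlgClosed L] [Algebra.IsAlgebraic ℚ L]
    {A : ValuationSubring L} {k : Type} [Field k] {π : A →+* k} [IsAlgClosed k]
    {M q : ℕ} [NeZero M] [NeZero q] [Fact q.Prime] [CharP k q] [PerfectRing k q]
    {hdeg : finrankAlong L (heckeAlphaBar L M q) = q + 1} {hq : q.Prime} {hqM : ¬ q ∣ M}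
    {hrk : ∀ x ∈ maximalIdeal A, ∀ c : A, c ≠ 0 → ∃ j : ℕ, c ∣ x ^ j}
    {hπ : Function.Surjective π}
    (H : ResidueFacts A π M q hdeg hq hqM hrk hπ) (hA : A.LiesOverPrime q)
    (x : LaurentSeries ℤ) (hx : coeffMap (Int.castRingHom L) x ∈ FBar L M)
    (Hx : GoodLevelFactsT A π M q hπ hqM (tInt M x hx))
    (hxk : tbar k x ≠ 0) (hY : YFacts M q x hx)
    (hFix : Fermat.Agent.S33x.H1.LatticeFixed2.FixData2 (redSetup2 H hA) (Gam A (M * q)))
    (hFixW : Fermat.Agent.S33x.W.LatticeFixed2.FixData2 (redSetup2 H hA) (Gam A (M * q)))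
    (hspan : Submodule.span L {f : FL L (M * q) | IsFixed (Gam A (M * q)) f} = ⊤)
    (h4 : 4 ∣ M) (hq2 : q ≠ 2)
    (n : ℕ) (hfin : Finite (Km H hA (q ^ n))),
    ChartsMq H hA (q ^ n)

theorem ChartsMqGen4.toGeneric (G : ChartsMqGen4) :
    GenericInst (fun {L} _ _ A N _ => GamSet A N) :=
  fun H hA x hx Hx hxk hY hFix _ hspan h4 hq2 n hfin =>
    haveI := hfin
    G H hA x hx Hx hxk hY hFix hspan h4 hq2 n

/-! ### The discharge at `Qbar` -/

section Discharge

variable (M₀ p : ℕ) [NeZero M₀] [NeZero p] (hp : p.Prime) (hpM : ¬ p ∣ M₀)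
  (P0 : ValuationSubring Qb) (hP0 : P0.LiesOverPrime p) (n : ℕ)

/-- **The discharge**, set-builder form of `Gam` (the set of `CtxMq.ctxGal_inertia`). -/
theorem genAt_of_generic_setOf
    (G : GenericInst (fun {L} _ _ A N _ => GamSet A N)) (hp2 : p ≠ 2) (h4 : 4 ∣ M₀)
    (hfin : Finite (KmQb M₀ p hp hpM P0 hP0 (p ^ n))) : GenAt M₀ p hp hpM P0 hP0 n := by
  haveI : Algebra.IsAlgebraic ℚ Qb := AlgebraicClosure.isAlgebraic ℚ
  haveI : Fact p.Prime := ⟨hp⟩
  haveI : IsAlgClosed (ResidueField P0) := FinalBase.isAlgClosed_residueField P0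
  haveI : CharP (ResidueField P0) p := FinalBase.charP_residueField P0 hP0
  haveI : PerfectRing (ResidueField P0) p := inferInstance
  exact G (ResidueInst.residueFacts P0 (residue P0) M₀ p (hdegQb M₀ p hp hpM) hp hpM
      (FinalBase.rank_one P0 hp hP0) (FinalBase.residue_surjective P0)) hP0
    L4.x4 (x4_hx h4) (x4_Hx h4) x4_hxk (x4_hY h4 hp hp2)
    (fixData2_setOf _ hP0) (fixData2W_setOf _ hP0) (span_fixed_setOf P0 (M₀ * p)) h4 hp2 n hfin

/-- **The discharge**, image form of `Gam` (`W/ScalFixed2.galSL`, `H1/FixData2Inst.inertiaAct`). -/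
theorem genAt_of_generic_galSL
    (G : GenericInst (fun {L} _ _ A N _ => galSL L N (A.inertiaSubgroupIn ℚ : Set (L ≃ₐ[ℚ] L))))
    (hp2 : p ≠ 2) (h4 : 4 ∣ M₀)
    (hfin : Finite (KmQb M₀ p hp hpM P0 hP0 (p ^ n))) : GenAt M₀ p hp hpM P0 hP0 n := by
  haveI : Algebra.IsAlgebraic ℚ Qb := AlgebraicClosure.isAlgebraic ℚ
  haveI : Fact p.Prime := ⟨hp⟩
  haveI : IsAlgClosed (ResidueField P0) := FinalBase.isAlgClosed_residueField P0
  haveI : CharP (ResidueField P0) p := FinalBase.charP_residueField P0 hP0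
  haveI : PerfectRing (ResidueField P0) p := inferInstance
  exact G (ResidueInst.residueFacts P0 (residue P0) M₀ p (hdegQb M₀ p hp hpM) hp hpM
      (FinalBase.rank_one P0 hp hP0) (FinalBase.residue_surjective P0)) hP0
    L4.x4 (x4_hx h4) (x4_Hx h4) x4_hxk (x4_hY h4 hp hp2)
    (fixData2_galSL _ hP0) (fixData2W_galSL _ hP0) (span_fixed_inertiaAct P0 (M₀ * p)) h4 hp2 n hfin

end Discharge

/-- **The target of the consumer from the generic theorem** (most permissive form, set-builder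
`Gam`). -/
theorem qOrdTarget_of_generic_setOf
    (G : GenericInst (fun {L} _ _ A N _ => GamSet A N)) :
    Fermat.Agent.S33x.Consumer.Final.QOrdTarget :=
  qOrdTarget_of_gen fun M₀ p _ _ hp hp2 hpM h4 P0 hP0 n hfin =>
    genAt_of_generic_setOf M₀ p hp hpM P0 hP0 n G hp2 h4 hfin

/-- **The target of the consumer from the generic theorem** (most permissive form, image `Gam`). -/
theorem qOrdTarget_of_generic_galSL
    (G : GenericInst (fun {L} _ _ A N _ => galSL L N (A.inertiaSubgroupIn ℚ : Set (L ≃ₐ[ℚ] L)))) :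
    Fermat.Agent.S33x.Consumer.Final.QOrdTarget :=
  qOrdTarget_of_gen fun M₀ p _ _ hp hp2 hpM h4 P0 hP0 n hfin =>
    genAt_of_generic_galSL M₀ p hp hpM P0 hP0 n G hp2 h4 hfin

/-- **`QOrdTarget` from `Cech/Inst.chartsMq_gen`** (planned signature, with `4 ∣ M`, `q ≠ 2`):
`qOrdTarget_of_chartsMqGen4 (fun H hA _ x hx Hx hxk hY hD hF h4 hq2 n _ => chartsMq_gen ..)`. -/
theorem qOrdTarget_of_chartsMqGen4 (G : ChartsMqGen4) :
    Fermat.Agent.S33x.Consumer.Final.QOrdTarget :=
  qOrdTarget_of_generic_setOf G.toGeneric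

/-- **`QOrdTarget` from `Cech/Inst.chartsMq_gen`** (planned signature):
`qOrdTarget_of_chartsMqGen (fun H hA _ x hx Hx hxk hY hD hF n _ => chartsMq_gen H hA x hx Hx hxk hY
hD hF n)`; then `Consumer.Final.s33_of_target` gives the frozen statement. -/
theorem qOrdTarget_of_chartsMqGen (G : ChartsMqGen) :
    Fermat.Agent.S33x.Consumer.Final.QOrdTarget :=
  qOrdTarget_of_chartsMqGen4 G.to4

end Fermat.Agent.S33x.Cech.InstQbCtx
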