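import Fermat.Agent.S33x.Cech.Datum
import Fermat.Agent.Gateway.Kummer.Basic

/-!
# P-S33, Layer 2 (b), leaf (L2-B2): change of Kummer representative and of Cech datum

Vocabulary of `S34x`: `R : C0two.RedSetup2 A S k κ` (`A` a valuation subring of `K`, `S = (O, I)` a
small ring of the field `F ⊇ K`, `res : O → κ`, `π : A → k`), `T : TwoCharts K F`,
`T.LM D a b = L(D + a C₀ + b C∞)`, `R.lat V = V ∩ O`.

* `exists_normalise` (KUMMER NORMALISATION, abstract, `RedSetup2` only): `κ` reduced of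
  characteristic `p`, `p`-th roots exist in `k`.  If `e = lam • f0 ^ (p ^ n)` is a unit of `S.O`
  reducing to `1` then some constant multiple `f = mu • f0` is a unit of `S.O` reducing to `1`.
* `exists_unit_of_kummer` : two Kummer data `(D, w)`, `(D', w')` (`p ^ n • D = div w`,
  `p ^ n • D' = div w'`, `w`, `w'` units of `S.O` reducing to `1`) whose difference `D' - D` is
  principal differ by `D' = D + div f` with `f` a unit of `S.O` reducing to `1`.
* `Goo_mem`, `G0_mem`, `res_Goo`, `res_G0`, `cocycle_change`: the comparison identity between the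
  Cech cocycles `hoo * h0'` of two data for `D` and `D' = D + div f`: the two cocycles differ by
  coboundaries `Goo ∈ L(b C∞) ∩ O`, `G0 ∈ L(a C₀) ∩ O`, both reducing to `1`.
-/

set_option autoImplicit false
set_option linter.unusedSectionVars false
set_option linter.style.haveILetI false

noncomputable section

namespace Fermat.Agent.S33x.Cech.ChangeDatum

open AlgebraicCurve IsLocalRing IntermediateField
open Fermat.Agent.Gateway.C0 Fermat.Agent.S34x Fermat.Agent.S34x.C0two Fermat.Agent.S34x.Lattice2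
open Fermat.Agent.S33x.Cech.Datum Fermat.Agent.S33x.H1.InstC1

/-! ### Part (a): Kummer normalisation over a `RedSetup2` -/

section normalise

variable {K : Type*} [Field K] {A : ValuationSubring K} {F : Type*} [Field F] [Algebra K F]
  {S : SmallRing F} {k κ : Type*} [Field k] [CommRing κ] [Algebra k κ]
  (R : RedSetup2 A S k κ)
include R

/-- The residue ring of a `RedSetup2` is nontrivial (`scal` applied to `1`). -/
theorem nontrivial_res : Nontrivial κ := by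
  obtain ⟨c, -, hcO, hns⟩ := R.scal (1 : F) one_ne_zero
  refine ⟨⟨R.res ⟨c • (1 : F), hcO⟩, 0, fun h => hns ((R.small_iff hcO).mpr h)⟩⟩

/-- `S.O ∩ K = A`. -/
theorem mem_of_algebraMap_mem {c : K} (h : algebraMap K F c ∈ S.O) : c ∈ A := by
  haveI := nontrivial_res R
  by_contra hc
  have hci : c⁻¹ ∈ A := (A.mem_or_inv_mem c).resolve_left hc
  have hc0 : c ≠ 0 := fun h0 => hc (h0 ▸ A.zero_mem)
  have hm : (⟨c⁻¹, hci⟩ : A) ∈ maximalIdeal A := by
    rw [mem_maximalIdeal, mem_nonunits_iff]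
    intro hu
    obtain ⟨d, hd⟩ := hu.exists_right_inv
    have hd' : c⁻¹ * (d : K) = 1 := by
      have := congrArg (Subtype.val) hd
      simpa using this
    have hdc : (d : K) = c := by
      field_simp at hd'
      exact hd'
    exact hc (hdc ▸ d.2)
  have hs : Small S (algebraMap K F c⁻¹) := R.base.algebraMap_small ⟨c⁻¹, hci⟩ hm
  have h1 : Small S (algebraMap K F c⁻¹ * algebraMap K F c) := hs.mul_right h
  rw [← map_mul, inv_mul_cancel₀ hc0, map_one] at h1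
  have h2 := (R.small_iff S.O.one_mem).mp h1
  have h3 : (⟨1, S.O.one_mem⟩ : S.O) = 1 := rfl
  rw [h3, map_one] at h2
  exact one_ne_zero h2

/-- An element of `A` with nonzero residue has its inverse in `A`. -/
theorem inv_mem_of_π_ne_zero {a : A} (ha : R.π a ≠ 0) :
    ∃ b : A, a * b = 1 ∧ (b : K) = (a : K)⁻¹ := by
  have hu : IsUnit a := by
    by_contra hu
    exact ha ((R.π_eq_zero_iff a).mpr (by rwa [mem_maximalIdeal, mem_nonunits_iff]))
  obtain ⟨b, hb⟩ := hu.exists_right_inv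
  refine ⟨b, hb, ?_⟩
  have h1 : (a : K) * (b : K) = 1 := by
    have := congrArg (Subtype.val) hb
    simpa using this
  exact eq_inv_of_mul_eq_one_right h1

/-- the inverse of a unit of `S.O` reducing to `1` reduces to `1` -/
theorem res_inv_eq_one' {w : F} (hw0 : w ≠ 0) (hwO : w ∈ S.O) (hwiO : w⁻¹ ∈ S.O)
    (hw1 : R.res ⟨w, hwO⟩ = 1) : R.res ⟨w⁻¹, hwiO⟩ = 1 := by
  have h1 : (⟨w, hwO⟩ : S.O) * ⟨w⁻¹, hwiO⟩ = 1 := Subtype.ext (mul_inv_cancel₀ hw0)
  have h2 := congrArg R.res h1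
  rwa [map_mul, hw1, one_mul, map_one] at h2

omit R in
/-- iterated `p`-th roots -/
theorem exists_pow_pow_eq {p : ℕ} (hroot : ∀ x : k, ∃ y : k, y ^ p = x) (n : ℕ) (x : k) :
    ∃ y : k, y ^ (p ^ n) = x := by
  induction n generalizing x with
  | zero => exact ⟨x, by simp⟩
  | succ n ih =>
    obtain ⟨y, hy⟩ := hroot x
    obtain ⟨z, hz⟩ := ih y
    exact ⟨z, by rw [pow_succ, pow_mul, hz, hy]⟩

omit R in
/-- In a reduced ring of characteristic `p`, `y ^ (p ^ n) = 1` forces `y = 1`. -/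
theorem eq_one_of_pow_char_pow_eq_one {p : ℕ} [Fact p.Prime] [CharP κ p] [IsReduced κ] {y : κ}
    {n : ℕ} (h : y ^ (p ^ n) = 1) : y = 1 := by
  have h1 : (y - 1) ^ (p ^ n) = 0 := by
    rw [sub_pow_char_pow, h, one_pow, sub_self]
  have h2 : IsNilpotent (y - 1) := ⟨p ^ n, h1⟩
  exact sub_eq_zero.mp h2.eq_zero

/-- **Kummer normalisation.**  `κ` reduced of characteristic `p`, `k` closed under `p`-th roots.
If `lam • f0 ^ (p ^ n)` is a unit of `S.O` reducing to `1`, a constant multiple of `f0` is a unit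
of `S.O` reducing to `1`. -/
theorem exists_normalise {p : ℕ} [Fact p.Prime] [CharP k p] [IsReduced κ]
    (hroot : ∀ x : k, ∃ y : k, y ^ p = x) {f0 : F} (hf0 : f0 ≠ 0) {lam : K} (hlam : lam ≠ 0)
    (n : ℕ) (heO : lam • f0 ^ (p ^ n) ∈ S.O) (heiO : (lam • f0 ^ (p ^ n))⁻¹ ∈ S.O)
    (hres : R.res ⟨lam • f0 ^ (p ^ n), heO⟩ = 1) :
    ∃ mu : K, mu ≠ 0 ∧ ∃ hO : mu • f0 ∈ S.O, (mu • f0)⁻¹ ∈ S.O ∧ R.res ⟨mu • f0, hO⟩ = 1 := by
  haveI := nontrivial_res R
  haveI : CharP κ p := charP_of_injective_algebraMap (algebraMap k κ).injective p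
  set e : F := lam • f0 ^ (p ^ n) with he
  have he0 : e ≠ 0 := by
    rw [he, Algebra.smul_def]
    exact mul_ne_zero (by simpa using hlam) (pow_ne_zero _ hf0)
  obtain ⟨mu0, hmu0, hgO, hgns⟩ := R.scal f0 hf0
  set g : F := mu0 • f0 with hg
  set α : K := mu0 ^ (p ^ n) / lam with hα
  -- `g ^ (p ^ n) = α • e`
  have hgpow : g ^ (p ^ n) = α • e := by
    rw [hg, he, hα, smul_pow, smul_smul, div_mul_cancel₀ _ hlam]
  have hαO : algebraMap K F α ∈ S.O := by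
    have h1 : algebraMap K F α = g ^ (p ^ n) * e⁻¹ := by
      rw [hgpow, Algebra.smul_def, mul_assoc, mul_inv_cancel₀ he0, mul_one]
    rw [h1]
    exact S.O.mul_mem (S.O.pow_mem hgO _) heiO
  have hαA : α ∈ A := mem_of_algebraMap_mem R hαO
  set a : A := ⟨α, hαA⟩ with ha
  have hae : a • e = α • e := rfl
  -- the residue of `g ^ (p ^ n)`
  have hresg : R.res ⟨g, hgO⟩ ^ (p ^ n) = algebraMap k κ (R.π a) := by
    rw [← map_pow]
    have h1 : (⟨g, hgO⟩ : S.O) ^ (p ^ n) = ⟨a • e, R.smul_mem_O a heO⟩ := by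
      apply Subtype.ext
      rw [SubmonoidClass.coe_pow]
      exact hgpow
    rw [h1, R.res_smul a heO, hres, Algebra.smul_def, mul_one]
  have hπa : R.π a ≠ 0 := by
    intro h0
    rw [h0, map_zero] at hresg
    have h2 : IsNilpotent (R.res ⟨g, hgO⟩) := ⟨p ^ n, hresg⟩
    exact hgns ((R.small_iff hgO).mpr h2.eq_zero)
  obtain ⟨βbar, hβbar⟩ := exists_pow_pow_eq hroot n (R.π a)
  obtain ⟨β, hβ⟩ := R.π_surj βbar
  have hβ0 : R.π β ≠ 0 := by
    intro h0
    rw [hβ] at h0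
    rw [h0, zero_pow (pow_ne_zero _ (Fact.out : p.Prime).ne_zero)] at hβbar
    exact hπa hβbar.symm
  obtain ⟨binv, hbinv, hbinvK⟩ := inv_mem_of_π_ne_zero R hβ0
  have hβK0 : (β : K) ≠ 0 := by
    intro h0
    apply hβ0
    have : β = 0 := Subtype.ext h0
    rw [this, map_zero]
  have hπbinv : R.π binv ^ (p ^ n) * R.π a = 1 := by
    have h1 : R.π β * R.π binv = 1 := by rw [← map_mul, hbinv, map_one]
    rw [← hβbar, ← hβ, ← mul_pow, mul_comm, h1, one_pow]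
  -- the normalised function
  have hfg : (mu0 / (β : K)) • f0 = binv • g := by
    rw [hg, div_eq_mul_inv, mul_comm, ← hbinvK, ← smul_smul]
    rfl
  have hfO : (mu0 / (β : K)) • f0 ∈ S.O := by
    rw [hfg]; exact R.smul_mem_O binv hgO
  have hresf : R.res ⟨(mu0 / (β : K)) • f0, hfO⟩ = 1 := by
    apply eq_one_of_pow_char_pow_eq_one (p := p) (n := n)
    have h1 : (⟨(mu0 / (β : K)) • f0, hfO⟩ : S.O) = ⟨binv • g, R.smul_mem_O binv hgO⟩ :=
      Subtype.ext hfg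
    rw [h1, R.res_smul binv hgO, smul_pow, hresg, Algebra.smul_def, ← map_mul,
      hπbinv, map_one]
  refine ⟨mu0 / (β : K), div_ne_zero hmu0 hβK0, hfO, ?_, hresf⟩
  -- the inverse: `f ^ (p ^ n) = γ • e` with `γ` a unit of `A`
  set γ : A := binv ^ (p ^ n) * a with hγ
  have hπγ : R.π γ ≠ 0 := by
    rw [hγ, map_mul, map_pow, hπbinv]; exact one_ne_zero
  obtain ⟨γinv, hγinv, -⟩ := inv_mem_of_π_ne_zero R hπγ
  have hfpow : ((mu0 / (β : K)) • f0) ^ (p ^ n) = γ • e := by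
    rw [hfg, smul_pow, hgpow, ← hae, smul_smul]
  have hpos : 0 < p ^ n := pow_pos (Fact.out : p.Prime).pos n
  have hmul : ((mu0 / (β : K)) • f0) *
      (((mu0 / (β : K)) • f0) ^ (p ^ n - 1) * (γinv • e⁻¹)) = 1 := by
    rw [← mul_assoc, ← pow_succ', Nat.sub_add_cancel hpos, hfpow, R.smul_eq, R.smul_eq]
    have h1 : algebraMap K F (γ : K) * algebraMap K F (γinv : K) = 1 := by
      rw [← map_mul]
      have := congrArg (Subtype.val) hγinv
      simp only [MulMemClass.coe_mul, OneMemClass.coe_one] at this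
      rw [this, map_one]
    calc algebraMap K F (γ : K) * e * (algebraMap K F (γinv : K) * e⁻¹)
        = (algebraMap K F (γ : K) * algebraMap K F (γinv : K)) * (e * e⁻¹) := by ring
      _ = 1 := by rw [h1, mul_inv_cancel₀ he0, mul_one]
  have hinv : ((mu0 / (β : K)) • f0)⁻¹ =
      ((mu0 / (β : K)) • f0) ^ (p ^ n - 1) * (γinv • e⁻¹) :=
    (eq_inv_of_mul_eq_one_right hmul).symm
  rw [hinv]
  exact S.O.mul_mem (S.O.pow_mem hfO _) (R.smul_mem_O γinv heiO)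

end normalise

/-! ### Part (a'): two Kummer data of the same class -/

section kummer

variable {K : Type*} [Field K] {A : ValuationSubring K} {F : Type*} [Field F] [Algebra K F]
  {S : SmallRing F} {k κ : Type*} [Field k] [CommRing κ] [Algebra k κ]
  (R : RedSetup2 A S k κ)

omit R in
/-- Two degree-zero divisors with the same class in `Pic0` differ by a principal divisor. -/
theorem exists_ord_of_mk_eq {D D' : Divisor K F} (hD : D ∈ Divisor.degZero (K := K) (F := F))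
    (hD' : D' ∈ Divisor.degZero (K := K) (F := F))
    (h : Pic0.mk ⟨D, hD⟩ = Pic0.mk ⟨D', hD'⟩) :
    ∃ f0 : F, f0 ≠ 0 ∧ ∀ v : Place K F, D' v = D v + v.ord f0 := by
  have h1 : (-(⟨D, hD⟩ : Divisor.degZero (K := K) (F := F)) + ⟨D', hD'⟩) ∈
      (Divisor.principal (K := K) (F := F)).addSubgroupOf (Divisor.degZero (K := K) (F := F)) :=
    QuotientAddGroup.eq.mp h
  rw [AddSubgroup.mem_addSubgroupOf] at h1
  obtain ⟨f0, hf0, hf⟩ := h1
  refine ⟨f0, hf0, fun v => ?_⟩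
  have := hf v
  simp only [AddSubgroup.coe_add, AddSubgroup.coe_neg, Finsupp.add_apply, Finsupp.neg_apply]
    at this
  linarith

omit R in
/-- Over an algebraically closed constant field a function with trivial divisor is a constant. -/
theorem exists_const_of_ord_eq_zero [IsAlgClosed K] [HasPrincipalDivisors K F]
    [∀ v : Place K F, v.FiniteResidue] [Nonempty (Place K F)] {g : F}
    (hg : ∀ v : Place K F, v.ord g = 0) : ∃ c : K, g = algebraMap K F c := by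
  have hgL : g ∈ riemannRochSpace (0 : Divisor K F) := by
    rw [mem_riemannRochSpace_iff]
    intro v
    right
    rw [hg v]; simp
  have hint : IsIntegral K g :=
    (Fermat.Agent.Lib.RiemannRoch.isAlgebraic_of_mem_zero hgL).isIntegral
  have hdeg1 : (minpoly K g).degree = 1 :=
    IsAlgClosed.degree_eq_one_of_irreducible K (minpoly.irreducible hint)
  obtain ⟨c, hc⟩ := minpoly.mem_range_of_degree_eq_one K g hdeg1
  exact ⟨c, hc.symm⟩

omit R in
/-- the same over an algebraically closed field of characteristic zero, `F / K(x)` finite -/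
theorem exists_const_of_ord_eq_zero_cz [IsAlgClosed K] [CharZero K] {x : F}
    (hx : Transcendental K x) [FiniteDimensional K⟮x⟯ F] {g : F}
    (hg : ∀ v : Place K F, v.ord g = 0) : ∃ c : K, g = algebraMap K F c := by
  haveI := Fermat.Agent.Lib.RiemannRoch.hasPrincipalDivisors_cz hx
  haveI : ∀ v : Place K F, v.FiniteResidue := Fermat.Agent.Lib.RiemannRoch.finiteResidue_cz hx
  haveI := Fermat.Agent.Lib.RiemannRoch.nonempty_place_cz hx
  exact exists_const_of_ord_eq_zero hg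

/-- **Change of Kummer representative.**  Two Kummer data `(D, w)`, `(D', w')` at exponent
`p ^ n` (`w`, `w'` units of `S.O` reducing to `1`) with `D' = D + div f0` satisfy
`D' = D + div f` for a unit `f` of `S.O` reducing to `1`. -/
theorem exists_unit_of_kummer {p : ℕ} [Fact p.Prime] [CharP k p] [IsReduced κ]
    (hroot : ∀ x : k, ∃ y : k, y ^ p = x)
    (hconst : ∀ g : F, (∀ v : Place K F, v.ord g = 0) → ∃ c : K, g = algebraMap K F c)
    (n : ℕ) {D D' : Divisor K F} {w w' : F} (hw0 : w ≠ 0) (hw'0 : w' ≠ 0)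
    (hwO : w ∈ S.O) (hwiO : w⁻¹ ∈ S.O) (hw1 : R.res ⟨w, hwO⟩ = 1)
    (hw'O : w' ∈ S.O) (hw'iO : w'⁻¹ ∈ S.O) (hw'1 : R.res ⟨w', hw'O⟩ = 1)
    (hD : ∀ v : Place K F, ((p ^ n : ℕ) : ℤ) * D v = v.ord w)
    (hD' : ∀ v : Place K F, ((p ^ n : ℕ) : ℤ) * D' v = v.ord w')
    {f0 : F} (hf0 : f0 ≠ 0) (hf0D : ∀ v : Place K F, D' v = D v + v.ord f0) :
    ∃ f : F, f ≠ 0 ∧ ResOne R f ∧ f⁻¹ ∈ S.O ∧ ∀ v : Place K F, D' v = D v + v.ord f := by
  -- `w' / (w f0 ^ (p ^ n))` has trivial divisor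
  set g : F := w' * (w * f0 ^ (p ^ n))⁻¹ with hg
  have hwf0 : w * f0 ^ (p ^ n) ≠ 0 := mul_ne_zero hw0 (pow_ne_zero _ hf0)
  have hgord : ∀ v : Place K F, v.ord g = 0 := by
    intro v
    rw [hg, v.ord_mul hw'0 (inv_ne_zero hwf0), v.ord_inv, v.ord_mul hw0 (pow_ne_zero _ hf0),
      ← zpow_natCast, v.ord_zpow, ← hD v, ← hD' v, hf0D v]
    push_cast
    ring
  obtain ⟨c, hc⟩ := hconst g hgord
  have hg0 : g ≠ 0 := mul_ne_zero hw'0 (inv_ne_zero hwf0)
  have hc0 : c ≠ 0 := by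
    intro h0
    rw [h0, map_zero] at hc
    exact hg0 hc
  -- `w' / w = c • f0 ^ (p ^ n)`
  have he : c • f0 ^ (p ^ n) = w' * w⁻¹ := by
    rw [Algebra.smul_def, ← hc, hg]
    field_simp
  have heO : c • f0 ^ (p ^ n) ∈ S.O := by rw [he]; exact S.O.mul_mem hw'O hwiO
  have heiO : (c • f0 ^ (p ^ n))⁻¹ ∈ S.O := by
    rw [he, mul_inv, inv_inv]; exact S.O.mul_mem hw'iO hwO
  have hres : R.res ⟨c • f0 ^ (p ^ n), heO⟩ = 1 := by
    have h1 : (⟨c • f0 ^ (p ^ n), heO⟩ : S.O) = ⟨w', hw'O⟩ * ⟨w⁻¹, hwiO⟩ := Subtype.ext he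
    rw [h1, map_mul, hw'1, res_inv_eq_one' R hw0 hwO hwiO hw1, one_mul]
  obtain ⟨mu, hmu, hfO, hfiO, hf1⟩ :=
    exists_normalise R hroot hf0 hc0 n heO heiO hres
  have hmuF : algebraMap K F mu ≠ 0 := by simpa using hmu
  refine ⟨mu • f0, ?_, ⟨hfO, hf1⟩, hfiO, fun v => ?_⟩
  · rw [Algebra.smul_def]; exact mul_ne_zero hmuF hf0
  · rw [Algebra.smul_def, v.ord_mul hmuF hf0,
      Fermat.Agent.Gateway.Kummer.ord_algebraMap_eq_zero v hmu, zero_add]
    exact hf0D v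

end kummer

/-! ### Part (b): comparison of the cocycles of two data -/

section change

variable {K : Type*} [Field K] {A : ValuationSubring K} {F : Type*} [Field F] [Algebra K F]
  {S : SmallRing F} {k κ : Type*} [Field k] [CommRing κ] [Algebra k κ]
  {R : RedSetup2 A S k κ} {Dt D D' : Divisor K F}

/-- `f · L(D' + E) · L(-D + E') ⊆ L(E + E')` when `D' = D + div f`. -/
theorem mul_mul_mem_rrs {f : F} (hf0 : f ≠ 0) (hfD : ∀ v : Place K F, D' v = D v + v.ord f)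
    {E E' : Divisor K F} {x y : F} (hx : x ∈ riemannRochSpace (D' + E))
    (hy : y ∈ riemannRochSpace (-D + E')) : f * x * y ∈ riemannRochSpace (E + E') := by
  by_cases hx0 : x = 0
  · subst hx0; simp
  by_cases hy0 : y = 0
  · subst hy0; simp
  rw [mem_riemannRochSpace_iff] at hx hy ⊢
  intro v
  right
  have h1 := (hx v).resolve_left hx0
  have h2 := (hy v).resolve_left hy0
  rw [v.ord_mul (mul_ne_zero hf0 hx0) hy0, v.ord_mul hf0 hx0]
  simp only [Finsupp.add_apply, Finsupp.neg_apply] at h1 h2 ⊢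
  have := hfD v
  linarith

/-- `f · Lam(D'; a, b) · Lam(-D; a', b') ⊆ Lam(0; a + a', b + b')` when `D' = D + div f`,
`f ∈ S.O`. -/
theorem mul_mul_mem_LamD {f : F} (hf0 : f ≠ 0) (hfO : f ∈ S.O)
    (hfD : ∀ v : Place K F, D' v = D v + v.ord f) {a b a' b' : ℕ} {x y : F}
    (hx : x ∈ LamD R Dt D' a b) (hy : y ∈ LamD R Dt (-D) a' b') :
    f * x * y ∈ LamD R Dt 0 (a + a') (b + b') := by
  refine ⟨?_, S.O.mul_mem (S.O.mul_mem hfO hx.2) hy.2⟩
  have h := mul_mul_mem_rrs hf0 hfD hx.1 hy.1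
  rw [TwoCharts.LM, TwoCharts.dv_add, zero_add]
  exact h

/-- the coboundary on the chart `t ≠ ∞` comparing two data -/
def Goo (f : F) (d : CechDatum R Dt D) (d' : CechDatum R Dt D') : F := f * d'.hoo * d.hoo'

/-- the coboundary on the chart `t ≠ 0` comparing two data -/
def Gzero (f : F) (d : CechDatum R Dt D) (d' : CechDatum R Dt D') : F := f⁻¹ * d.h0 * d'.h0'

theorem Goo_mem {f : F} (hf0 : f ≠ 0) (hfO : f ∈ S.O)
    (hfD : ∀ v : Place K F, D' v = D v + v.ord f) (d : CechDatum R Dt D)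
    (d' : CechDatum R Dt D') : ∃ b, Goo f d d' ∈ LamD R Dt 0 0 b := by
  obtain ⟨b, hb⟩ := d'.hoo_mem
  obtain ⟨b', hb'⟩ := d.hoo'_mem
  refine ⟨b + b', ?_⟩
  have h := mul_mul_mem_LamD hf0 hfO hfD hb hb'
  rwa [add_zero] at h

theorem Gzero_mem {f : F} (hf0 : f ≠ 0) (hfiO : f⁻¹ ∈ S.O)
    (hfD : ∀ v : Place K F, D' v = D v + v.ord f) (d : CechDatum R Dt D)
    (d' : CechDatum R Dt D') : ∃ a, Gzero f d d' ∈ LamD R Dt 0 a 0 := by
  obtain ⟨a, ha⟩ := d.h0_mem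
  obtain ⟨a', ha'⟩ := d'.h0'_mem
  have hfD' : ∀ v : Place K F, D v = D' v + v.ord f⁻¹ := by
    intro v
    rw [v.ord_inv, hfD v]; ring
  refine ⟨a + a', ?_⟩
  have h := mul_mul_mem_LamD (inv_ne_zero hf0) hfiO hfD' ha ha'
  rwa [add_zero] at h

theorem Goo_resOne {f : F} (hf : ResOne R f) (d : CechDatum R Dt D) (d' : CechDatum R Dt D') :
    ResOne R (Goo f d d') := (hf.mul d'.res_hoo).mul d.res_hoo'

theorem resOne_inv {f : F} (hf0 : f ≠ 0) (hf : ResOne R f) (hfiO : f⁻¹ ∈ S.O) :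
    ResOne R f⁻¹ :=
  ⟨hfiO, res_inv_eq_one' R hf0 hf.1 hfiO hf.2⟩

theorem Gzero_resOne {f : F} (hf0 : f ≠ 0) (hf : ResOne R f) (hfiO : f⁻¹ ∈ S.O)
    (d : CechDatum R Dt D) (d' : CechDatum R Dt D') : ResOne R (Gzero f d d') :=
  ((resOne_inv hf0 hf hfiO).mul d.res_h0).mul d'.res_h0'

/-- **The comparison identity**: `c' · (hoo hoo') (h0 h0') = c · Goo · G0`. -/
theorem cocycle_change {f : F} (hf0 : f ≠ 0) (d : CechDatum R Dt D) (d' : CechDatum R Dt D') :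
    d'.cocycle * ((d.hoo * d.hoo') * (d.h0 * d.h0')) = d.cocycle * (Goo f d d' * Gzero f d d') := by
  simp only [CechDatum.cocycle, Goo, Gzero]
  field_simp

/-- an element of `Lam(0; a, b)` reducing to `1` is `1 + ϖ z`, `ϖ ∈ 𝔪`, `z ∈ Lam(0; a, b)`. -/
theorem exists_eq_one_add_of_mem_LamD {a b : ℕ} {x : F} (hx : x ∈ LamD R Dt 0 a b)
    (hx1 : ResOne R x) : ∃ ϖ ∈ maximalIdeal A, ∃ z ∈ LamD R Dt 0 a b, x - 1 = ϖ • z := by
  obtain ⟨ϖ, hϖ, z, hz, hcz⟩ := hx1.exists_eq_one_add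
  by_cases h0 : ϖ = 0
  · refine ⟨ϖ, hϖ, 0, Submodule.zero_mem _, ?_⟩
    rw [hcz, h0, zero_smul, smul_zero]
  · refine ⟨ϖ, hϖ, z, ⟨?_, hz⟩, hcz⟩
    have h1 : (1 : F) ∈ (TwoCharts.ofDivisor Dt).LM 0 a b :=
      (TwoCharts.ofDivisor Dt).LM_mono 0 (Nat.zero_le a) (Nat.zero_le b)
        (one_mem_LamD_zero (R := R) (Dt := Dt)).1
    have h2 : x - 1 ∈ (TwoCharts.ofDivisor Dt).LM 0 a b := Submodule.sub_mem _ hx.1 h1
    have hϖK : ((ϖ : A) : K) ≠ 0 := by exact_mod_cast h0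
    have h3 : z = ((ϖ : A) : K)⁻¹ • (x - 1) := by
      rw [hcz]
      have : ϖ • z = ((ϖ : A) : K) • z := rfl
      rw [this, smul_smul, inv_mul_cancel₀ hϖK, one_smul]
    rw [h3]
    exact Submodule.smul_mem _ _ h2

/-- **Relation between the cocycles of two data of divisors differing by `div f`**, `f` a unit
of `S.O` reducing to `1`: there are `Eoo, Goo ∈ ⋃ Lam(0; 0, b)` and `E0, G0 ∈ ⋃ Lam(0; a, 0)`, all
reducing to `1`, with `c' · (Eoo E0) = c · (Goo G0)`. -/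
theorem exists_rel_of_unit {f : F} (hf0 : f ≠ 0) (hf : ResOne R f) (hfiO : f⁻¹ ∈ S.O)
    (hfD : ∀ v : Place K F, D' v = D v + v.ord f) (d : CechDatum R Dt D)
    (d' : CechDatum R Dt D') :
    ∃ Eoo E0 Goo G0 : F, (∃ b, Eoo ∈ LamD R Dt 0 0 b) ∧ (∃ a, E0 ∈ LamD R Dt 0 a 0) ∧
      (∃ b, Goo ∈ LamD R Dt 0 0 b) ∧ (∃ a, G0 ∈ LamD R Dt 0 a 0) ∧
      ResOne R Eoo ∧ ResOne R E0 ∧ ResOne R Goo ∧ ResOne R G0 ∧
      d'.cocycle * (Eoo * E0) = d.cocycle * (Goo * G0) :=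
  ⟨d.hoo * d.hoo', d.h0 * d.h0', Goo f d d', Gzero f d d', d.hoo_mul_hoo'_mem, d.h0_mul_h0'_mem,
    Goo_mem hf0 hf.1 hfD d d', Gzero_mem hf0 hfiO hfD d d', d.hoo_mul_hoo'_resOne,
    d.h0_mul_h0'_resOne, Goo_resOne hf d d', Gzero_resOne hf0 hf hfiO d d',
    cocycle_change hf0 d d'⟩

/-- **All cocycles of one class are related by coboundaries.**  Two Kummer data `(D, w)`,
`(D', w')` at exponent `p ^ n` of the same class (`D' - D` principal), with Cech data `d`, `d'`. -/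
theorem exists_rel_of_kummer {p : ℕ} [Fact p.Prime] [CharP k p] [IsReduced κ]
    (hroot : ∀ x : k, ∃ y : k, y ^ p = x)
    (hconst : ∀ g : F, (∀ v : Place K F, v.ord g = 0) → ∃ c : K, g = algebraMap K F c)
    (n : ℕ) {w w' : F} (hw0 : w ≠ 0) (hw'0 : w' ≠ 0)
    (hwO : w ∈ S.O) (hwiO : w⁻¹ ∈ S.O) (hw1 : R.res ⟨w, hwO⟩ = 1)
    (hw'O : w' ∈ S.O) (hw'iO : w'⁻¹ ∈ S.O) (hw'1 : R.res ⟨w', hw'O⟩ = 1)
    (hD : ∀ v : Place K F, ((p ^ n : ℕ) : ℤ) * D v = v.ord w)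
    (hD' : ∀ v : Place K F, ((p ^ n : ℕ) : ℤ) * D' v = v.ord w')
    (hDD' : ∃ f0 : F, f0 ≠ 0 ∧ ∀ v : Place K F, D' v = D v + v.ord f0)
    (d : CechDatum R Dt D) (d' : CechDatum R Dt D') :
    ∃ Eoo E0 Goo G0 : F, (∃ b, Eoo ∈ LamD R Dt 0 0 b) ∧ (∃ a, E0 ∈ LamD R Dt 0 a 0) ∧
      (∃ b, Goo ∈ LamD R Dt 0 0 b) ∧ (∃ a, G0 ∈ LamD R Dt 0 a 0) ∧
      ResOne R Eoo ∧ ResOne R E0 ∧ ResOne R Goo ∧ ResOne R G0 ∧
      d'.cocycle * (Eoo * E0) = d.cocycle * (Goo * G0) := by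
  obtain ⟨f0, hf0, hf0D⟩ := hDD'
  obtain ⟨f, hf0', hf, hfiO, hfD⟩ :=
    exists_unit_of_kummer R hroot hconst n hw0 hw'0 hwO hwiO hw1 hw'O hw'iO hw'1 hD hD' hf0 hf0D
  exact exists_rel_of_unit hf0' hf hfiO hfD d d'

end change

/-! ### The same in the vocabulary of `H1/InstC1` (`Boo`, `Bzero`, `Bx`) -/

section compare

variable {K : Type*} [Field K] {A : ValuationSubring K} {F : Type*} [Field F] [Algebra K F]
  {S : SmallRing F} {k κ : Type*} [Field k] [CommRing κ] [Algebra k κ]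
  {R : RedSetup2 A S k κ} (C : ChartCoord R)
  (ht : Transcendental K C.t) [FiniteDimensional K⟮C.t⟯ F] [Algebra.IsSeparable K⟮C.t⟯ F]
  {Dt : Divisor K F} (hDt : ∀ v : Place K F, Dt v = v.ord C.t) {D D' : Divisor K F}

include ht hDt in
/-- an element of `⋃ Lam(0; 0, b)` reducing to `1` lies in `1 + ϖ B∞`, `ϖ ∈ 𝔪` -/
theorem exists_eq_one_add_Boo {x : F} (hx : ∃ b, x ∈ LamD R Dt 0 0 b) (hx1 : ResOne R x) :
    x ∈ Boo C ∧ ∃ ϖ ∈ maximalIdeal A, ∃ z ∈ Boo C, x - 1 = ϖ • z := by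
  obtain ⟨b, hb⟩ := hx
  obtain ⟨ϖ, hϖ, z, hz, h⟩ := exists_eq_one_add_of_mem_LamD hb hx1
  rw [LamD_zero_eq C ht hDt] at hb hz
  exact ⟨H1Fg.le_chartU (M := Lam C) b hb, ϖ, hϖ, z, H1Fg.le_chartU (M := Lam C) b hz, h⟩

include ht hDt in
/-- an element of `⋃ Lam(0; a, 0)` reducing to `1` lies in `1 + ϖ B₀`, `ϖ ∈ 𝔪` -/
theorem exists_eq_one_add_Bzero {x : F} (hx : ∃ a, x ∈ LamD R Dt 0 a 0) (hx1 : ResOne R x) :
    x ∈ Bzero C ∧ ∃ ϖ ∈ maximalIdeal A, ∃ z ∈ Bzero C, x - 1 = ϖ • z := by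
  obtain ⟨a, ha⟩ := hx
  obtain ⟨ϖ, hϖ, z, hz, h⟩ := exists_eq_one_add_of_mem_LamD ha hx1
  rw [LamD_zero_eq C ht hDt] at ha hz
  exact ⟨H1Fg.le_chartU' (M := Lam C) a ha, ϖ, hϖ, z, H1Fg.le_chartU' (M := Lam C) a hz, h⟩

end compare

end Fermat.Agent.S33x.Cech.ChangeDatum
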