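import Fermat.Agent.S33x.Cech.GroupLaw

/-!
# P-S33, LAYER 2, leaf (L2-B5), independent second (helper32): the abstract assembly

From class-level cocycle data `Cyc : X → Set B` on a finite abelian group `X` (cocycles of the
classes, congruent to `1` modulo the maximal ideal, closed under products, any two cocycles of one
class differing by coboundaries of `1 + m Boo`, `1 + m B0`, stable under a family of semilinear
ring maps, and not approximate coboundaries for `x ≠ 0`) together with the abstract Čech normal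
form of `Cech/NormalForm` + `Cech/GroupLaw` (existence, cross-multiplied uniqueness, universal
group law), we build approximate coordinates `coord N : X → Fin g → A` with all the properties of
the `L2 → L3` contract modulo `q ^ N` (`q` any nonzero non-unit, e.g. `q = p`).

Pure algebra: `A` is any commutative ring with totally ordered divisibility and the rank-one
property (`∀ x` non-unit, `c ≠ 0`, `∃ j, c ∣ x ^ j`); no valuation is mentioned.
-/

set_option autoImplicit false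
set_option linter.unusedSectionVars false

namespace Fermat.Agent.S33x.Cech.CoordAsm32

open Fermat.Agent.S33x.Cech

variable {A : Type*} [CommRing A] {B : Type*} [CommRing B] [Algebra A B]
variable {Boo B0 : Subalgebra A B} {g : ℕ} {a : Fin g → B}

/-! ### Presentations -/

/-- `(voo, v0, t)` is a presentation of `c` modulo `π ^ n`: `c * voo * v0 ≡ 1 + ∑ t_i a_i`. -/
def IsPres (Boo B0 : Subalgebra A B) (a : Fin g → B) (π : A) (n : ℕ) (c : B) (voo : Boo)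
    (v0 : B0) (t : Fin g → A) : Prop :=
  algebraMap A Boo π ∣ voo - 1 ∧ algebraMap A B0 π ∣ v0 - 1 ∧ (∀ i, π ∣ t i) ∧
    algebraMap A B π ^ n ∣ c * voo * v0 - (1 + comb a t)

theorem map_dvd_of_dvd (S : Subalgebra A B) {π π' : A} (h : π' ∣ π) {x : S}
    (hx : algebraMap A S π ∣ x) : algebraMap A S π' ∣ x :=
  dvd_trans ((algebraMap A S).map_dvd h) hx

/-- downgrading a presentation to a coarser modulus -/
theorem IsPres.mono {π π' : A} {n n' : ℕ} {c : B} {voo : Boo} {v0 : B0} {t : Fin g → A}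
    (h : IsPres Boo B0 a π n c voo v0 t) (hπ : π' ∣ π) (hn : π' ^ n' ∣ π ^ n) :
    IsPres Boo B0 a π' n' c voo v0 t := by
  obtain ⟨h1, h2, h3, h4⟩ := h
  refine ⟨map_dvd_of_dvd Boo hπ h1, map_dvd_of_dvd B0 hπ h2, fun i => dvd_trans hπ (h3 i), ?_⟩
  refine dvd_trans ?_ h4
  rw [← map_pow, ← map_pow]
  exact (algebraMap A B).map_dvd hn

/-- existence of presentations (from `exists_normalForm` at the principal ideal `(π)`) -/
theorem exists_isPres (hdec : Decomp Boo B0 a) (π : A) {c : B}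
    (hc : algebraMap A B π ∣ c - 1) (n : ℕ) :
    ∃ (voo : Boo) (v0 : B0) (t : Fin g → A), IsPres Boo B0 a π n c voo v0 t := by
  have hmem : c - 1 ∈ (Ideal.span {π}).map (algebraMap A B) := by
    rw [Ideal.map_span, Set.image_singleton, Ideal.mem_span_singleton]
    exact hc
  obtain ⟨voo, v0, t, h1, h2, h3, h4⟩ := exists_normalForm hdec (Ideal.span {π}) c hmem n
  refine ⟨voo, v0, t, ?_, ?_, ?_, ?_⟩
  · rwa [Ideal.map_span, Set.image_singleton, Ideal.mem_span_singleton] at h1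
  · rwa [Ideal.map_span, Set.image_singleton, Ideal.mem_span_singleton] at h2
  · intro i
    exact Ideal.mem_span_singleton.mp (h3 i)
  · rw [Ideal.span_singleton_pow, Ideal.map_span, Set.image_singleton,
      Ideal.mem_span_singleton, map_pow] at h4
    exact dvd_trans (pow_dvd_pow _ (Nat.le_succ n)) h4


/-! ### Rings with totally ordered divisibility and the rank-one property -/

/-- the two properties of a rank-one valuation ring which are used -/
structure ValLike (A : Type*) [CommRing A] : Prop where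
  tot : ∀ x y : A, x ∣ y ∨ y ∣ x
  rank_one : ∀ x : A, ¬ IsUnit x → ∀ c : A, c ≠ 0 → ∃ j : ℕ, c ∣ x ^ j

/-- **Precision transfer**: if `π' ∣ π` and `c π ∣ π ^ n`, some power of `π'` lies between `c` and
`π ^ n`. -/
theorem ValLike.exists_pow_between (hA : ValLike A) {π π' c : A} (hπ' : ¬ IsUnit π')
    (hππ : π' ∣ π) (hc : c ≠ 0) {n : ℕ} (hcn : c * π ∣ π ^ n) :
    ∃ n' : ℕ, c ∣ π' ^ n' ∧ π' ^ n' ∣ π ^ n ∧ ∀ J : ℕ, c ∣ π' ^ J → n' ≤ J := by
  classical
  have hex : ∃ j : ℕ, c ∣ π' ^ j := hA.rank_one π' hπ' c hc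
  refine ⟨Nat.find hex, Nat.find_spec hex, ?_, fun J hJ => Nat.find_min' hex hJ⟩
  rcases Nat.eq_zero_or_pos (Nat.find hex) with h0 | hpos
  · rw [h0, pow_zero]
    exact one_dvd _
  · obtain ⟨k, hk⟩ : ∃ k, Nat.find hex = k + 1 := ⟨Nat.find hex - 1, by omega⟩
    have hmin : ¬ c ∣ π' ^ k := Nat.find_min hex (by omega)
    have hkc : π' ^ k ∣ c := (hA.tot (π' ^ k) c).resolve_right hmin
    rw [hk, pow_succ]
    exact dvd_trans (mul_dvd_mul hkc hππ) hcn

/-- a common non-unit nonzero divisor of finitely many nonzero non-units -/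
theorem ValLike.exists_common_dvd (hA : ValLike A) {ι : Type*} (s : Finset ι) (ε : ι → A)
    (hε : ∀ i ∈ s, ¬ IsUnit (ε i) ∧ ε i ≠ 0) {q : A} (hq : ¬ IsUnit q) (hq0 : q ≠ 0) :
    ∃ ϖ : A, ¬ IsUnit ϖ ∧ ϖ ≠ 0 ∧ ϖ ∣ q ∧ ∀ i ∈ s, ϖ ∣ ε i := by
  classical
  induction s using Finset.induction_on with
  | empty => exact ⟨q, hq, hq0, dvd_rfl, fun i hi => absurd hi (Finset.notMem_empty i)⟩
  | insert j s hj ih =>
    obtain ⟨ϖ, h1, h2, h3, h4⟩ := ih fun i hi => hε i (Finset.mem_insert_of_mem hi)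
    rcases hA.tot ϖ (ε j) with h | h
    · refine ⟨ϖ, h1, h2, h3, fun i hi => ?_⟩
      rcases Finset.mem_insert.mp hi with rfl | hi
      · exact h
      · exact h4 i hi
    · obtain ⟨hj1, hj2⟩ := hε j (Finset.mem_insert_self j s)
      refine ⟨ε j, hj1, hj2, dvd_trans h h3, fun i hi => ?_⟩
      rcases Finset.mem_insert.mp hi with rfl | hi
      · exact dvd_rfl
      · exact dvd_trans h (h4 i hi)

/-! ### Inverses modulo `c` -/

/-- the inverse of `b ∈ 1 + ϖ R` modulo `c`, when `c ∣ ϖ ^ J` (geometric series) -/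
theorem exists_inv_mod {R : Type*} [CommRing R] {ϖ c b : R} {J : ℕ} (hJ : c ∣ ϖ ^ J)
    (hb : ϖ ∣ b - 1) : ∃ b' : R, ϖ ∣ b' - 1 ∧ c ∣ b * b' - 1 := by
  obtain ⟨β, hβ⟩ := hb
  set x : R := -(ϖ * β) with hx
  have hbx : b = 1 - x := by rw [hx]; linear_combination hβ
  refine ⟨∑ i ∈ Finset.range (J + 1), x ^ i, ?_, ?_⟩
  · rw [Finset.sum_range_succ', pow_zero, add_sub_cancel_right]
    refine Finset.dvd_sum fun i _ => ?_
    rw [pow_succ]
    exact Dvd.dvd.mul_left ⟨-β, by rw [hx]; ring⟩ _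
  · rw [hbx, mul_neg_geom_sum]
    have : (1 : R) - x ^ (J + 1) - 1 = -(x ^ (J + 1)) := by ring
    rw [this, dvd_neg, hx, neg_pow, mul_pow, pow_succ ϖ J]
    exact Dvd.dvd.mul_left (Dvd.dvd.mul_right (Dvd.dvd.mul_right hJ ϖ) _) _

/-! ### Comparison of presentations -/

/-- **Unary comparison** (cross-multiplied uniqueness): presentations of two cocycles which differ
by coboundaries have the same coordinates. -/
theorem IsPres.unique {π : A} (H : SatData Boo B0 a π) {n : ℕ} {c c' : B} {voo woo : Boo}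
    {v0 w0 : B0} {t t' : Fin g → A} (h : IsPres Boo B0 a π n c voo v0 t)
    (h' : IsPres Boo B0 a π n c' woo w0 t') {r r' : Boo} {s s' : B0}
    (hr : algebraMap A Boo π ∣ r - 1) (hr' : algebraMap A Boo π ∣ r' - 1)
    (hs : algebraMap A B0 π ∣ s - 1) (hs' : algebraMap A B0 π ∣ s' - 1)
    (hrel : algebraMap A B π ^ n ∣ c' * r * s - c * r' * s') :
    ∀ i, π ^ n ∣ t i - t' i := by
  obtain ⟨h1, h2, h3, ⟨e1, he1⟩⟩ := h
  obtain ⟨k1, k2, k3, ⟨e2, he2⟩⟩ := h'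
  obtain ⟨e3, he3⟩ := hrel
  refine normalForm_unique H n h3 k3 (voo := r * voo) (woo := r' * woo) (v0 := s * v0)
    (w0 := s' * w0) (dvd_mul_sub_one hr h1) (dvd_mul_sub_one hr' k1) (dvd_mul_sub_one hs h2)
    (dvd_mul_sub_one hs' k2) ?_
  push_cast
  refine ⟨-e1 * (r' * s' * woo * w0) - e3 * (woo * w0 * voo * v0) + e2 * (r * s * voo * v0), ?_⟩
  linear_combination (-((r' : B) * s' * woo * w0)) * he1 + ((r : B) * s * voo * v0) * he2
    - ((woo : B) * w0 * voo * v0) * he3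


/-! ### Semilinear maps -/

/-- a ring endomorphism `fB` of `B`, semilinear over the endomorphism `fA` of `A`, preserving the
two charts, fixing the `a_i` and preserving the divisibility classes of `A` -/
structure SemiAct (Boo B0 : Subalgebra A B) (a : Fin g → B) (fA : A →+* A) (fB : B →+* B) :
    Prop where
  comm : ∀ α : A, fB (algebraMap A B α) = algebraMap A B (fA α)
  memoo : ∀ b ∈ Boo, fB b ∈ Boo
  mem0 : ∀ b ∈ B0, fB b ∈ B0
  fix_a : ∀ i, fB (a i) = a i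
  dvd : ∀ α : A, α ∣ fA α

theorem SemiAct.map_comb {fA : A →+* A} {fB : B →+* B} (hf : SemiAct Boo B0 a fA fB)
    (t : Fin g → A) : fB (comb a t) = comb a (fun i => fA (t i)) := by
  rw [comb, Fintype.linearCombination_apply, Fintype.linearCombination_apply, map_sum]
  refine Finset.sum_congr rfl fun i _ => ?_
  rw [Algebra.smul_def, Algebra.smul_def, map_mul, hf.comm, hf.fix_a]

theorem SemiAct.dvd_sub_one {fA : A →+* A} {fB : B →+* B} (hf : SemiAct Boo B0 a fA fB)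
    (S : Subalgebra A B) (hS : ∀ b ∈ S, fB b ∈ S) {π : A} {x : S}
    (hx : algebraMap A S π ∣ x - 1) :
    algebraMap A S π ∣ (⟨fB x, hS x x.2⟩ : S) - 1 := by
  obtain ⟨β, hβ⟩ := hx
  obtain ⟨u, hu⟩ := hf.dvd π
  refine ⟨algebraMap A S u * ⟨fB β, hS β β.2⟩, Subtype.ext ?_⟩
  have h1 : (x : B) - 1 = algebraMap A B π * β := by
    have := congrArg (Subtype.val) hβ
    simpa using this
  have h2 : fB x - 1 = algebraMap A B (fA π) * fB β := by
    rw [← hf.comm, ← map_mul, ← h1, map_sub, map_one]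
  push_cast
  rw [h2, hu, map_mul]
  ring

/-- transport of a presentation along a semilinear map -/
theorem IsPres.map {fA : A →+* A} {fB : B →+* B} (hf : SemiAct Boo B0 a fA fB) {π : A} {n : ℕ}
    {c : B} {voo : Boo} {v0 : B0} {t : Fin g → A} (h : IsPres Boo B0 a π n c voo v0 t) :
    IsPres Boo B0 a π n (fB c) ⟨fB voo, hf.memoo voo voo.2⟩ ⟨fB v0, hf.mem0 v0 v0.2⟩
      (fun i => fA (t i)) := by
  obtain ⟨h1, h2, h3, ⟨e, he⟩⟩ := h
  refine ⟨hf.dvd_sub_one Boo hf.memoo h1, hf.dvd_sub_one B0 hf.mem0 h2,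
    fun i => dvd_trans (h3 i) (hf.dvd (t i)), ?_⟩
  obtain ⟨u, hu⟩ := hf.dvd π
  refine ⟨algebraMap A B u ^ n * fB e, ?_⟩
  have h4 : fB c * fB voo * fB v0 - (1 + comb a fun i => fA (t i)) =
      fB (c * voo * v0 - (1 + comb a t)) := by
    rw [map_sub, map_mul, map_mul, map_add, map_one, hf.map_comb]
  show fB c * fB voo * fB v0 - (1 + comb a fun i => fA (t i)) = _
  rw [h4, he, map_mul, map_pow, hf.comm, hu, map_mul, mul_pow]
  ring


/-! ### Comparison modulo `q ^ N` with coboundaries of an arbitrary small modulus -/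

section Compare

variable [IsDomain A]

/-- a common small divisor of two small elements -/
theorem ValLike.exists_dvd_both (hA : ValLike A) {ε ϖ : A} (hε : ¬ IsUnit ε) (hε0 : ε ≠ 0)
    (hϖ : ¬ IsUnit ϖ) (hϖ0 : ϖ ≠ 0) :
    ∃ π' : A, ¬ IsUnit π' ∧ π' ≠ 0 ∧ π' ∣ ε ∧ π' ∣ ϖ := by
  rcases hA.tot ε ϖ with h | h
  · exact ⟨ε, hε, hε0, dvd_rfl, h⟩
  · exact ⟨ϖ, hϖ, hϖ0, h, dvd_rfl⟩

/-- **General comparison**: two presentations modulo `ϖ ^ n` of cocycles which differ by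
coboundaries congruent to `1` modulo some small `ε` have the same coordinates modulo `q ^ N`, as
soon as `q ^ N ϖ ∣ ϖ ^ n`. -/
theorem compare (hA : ValLike A) (hsat : ∀ π : A, π ≠ 0 → SatData Boo B0 a π) {q ϖ ε : A}
    (hq0 : q ≠ 0) (hϖ : ¬ IsUnit ϖ) (hϖ0 : ϖ ≠ 0) (hε : ¬ IsUnit ε) (hε0 : ε ≠ 0) {N n : ℕ}
    (hn : q ^ N * ϖ ∣ ϖ ^ n) {c c' : B} {voo woo : Boo} {v0 w0 : B0} {t t' : Fin g → A}
    (h : IsPres Boo B0 a ϖ n c voo v0 t) (h' : IsPres Boo B0 a ϖ n c' woo w0 t')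
    {r r' : Boo} {s s' : B0}
    (hr : algebraMap A Boo ε ∣ r - 1) (hr' : algebraMap A Boo ε ∣ r' - 1)
    (hs : algebraMap A B0 ε ∣ s - 1) (hs' : algebraMap A B0 ε ∣ s' - 1)
    (hrel : c' * r * s = c * r' * s') :
    ∀ i, q ^ N ∣ t i - t' i := by
  obtain ⟨π', hπ', hπ'0, hπε, hπϖ⟩ := hA.exists_dvd_both hε hε0 hϖ hϖ0
  obtain ⟨n', hn1, hn2, -⟩ := hA.exists_pow_between hπ' hπϖ (pow_ne_zero N hq0) hn
  have key := IsPres.unique (hsat π' hπ'0) (h.mono hπϖ hn2) (h'.mono hπϖ hn2)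
    (map_dvd_of_dvd Boo hπε hr) (map_dvd_of_dvd Boo hπε hr') (map_dvd_of_dvd B0 hπε hs)
    (map_dvd_of_dvd B0 hπε hs') (by rw [hrel, sub_self]; exact dvd_zero _)
  exact fun i => dvd_trans hn1 (key i)

/-- the conclusion of `exists_groupLaw` at level `m` -/
def IsGroupLaw {W : Type*} [CommRing W] [Algebra W A] (Boo B0 : Subalgebra A B) (a : Fin g → B)
    (m : ℕ) (F : Fin g → MvPolynomial (Fin g ⊕ Fin g) W) : Prop :=
  ∀ (π : A) (t t' : Fin g → A), (∀ i, π ∣ t i) → (∀ i, π ∣ t' i) →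
    (∀ k, π ∣ MvPolynomial.aeval (Sum.elim t t') (F k)) ∧
    ∃ (voo : Boo) (v0 : B0), algebraMap A Boo π ∣ voo - 1 ∧ algebraMap A B0 π ∣ v0 - 1 ∧
      algebraMap A B π ^ (m + 1) ∣ (1 + comb a t) * (1 + comb a t') * voo * v0
        - (1 + comb a (fun k => MvPolynomial.aeval (Sum.elim t t') (F k)))

/-- **Comparison for products**: additivity of the coordinates modulo `q ^ N`. -/
theorem compare_mul {W : Type*} [CommRing W] [Algebra W A] (hA : ValLike A)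
    (hsat : ∀ π : A, π ≠ 0 → SatData Boo B0 a π) {q ϖ π' : A}
    (hq0 : q ≠ 0) (hπ' : ¬ IsUnit π') (hπ'0 : π' ≠ 0) (hπϖ : π' ∣ ϖ) {N n m : ℕ}
    (hn : q ^ N * ϖ ∣ ϖ ^ n) (hm : q ^ N ∣ π' ^ (m + 1))
    {F : Fin g → MvPolynomial (Fin g ⊕ Fin g) W} (hF : IsGroupLaw Boo B0 a m F)
    {cx cy cz : B} {px py pz : Boo} {qx qy qz : B0} {tx ty tz : Fin g → A}
    (hx : IsPres Boo B0 a ϖ n cx px qx tx) (hy : IsPres Boo B0 a ϖ n cy py qy ty)
    (hz : IsPres Boo B0 a ϖ n cz pz qz tz) {r r' : Boo} {s s' : B0}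
    (hr : algebraMap A Boo π' ∣ r - 1) (hr' : algebraMap A Boo π' ∣ r' - 1)
    (hs : algebraMap A B0 π' ∣ s - 1) (hs' : algebraMap A B0 π' ∣ s' - 1)
    (hrel : cz * r * s = cx * cy * r' * s') :
    ∀ i, q ^ N ∣ tz i - MvPolynomial.aeval (Sum.elim tx ty) (F i) := by
  obtain ⟨n', hn1, hn2, hmin⟩ := hA.exists_pow_between hπ' hπϖ (pow_ne_zero N hq0) hn
  have hn'm : n' ≤ m + 1 := hmin _ hm
  obtain ⟨hx1, hx2, hx3, hx4⟩ := hx.mono hπϖ hn2
  obtain ⟨hy1, hy2, hy3, hy4⟩ := hy.mono hπϖ hn2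
  obtain ⟨hz1, hz2, hz3, hz4⟩ := hz.mono hπϖ hn2
  obtain ⟨hF1, voo, v0, hF2, hF3, hF4⟩ := hF π' tx ty hx3 hy3
  have key := normalForm_mul (hsat π' hπ'0) n' (F := F) (ux := cx) (uy := cy) (uz := cz)
    ⟨hF1, voo, v0, hF2, hF3, dvd_trans (pow_dvd_pow _ hn'm) hF4⟩ hz3
    hx1 hy1 hz1 hr hr' hx2 hy2 hz2 hs hs' hx4 hy4 hz4
    (by rw [hrel, sub_self]; exact dvd_zero _)
  exact fun i => dvd_trans hn1 (key i)

/-- being an approximate coboundary modulo `ϖ ^ N` -/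
def IsCob (Boo B0 : Subalgebra A B) (ϖ : A) (N : ℕ) (c : B) : Prop :=
  ∃ (voo : Boo) (v0 : B0), algebraMap A Boo ϖ ∣ voo - 1 ∧ algebraMap A B0 ϖ ∣ v0 - 1 ∧
    algebraMap A B ϖ ^ N ∣ c * voo * v0 - 1

/-- **Separation, core**: if `cx * cny` is not an approximate coboundary and `cy * cny` is a
coboundary, presentations of `cx`, `cy` cannot have the same coordinates modulo `q ^ N`,
`N` large. -/
theorem sep_core (hA : ValLike A) {q ϖ π' : A} (hq : ¬ IsUnit q) (hq0 : q ≠ 0)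
    (hπ' : ¬ IsUnit π') (hπ'0 : π' ≠ 0) (hπϖ : π' ∣ ϖ) {cx cy cny : B} {N0 : ℕ}
    (hinj : ¬ IsCob Boo B0 π' N0 (cx * cny)) {r r' : Boo} {s s' : B0}
    (hr : algebraMap A Boo π' ∣ r - 1) (hr' : algebraMap A Boo π' ∣ r' - 1)
    (hs : algebraMap A B0 π' ∣ s - 1) (hs' : algebraMap A B0 π' ∣ s' - 1)
    (hrel : cy * cny * r * s = 1 * r' * s') :
    ∃ j : ℕ, ∀ N, j ≤ N → ∀ n, q ^ N ∣ ϖ ^ n → ∀ (voo woo : Boo) (v0 w0 : B0) (t t' : Fin g → A),
      IsPres Boo B0 a ϖ n cx voo v0 t → IsPres Boo B0 a ϖ n cy woo w0 t' →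
      ¬ ∀ i, q ^ N ∣ t i - t' i := by
  obtain ⟨j, hj⟩ := hA.rank_one q hq (π' ^ N0) (pow_ne_zero N0 hπ'0)
  refine ⟨j, fun N hN n hn voo woo v0 w0 t t' h h' hcon => hinj ?_⟩
  obtain ⟨h1, h2, h3, ⟨e1, he1⟩⟩ := h
  obtain ⟨k1, k2, k3, ⟨e2, he2⟩⟩ := h'
  -- inverses of `r' * woo`, `s' * w0` modulo `q ^ N`
  obtain ⟨J, hJ⟩ := hA.rank_one π' hπ' (q ^ N) (pow_ne_zero N hq0)
  have hWo : algebraMap A Boo π' ∣ r' * woo - 1 :=
    dvd_mul_sub_one hr' (map_dvd_of_dvd Boo hπϖ k1)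
  have hW0 : algebraMap A B0 π' ∣ s' * w0 - 1 :=
    dvd_mul_sub_one hs' (map_dvd_of_dvd B0 hπϖ k2)
  have hJoo : algebraMap A Boo (q ^ N) ∣ algebraMap A Boo π' ^ J := by
    rw [← map_pow]
    exact (algebraMap A Boo).map_dvd hJ
  have hJ0 : algebraMap A B0 (q ^ N) ∣ algebraMap A B0 π' ^ J := by
    rw [← map_pow]
    exact (algebraMap A B0).map_dvd hJ
  obtain ⟨ioo, hioo1, ⟨f1, hf1⟩⟩ := exists_inv_mod hJoo hWo
  obtain ⟨i0, hi01, ⟨f2, hf2⟩⟩ := exists_inv_mod hJ0 hW0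
  -- the difference of the coordinates
  have hκ : ∃ κ : B, comb a t - comb a t' = algebraMap A B (q ^ N) * κ := by
    have hd : ∀ i, q ^ N ∣ (t - t') i := fun i => hcon i
    obtain ⟨τ, -, hτ⟩ := comb_eq_of_dvd (a := a) hd
    exact ⟨comb a τ, by rw [← map_sub, hτ]⟩
  obtain ⟨κ, hκ⟩ := hκ
  obtain ⟨d, hd⟩ := hn
  have hdB : algebraMap A B ϖ ^ n = algebraMap A B (q ^ N) * algebraMap A B d := by
    rw [← map_pow, hd, map_mul]
  have hf1B : (r' : B) * woo * ioo - 1 = algebraMap A B (q ^ N) * f1 := by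
    have := congrArg Subtype.val hf1
    simpa using this
  have hf2B : (s' : B) * w0 * i0 - 1 = algebraMap A B (q ^ N) * f2 := by
    have := congrArg Subtype.val hf2
    simpa using this
  refine ⟨voo * r * ioo, v0 * s * i0, ?_, ?_, ?_⟩
  · exact dvd_mul_sub_one (dvd_mul_sub_one (map_dvd_of_dvd Boo hπϖ h1) hr) hioo1
  · exact dvd_mul_sub_one (dvd_mul_sub_one (map_dvd_of_dvd B0 hπϖ h2) hs) hi01
  · have hdiv : algebraMap A B π' ^ N0 ∣ algebraMap A B (q ^ N) := by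
      rw [← map_pow]
      exact (algebraMap A B).map_dvd (dvd_trans hj (pow_dvd_pow q hN))
    refine dvd_trans hdiv ⟨f1 + f2 + algebraMap A B (q ^ N) * f1 * f2
      + cny * r * s * ioo * i0 * (κ + algebraMap A B d * e1 - algebraMap A B d * e2), ?_⟩
    rw [hdB] at he1 he2
    simp only [MulMemClass.coe_mul]
    generalize algebraMap A B (q ^ N) = Q at he1 he2 hκ hf1B hf2B ⊢
    linear_combination (cny * (r : B) * s * ioo * i0) * he1 - (cny * (r : B) * s * ioo * i0) * he2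
      + (cny * (r : B) * s * ioo * i0) * hκ + ((woo : B) * w0 * ioo * i0) * hrel
      + ((s' : B) * w0 * i0) * hf1B + (1 + Q * f1) * hf2B

end Compare


/-! ### The cocycle data and the main theorem -/

/-- **Class-level cocycle data** on a finite abelian group `X`: `Cyc x` is the set of cocycles of
the class `x`. -/
structure CycData (Boo B0 : Subalgebra A B) {X : Type*} [AddCommGroup X] (Cyc : X → Set B) :
    Prop where
  nonempty : ∀ x, (Cyc x).Nonempty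
  /-- cocycles are congruent to `1` modulo the maximal ideal -/
  one : ∀ x, ∀ c ∈ Cyc x, ∃ ε : A, ¬ IsUnit ε ∧ ε ≠ 0 ∧ algebraMap A B ε ∣ c - 1
  one_mem : (1 : B) ∈ Cyc 0
  mul : ∀ x y, ∀ c ∈ Cyc x, ∀ c' ∈ Cyc y, c * c' ∈ Cyc (x + y)
  /-- two cocycles of one class differ by coboundaries of `1 + m Boo`, `1 + m B0` -/
  rel : ∀ x, ∀ c ∈ Cyc x, ∀ c' ∈ Cyc x, ∃ ε : A, ¬ IsUnit ε ∧ ε ≠ 0 ∧
    ∃ (r r' : Boo) (s s' : B0), algebraMap A Boo ε ∣ r - 1 ∧ algebraMap A Boo ε ∣ r' - 1 ∧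
      algebraMap A B0 ε ∣ s - 1 ∧ algebraMap A B0 ε ∣ s' - 1 ∧ c' * r * s = c * r' * s'
  /-- a cocycle of a nonzero class is not an approximate coboundary -/
  inj : ∀ x, x ≠ 0 → ∀ c ∈ Cyc x, ∀ ϖ : A, ¬ IsUnit ϖ → ϖ ≠ 0 →
    ∃ N0 : ℕ, ∀ N, N0 ≤ N → ¬ IsCob Boo B0 ϖ N c

section Main

variable [IsDomain A] {W : Type*} [CommRing W] [Algebra W A]
  {X : Type*} [AddCommGroup X] [Finite X] {Cyc : X → Set B}
  {Γ : Type*} {fA : Γ → A →+* A} {fB : Γ → B →+* B} {actX : Γ → X → X}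

/-- **(L2-B5) The abstract assembly**: approximate coordinates on `X` at every level `N`, with
values divisible by one small `ϖ`, additive through polynomials over `W`, equivariant, compatible
and eventually separating, everything modulo `q ^ N`. -/
theorem exists_coords (hA : ValLike A) (hdec : Decomp Boo B0 a)
    (hsat : ∀ π : A, π ≠ 0 → SatData Boo B0 a π)
    (hGL : ∀ m : ℕ, ∃ F : Fin g → MvPolynomial (Fin g ⊕ Fin g) W, IsGroupLaw Boo B0 a m F)
    (hC : CycData Boo B0 Cyc) (hΓ : ∀ σ, SemiAct Boo B0 a (fA σ) (fB σ))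
    (hgal : ∀ σ x, ∀ c ∈ Cyc x, fB σ c ∈ Cyc (actX σ x))
    {q : A} (hq : ¬ IsUnit q) (hq0 : q ≠ 0) :
    ∃ (ϖ : A) (coord : ℕ → X → Fin g → A)
      (F : ℕ → Fin g → MvPolynomial (Fin g ⊕ Fin g) W),
      ¬ IsUnit ϖ ∧ ϖ ≠ 0 ∧ (∀ N x i, ϖ ∣ coord N x i) ∧
      (∀ N i, q ^ N ∣ coord N 0 i) ∧
      (∀ N x y i, q ^ N ∣ coord N (x + y) i -
        MvPolynomial.aeval (Sum.elim (coord N x) (coord N y)) (F N i)) ∧
      (∀ N σ x i, q ^ N ∣ coord N (actX σ x) i - fA σ (coord N x i)) ∧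
      (∀ N x i, q ^ N ∣ coord (N + 1) x i - coord N x i) ∧
      ∃ N0 : ℕ, ∀ N, N0 ≤ N → ∀ x y, x ≠ y → ∃ i, ¬ q ^ N ∣ coord N x i - coord N y i := by
  classical
  have := Fintype.ofFinite X
  -- representatives and the modulus `ϖ`
  choose c hc using hC.nonempty
  choose ε0 hε0u hε0n hε0d using fun x => hC.one x (c x) (hc x)
  obtain ⟨ϖ, hϖ, hϖ0, -, hϖε⟩ :=
    hA.exists_common_dvd Finset.univ ε0 (fun x _ => ⟨hε0u x, hε0n x⟩) hq hq0
  have hcϖ : ∀ x, algebraMap A B ϖ ∣ c x - 1 := fun x =>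
    dvd_trans ((algebraMap A B).map_dvd (hϖε x (Finset.mem_univ x))) (hε0d x)
  -- the levels
  have hlev : ∀ N : ℕ, ∃ n : ℕ, q ^ N * ϖ ∣ ϖ ^ n := fun N => by
    obtain ⟨j, hj⟩ := hA.rank_one ϖ hϖ (q ^ N) (pow_ne_zero N hq0)
    exact ⟨j + 1, by rw [pow_succ]; exact mul_dvd_mul_right hj ϖ⟩
  choose n hn using hlev
  have hn' : ∀ N, q ^ N ∣ ϖ ^ n N := fun N => dvd_trans (dvd_mul_right _ _) (hn N)
  -- the presentations
  choose voo v0 t ht using fun (N : ℕ) (x : X) => exists_isPres hdec ϖ (hcϖ x) (n N)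
  -- the trivial presentation of `1`
  have hone : ∀ m : ℕ, IsPres Boo B0 a ϖ m 1 1 1 (0 : Fin g → A) := fun m =>
    ⟨by rw [sub_self]; exact dvd_zero _, by rw [sub_self]; exact dvd_zero _,
      fun i => dvd_zero _, by simp⟩
  have hdvd1oo : algebraMap A Boo ϖ ∣ (1 : Boo) - 1 := by rw [sub_self]; exact dvd_zero _
  have hdvd10 : algebraMap A B0 ϖ ∣ (1 : B0) - 1 := by rw [sub_self]; exact dvd_zero _
  -- additivity data
  choose εa hεau hεan ra ra' sa sa' hra hra' hsa hsa' hrela using fun (x y : X) =>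
    hC.rel (x + y) (c x * c y) (hC.mul x y _ (hc x) _ (hc y)) (c (x + y)) (hc (x + y))
  choose πa hπau hπan hπaε hπaϖ using fun (x y : X) =>
    hA.exists_dvd_both (hεau x y) (hεan x y) hϖ hϖ0
  choose J hJ using fun (x y : X) (N : ℕ) =>
    hA.rank_one (πa x y) (hπau x y) (q ^ N) (pow_ne_zero N hq0)
  set m : ℕ → ℕ := fun N => Finset.univ.sup (fun xy : X × X => J xy.1 xy.2 N) with hmdef
  choose F hF using fun N => hGL (m N)
  have hm : ∀ N x y, q ^ N ∣ πa x y ^ (m N + 1) := fun N x y => by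
    have hle : J x y N ≤ m N :=
      Finset.le_sup (f := fun xy : X × X => J xy.1 xy.2 N) (Finset.mem_univ (x, y))
    exact dvd_trans (hJ x y N) (pow_dvd_pow _ (by omega))
  -- separation data
  have hsepx : ∀ x y : X, ∃ j : ℕ, x ≠ y → ∀ N, j ≤ N → ∀ n', q ^ N ∣ ϖ ^ n' →
      ∀ (voo woo : Boo) (v0 w0 : B0) (t t' : Fin g → A),
      IsPres Boo B0 a ϖ n' (c x) voo v0 t → IsPres Boo B0 a ϖ n' (c y) woo w0 t' →
      ¬ ∀ i, q ^ N ∣ t i - t' i := by
    intro x y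
    by_cases hxy : x = y
    · exact ⟨0, fun h => absurd hxy h⟩
    · have hz : x + -y ≠ 0 := fun h => hxy (by rwa [← sub_eq_add_neg, sub_eq_zero] at h)
      have hcz : c x * c (-y) ∈ Cyc (x + -y) := hC.mul x (-y) _ (hc x) _ (hc (-y))
      have hc0 : c y * c (-y) ∈ Cyc 0 := by
        have := hC.mul y (-y) _ (hc y) _ (hc (-y))
        rwa [add_neg_cancel] at this
      obtain ⟨ε, hεu, hεn, r, r', s, s', hr, hr', hs, hs', hrel⟩ :=
        hC.rel 0 1 hC.one_mem (c y * c (-y)) hc0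
      obtain ⟨π', hπ', hπ'0, hπε, hπϖ⟩ := hA.exists_dvd_both hεu hεn hϖ hϖ0
      obtain ⟨N0, hN0⟩ := hC.inj (x + -y) hz _ hcz π' hπ' hπ'0
      obtain ⟨j, hj⟩ := sep_core (a := a) hA hq hq0 hπ' hπ'0 hπϖ (hN0 N0 le_rfl)
        (map_dvd_of_dvd Boo hπε hr) (map_dvd_of_dvd Boo hπε hr') (map_dvd_of_dvd B0 hπε hs)
        (map_dvd_of_dvd B0 hπε hs') hrel
      exact ⟨j, fun _ => hj⟩
  choose js hjs using hsepx
  refine ⟨ϖ, t, F, hϖ, hϖ0, fun N x i => (ht N x).2.2.1 i, ?_, ?_, ?_, ?_, ?_⟩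
  · -- zero
    intro N i
    obtain ⟨ε, hεu, hεn, r, r', s, s', hr, hr', hs, hs', hrel⟩ :=
      hC.rel 0 1 hC.one_mem (c 0) (hc 0)
    have := compare hA hsat hq0 hϖ hϖ0 hεu hεn (hn N) (hone (n N)) (ht N 0) hr hr' hs hs' hrel i
    rw [Pi.zero_apply, zero_sub, dvd_neg] at this
    exact this
  · -- additivity
    intro N x y i
    exact compare_mul hA hsat hq0 (hπau x y) (hπan x y) (hπaϖ x y) (hn N) (hm N x y) (hF N)
      (ht N x) (ht N y) (ht N (x + y)) (map_dvd_of_dvd Boo (hπaε x y) (hra x y))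
      (map_dvd_of_dvd Boo (hπaε x y) (hra' x y)) (map_dvd_of_dvd B0 (hπaε x y) (hsa x y))
      (map_dvd_of_dvd B0 (hπaε x y) (hsa' x y)) (hrela x y) i
  · -- equivariance
    intro N σ x i
    obtain ⟨ε, hεu, hεn, r, r', s, s', hr, hr', hs, hs', hrel⟩ :=
      hC.rel (actX σ x) (fB σ (c x)) (hgal σ x _ (hc x)) (c (actX σ x)) (hc _)
    have := compare hA hsat hq0 hϖ hϖ0 hεu hεn (hn N) ((ht N x).map (hΓ σ)) (ht N (actX σ x))
      hr hr' hs hs' hrel i
    exact (dvd_sub_comm).mp this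
  · -- compatibility
    intro N x i
    have hrel : c x * ((1 : Boo) : B) * ((1 : B0) : B) = c x * ((1 : Boo) : B) * ((1 : B0) : B) :=
      rfl
    rcases le_or_gt (n N) (n (N + 1)) with h | h
    · exact compare hA hsat hq0 hϖ hϖ0 hϖ hϖ0 (hn N)
        ((ht (N + 1) x).mono dvd_rfl (pow_dvd_pow ϖ h)) (ht N x) hdvd1oo hdvd1oo hdvd10 hdvd10
        hrel i
    · have hn2 : q ^ N * ϖ ∣ ϖ ^ n (N + 1) :=
        dvd_trans (mul_dvd_mul_right (pow_dvd_pow q (Nat.le_succ N)) ϖ) (hn (N + 1))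
      exact compare hA hsat hq0 hϖ hϖ0 hϖ hϖ0 hn2 (ht (N + 1) x)
        ((ht N x).mono dvd_rfl (pow_dvd_pow ϖ h.le)) hdvd1oo hdvd1oo hdvd10 hdvd10 hrel i
  · -- separation
    refine ⟨Finset.univ.sup (fun xy : X × X => js xy.1 xy.2), fun N hN x y hxy => ?_⟩
    by_contra hcon
    simp only [not_exists, not_not] at hcon
    have hle : js x y ≤ N :=
      le_trans (Finset.le_sup (f := fun xy : X × X => js xy.1 xy.2) (Finset.mem_univ (x, y))) hN
    exact hjs x y hxy N hle (n N) (hn' N) _ _ _ _ _ _ (ht N x) (ht N y) hcon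

end Main

end Fermat.Agent.S33x.Cech.CoordAsm32
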