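import Fermat.Agent.S33x.Cech.CoordAsm32

/-!
# P-S33, LAYER 2, (L2-B5) second, literal form (helper32)

`Cech/CoordAsm32.exists_coords` restated in the EXACT shape of the architect's literal
(note 'S33-IFACE-L2-B5 (architect literal)'): `A` a valuation domain with the rank-one property,
hypotheses `cyc_ne … cyc_inj` (the latter in the cross-multiplied form, or in the uniform `cyc_sep`
form), Galois hypotheses `hAB hAss hoo h0 ha`; conclusion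
`∃ c0, ∀ n, ∃ coord F, mem ∧ equivariance mod p^n ∧ additivity mod p^n ∧ separation at p^c0`,
which is the hypothesis of `Cech/ToApproxChart.hasApproxCharts_of_generic`.
-/

set_option autoImplicit false
set_option linter.unusedSectionVars false

namespace Fermat.Agent.S33x.Cech.CoordAsm32Lit

open Fermat.Agent.S33x.Cech Fermat.Agent.S33x.Cech.CoordAsm32 IsLocalRing

variable {A : Type*} [CommRing A] [IsDomain A] [ValuationRing A]
  {B : Type*} [CommRing B] [Algebra A B] {Boo B0 : Subalgebra A B} {g : ℕ} {a : Fin g → B}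
  {W : Type*} [CommRing W] [Algebra W A]
  {X : Type*} [AddCommGroup X] [Finite X] {Cyc : X → Set B}
  {I : Type*} {actX : I → X → X} {actA : I → A →+* A} {actB : I → B →+* B}

/-- a valuation domain with the rank-one property is `ValLike` -/
theorem valLike (hrank : ∀ x ∈ maximalIdeal A, ∀ c : A, c ≠ 0 → ∃ j : ℕ, c ∣ x ^ j) :
    ValLike A :=
  ⟨ValuationRing.dvd_total, fun x hx c hc => hrank x ((mem_maximalIdeal x).mpr hx) c hc⟩

/-- the Galois hypotheses of the literal give `SemiAct` -/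
theorem semiAct (hAB : ∀ s c, actB s (algebraMap A B c) = algebraMap A B (actA s c))
    (hAss : ∀ s c, Associated (actA s c) c) (hoo : ∀ s, ∀ x ∈ Boo, actB s x ∈ Boo)
    (h0 : ∀ s, ∀ x ∈ B0, actB s x ∈ B0) (ha : ∀ s i, actB s (a i) = a i) (s : I) :
    SemiAct Boo B0 a (actA s) (actB s) :=
  ⟨hAB s, hoo s, h0 s, ha s, fun c => (hAss s c).symm.dvd⟩

/-- the cross-multiplied injectivity hypothesis implies the `IsCob` form -/
theorem inj_of_cross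
    (cyc_inj : ∀ x, x ≠ 0 → ∀ c ∈ Cyc x, ∀ π ∈ maximalIdeal A, π ≠ 0 → ∃ N0 : ℕ, ∀ N, N0 ≤ N →
      ¬ ∃ (voo woo : Boo) (v0 w0 : B0), algebraMap A Boo π ∣ voo - 1 ∧
        algebraMap A Boo π ∣ woo - 1 ∧ algebraMap A B0 π ∣ v0 - 1 ∧ algebraMap A B0 π ∣ w0 - 1 ∧
        algebraMap A B π ^ N ∣ c * voo * v0 - woo * w0) :
    ∀ x, x ≠ 0 → ∀ c ∈ Cyc x, ∀ ϖ : A, ¬ IsUnit ϖ → ϖ ≠ 0 →
      ∃ N0 : ℕ, ∀ N, N0 ≤ N → ¬ IsCob Boo B0 ϖ N c := by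
  intro x hx c hc ϖ hϖ hϖ0
  obtain ⟨N0, hN0⟩ := cyc_inj x hx c hc ϖ ((mem_maximalIdeal ϖ).mpr hϖ) hϖ0
  refine ⟨N0, fun N hN hcob => hN0 N hN ?_⟩
  obtain ⟨voo, v0, h1, h2, h3⟩ := hcob
  refine ⟨voo, 1, v0, 1, h1, by rw [sub_self]; exact dvd_zero _, h2,
    by rw [sub_self]; exact dvd_zero _, ?_⟩
  simpa using h3

/-- the uniform separation hypothesis implies the `IsCob` form -/
theorem inj_of_sep (hrank : ∀ x ∈ maximalIdeal A, ∀ c : A, c ≠ 0 → ∃ j : ℕ, c ∣ x ^ j)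
    (cyc_sep : ∀ x, x ≠ 0 → ∀ c ∈ Cyc x, ∃ δ : A, δ ≠ 0 ∧
      ¬ ∃ (voo woo : Boo) (v0 w0 : B0),
        (∃ π ∈ maximalIdeal A, algebraMap A Boo π ∣ voo - 1) ∧
        (∃ π ∈ maximalIdeal A, algebraMap A Boo π ∣ woo - 1) ∧
        (∃ π ∈ maximalIdeal A, algebraMap A B0 π ∣ v0 - 1) ∧
        (∃ π ∈ maximalIdeal A, algebraMap A B0 π ∣ w0 - 1) ∧
        algebraMap A B δ ∣ c * voo * v0 - woo * w0) :
    ∀ x, x ≠ 0 → ∀ c ∈ Cyc x, ∀ ϖ : A, ¬ IsUnit ϖ → ϖ ≠ 0 →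
      ∃ N0 : ℕ, ∀ N, N0 ≤ N → ¬ IsCob Boo B0 ϖ N c := by
  intro x hx c hc ϖ hϖ hϖ0
  obtain ⟨δ, hδ, hsep⟩ := cyc_sep x hx c hc
  have hϖm : ϖ ∈ maximalIdeal A := (mem_maximalIdeal ϖ).mpr hϖ
  obtain ⟨j, hj⟩ := hrank ϖ hϖm δ hδ
  refine ⟨j, fun N hN hcob => hsep ?_⟩
  obtain ⟨voo, v0, h1, h2, h3⟩ := hcob
  refine ⟨voo, 1, v0, 1, ⟨ϖ, hϖm, h1⟩, ⟨ϖ, hϖm, by rw [sub_self]; exact dvd_zero _⟩,
    ⟨ϖ, hϖm, h2⟩, ⟨ϖ, hϖm, by rw [sub_self]; exact dvd_zero _⟩, ?_⟩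
  have h4 : algebraMap A B δ ∣ algebraMap A B ϖ ^ N := by
    rw [← map_pow]
    exact (algebraMap A B).map_dvd (dvd_trans hj (pow_dvd_pow ϖ hN))
  have h5 := dvd_trans h4 h3
  simpa using h5

/-- **(L2-B5), literal form.** -/
theorem exists_coords_literal (hdec : Decomp Boo B0 a)
    (hsat : ∀ π : A, π ≠ 0 → SatData Boo B0 a π)
    (hGL : ∀ m : ℕ, ∃ F : Fin g → MvPolynomial (Fin g ⊕ Fin g) W, IsGroupLaw Boo B0 a m F)
    {p : A} (hp : p ∈ maximalIdeal A) (hp0 : p ≠ 0)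
    (hrank : ∀ x ∈ maximalIdeal A, ∀ c : A, c ≠ 0 → ∃ j : ℕ, c ∣ x ^ j)
    (hAB : ∀ s c, actB s (algebraMap A B c) = algebraMap A B (actA s c))
    (hAss : ∀ s c, Associated (actA s c) c) (hoo : ∀ s, ∀ x ∈ Boo, actB s x ∈ Boo)
    (h0 : ∀ s, ∀ x ∈ B0, actB s x ∈ B0) (ha : ∀ s i, actB s (a i) = a i)
    (cyc_ne : ∀ x, (Cyc x).Nonempty)
    (cyc_one : ∀ x, ∀ c ∈ Cyc x, ∃ π ∈ maximalIdeal A, π ≠ 0 ∧ algebraMap A B π ∣ c - 1)
    (cyc_zero : (1 : B) ∈ Cyc 0)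
    (cyc_mul : ∀ x y, ∀ c ∈ Cyc x, ∀ c' ∈ Cyc y, c * c' ∈ Cyc (x + y))
    (cyc_rel : ∀ x, ∀ c ∈ Cyc x, ∀ c' ∈ Cyc x, ∃ π ∈ maximalIdeal A, π ≠ 0 ∧
      ∃ (Eoo Goo : Boo) (E0 G0 : B0), algebraMap A Boo π ∣ Eoo - 1 ∧
        algebraMap A Boo π ∣ Goo - 1 ∧ algebraMap A B0 π ∣ E0 - 1 ∧ algebraMap A B0 π ∣ G0 - 1 ∧
        c' * Eoo * E0 = c * Goo * G0)
    (cyc_gal : ∀ s x, ∀ c ∈ Cyc x, actB s c ∈ Cyc (actX s x))
    (cyc_inj : ∀ x, x ≠ 0 → ∀ c ∈ Cyc x, ∀ ϖ : A, ¬ IsUnit ϖ → ϖ ≠ 0 →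
      ∃ N0 : ℕ, ∀ N, N0 ≤ N → ¬ IsCob Boo B0 ϖ N c) :
    ∃ c0 : ℕ, ∀ n : ℕ, ∃ (coord : X → Fin g → A)
      (F : Fin g → MvPolynomial (Fin g ⊕ Fin g) W),
      (∀ x i, coord x i ∈ maximalIdeal A) ∧
      (∀ s x i, p ^ n ∣ coord (actX s x) i - actA s (coord x i)) ∧
      (∀ x y i, p ^ n ∣ coord (x + y) i -
        MvPolynomial.aeval (Sum.elim (coord x) (coord y)) (F i)) ∧
      (∀ x y, x ≠ y → ∃ i, ¬ p ^ c0 ∣ coord x i - coord y i) := by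
  have hC : CycData Boo B0 Cyc :=
    { nonempty := cyc_ne
      one := fun x c hc => by
        obtain ⟨π, hπ, hπ0, h⟩ := cyc_one x c hc
        exact ⟨π, (mem_maximalIdeal π).mp hπ, hπ0, h⟩
      one_mem := cyc_zero
      mul := cyc_mul
      rel := fun x c hc c' hc' => by
        obtain ⟨π, hπ, hπ0, Eoo, Goo, E0, G0, h1, h2, h3, h4, h5⟩ := cyc_rel x c hc c' hc'
        exact ⟨π, (mem_maximalIdeal π).mp hπ, hπ0, Eoo, Goo, E0, G0, h1, h2, h3, h4, h5⟩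
      inj := cyc_inj }
  obtain ⟨ϖ, coord, F, hϖ, hϖ0, hmem, hzero, hadd, hgal, hcompat, N0, hsep⟩ :=
    exists_coords (valLike hrank) hdec hsat hGL hC (semiAct hAB hAss hoo h0 ha) cyc_gal
      ((mem_maximalIdeal p).mp hp) hp0
  -- compatibility of the levels above `N0`, modulo `p ^ N0`
  have hchain : ∀ k x i, p ^ N0 ∣ coord (N0 + k) x i - coord N0 x i := by
    intro k x i
    induction k with
    | zero => rw [add_zero, sub_self]; exact dvd_zero _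
    | succ k ih =>
      have h1 : p ^ N0 ∣ coord (N0 + k + 1) x i - coord (N0 + k) x i :=
        dvd_trans (pow_dvd_pow p (Nat.le_add_right N0 k)) (hcompat (N0 + k) x i)
      have h2 : coord (N0 + (k + 1)) x i - coord N0 x i =
          (coord (N0 + k + 1) x i - coord (N0 + k) x i) + (coord (N0 + k) x i - coord N0 x i) := by
        rw [← add_assoc]
        ring
      rw [h2]
      exact dvd_add h1 ih
  refine ⟨N0, fun n => ⟨coord (N0 + n), F (N0 + n), fun x i => ?_, fun s x i => ?_,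
    fun x y i => ?_, fun x y hxy => ?_⟩⟩
  · exact Ideal.mem_of_dvd _ (hmem (N0 + n) x i) ((mem_maximalIdeal ϖ).mpr hϖ)
  · exact dvd_trans (pow_dvd_pow p (Nat.le_add_left n N0)) (hgal (N0 + n) s x i)
  · exact dvd_trans (pow_dvd_pow p (Nat.le_add_left n N0)) (hadd (N0 + n) x y i)
  · obtain ⟨i, hi⟩ := hsep N0 le_rfl x y hxy
    refine ⟨i, fun hcon => hi ?_⟩
    have h3 : coord N0 x i - coord N0 y i =
        (coord (N0 + n) x i - coord (N0 + n) y i) - (coord (N0 + n) x i - coord N0 x i)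
          + (coord (N0 + n) y i - coord N0 y i) := by ring
    rw [h3]
    exact dvd_add (dvd_sub hcon (hchain n x i)) (hchain n y i)

end Fermat.Agent.S33x.Cech.CoordAsm32Lit
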