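/-
P-S33 (blueprint v2), LAYER 2, leaf (L2-B5), independent SECOND (helper3): abstract assembly of the
Cech coordinates, `Qbar` part: from the cocycle axioms to `Iface.HasApproxCharts`.

`P` a valuation subring of `Qbar` over `p`, `B` a `P`-algebra with charts `Boo B0` and `a : Fin g → B`
(`Decomp`, `SatData π` for all `π ≠ 0`), a universal group law over `inertiaInt P` (conclusion of
`GroupLaw.exists_groupLaw`, stated instance-free), and a family of cocycles `c : X → B` on a finite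
group `X` with a Galois action such that

* `c x ≡ 1` modulo some element of the maximal ideal;
* `c (x + y) ~ c x * c y`, `φ_σ (c x) ~ c (σ x)` (`~` = exact equality up to near-one coboundaries,
  cross-multiplied; `φ_σ` a `σ`-semilinear ring endomorphism of `B` preserving the charts and fixing
  the `a i`, for `σ` in the inertia group);
* `c x`, `c y` are NOT equivalent modulo some `δ ≠ 0` when `x ≠ y`.

Then `HasApproxCharts p P X act`: coordinates = the normal forms of the `c x` (`CoordB.IsNF`) to a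
precision `ϖ ^ (N + 1)`, `p ^ n ∣ ϖ ^ N`.
-/
import Mathlib
import Fermat.Agent.S33x.Cech.CoordB
import Fermat.Agent.S33x.Iface.ApproxChart
import Fermat.Agent.S19x.Hens.InertiaResidue
import Fermat.Agent.S19x.Geo.RankOne
import Fermat.Agent.S19x.Alg.ConductorInertia

set_option autoImplicit false

namespace Fermat.Agent.S33x.Cech.CoordBQbar

open Fermat.Agent.S33x.Cech Fermat.Agent.S33x.Cech.CoordB Fermat.Agent.S33x.Iface IsLocalRing
open Fermat.Agent.S56x.Flat.InertiaField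

local notation "Qbar" => AlgebraicClosure ℚ
local notation "Γℚ" => (AlgebraicClosure ℚ ≃ₐ[ℚ] AlgebraicClosure ℚ)

variable (P : ValuationSubring Qbar)

/-! ### Arithmetic of `P` -/

/-- `P` has rank one. -/
theorem rankOne {p : ℕ} (hp : p.Prime) (hP : P.LiesOverPrime p) : RankOne P := by
  intro x hx c hc
  have hxn : (x : Qbar) ∈ P.nonunits := ValuationSubring.coe_mem_nonunits_iff.mpr hx
  have hc0 : (c : Qbar) ≠ 0 := fun h => hc (Subtype.ext h)
  obtain ⟨k, w, hw, hk⟩ :=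
    Fermat.Agent.S19x.Alg.ConductorInertia.exists_pow_eq_mul hp P hP (c : Qbar) hc0
  obtain ⟨N, w', hw', hN⟩ :=
    Fermat.Agent.S19x.Geo.RankOne.exists_pow_eq_pow_mul P hp hP (x : Qbar) hxn k
  refine ⟨N, ⟨w * w', P.mul_mem _ _ hw hw'⟩, Subtype.ext ?_⟩
  show ((x : Qbar)) ^ N = (c : Qbar) * (w * w')
  rw [hN, hk]
  ring

/-- The decomposition group preserves the maximal ideal. -/
theorem apply_mem_nonunits {σ : Γℚ} (hσ : σ ∈ P.decompositionSubgroup ℚ) {x : Qbar}
    (hx : x ∈ P.nonunits) : σ x ∈ P.nonunits := by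
  obtain ⟨hxP, hmem⟩ := P.mem_nonunits_iff_exists_mem_maximalIdeal.mp hx
  set g : P.decompositionSubgroup ℚ := ⟨σ, hσ⟩
  have h1 : g • (⟨x, hxP⟩ : P) ∈ maximalIdeal P := by
    rw [mem_maximalIdeal, mem_nonunits_iff]
    have h2 : g • (⟨x, hxP⟩ : P) =
        MulSemiringAction.toRingEquiv (P.decompositionSubgroup ℚ) P g ⟨x, hxP⟩ := rfl
    rw [h2, isUnit_map_iff]
    exact (mem_maximalIdeal _).mp hmem
  exact P.mem_nonunits_iff_exists_mem_maximalIdeal.mpr ⟨(g • (⟨x, hxP⟩ : P)).2, h1⟩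

/-- The decomposition group preserves valuations: `z ∣ g • z` in `P`. -/
theorem dvd_smul (g : P.decompositionSubgroup ℚ) (z : P) : z ∣ g • z := by
  by_cases hz : z = 0
  · rw [hz, smul_zero]
  set σ : Γℚ := (g : Γℚ) with hσdef
  have hσD : σ ∈ P.decompositionSubgroup ℚ := g.2
  set x : Qbar := (z : Qbar) with hxdef
  have hx0 : x ≠ 0 := fun h => hz (Subtype.ext h)
  have hσx0 : σ x ≠ 0 := (map_ne_zero σ).mpr hx0
  have hu : σ x / x ∈ P := by
    by_contra hu
    have hinv : x / σ x ∈ P.nonunits := by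
      have := (P.inv_mem_nonunits_iff (x := σ x / x)).mpr (Or.inr hu)
      rwa [inv_div] at this
    obtain ⟨f, hf, hfx⟩ := Fermat.Agent.S19x.Hens.InertiaResidue.exists_pow_apply_eq σ x
    have key : ∀ k : ℕ, x / (σ ^ (k + 1)) x ∈ P.nonunits := by
      intro k
      induction k with
      | zero => simpa using hinv
      | succ k ih =>
        have hk0 : (σ ^ (k + 1)) x ≠ 0 := (map_ne_zero _).mpr hx0
        have h1 : (σ ^ (k + 1)) (x / σ x) ∈ P.nonunits :=
          apply_mem_nonunits P (Subgroup.pow_mem _ hσD _) hinv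
        have h2 : x / (σ ^ (k + 1 + 1)) x = x / (σ ^ (k + 1)) x * (σ ^ (k + 1)) (x / σ x) := by
          rw [pow_succ σ (k + 1), AlgEquiv.mul_apply, map_div₀]
          field_simp
        rw [h2]
        exact P.nonunits.mul_mem ih h1
    obtain ⟨f', rfl⟩ : ∃ f', f = f' + 1 := Nat.exists_eq_succ_of_ne_zero hf.ne'
    have := key f'
    rw [hfx, div_self hx0] at this
    exact one_notMem_nonunits P this
  refine ⟨⟨σ x / x, hu⟩, Subtype.ext ?_⟩
  show σ x = x * (σ x / x)
  field_simp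

/-- `p` as an element of `P`. -/
noncomputable def pP (p : ℕ) : P := ⟨(p : Qbar), natCast_mem P p⟩

theorem pP_mem {p : ℕ} (hP : P.LiesOverPrime p) : pP P p ∈ maximalIdeal P := by
  rw [← ValuationSubring.coe_mem_nonunits_iff]
  exact hP

theorem pP_ne_zero {p : ℕ} (hp : p.Prime) : pP P p ≠ 0 := by
  intro h
  have h1 : ((p : ℕ) : Qbar) = 0 := congrArg (fun z : P => (z : Qbar)) h
  have : CharZero Qbar := algebraRat.charZero Qbar
  exact hp.ne_zero (Nat.cast_eq_zero.mp h1)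

theorem powMem_of_dvd {p n : ℕ} {z : P} (h : pP P p ^ n ∣ z) : PowMem P p n (z : Qbar) := by
  obtain ⟨w, hw⟩ := h
  refine ⟨(w : Qbar), w.2, ?_⟩
  rw [hw]
  rfl

theorem dvd_of_powMem {p n : ℕ} {z : P} (h : PowMem P p n (z : Qbar)) : pP P p ^ n ∣ z := by
  obtain ⟨w, hw, hz⟩ := h
  exact ⟨⟨w, hw⟩, Subtype.ext hz⟩

/-! ### The assembly -/

variable {P}

/-- **(L2-B5) abstract assembly.**  Cocycle axioms ⟹ approximate charts at every level, all
separating at one fixed precision. -/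
theorem hasApproxCharts {p : ℕ} (hp : p.Prime) (hP : P.LiesOverPrime p)
    {X : Type} [AddCommGroup X] [Finite X] (act : Γℚ → X → X)
    {B : Type*} [CommRing B] [Algebra P B] (Boo B0 : Subalgebra P B) {g : ℕ} (a : Fin g → B)
    (hdec : Decomp Boo B0 a) (hsat : ∀ π : P, π ≠ 0 → SatData Boo B0 a π)
    (hGL : ∀ n : ℕ, ∃ F : Fin g → MvPolynomial (Fin g ⊕ Fin g) (inertiaInt P),
      ∀ (π : P) (t t' : Fin g → P), (∀ i, π ∣ t i) → (∀ i, π ∣ t' i) →
        ∃ T : Fin g → P,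
          (∀ k, (T k : Qbar) = MvPolynomial.aeval
            (Sum.elim (fun i => (t i : Qbar)) (fun i => (t' i : Qbar))) (F k)) ∧
          (∀ k, π ∣ T k) ∧
          ∃ (voo : Boo) (v0 : B0), algebraMap P Boo π ∣ voo - 1 ∧ algebraMap P B0 π ∣ v0 - 1 ∧
            algebraMap P B π ^ (n + 1) ∣
              (1 + comb a t) * (1 + comb a t') * voo * v0 - (1 + comb a T))
    (c : X → B)
    (hc1 : ∀ x, ∃ π ∈ maximalIdeal P, algebraMap P B π ∣ c x - 1)
    (hmul : ∀ x y, CobEq Boo B0 0 (c (x + y)) (c x * c y))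
    (hgal : ∀ σ ∈ P.inertiaSubgroupIn ℚ, ∃ φ : B →+* B,
      (∀ z z' : P, (z' : Qbar) = σ (z : Qbar) → φ (algebraMap P B z) = algebraMap P B z') ∧
      (∀ b ∈ Boo, φ b ∈ Boo) ∧ (∀ b ∈ B0, φ b ∈ B0) ∧ (∀ i, φ (a i) = a i) ∧
      ∀ x, CobEq Boo B0 0 (φ (c x)) (c (act σ x)))
    (hsep : ∀ x y, x ≠ y → ∃ δ : P, δ ≠ 0 ∧ ¬ CobEq Boo B0 δ (c x) (c y)) :
    HasApproxCharts p P X act := by
  classical
  have := Fintype.ofFinite X
  have hrank : RankOne P := rankOne P hp hP
  have hpm : pP P p ∈ maximalIdeal P := pP_mem P hP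
  have hp0 : pP P p ≠ 0 := pP_ne_zero P hp
  -- one `ϖ` for all the cocycles
  choose πx hπxm hπx using hc1
  obtain ⟨ϖ, hϖ, hϖ0, -, hϖd⟩ := exists_common_dvd hpm hp0 (Finset.univ.image πx)
    (by
      intro y hy
      obtain ⟨x, -, rfl⟩ := Finset.mem_image.mp hy
      exact hπxm x)
  have hcϖ : ∀ x, algebraMap P B ϖ ∣ c x - 1 := fun x =>
    ((algebraMap P B).map_dvd
      (hϖd (πx x) (Finset.mem_image_of_mem _ (Finset.mem_univ x)))).trans (hπx x)
  -- the separation precision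
  choose δ hδ0 hδ using hsep
  have hk : ∀ q : X × X, ∃ k : ℕ, ∀ h : q.1 ≠ q.2, δ q.1 q.2 h ∣ pP P p ^ k := by
    intro q
    by_cases h : q.1 ≠ q.2
    · obtain ⟨k, hk⟩ := hrank (pP P p) hpm (δ q.1 q.2 h) (hδ0 q.1 q.2 h)
      exact ⟨k, fun _ => hk⟩
    · exact ⟨0, fun h' => absurd h' h⟩
  choose kfun hkfun using hk
  set c0 : ℕ := Finset.univ.sup kfun with hc0
  have hδc0 : ∀ x y (h : x ≠ y), δ x y h ∣ pP P p ^ c0 := fun x y h =>
    (hkfun (x, y) h).trans (pow_dvd_pow _ (Finset.le_sup (f := kfun) (Finset.mem_univ (x, y))))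
  refine ⟨c0, fun n => ?_⟩
  -- the level
  obtain ⟨N, hN⟩ := hrank ϖ hϖ (pP P p ^ max n c0) (pow_ne_zero _ hp0)
  have hnN : pP P p ^ n ∣ ϖ ^ N := (pow_dvd_pow _ (le_max_left n c0)).trans hN
  have hc0N : pP P p ^ c0 ∣ ϖ ^ N := (pow_dvd_pow _ (le_max_right n c0)).trans hN
  obtain ⟨F, hF⟩ := hGL N
  choose t ht using fun x => exists_isNF hdec hϖ N (hcϖ x)
  refine ⟨⟨g, fun x i => (t x i : Qbar), ?_, ?_, ⟨F, ?_⟩⟩, ?_⟩
  · -- values in the maximal ideal
    intro x i
    rw [ValuationSubring.coe_mem_nonunits_iff]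
    obtain ⟨w, hw⟩ := (ht x).1 i
    rw [hw]
    exact Ideal.mul_mem_right _ _ hϖ
  · -- inertia-equivariance modulo `p ^ n`
    intro σ hσ x i
    obtain ⟨φ, hφsemi, hφoo, hφ0, hφa, hφc⟩ := hgal σ hσ
    have hσD : σ ∈ P.decompositionSubgroup ℚ :=
      ((Fermat.Agent.S56x.Hens.mem_inertiaSubgroupIn_iff P σ).mp hσ).1
    set gD : P.decompositionSubgroup ℚ := ⟨σ, hσD⟩
    set σA : P →+* P := MulSemiringAction.toRingHom (P.decompositionSubgroup ℚ) P gD
    have hσAcoe : ∀ z : P, ((σA z : P) : Qbar) = σ (z : Qbar) := fun z => rfl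
    have h1 : IsNF Boo B0 a ϖ N (φ (c x)) (fun j => σA (t x j)) :=
      (ht x).map σA φ (fun z => hφsemi z (σA z) (hσAcoe z)) (fun z => dvd_smul P gD z)
        hφoo hφ0 hφa
    have h2 := IsNF.unique hrank hsat hϖ hϖ0 (ht (act σ x)) h1
      (((hφc x).symm).of_dvd (dvd_zero _)) i
    have h3 : PowMem P p n ((t (act σ x) i - σA (t x i) : P) : Qbar) :=
      powMem_of_dvd P (hnN.trans h2)
    simpa [hσAcoe] using h3
  · -- the group law modulo `p ^ n`
    intro x y i
    obtain ⟨T, hTcoe, hTdvd, hF'⟩ := hF ϖ (t x) (t y) (ht x).1 (ht y).1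
    have h2 := IsNF.mul hrank hsat hϖ hϖ0 (ht x) (ht y) (ht (x + y))
      ((hmul x y).of_dvd (dvd_zero _)) hTdvd hF' i
    have h3 : PowMem P p n ((t (x + y) i - T i : P) : Qbar) := powMem_of_dvd P (hnN.trans h2)
    rw [← hTcoe i]
    simpa using h3
  · -- separation at precision `c0`
    intro x y hxy
    by_contra hcon
    push Not at hcon
    have hd : ∀ i, δ x y hxy ∣ t x i - t y i := fun i => by
      have h1 : PowMem P p c0 ((t x i - t y i : P) : Qbar) := by simpa using hcon i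
      exact (hδc0 x y hxy).trans (dvd_of_powMem P h1)
    have hδN : δ x y hxy ∣ ϖ ^ (N + 1) :=
      ((hδc0 x y hxy).trans hc0N).trans (pow_dvd_pow _ (Nat.le_succ N))
    exact hδ x y hxy (cobEq_of_isNF (ht x) (ht y) hδN hd)

end Fermat.Agent.S33x.Cech.CoordBQbar
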