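/-
P-S33 (blueprint v2), LAYER 2, leaf (L2-B5), ADAPTER (helper3): from the architect literal of the
cocycle axioms (note 'S33-IFACE-L2-B5 (architect literal)', with the RULING v4 change: the
level-dependent `cyc_inj` is replaced by the uniform `cyc_sep`) to the hypothesis list of
`CoordBQbar.hasApproxCharts`, hence LITERALLY to `Iface.HasApproxCharts p P X act`.

* generic part (`A` a valuation domain): `cobEq_zero_of_rel`, `cobEq_mul_of_cyc`, `cobEq_gal_of_cyc`,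
  `hsep_of_cyc` (separation: for `x ≠ y` multiply by a cocycle of `-y`, use `cyc_rel` at the class `0`
  against `1`, and `cyc_sep` at the class `x + -y`);
* `hasApproxCharts_of_cyc`  : `A := P`, Galois side in existential form (for every `σ` in the inertia
  group a `σ`-semilinear ring endomorphism of `B` preserving the charts, the `a i` and the cocycles);
* `hasApproxCharts_of_cyc'` : the same with `cyc_sep` in the form `¬ CobEq Boo B0 δ c 1`;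
* `hasApproxCharts_of_cyc_lit` : Galois side as in the literal (`I`, `actA`, `actB`, `hAB`, ...), with
  a map `toΓ : I → Γℚ` hitting the inertia group.
-/
import Mathlib
import Fermat.Agent.S33x.Cech.CoordBQbar

set_option autoImplicit false

namespace Fermat.Agent.S33x.Cech.CoordBCyc

open Fermat.Agent.S33x.Cech Fermat.Agent.S33x.Cech.CoordB Fermat.Agent.S33x.Iface IsLocalRing
open Fermat.Agent.S56x.Flat.InertiaField

local notation "Qbar" => AlgebraicClosure ℚ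
local notation "Γℚ" => (AlgebraicClosure ℚ ≃ₐ[ℚ] AlgebraicClosure ℚ)

/-! ### Generic part -/

section Generic

variable {A : Type*} [CommRing A] [IsDomain A] [ValuationRing A]
variable {B : Type*} [CommRing B] [Algebra A B] {Boo B0 : Subalgebra A B}

/-- An exact relation `c' * Eoo * E0 = c * Goo * G0` with coboundaries `≡ 1` modulo one `π` of the
maximal ideal is a `CobEq` at precision `0`. -/
theorem cobEq_zero_of_rel {c c' : B} {π : A} (hπ : π ∈ maximalIdeal A) {Eoo Goo : Boo} {E0 G0 : B0}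
    (h1 : algebraMap A Boo π ∣ Eoo - 1) (h2 : algebraMap A Boo π ∣ Goo - 1)
    (h3 : algebraMap A B0 π ∣ E0 - 1) (h4 : algebraMap A B0 π ∣ G0 - 1)
    (h : c' * Eoo * E0 = c * Goo * G0) : CobEq Boo B0 0 c' c :=
  ⟨Eoo, Goo, E0, G0, NearOne.of_dvd hπ h1, NearOne.of_dvd hπ h2, NearOne.of_dvd hπ h3,
    NearOne.of_dvd hπ h4, by rw [map_zero, zero_dvd_iff, sub_eq_zero]; exact h⟩

variable {X : Type*} (Cyc : X → Set B)

/-- `cyc_mul` + `cyc_rel` : the chosen cocycle of `x + y` is equivalent to the product. -/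
theorem cobEq_mul_of_cyc [AddCommGroup X]
    (cyc_mul : ∀ x y, ∀ c ∈ Cyc x, ∀ c' ∈ Cyc y, c * c' ∈ Cyc (x + y))
    (cyc_rel : ∀ x, ∀ c ∈ Cyc x, ∀ c' ∈ Cyc x, ∃ π ∈ maximalIdeal A, π ≠ 0 ∧
      ∃ (Eoo Goo : Boo) (E0 G0 : B0), algebraMap A Boo π ∣ Eoo - 1 ∧ algebraMap A Boo π ∣ Goo - 1 ∧
        algebraMap A B0 π ∣ E0 - 1 ∧ algebraMap A B0 π ∣ G0 - 1 ∧ c' * Eoo * E0 = c * Goo * G0)
    {c : X → B} (hc : ∀ x, c x ∈ Cyc x) (x y : X) :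
    CobEq Boo B0 0 (c (x + y)) (c x * c y) := by
  obtain ⟨π, hπ, -, Eoo, Goo, E0, G0, h1, h2, h3, h4, h⟩ :=
    cyc_rel (x + y) (c x * c y) (cyc_mul x y _ (hc x) _ (hc y)) (c (x + y)) (hc _)
  exact cobEq_zero_of_rel hπ h1 h2 h3 h4 h

/-- `cyc_gal` + `cyc_rel` : the transported cocycle is equivalent to the chosen one. -/
theorem cobEq_gal_of_cyc
    (cyc_rel : ∀ x, ∀ c ∈ Cyc x, ∀ c' ∈ Cyc x, ∃ π ∈ maximalIdeal A, π ≠ 0 ∧
      ∃ (Eoo Goo : Boo) (E0 G0 : B0), algebraMap A Boo π ∣ Eoo - 1 ∧ algebraMap A Boo π ∣ Goo - 1 ∧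
        algebraMap A B0 π ∣ E0 - 1 ∧ algebraMap A B0 π ∣ G0 - 1 ∧ c' * Eoo * E0 = c * Goo * G0)
    {c : X → B} (hc : ∀ x, c x ∈ Cyc x) {φ : B → B} {τ : X → X}
    (hφ : ∀ x, ∀ u ∈ Cyc x, φ u ∈ Cyc (τ x)) (x : X) :
    CobEq Boo B0 0 (φ (c x)) (c (τ x)) := by
  obtain ⟨π, hπ, -, Eoo, Goo, E0, G0, h1, h2, h3, h4, h⟩ :=
    cyc_rel (τ x) (c (τ x)) (hc _) (φ (c x)) (hφ x _ (hc x))
  exact cobEq_zero_of_rel hπ h1 h2 h3 h4 h

/-- Separation from `cyc_sep` (in `CobEq` form): for `x ≠ y` the chosen cocycles are not equivalent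
modulo some `δ ≠ 0`. -/
theorem hsep_of_cyc [AddCommGroup X]
    (cyc_zero : (1 : B) ∈ Cyc 0)
    (cyc_mul : ∀ x y, ∀ c ∈ Cyc x, ∀ c' ∈ Cyc y, c * c' ∈ Cyc (x + y))
    (cyc_rel : ∀ x, ∀ c ∈ Cyc x, ∀ c' ∈ Cyc x, ∃ π ∈ maximalIdeal A, π ≠ 0 ∧
      ∃ (Eoo Goo : Boo) (E0 G0 : B0), algebraMap A Boo π ∣ Eoo - 1 ∧ algebraMap A Boo π ∣ Goo - 1 ∧
        algebraMap A B0 π ∣ E0 - 1 ∧ algebraMap A B0 π ∣ G0 - 1 ∧ c' * Eoo * E0 = c * Goo * G0)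
    (cyc_sep : ∀ x, x ≠ 0 → ∀ c ∈ Cyc x, ∃ δ : A, δ ≠ 0 ∧ ¬ CobEq Boo B0 δ c 1)
    {c : X → B} (hc : ∀ x, c x ∈ Cyc x) (x y : X) (hxy : x ≠ y) :
    ∃ δ : A, δ ≠ 0 ∧ ¬ CobEq Boo B0 δ (c x) (c y) := by
  have hz : x + -y ≠ 0 := by
    intro h
    exact hxy (by rw [← sub_eq_add_neg, sub_eq_zero] at h; exact h)
  obtain ⟨δ, hδ0, hδ⟩ := cyc_sep (x + -y) hz (c x * c (-y)) (cyc_mul x (-y) _ (hc x) _ (hc (-y)))
  refine ⟨δ, hδ0, fun hcob => hδ ?_⟩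
  obtain ⟨r, r', s, s', hr, hr', hs, hs', hd⟩ := hcob
  have h0mem : c y * c (-y) ∈ Cyc 0 := by
    have := cyc_mul y (-y) _ (hc y) _ (hc (-y))
    rwa [add_neg_cancel] at this
  obtain ⟨π, hπ, -, Eoo, Goo, E0, G0, h1, h2, h3, h4, h⟩ :=
    cyc_rel 0 1 cyc_zero (c y * c (-y)) h0mem
  refine ⟨r * Eoo, r' * Goo, s * E0, s' * G0, hr.mul (NearOne.of_dvd hπ h1),
    hr'.mul (NearOne.of_dvd hπ h2), hs.mul (NearOne.of_dvd hπ h3),
    hs'.mul (NearOne.of_dvd hπ h4), ?_⟩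
  have key : c x * c (-y) * ((r * Eoo : Boo) : B) * ((s * E0 : B0) : B)
      - 1 * ((r' * Goo : Boo) : B) * ((s' * G0 : B0) : B)
      = (c x * r * s - c y * r' * s') * (c (-y) * Eoo * E0)
        + (r' : B) * s' * (c y * c (-y) * Eoo * E0 - 1 * Goo * G0) := by
    push_cast
    ring
  rw [key, h, sub_self, mul_zero, add_zero]
  exact Dvd.dvd.mul_right hd _

end Generic

/-! ### `A := P` -/

variable (P : ValuationSubring Qbar)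

/-- **Adapter** (Cyc-literal, `cyc_sep` in `CobEq` form) `⟹ HasApproxCharts`. -/
theorem hasApproxCharts_of_cyc' {p : ℕ} (hp : p.Prime) (hP : P.LiesOverPrime p)
    {X : Type} [AddCommGroup X] [Finite X] (act : Γℚ → X → X)
    {B : Type*} [CommRing B] [Algebra P B] (Boo B0 : Subalgebra P B) {g : ℕ} (a : Fin g → B)
    (hdec : Decomp Boo B0 a) (hsat : ∀ π : P, π ≠ 0 → SatData Boo B0 a π)
    (hGL : ∀ n : ℕ, ∃ F : Fin g → MvPolynomial (Fin g ⊕ Fin g) (inertiaInt P),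
      ∀ (π : P) (t t' : Fin g → P), (∀ i, π ∣ t i) → (∀ i, π ∣ t' i) →
        ∃ T : Fin g → P,
          (∀ k, (T k : Qbar) = MvPolynomial.aeval
            (Sum.elim (fun i => (t i : Qbar)) (fun i => (t' i : Qbar))) (F k)) ∧
          (∀ k, π ∣ T k) ∧
          ∃ (voo : Boo) (v0 : B0), algebraMap P Boo π ∣ voo - 1 ∧ algebraMap P B0 π ∣ v0 - 1 ∧
            algebraMap P B π ^ (n + 1) ∣
              (1 + comb a t) * (1 + comb a t') * voo * v0 - (1 + comb a T))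
    (Cyc : X → Set B)
    (cyc_ne : ∀ x, (Cyc x).Nonempty)
    (cyc_one : ∀ x, ∀ c ∈ Cyc x, ∃ π ∈ maximalIdeal P, π ≠ 0 ∧ algebraMap P B π ∣ c - 1)
    (cyc_zero : (1 : B) ∈ Cyc 0)
    (cyc_mul : ∀ x y, ∀ c ∈ Cyc x, ∀ c' ∈ Cyc y, c * c' ∈ Cyc (x + y))
    (cyc_rel : ∀ x, ∀ c ∈ Cyc x, ∀ c' ∈ Cyc x, ∃ π ∈ maximalIdeal P, π ≠ 0 ∧
      ∃ (Eoo Goo : Boo) (E0 G0 : B0), algebraMap P Boo π ∣ Eoo - 1 ∧ algebraMap P Boo π ∣ Goo - 1 ∧
        algebraMap P B0 π ∣ E0 - 1 ∧ algebraMap P B0 π ∣ G0 - 1 ∧ c' * Eoo * E0 = c * Goo * G0)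
    (cyc_gal : ∀ σ ∈ P.inertiaSubgroupIn ℚ, ∃ φ : B →+* B,
      (∀ z z' : P, (z' : Qbar) = σ (z : Qbar) → φ (algebraMap P B z) = algebraMap P B z') ∧
      (∀ b ∈ Boo, φ b ∈ Boo) ∧ (∀ b ∈ B0, φ b ∈ B0) ∧ (∀ i, φ (a i) = a i) ∧
      ∀ x, ∀ c ∈ Cyc x, φ c ∈ Cyc (act σ x))
    (cyc_sep : ∀ x, x ≠ 0 → ∀ c ∈ Cyc x, ∃ δ : P, δ ≠ 0 ∧ ¬ CobEq Boo B0 δ c 1) :
    HasApproxCharts p P X act := by
  classical
  choose c hc using cyc_ne
  refine CoordBQbar.hasApproxCharts hp hP act Boo B0 a hdec hsat hGL c ?_ ?_ ?_ ?_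
  · intro x
    obtain ⟨π, hπ, -, hd⟩ := cyc_one x (c x) (hc x)
    exact ⟨π, hπ, hd⟩
  · exact fun x y => cobEq_mul_of_cyc Cyc cyc_mul cyc_rel hc x y
  · intro σ hσ
    obtain ⟨φ, h1, h2, h3, h4, h5⟩ := cyc_gal σ hσ
    exact ⟨φ, h1, h2, h3, h4, fun x => cobEq_gal_of_cyc Cyc cyc_rel hc (φ := φ) (τ := act σ) h5 x⟩
  · exact fun x y hxy => hsep_of_cyc Cyc cyc_zero cyc_mul cyc_rel cyc_sep hc x y hxy

/-- **Adapter** (Cyc-literal with the uniform `cyc_sep` of the RULING v4) `⟹ HasApproxCharts`. -/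
theorem hasApproxCharts_of_cyc {p : ℕ} (hp : p.Prime) (hP : P.LiesOverPrime p)
    {X : Type} [AddCommGroup X] [Finite X] (act : Γℚ → X → X)
    {B : Type*} [CommRing B] [Algebra P B] (Boo B0 : Subalgebra P B) {g : ℕ} (a : Fin g → B)
    (hdec : Decomp Boo B0 a) (hsat : ∀ π : P, π ≠ 0 → SatData Boo B0 a π)
    (hGL : ∀ n : ℕ, ∃ F : Fin g → MvPolynomial (Fin g ⊕ Fin g) (inertiaInt P),
      ∀ (π : P) (t t' : Fin g → P), (∀ i, π ∣ t i) → (∀ i, π ∣ t' i) →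
        ∃ T : Fin g → P,
          (∀ k, (T k : Qbar) = MvPolynomial.aeval
            (Sum.elim (fun i => (t i : Qbar)) (fun i => (t' i : Qbar))) (F k)) ∧
          (∀ k, π ∣ T k) ∧
          ∃ (voo : Boo) (v0 : B0), algebraMap P Boo π ∣ voo - 1 ∧ algebraMap P B0 π ∣ v0 - 1 ∧
            algebraMap P B π ^ (n + 1) ∣
              (1 + comb a t) * (1 + comb a t') * voo * v0 - (1 + comb a T))
    (Cyc : X → Set B)
    (cyc_ne : ∀ x, (Cyc x).Nonempty)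
    (cyc_one : ∀ x, ∀ c ∈ Cyc x, ∃ π ∈ maximalIdeal P, π ≠ 0 ∧ algebraMap P B π ∣ c - 1)
    (cyc_zero : (1 : B) ∈ Cyc 0)
    (cyc_mul : ∀ x y, ∀ c ∈ Cyc x, ∀ c' ∈ Cyc y, c * c' ∈ Cyc (x + y))
    (cyc_rel : ∀ x, ∀ c ∈ Cyc x, ∀ c' ∈ Cyc x, ∃ π ∈ maximalIdeal P, π ≠ 0 ∧
      ∃ (Eoo Goo : Boo) (E0 G0 : B0), algebraMap P Boo π ∣ Eoo - 1 ∧ algebraMap P Boo π ∣ Goo - 1 ∧
        algebraMap P B0 π ∣ E0 - 1 ∧ algebraMap P B0 π ∣ G0 - 1 ∧ c' * Eoo * E0 = c * Goo * G0)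
    (cyc_gal : ∀ σ ∈ P.inertiaSubgroupIn ℚ, ∃ φ : B →+* B,
      (∀ z z' : P, (z' : Qbar) = σ (z : Qbar) → φ (algebraMap P B z) = algebraMap P B z') ∧
      (∀ b ∈ Boo, φ b ∈ Boo) ∧ (∀ b ∈ B0, φ b ∈ B0) ∧ (∀ i, φ (a i) = a i) ∧
      ∀ x, ∀ c ∈ Cyc x, φ c ∈ Cyc (act σ x))
    (cyc_sep : ∀ x, x ≠ 0 → ∀ c ∈ Cyc x, ∃ δ : P, δ ≠ 0 ∧
      ¬ ∃ (voo woo : Boo) (v0 w0 : B0), NearOne Boo voo ∧ NearOne Boo woo ∧ NearOne B0 v0 ∧
        NearOne B0 w0 ∧ algebraMap P B δ ∣ c * voo * v0 - woo * w0) :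
    HasApproxCharts p P X act := by
  refine hasApproxCharts_of_cyc' P hp hP act Boo B0 a hdec hsat hGL Cyc cyc_ne cyc_one cyc_zero
    cyc_mul cyc_rel cyc_gal ?_
  intro x hx c hc
  obtain ⟨δ, hδ0, hδ⟩ := cyc_sep x hx c hc
  refine ⟨δ, hδ0, fun hcob => hδ ?_⟩
  obtain ⟨r, r', s, s', hr, hr', hs, hs', hd⟩ := hcob
  refine ⟨r, r', s, s', hr, hr', hs, hs', ?_⟩
  rwa [one_mul] at hd

/-- **Adapter**, Galois side as in the architect literal: an index type `I` with `toΓ : I → Γℚ`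
hitting every element of the inertia group, `actA s` the restriction of `toΓ s` to `P`, `actB s` an
`actA s`-semilinear ring endomorphism of `B` preserving the charts, the `a i` and the cocycles. -/
theorem hasApproxCharts_of_cyc_lit {p : ℕ} (hp : p.Prime) (hP : P.LiesOverPrime p)
    {X : Type} [AddCommGroup X] [Finite X] (act : Γℚ → X → X)
    {B : Type*} [CommRing B] [Algebra P B] (Boo B0 : Subalgebra P B) {g : ℕ} (a : Fin g → B)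
    (hdec : Decomp Boo B0 a) (hsat : ∀ π : P, π ≠ 0 → SatData Boo B0 a π)
    (hGL : ∀ n : ℕ, ∃ F : Fin g → MvPolynomial (Fin g ⊕ Fin g) (inertiaInt P),
      ∀ (π : P) (t t' : Fin g → P), (∀ i, π ∣ t i) → (∀ i, π ∣ t' i) →
        ∃ T : Fin g → P,
          (∀ k, (T k : Qbar) = MvPolynomial.aeval
            (Sum.elim (fun i => (t i : Qbar)) (fun i => (t' i : Qbar))) (F k)) ∧
          (∀ k, π ∣ T k) ∧
          ∃ (voo : Boo) (v0 : B0), algebraMap P Boo π ∣ voo - 1 ∧ algebraMap P B0 π ∣ v0 - 1 ∧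
            algebraMap P B π ^ (n + 1) ∣
              (1 + comb a t) * (1 + comb a t') * voo * v0 - (1 + comb a T))
    {I : Type*} (toΓ : I → Γℚ) (hI : ∀ σ ∈ P.inertiaSubgroupIn ℚ, ∃ s, toΓ s = σ)
    (actA : I → P →+* P) (hactA : ∀ s (z : P), ((actA s z : P) : Qbar) = toΓ s (z : Qbar))
    (actB : I → B →+* B)
    (hAB : ∀ s c, actB s (algebraMap P B c) = algebraMap P B (actA s c))
    (hoo : ∀ s, ∀ x ∈ Boo, actB s x ∈ Boo) (h0 : ∀ s, ∀ x ∈ B0, actB s x ∈ B0)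
    (ha : ∀ s i, actB s (a i) = a i)
    (Cyc : X → Set B)
    (cyc_ne : ∀ x, (Cyc x).Nonempty)
    (cyc_one : ∀ x, ∀ c ∈ Cyc x, ∃ π ∈ maximalIdeal P, π ≠ 0 ∧ algebraMap P B π ∣ c - 1)
    (cyc_zero : (1 : B) ∈ Cyc 0)
    (cyc_mul : ∀ x y, ∀ c ∈ Cyc x, ∀ c' ∈ Cyc y, c * c' ∈ Cyc (x + y))
    (cyc_rel : ∀ x, ∀ c ∈ Cyc x, ∀ c' ∈ Cyc x, ∃ π ∈ maximalIdeal P, π ≠ 0 ∧
      ∃ (Eoo Goo : Boo) (E0 G0 : B0), algebraMap P Boo π ∣ Eoo - 1 ∧ algebraMap P Boo π ∣ Goo - 1 ∧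
        algebraMap P B0 π ∣ E0 - 1 ∧ algebraMap P B0 π ∣ G0 - 1 ∧ c' * Eoo * E0 = c * Goo * G0)
    (cyc_gal : ∀ s x, ∀ c ∈ Cyc x, actB s c ∈ Cyc (act (toΓ s) x))
    (cyc_sep : ∀ x, x ≠ 0 → ∀ c ∈ Cyc x, ∃ δ : P, δ ≠ 0 ∧
      ¬ ∃ (voo woo : Boo) (v0 w0 : B0), NearOne Boo voo ∧ NearOne Boo woo ∧ NearOne B0 v0 ∧
        NearOne B0 w0 ∧ algebraMap P B δ ∣ c * voo * v0 - woo * w0) :
    HasApproxCharts p P X act := by
  refine hasApproxCharts_of_cyc P hp hP act Boo B0 a hdec hsat hGL Cyc cyc_ne cyc_one cyc_zero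
    cyc_mul cyc_rel ?_ cyc_sep
  intro σ hσ
  obtain ⟨s, rfl⟩ := hI σ hσ
  refine ⟨actB s, ?_, hoo s, h0 s, ha s, fun x c hc => cyc_gal s x c hc⟩
  intro z z' hzz'
  rw [hAB]
  congr 1
  exact Subtype.ext ((hactA s z).trans hzz'.symm)

end Fermat.Agent.S33x.Cech.CoordBCyc
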