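import Fermat.Agent.S33x.Cech.Coord

/-!
# P-S33, LAYER 2, leaf (L2-B5): the architect literal of the abstract assembly

The statement of note 2104 (`S33-IFACE-L2-B5 (architect literal)`, helper33) with the UNIFORM
separation hypothesis `cyc_sep` of the ruling v4, VERBATIM, proved from `Coord.exists_charts_of_cyc`.

`A` a valuation domain of rank one, `p` a nonzero element of its maximal ideal, `B` an `A`-algebra
with the two charts `Boo B0`, `a : Fin g → B` (`Decomp`, `SatData π` for `π ≠ 0`), a `W`-form of the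
charts (hypotheses of `GroupLaw.exists_groupLaw`), a finite abelian group `X` with an action of an
index type `I` (semilinear ring endomorphisms `actA`, `actB`), and sets of cocycles `Cyc x`.

* `exists_coords_of_sep` : `cyc_sep` is asked for ONE cocycle of each class `x ≠ 0`;
* `exists_coords_lit` : the literal (`cyc_sep` for all cocycles of the class).

The conclusion is the literal CONCLUSION of note 2104; `Cech/ToApproxChart.lean` (helper47) turns it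
into `Iface.HasApproxCharts` for `A := P`, `W := inertiaInt P`.
-/

set_option autoImplicit false

namespace Fermat.Agent.S33x.Cech.CoordLit

open Fermat.Agent.S33x.Cech Fermat.Agent.S33x.Cech.Coord IsLocalRing

variable {W : Type*} [CommRing W] {RW : Type*} [CommRing RW] [Algebra W RW]
variable {A : Type*} [CommRing A] [IsDomain A] [ValuationRing A]
variable {B : Type*} [CommRing B] [Algebra A B] [Algebra W A] [Algebra W B] [IsScalarTower W A B]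

/-- **(L2-B5), architect literal with `cyc_sep` for one cocycle per class.** -/
theorem exists_coords_of_sep
    (Boo B0 : Subalgebra A B) {g : ℕ} (a : Fin g → B) (hdec : Decomp Boo B0 a)
    (hsat : ∀ π : A, π ≠ 0 → SatData Boo B0 a π)
    {RooW R0W : Subalgebra W RW} {aW : Fin g → RW} (hdecW : Decomp RooW R0W aW)
    (ι : RW →ₐ[W] B) (hιoo : ∀ x ∈ RooW, ι x ∈ Boo) (hι0 : ∀ x ∈ R0W, ι x ∈ B0)
    (hιa : ∀ i, ι (aW i) = a i)
    (p : A) (hp : p ∈ maximalIdeal A) (hp0 : p ≠ 0)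
    (hrank : ∀ x ∈ maximalIdeal A, ∀ c : A, c ≠ 0 → ∃ j : ℕ, c ∣ x ^ j)
    {X : Type*} [AddCommGroup X] [Finite X] {I : Type*}
    (actX : I → X → X) (actA : I → A →+* A) (actB : I → B →+* B)
    (hAB : ∀ s c, actB s (algebraMap A B c) = algebraMap A B (actA s c))
    (hAss : ∀ s c, Associated (actA s c) c)
    (hoo : ∀ s, ∀ x ∈ Boo, actB s x ∈ Boo) (h0 : ∀ s, ∀ x ∈ B0, actB s x ∈ B0)
    (ha : ∀ s i, actB s (a i) = a i)
    (Cyc : X → Set B)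
    (cyc_ne : ∀ x, (Cyc x).Nonempty)
    (cyc_one : ∀ x, ∀ c ∈ Cyc x, ∃ π ∈ maximalIdeal A, π ≠ 0 ∧ algebraMap A B π ∣ c - 1)
    (cyc_zero : (1 : B) ∈ Cyc 0)
    (cyc_mul : ∀ x y, ∀ c ∈ Cyc x, ∀ c' ∈ Cyc y, c * c' ∈ Cyc (x + y))
    (cyc_rel : ∀ x, ∀ c ∈ Cyc x, ∀ c' ∈ Cyc x, ∃ π ∈ maximalIdeal A, π ≠ 0 ∧
      ∃ (Eoo Goo : Boo) (E0 G0 : B0),
        algebraMap A Boo π ∣ Eoo - 1 ∧ algebraMap A Boo π ∣ Goo - 1 ∧
        algebraMap A B0 π ∣ E0 - 1 ∧ algebraMap A B0 π ∣ G0 - 1 ∧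
        c' * Eoo * E0 = c * Goo * G0)
    (cyc_gal : ∀ s x, ∀ c ∈ Cyc x, actB s c ∈ Cyc (actX s x))
    (cyc_sep : ∀ x, x ≠ 0 → ∃ c ∈ Cyc x, ∃ δ : A, δ ≠ 0 ∧ ¬ ∃ (voo woo : Boo) (v0 w0 : B0),
      (∃ π ∈ maximalIdeal A, algebraMap A Boo π ∣ voo - 1) ∧
      (∃ π ∈ maximalIdeal A, algebraMap A Boo π ∣ woo - 1) ∧
      (∃ π ∈ maximalIdeal A, algebraMap A B0 π ∣ v0 - 1) ∧
      (∃ π ∈ maximalIdeal A, algebraMap A B0 π ∣ w0 - 1) ∧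
      algebraMap A B δ ∣ c * voo * v0 - woo * w0) :
    ∃ c0 : ℕ, ∀ n : ℕ, ∃ (coord : X → Fin g → A)
      (F : Fin g → MvPolynomial (Fin g ⊕ Fin g) W),
      (∀ x i, coord x i ∈ maximalIdeal A) ∧
      (∀ s x i, p ^ n ∣ coord (actX s x) i - actA s (coord x i)) ∧
      (∀ x y i, p ^ n ∣
        coord (x + y) i - MvPolynomial.aeval (Sum.elim (coord x) (coord y)) (F i)) ∧
      (∀ x y, x ≠ y → ∃ i, ¬ p ^ c0 ∣ coord x i - coord y i) := by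
  set sm : Set A := {π | π ∈ maximalIdeal A ∧ π ≠ 0} with hsm
  have hgcd : ∀ ε ∈ sm, ∀ ε' ∈ sm, ∃ δ ∈ sm, δ ∣ ε ∧ δ ∣ ε' := by
    intro ε hε ε' hε'
    rcases ValuationRing.dvd_total ε ε' with h | h
    · exact ⟨ε, hε, dvd_rfl, h⟩
    · exact ⟨ε', hε', h, dvd_rfl⟩
  obtain ⟨c0, hc0⟩ := exists_charts_of_cyc (Boo := Boo) (B0 := B0) (a := a) (sm := sm) (W := W)
    ValuationRing.dvd_total hgcd p (fun ε hε => hrank ε hε.1 p hp0) hdec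
    (fun ε hε => hsat ε hε.2) (fun N => exists_isLaw Boo B0 a hdecW ι hιoo hι0 hιa sm N)
    actA actB actX hAB hoo h0 ha (fun s ε _ => (hAss s ε).symm.dvd) Cyc cyc_ne
    (fun x c hc => by
      obtain ⟨π, hπ, hπ0, h⟩ := cyc_one x c hc
      exact ⟨π, ⟨hπ, hπ0⟩, h⟩)
    cyc_zero cyc_mul
    (fun x c hc c' hc' => by
      obtain ⟨π, hπ, hπ0, Eoo, Goo, E0, G0, h1, h2, h3, h4, h5⟩ := cyc_rel x c hc c' hc'
      refine ⟨π, ⟨hπ, hπ0⟩, Goo, Eoo, G0, E0, h2, h1, h4, h3, ?_⟩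
      rw [map_zero, zero_dvd_iff, h5, sub_self])
    cyc_gal
    (fun x hx => by
      obtain ⟨c, hc, δ, hδ0, hδ⟩ := cyc_sep x hx
      obtain ⟨j, hj⟩ := hrank p hp δ hδ0
      refine ⟨c, hc, j, fun hrel => hδ ?_⟩
      obtain ⟨ε, hε, r, r', s, s', h1, h2, h3, h4, h5⟩ := hrel
      refine ⟨r, r', s, s', ⟨ε, hε.1, h1⟩, ⟨ε, hε.1, h2⟩, ⟨ε, hε.1, h3⟩, ⟨ε, hε.1, h4⟩, ?_⟩
      have h6 := algebraMap_dvd_of_dvd hj h5
      rwa [one_mul] at h6)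
  refine ⟨c0, fun n => ?_⟩
  obtain ⟨t, ⟨ϖ, hϖ, hϖt⟩, hgal, ⟨F, hF⟩, hsep⟩ := hc0 n
  refine ⟨t, F, fun x i => ?_, hgal, hF, hsep⟩
  obtain ⟨d, hd⟩ := hϖt x i
  rw [hd]
  exact Ideal.mul_mem_right d _ hϖ.1

/-- **(L2-B5), architect literal (note 2104 + ruling v4).** -/
theorem exists_coords_lit
    (Boo B0 : Subalgebra A B) {g : ℕ} (a : Fin g → B) (hdec : Decomp Boo B0 a)
    (hsat : ∀ π : A, π ≠ 0 → SatData Boo B0 a π)
    {RooW R0W : Subalgebra W RW} {aW : Fin g → RW} (hdecW : Decomp RooW R0W aW)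
    (ι : RW →ₐ[W] B) (hιoo : ∀ x ∈ RooW, ι x ∈ Boo) (hι0 : ∀ x ∈ R0W, ι x ∈ B0)
    (hιa : ∀ i, ι (aW i) = a i)
    (p : A) (hp : p ∈ maximalIdeal A) (hp0 : p ≠ 0)
    (hrank : ∀ x ∈ maximalIdeal A, ∀ c : A, c ≠ 0 → ∃ j : ℕ, c ∣ x ^ j)
    {X : Type*} [AddCommGroup X] [Finite X] {I : Type*}
    (actX : I → X → X) (actA : I → A →+* A) (actB : I → B →+* B)
    (hAB : ∀ s c, actB s (algebraMap A B c) = algebraMap A B (actA s c))
    (hAss : ∀ s c, Associated (actA s c) c)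
    (hoo : ∀ s, ∀ x ∈ Boo, actB s x ∈ Boo) (h0 : ∀ s, ∀ x ∈ B0, actB s x ∈ B0)
    (ha : ∀ s i, actB s (a i) = a i)
    (Cyc : X → Set B)
    (cyc_ne : ∀ x, (Cyc x).Nonempty)
    (cyc_one : ∀ x, ∀ c ∈ Cyc x, ∃ π ∈ maximalIdeal A, π ≠ 0 ∧ algebraMap A B π ∣ c - 1)
    (cyc_zero : (1 : B) ∈ Cyc 0)
    (cyc_mul : ∀ x y, ∀ c ∈ Cyc x, ∀ c' ∈ Cyc y, c * c' ∈ Cyc (x + y))
    (cyc_rel : ∀ x, ∀ c ∈ Cyc x, ∀ c' ∈ Cyc x, ∃ π ∈ maximalIdeal A, π ≠ 0 ∧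
      ∃ (Eoo Goo : Boo) (E0 G0 : B0),
        algebraMap A Boo π ∣ Eoo - 1 ∧ algebraMap A Boo π ∣ Goo - 1 ∧
        algebraMap A B0 π ∣ E0 - 1 ∧ algebraMap A B0 π ∣ G0 - 1 ∧
        c' * Eoo * E0 = c * Goo * G0)
    (cyc_gal : ∀ s x, ∀ c ∈ Cyc x, actB s c ∈ Cyc (actX s x))
    (cyc_sep : ∀ x, x ≠ 0 → ∀ c ∈ Cyc x, ∃ δ : A, δ ≠ 0 ∧ ¬ ∃ (voo woo : Boo) (v0 w0 : B0),
      (∃ π ∈ maximalIdeal A, algebraMap A Boo π ∣ voo - 1) ∧
      (∃ π ∈ maximalIdeal A, algebraMap A Boo π ∣ woo - 1) ∧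
      (∃ π ∈ maximalIdeal A, algebraMap A B0 π ∣ v0 - 1) ∧
      (∃ π ∈ maximalIdeal A, algebraMap A B0 π ∣ w0 - 1) ∧
      algebraMap A B δ ∣ c * voo * v0 - woo * w0) :
    ∃ c0 : ℕ, ∀ n : ℕ, ∃ (coord : X → Fin g → A)
      (F : Fin g → MvPolynomial (Fin g ⊕ Fin g) W),
      (∀ x i, coord x i ∈ maximalIdeal A) ∧
      (∀ s x i, p ^ n ∣ coord (actX s x) i - actA s (coord x i)) ∧
      (∀ x y i, p ^ n ∣
        coord (x + y) i - MvPolynomial.aeval (Sum.elim (coord x) (coord y)) (F i)) ∧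
      (∀ x y, x ≠ y → ∃ i, ¬ p ^ c0 ∣ coord x i - coord y i) :=
  exists_coords_of_sep Boo B0 a hdec hsat hdecW ι hιoo hι0 hιa p hp hp0 hrank actX actA actB
    hAB hAss hoo h0 ha Cyc cyc_ne cyc_one cyc_zero cyc_mul cyc_rel cyc_gal
    (fun x hx => by
      obtain ⟨c, hc⟩ := cyc_ne x
      exact ⟨c, hc, cyc_sep x hx c hc⟩)

end Fermat.Agent.S33x.Cech.CoordLit
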