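import Mathlib
import Fermat.Prelude.Def_FLTPrelim_Ramification

/-!
# P-S33 LAYER 2 (I3/I6 plumbing): the Galois hypothesis `hAss` in the generic context

For `L` algebraic over `K`, `A` a valuation subring of `L` and `σ` in the decomposition group of
`A` (in particular in the inertia group `A.inertiaSubgroupIn K`), `σ` preserves the valuation:
`z ∣ σ z` in `A`, hence `Associated (σ z) z`.  This is the hypothesis `hAss` of the architect
literal (note 'S33-IFACE-L2-B5') in the GENERIC context of `S34x/Inst/TheoremBMq` (`L` any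
algebraic closure of `ℚ`); `Cech/CoordBQbar.dvd_smul` is the `ℚ̄`-only version.

* `exists_pow_apply_eq` : some positive power of `σ` fixes a given element (finite orbit);
* `apply_mem_of_mem_decomposition`, `apply_mem_nonunits` : `σ A ⊆ A`, `σ 𝔪 ⊆ 𝔪`;
* `decompAct A σ hσ : A →+* A`, `dvd_decompAct`, `associated_decompAct`;
* `mem_decomposition_of_mem_inertiaIn`, `inertiaAct A s : A →+* A` for
  `s : A.inertiaSubgroupIn K`, `associated_inertiaAct`.
-/

set_option autoImplicit false

noncomputable section

namespace Fermat.Agent.S33x.Cech.InertiaAssoc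

open scoped Pointwise

variable {K : Type*} [Field K] {L : Type*} [Field L] [Algebra K L]

/-- Some positive power of an automorphism fixes a given algebraic element. -/
theorem exists_pow_apply_eq [Algebra.IsAlgebraic K L] (φ : L ≃ₐ[K] L) (a : L) :
    ∃ f : ℕ, 0 < f ∧ (φ ^ f) a = a := by
  have hint : IsIntegral K a := Algebra.IsIntegral.isIntegral a
  have hfin : ((minpoly K a).rootSet L).Finite := Polynomial.rootSet_finite _ _
  have hmem : ∀ i : ℕ, (φ ^ i) a ∈ (minpoly K a).rootSet L := by
    intro i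
    rw [Polynomial.mem_rootSet]
    refine ⟨minpoly.ne_zero hint, ?_⟩
    rw [Polynomial.aeval_algHom_apply, minpoly.aeval, map_zero]
  obtain ⟨i, j, hij, h⟩ := hfin.exists_lt_map_eq_of_forall_mem hmem
  refine ⟨j - i, Nat.sub_pos_of_lt hij, ?_⟩
  have hj : φ ^ j = φ ^ i * φ ^ (j - i) := by
    rw [← pow_add, Nat.add_sub_cancel' hij.le]
  rw [hj, AlgEquiv.mul_apply] at h
  exact ((φ ^ i).injective h).symm

variable (A : ValuationSubring L)

theorem one_notMem_nonunits' : (1 : L) ∉ A.nonunits := by
  rw [ValuationSubring.mem_nonunits_iff, map_one]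
  exact lt_irrefl _

/-- The decomposition group preserves `A`. -/
theorem apply_mem_of_mem_decomposition {σ : L ≃ₐ[K] L} (hσ : σ ∈ A.decompositionSubgroup K)
    {a : L} (ha : a ∈ A) : σ a ∈ A := by
  have hd : σ • A = A := hσ
  have h1 : σ • a ∈ σ • A := ValuationSubring.smul_mem_pointwise_smul _ _ _ ha
  rw [hd] at h1
  exact h1

/-- The action of an element of the decomposition group on the ring `A`. -/
def decompAct (σ : L ≃ₐ[K] L) (hσ : σ ∈ A.decompositionSubgroup K) : A →+* A where
  toFun a := ⟨σ a, apply_mem_of_mem_decomposition A hσ a.2⟩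
  map_one' := Subtype.ext (map_one _)
  map_mul' _ _ := Subtype.ext (map_mul _ _ _)
  map_zero' := Subtype.ext (map_zero _)
  map_add' _ _ := Subtype.ext (map_add _ _ _)

@[simp] theorem coe_decompAct (σ : L ≃ₐ[K] L) (hσ : σ ∈ A.decompositionSubgroup K) (a : A) :
    ((decompAct A σ hσ a : A) : L) = σ (a : L) := rfl

/-- The decomposition group preserves the maximal ideal. -/
theorem apply_mem_nonunits {σ : L ≃ₐ[K] L} (hσ : σ ∈ A.decompositionSubgroup K) {x : L}
    (hx : x ∈ A.nonunits) : σ x ∈ A.nonunits := by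
  have hx' : (x⁻¹)⁻¹ ∈ A.nonunits := by rwa [inv_inv]
  rw [A.inv_mem_nonunits_iff] at hx'
  have h : ((σ x)⁻¹)⁻¹ ∈ A.nonunits := by
    rw [A.inv_mem_nonunits_iff]
    rcases hx' with h | h
    · left
      rw [inv_eq_zero] at h ⊢
      rw [h, map_zero]
    · right
      intro h2
      apply h
      have h3 := apply_mem_of_mem_decomposition A ((A.decompositionSubgroup K).inv_mem hσ) h2
      have h4 : σ⁻¹ (σ x) = x := by
        rw [AlgEquiv.aut_inv]
        exact σ.symm_apply_apply x
      rwa [map_inv₀, h4] at h3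
  rwa [inv_inv] at h

/-- The decomposition group preserves valuations: `z ∣ σ z` in `A`. -/
theorem dvd_decompAct [Algebra.IsAlgebraic K L] (σ : L ≃ₐ[K] L)
    (hσ : σ ∈ A.decompositionSubgroup K) (z : A) : z ∣ decompAct A σ hσ z := by
  by_cases hz : z = 0
  · rw [hz, map_zero]
  set x : L := (z : L) with hxdef
  have hx0 : x ≠ 0 := fun h => hz (Subtype.ext h)
  have hσx0 : σ x ≠ 0 := (map_ne_zero σ).mpr hx0
  have hu : σ x / x ∈ A := by
    by_contra hu
    have hinv : x / σ x ∈ A.nonunits := by
      have := (A.inv_mem_nonunits_iff (x := σ x / x)).mpr (Or.inr hu)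
      rwa [inv_div] at this
    obtain ⟨f, hf, hfx⟩ := exists_pow_apply_eq σ x
    have key : ∀ k : ℕ, x / (σ ^ (k + 1)) x ∈ A.nonunits := by
      intro k
      induction k with
      | zero => simpa using hinv
      | succ k ih =>
        have hk0 : (σ ^ (k + 1)) x ≠ 0 := (map_ne_zero _).mpr hx0
        have h1 : (σ ^ (k + 1)) (x / σ x) ∈ A.nonunits :=
          apply_mem_nonunits A (Subgroup.pow_mem _ hσ _) hinv
        have h2 : x / (σ ^ (k + 1 + 1)) x = x / (σ ^ (k + 1)) x * (σ ^ (k + 1)) (x / σ x) := by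
          rw [pow_succ σ (k + 1), AlgEquiv.mul_apply, map_div₀]
          field_simp
        rw [h2]
        exact A.nonunits.mul_mem ih h1
    obtain ⟨f', rfl⟩ : ∃ f', f = f' + 1 := Nat.exists_eq_succ_of_ne_zero hf.ne'
    have := key f'
    rw [hfx, div_self hx0] at this
    exact one_notMem_nonunits' A this
  refine ⟨⟨σ x / x, hu⟩, Subtype.ext ?_⟩
  show σ x = x * (σ x / x)
  field_simp

/-- `σ z` and `z` are associated in `A` for `σ` in the decomposition group. -/
theorem associated_decompAct [Algebra.IsAlgebraic K L] (σ : L ≃ₐ[K] L)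
    (hσ : σ ∈ A.decompositionSubgroup K) (z : A) : Associated (decompAct A σ hσ z) z := by
  have hσi : σ⁻¹ ∈ A.decompositionSubgroup K := (A.decompositionSubgroup K).inv_mem hσ
  have h1 : z ∣ decompAct A σ hσ z := dvd_decompAct A σ hσ z
  have h2 : decompAct A σ hσ z ∣ decompAct A σ⁻¹ hσi (decompAct A σ hσ z) :=
    dvd_decompAct A σ⁻¹ hσi _
  have h3 : decompAct A σ⁻¹ hσi (decompAct A σ hσ z) = z := by
    apply Subtype.ext
    show σ⁻¹ (σ (z : L)) = (z : L)
    rw [AlgEquiv.aut_inv]
    exact σ.symm_apply_apply _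
  rw [h3] at h2
  exact associated_of_dvd_dvd h2 h1

/-! ### The inertia group `A.inertiaSubgroupIn K` -/

theorem mem_decomposition_of_mem_inertiaIn {σ : L ≃ₐ[K] L} (hσ : σ ∈ A.inertiaSubgroupIn K) :
    σ ∈ A.decompositionSubgroup K := by
  obtain ⟨d, -, rfl⟩ := hσ
  exact d.2

/-- The action of an element of the inertia group on the ring `A`. -/
def inertiaAct (s : A.inertiaSubgroupIn K) : A →+* A :=
  decompAct A (s : L ≃ₐ[K] L) (mem_decomposition_of_mem_inertiaIn A s.2)

@[simp] theorem coe_inertiaAct (s : A.inertiaSubgroupIn K) (a : A) :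
    ((inertiaAct A s a : A) : L) = (s : L ≃ₐ[K] L) (a : L) := rfl

/-- **`hAss` in the generic context**: `σ z` and `z` are associated for `σ` in the inertia
group. -/
theorem associated_inertiaAct [Algebra.IsAlgebraic K L] (s : A.inertiaSubgroupIn K) (z : A) :
    Associated (inertiaAct A s z) z :=
  associated_decompAct A _ _ z

/-- `hAss` for an arbitrary ring endomorphism of `A` which is the restriction of an element of
the inertia group. -/
theorem associated_of_coe_eq [Algebra.IsAlgebraic K L] {σ : L ≃ₐ[K] L}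
    (hσ : σ ∈ A.inertiaSubgroupIn K) (φ : A →+* A) (hφ : ∀ c : A, ((φ c : A) : L) = σ (c : L))
    (z : A) : Associated (φ z) z := by
  have h := associated_decompAct A σ (mem_decomposition_of_mem_inertiaIn A hσ) z
  have h1 : φ z = decompAct A σ (mem_decomposition_of_mem_inertiaIn A hσ) z :=
    Subtype.ext (hφ z)
  rwa [h1]

end Fermat.Agent.S33x.Cech.InertiaAssoc
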