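/-
P-S33 (blueprint v2), LAYER 2, leaf (I3), CONCRETE half (helper32; ruling v6 of helper33): the
Galois operators of the abstract assembly at level `M q`, for the inertia group of `A`, on top of
helper49's GENERAL half `Cech/CycGal.lean`.

Context = the variable block of `Cech/CtxMq` (Concrete) / `Cech/CycKm` (Mq):
`C := TheoremBMq.chart H hA x hx Hx`, `g_τ := arithmeticGalois (modularFunctionFieldFull (M * q)) τ`,
index type `Γ := ↥(A.inertiaSubgroupIn ℚ)`.

* `adm_inertia`   : `g_τ` is admissible (`CycGal.Adm`) for `τ` in the inertia group;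
* `sigmaX H hA m γ : Km H hA m → Km H hA m` : the action on the TYPE `K_m`, `coe_sigmaX` (`rfl`),
  `sigmaX_zero`, `sigmaX_add`;
* `sigmaB H hA x hx Hx hDt γ : ↥(BxAlg C) →+* ↥(BxAlg C)` (`= CycGal.actBAdm`), `coe_sigmaB` (`rfl`);
* `sigmaA := InertiaAssoc.inertiaAct A` (helper's generic `hAss` file): `dvd_sigmaA`;
* the fields `sigmaB_algebraMap` (`hσ`), `sigmaB_mem_oo` (`hσoo`), `sigmaB_mem_zero` (`hσ0`),
  `sigmaB_aIn` (`hσa`), `sigmaB_mem_cycB` (`hgal`);
* `gal_package` : ALL Galois hypotheses `hσ hσoo hσ0 hσa hσdvd hgal` of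
  `InstAbs.exists_charts_abs` (helper73) for `X := Km H hA m`, `φ := (Km H hA m).subtype`,
  `σA := InertiaAssoc.inertiaAct A`, `σB := sigmaB ..`, `σX := sigmaX H hA m`;
* `iota`, `iota_surj`, `coe_sigmaA`, `coe_sigmaX` : the hypotheses `hι hσA hσX` of
  `InstConv.chartsMq_of_charts`.
-/
import Fermat.Agent.S33x.Cech.CycGal
import Fermat.Agent.S33x.Cech.InertiaAssoc
import Fermat.Agent.S33x.KummerPnGalois
import Fermat.Agent.S19x.Geo.LatticeFixed

set_option autoImplicit false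
set_option linter.unusedSectionVars false
set_option linter.style.haveILetI false

noncomputable section

namespace Fermat.Agent.S33x.Cech.CycGalMq

open ModularCurve AlgebraicCurve IsLocalRing
open Fermat.Agent.Gateway.Hecke Fermat.Agent.Gateway.ESC
open Fermat.Agent.Gateway.Red Fermat.Agent.Gateway.GoodRed
open Fermat.Agent.Gateway.GoodRed.ConjFamily
open Fermat.Agent.S34x Fermat.Agent.S34x.C0two Fermat.Agent.S34x.Lattice2
open Fermat.Agent.S34x.TwoVal
open Fermat.Agent.S34x.Inst Fermat.Agent.S34x.Inst.L2 Fermat.Agent.S34x.Inst.IsL2Inst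
open Fermat.Agent.S34x.Inst.RedSetupInst Fermat.Agent.S34x.Inst.ElementYRed
open Fermat.Agent.S34x.Inst.ElementYInt Fermat.Agent.S34x.Inst.Charts
open Fermat.Agent.S34x.Inst.TheoremBMq
open Fermat.Agent.S33x.H1.InstC4 Fermat.Agent.S33x.KummerPn
open Fermat.Agent.S33x.Cech.OfDirectSum Fermat.Agent.S33x.Cech.CycKm
open Fermat.Agent.S19x.Geo.LatticeFixed

attribute [-instance] IsScalarTower.of_algHom

variable {L : Type} [Field L] [Algebra ℚ L] [IsAlgClosed L] [Algebra.IsAlgebraic ℚ L]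
  {A : ValuationSubring L} {k : Type} [Field k] {π : A →+* k} [IsAlgClosed k]
variable {M q : ℕ} [NeZero M] [NeZero q] [Fact q.Prime] [CharP k q]
variable {hdeg : finrankAlong L (heckeAlphaBar L M q) = q + 1} {hq : q.Prime} {hqM : ¬ q ∣ M}
variable {hrk : ∀ x ∈ maximalIdeal A, ∀ c : A, c ≠ 0 → ∃ j : ℕ, c ∣ x ^ j}
  {hπ : Function.Surjective π}
variable (H : ResidueFacts A π M q hdeg hq hqM hrk hπ) (hA : A.LiesOverPrime q)

/-! ### the index type and the action on `K_m` -/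

/-- the inertia group as an index type: the underlying Galois automorphism -/
def iota (A : ValuationSubring L) (γ : A.inertiaSubgroupIn ℚ) : L ≃ₐ[ℚ] L := γ

omit [IsAlgClosed L] [Algebra.IsAlgebraic ℚ L] in
theorem iota_surj (A : ValuationSubring L) :
    ∀ τ ∈ A.inertiaSubgroupIn ℚ, ∃ γ, iota A γ = τ := fun τ hτ => ⟨⟨τ, hτ⟩, rfl⟩

/-- **the action of the inertia group on the TYPE `K_m`** -/
def sigmaX (m : ℕ) (γ : A.inertiaSubgroupIn ℚ) (y : Km H hA m) : Km H hA m :=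
  ⟨(γ : L ≃ₐ[ℚ] L) • (y : Pic0 L (FL L (M * q))),
    KummerPnGalois.smul_mem_Km_of_mem_decomposition
      (GaloisInst.mem_decomposition_of_mem_inertia A γ.2) y.2⟩

theorem coe_sigmaX (m : ℕ) (γ : A.inertiaSubgroupIn ℚ) (y : Km H hA m) :
    ((sigmaX H hA m γ y : Km H hA m) : Pic0 L (FL L (M * q))) =
      iota A γ • (y : Pic0 L (FL L (M * q))) := rfl

theorem sigmaX_zero (m : ℕ) (γ : A.inertiaSubgroupIn ℚ) : sigmaX H hA m γ 0 = 0 :=
  Subtype.ext (by rw [coe_sigmaX]; exact smul_zero _)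

theorem sigmaX_add (m : ℕ) (γ : A.inertiaSubgroupIn ℚ) (y y' : Km H hA m) :
    sigmaX H hA m γ (y + y') = sigmaX H hA m γ y + sigmaX H hA m γ y' :=
  Subtype.ext (by
    rw [AddSubgroup.coe_add, coe_sigmaX, coe_sigmaX, coe_sigmaX, AddSubgroup.coe_add]
    exact smul_add _ _ _)

/-! ### the action on `A` -/

omit [IsAlgClosed L] [Algebra.IsAlgebraic ℚ L] in
theorem coe_sigmaA (γ : A.inertiaSubgroupIn ℚ) (c : A) :
    ((InertiaAssoc.inertiaAct A γ c : A) : L) = iota A γ (c : L) := rfl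

omit [IsAlgClosed L] in
/-- **`hσdvd`** -/
theorem dvd_sigmaA (γ : A.inertiaSubgroupIn ℚ) (ε : A) : ε ∣ InertiaAssoc.inertiaAct A γ ε :=
  InertiaAssoc.dvd_decompAct A _ _ ε

/-! ### the action on the overlap ring -/

variable (x : LaurentSeries ℤ) (hx : coeffMap (Int.castRingHom L) x ∈ FBar L M)
  (Hx : GoodLevelFactsT A π M q hπ hqM (tInt M x hx))
  {Dt : Divisor L (FL L (M * q))}
  (hDt : ∀ v : Place L (FL L (M * q)), Dt v = v.ord (chart H hA x hx Hx).t)

include Hx hDt in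
/-- the inertia group is admissible at the concrete chart -/
theorem adm_inertia {τ : L ≃ₐ[ℚ] L} (hτ : τ ∈ A.inertiaSubgroupIn ℚ) :
    CycGal.Adm (redSetup2 H hA) Dt (arithmeticGalois (modularFunctionFieldFull (M * q)) τ) :=
  CycGal.adm_of_ctxGal
    (CtxMq.ctxGal_inertia H hA x hx Hx (chart H hA x hx Hx) (chart_t H hA x hx Hx)) hDt
    ⟨τ, hτ, rfl⟩

/-- **the operator `σB γ`** on the TYPE `↥(BxAlg C)`, `C = chart H hA x hx Hx` -/
def sigmaB (γ : A.inertiaSubgroupIn ℚ) :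
    BxAlg (chart H hA x hx Hx) →+* BxAlg (chart H hA x hx Hx) :=
  haveI := finiteDimensional_chart_t H hA x hx Hx
  haveI := isSeparable_chart_t H hA x hx Hx
  CycGal.actBAdm (chart H hA x hx Hx) (transcendental_chart_t H hA x hx Hx) hDt
    (adm_inertia H hA x hx Hx hDt γ.2)

theorem coe_sigmaB (γ : A.inertiaSubgroupIn ℚ) (c : BxAlg (chart H hA x hx Hx)) :
    ((sigmaB H hA x hx Hx hDt γ c : BxAlg (chart H hA x hx Hx)) : FL L (M * q)) =
      arithmeticGalois (modularFunctionFieldFull (M * q)) (iota A γ) • (c : FL L (M * q)) := rfl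

/-- **`hσ`** : semilinearity over `A` -/
theorem sigmaB_algebraMap (γ : A.inertiaSubgroupIn ℚ) (c : A) :
    sigmaB H hA x hx Hx hDt γ (algebraMap A (BxAlg (chart H hA x hx Hx)) c) =
      algebraMap A (BxAlg (chart H hA x hx Hx)) (InertiaAssoc.inertiaAct A γ c) := by
  apply Subtype.ext
  show arithmeticGalois (modularFunctionFieldFull (M * q)) (γ : L ≃ₐ[ℚ] L) •
      algebraMap L (FL L (M * q)) (c : L) =
    algebraMap L (FL L (M * q)) ((γ : L ≃ₐ[ℚ] L) (c : L))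
  exact SemilinearAut.smul_algebraMap _ _

/-- **`hσoo`** -/
theorem sigmaB_mem_oo (γ : A.inertiaSubgroupIn ℚ) {b : BxAlg (chart H hA x hx Hx)}
    (hb : b ∈ ooIn (BxAlg (chart H hA x hx Hx)) (BooAlg (chart H hA x hx Hx))) :
    sigmaB H hA x hx Hx hDt γ b ∈
      ooIn (BxAlg (chart H hA x hx Hx)) (BooAlg (chart H hA x hx Hx)) :=
  haveI := finiteDimensional_chart_t H hA x hx Hx
  haveI := isSeparable_chart_t H hA x hx Hx
  CycGal.actBAdm_mem_oo (chart H hA x hx Hx) (transcendental_chart_t H hA x hx Hx) hDt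
    (adm_inertia H hA x hx Hx hDt γ.2) hb

/-- **`hσ0`** -/
theorem sigmaB_mem_zero (γ : A.inertiaSubgroupIn ℚ) {b : BxAlg (chart H hA x hx Hx)}
    (hb : b ∈ zeroIn (BxAlg (chart H hA x hx Hx)) (BzeroAlg (chart H hA x hx Hx))) :
    sigmaB H hA x hx Hx hDt γ b ∈
      zeroIn (BxAlg (chart H hA x hx Hx)) (BzeroAlg (chart H hA x hx Hx)) :=
  haveI := finiteDimensional_chart_t H hA x hx Hx
  haveI := isSeparable_chart_t H hA x hx Hx
  CycGal.actBAdm_mem_zero (chart H hA x hx Hx) (transcendental_chart_t H hA x hx Hx) hDt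
    (adm_inertia H hA x hx Hx hDt γ.2) hb

/-- **`hσa`** : inertia-fixed `aᵢ` are fixed in the type -/
theorem sigmaB_aIn {n : ℕ} {a : Fin n → FL L (M * q)}
    (Hds : DirectSum (BxAlg (chart H hA x hx Hx)) (BooAlg (chart H hA x hx Hx))
      (BzeroAlg (chart H hA x hx Hx)) a)
    (hfix : ∀ i, IsFixed {g : SemilinearAut L (FL L (M * q)) | ∃ τ ∈ A.inertiaSubgroupIn ℚ,
      g = arithmeticGalois (modularFunctionFieldFull (M * q)) τ} (a i))
    (γ : A.inertiaSubgroupIn ℚ) (i : Fin n) :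
    sigmaB H hA x hx Hx hDt γ (aIn Hds i) = aIn Hds i :=
  Subtype.ext (hfix i _ ⟨(γ : L ≃ₐ[ℚ] L), γ.2, rfl⟩)

/-- **`hgal`** (`cyc_gal`) at `X = K_m` -/
theorem sigmaB_mem_cycB (m : ℕ) (γ : A.inertiaSubgroupIn ℚ) (y : Km H hA m)
    {c : BxAlg (chart H hA x hx Hx)}
    (hc : c ∈ CycB (chart H hA x hx Hx) Dt m (y : Pic0 L (FL L (M * q)))) :
    sigmaB H hA x hx Hx hDt γ c ∈ CycB (chart H hA x hx Hx) Dt m
      ((sigmaX H hA m γ y : Km H hA m) : Pic0 L (FL L (M * q))) :=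
  haveI := finiteDimensional_chart_t H hA x hx Hx
  haveI := isSeparable_chart_t H hA x hx Hx
  CycGal.cycB_gal (chart H hA x hx Hx) (transcendental_chart_t H hA x hx Hx) hDt
    (adm_inertia H hA x hx Hx hDt γ.2) hc

/-- **`hgal`** for an arbitrary class (not only in `K_m`) -/
theorem sigmaB_mem_cycB' (m : ℕ) (γ : A.inertiaSubgroupIn ℚ) {ξ : Pic0 L (FL L (M * q))}
    {c : BxAlg (chart H hA x hx Hx)} (hc : c ∈ CycB (chart H hA x hx Hx) Dt m ξ) :
    sigmaB H hA x hx Hx hDt γ c ∈ CycB (chart H hA x hx Hx) Dt m (iota A γ • ξ) :=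
  haveI := finiteDimensional_chart_t H hA x hx Hx
  haveI := isSeparable_chart_t H hA x hx Hx
  CycGal.cycB_gal (chart H hA x hx Hx) (transcendental_chart_t H hA x hx Hx) hDt
    (adm_inertia H hA x hx Hx hDt γ.2) hc

/-- **The Galois package**: the hypotheses `hσ hσoo hσ0 hσa hσdvd hgal` of
`InstAbs.exists_charts_abs` for `X := Km H hA m`, `φ := (Km H hA m).subtype`,
`σA := InertiaAssoc.inertiaAct A`, `σB := sigmaB H hA x hx Hx hDt`, `σX := sigmaX H hA m`. -/
theorem gal_package (m : ℕ) {n : ℕ} {a : Fin n → FL L (M * q)}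
    (Hds : DirectSum (BxAlg (chart H hA x hx Hx)) (BooAlg (chart H hA x hx Hx))
      (BzeroAlg (chart H hA x hx Hx)) a)
    (hfix : ∀ i, IsFixed {g : SemilinearAut L (FL L (M * q)) | ∃ τ ∈ A.inertiaSubgroupIn ℚ,
      g = arithmeticGalois (modularFunctionFieldFull (M * q)) τ} (a i)) :
    (∀ γ (c : A), sigmaB H hA x hx Hx hDt γ (algebraMap A (BxAlg (chart H hA x hx Hx)) c) =
      algebraMap A (BxAlg (chart H hA x hx Hx)) (InertiaAssoc.inertiaAct A γ c)) ∧
    (∀ γ, ∀ b ∈ ooIn (BxAlg (chart H hA x hx Hx)) (BooAlg (chart H hA x hx Hx)),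
      sigmaB H hA x hx Hx hDt γ b ∈
        ooIn (BxAlg (chart H hA x hx Hx)) (BooAlg (chart H hA x hx Hx))) ∧
    (∀ γ, ∀ b ∈ zeroIn (BxAlg (chart H hA x hx Hx)) (BzeroAlg (chart H hA x hx Hx)),
      sigmaB H hA x hx Hx hDt γ b ∈
        zeroIn (BxAlg (chart H hA x hx Hx)) (BzeroAlg (chart H hA x hx Hx))) ∧
    (∀ γ i, sigmaB H hA x hx Hx hDt γ (aIn Hds i) = aIn Hds i) ∧
    (∀ (γ : A.inertiaSubgroupIn ℚ) (ε : A), ε ∣ InertiaAssoc.inertiaAct A γ ε) ∧
    (∀ γ (y : Km H hA m), ∀ c ∈ CycB (chart H hA x hx Hx) Dt m ((Km H hA m).subtype y),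
      sigmaB H hA x hx Hx hDt γ c ∈
        CycB (chart H hA x hx Hx) Dt m ((Km H hA m).subtype (sigmaX H hA m γ y))) :=
  ⟨sigmaB_algebraMap H hA x hx Hx hDt, fun γ _ hb => sigmaB_mem_oo H hA x hx Hx hDt γ hb,
    fun γ _ hb => sigmaB_mem_zero H hA x hx Hx hDt γ hb, sigmaB_aIn H hA x hx Hx hDt Hds hfix,
    dvd_sigmaA, fun γ y _ hc => sigmaB_mem_cycB H hA x hx Hx hDt m γ y hc⟩

end Fermat.Agent.S33x.Cech.CycGalMq
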