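import Fermat.Agent.S33x.H1.InstC1

/-!
# P-S33 (L2-B4, geometric inputs): the `D`-twisted two-chart lattice system

Vocabulary of `S34x/Lattice2` and `S33x/H1/InstC1`: `R : RedSetup2 A S k κ`, `C : ChartCoord R`,
`Dt = div C.t`, `T = TwoCharts.ofDivisor Dt`.  For a divisor `D` put

  `LamD D a b := TheoremB.latM R Dt D a b = R.lat (T.LM D a b) = L(D + a C₀ + b C∞) ∩ S.O`.

For a NORMALISED pair `(w, D)` (`w ∈ S.O`, `res w = 1`, `m D = div w`, `m > 0`; no invertibility of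
`m` in `A` is used) we prove, in the shape consumed by `H1Fg` and by the injectivity leaf
(L2-B4) of the S33 blueprint:

* `LamD_twist` : `x ∈ LamD D a c ↔ t ^ a * x ∈ LamD D 0 (a + c)`;
* `Lam_mul_LamD` : `Lam(a,b) * LamD(a',b') ≤ LamD(a+a',b+b')`;
* `exists_S1_twist` : graded Nakayama (S1) for the twisted system;
* `exists_le_sup_three_twist` : the truncated Cech `H¹` of the twisted system stabilises;
* `exists_ne_zero_smul_mem_twist` : ONE `c ≠ 0` kills every torsion class of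
  `BxD / (B∞D + B₀D)`  (hypothesis (ii) of Inject);
* `mem_LamD_zero_of_mem` : `LamD D a 0 ∩ LamD D 0 b ≤ LamD D 0 0 = L(D) ∩ S.O`;
* `eq_zero_of_mem_rrs` : `L(D) = 0` if `deg D = 0` and `D` is not principal, hence
  `inf_eq_bot` : `B∞D ∩ B₀D = 0`  (hypothesis (i) of Inject).
-/

set_option autoImplicit false
set_option linter.unusedSectionVars false
set_option linter.style.haveILetI false

noncomputable section

namespace Fermat.Agent.S33x.Cech.TwistH1

open AlgebraicCurve Module IntermediateField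
open Fermat.Agent.Gateway.C0 Fermat.Agent.S34x Fermat.Agent.S34x.C0two Fermat.Agent.S34x.Lattice2
open Fermat.Agent.S33x.H1.InstC1 Fermat.Agent.Lib.RiemannRoch

section formal

variable {K : Type*} [Field K] {A : ValuationSubring K} {F : Type*} [Field F] [Algebra K F]
  {S : SmallRing F} {k κ : Type*} [Field k] [CommRing κ] [Algebra k κ]
  (R : RedSetup2 A S k κ) (Dt D : Divisor K F)

/-- `LamD(a,b) = L(D + a C₀ + b C∞) ∩ S.O`. -/
def LamD (a b : ℕ) : Submodule A F := TheoremB.latM R Dt D a b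

theorem mem_LamD {a b : ℕ} {x : F} :
    x ∈ LamD R Dt D a b ↔ x ∈ (TwoCharts.ofDivisor Dt).LM D a b ∧ x ∈ S.O := Iff.rfl

theorem LamD_mono {a b a' b' : ℕ} (ha : a ≤ a') (hb : b ≤ b') :
    LamD R Dt D a b ≤ LamD R Dt D a' b' :=
  TheoremB.latM_mono R D ha hb

/-- `LamD(a,0) ∩ LamD(0,b) ≤ LamD(0,0)`. -/
theorem mem_LamD_zero_of_mem {a b : ℕ} {x : F} (hx : x ∈ LamD R Dt D a 0)
    (hx' : x ∈ LamD R Dt D 0 b) : x ∈ LamD R Dt D 0 0 := by
  have h := (TwoCharts.ofDivisor Dt).LM_inf D hx.1 hx'.1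
  rw [Nat.min_zero, Nat.zero_min] at h
  exact ⟨h, hx.2⟩

/-- `LamD(0,0) = L(D) ∩ S.O`. -/
theorem mem_LamD_zero_iff {x : F} :
    x ∈ LamD R Dt D 0 0 ↔ x ∈ riemannRochSpace D ∧ x ∈ S.O := by
  rw [mem_LamD, TwoCharts.LM, TwoCharts.dv_zero, add_zero]

end formal

section chart

variable {K : Type*} [Field K] {A : ValuationSubring K} {F : Type*} [Field F] [Algebra K F]
  {S : SmallRing F} {k κ : Type*} [Field k] [CommRing κ] [Algebra k κ]
  {R : RedSetup2 A S k κ} (C : ChartCoord R)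
  {Dt : Divisor K F} (hDt : ∀ v : Place K F, Dt v = v.ord C.t) (D : Divisor K F)

include hDt in
/-- `LamD(a,c) = t⁻ᵃ LamD(0,a+c)`. -/
theorem LamD_twist (a c : ℕ) (x : F) :
    x ∈ LamD R Dt D a c ↔ C.t ^ a * x ∈ LamD R Dt D 0 (a + c) :=
  TheoremB.latM_twist R C.t_ne hDt C.t_mem C.tinv_mem D a c x

include hDt in
theorem t_mul_mem_LamD {b : ℕ} {x : F} (hx : x ∈ LamD R Dt D 0 b) :
    C.t * x ∈ LamD R Dt D 0 (b + 1) :=
  TheoremB.mul_mem_latM_succ R hDt C.t_mem D b x hx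

end chart

section main

variable {K : Type*} [Field K] [IsAlgClosed K] [CharZero K] {A : ValuationSubring K}
  {F : Type*} [Field F] [Algebra K F] {S : SmallRing F}
  {k κ : Type*} [Field k] [CommRing κ] [Algebra k κ]
  {R : RedSetup2 A S k κ} (C : ChartCoord R)
  (ht : Transcendental K C.t) [FiniteDimensional K⟮C.t⟯ F]
  {Dt : Divisor K F} (hDt : ∀ v : Place K F, Dt v = v.ord C.t)
  (hcart : ∀ V : Submodule K F, FiniteDimensional K V → (R.lat V).FG)
  [hPfin : ∀ b, FiniteDimensional k (C.Pk 0 b)] {b₀ : ℕ}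
  (hgen : ∀ b, b₀ ≤ b → ∀ x ∈ C.Pk 0 (b + 1), ∃ y ∈ C.Pk 0 b, ∃ z ∈ C.Pk 0 b, x = y + C.T * z)

include ht hDt in
/-- The untwisted lattices act on the twisted ones:
`Lam(a,b) * LamD(a',b') ≤ LamD(a+a',b+b')`. -/
theorem Lam_mul_LamD (D : Divisor K F) {a b a' b' : ℕ} {x y : F} (hx : x ∈ Lam C a b)
    (hy : y ∈ LamD R Dt D a' b') : x * y ∈ LamD R Dt D (a + a') (b + b') := by
  haveI := isSeparable_adjoin_of_charZero (K := K) C.t
  have hx1 : x ∈ (TwoCharts.ofDivisor Dt).LN a b := by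
    rw [LN_eq C ht hDt]
    exact hx.1
  exact ⟨(TwoCharts.ofDivisor Dt).LN_mul_LM D hx1 hy.1, S.O.mul_mem hx.2 hy.2⟩

include ht hcart in
/-- all the twisted lattices are finitely generated -/
theorem fg_LamD (D : Divisor K F) (a b : ℕ) : (LamD R Dt D a b).FG :=
  hcart _ ((TwoCharts.ofDivisor Dt).LM_finite ht D a b)

variable {m : ℕ} (hm : 0 < m) {w : F} (hw0 : w ≠ 0) (hwO : w ∈ S.O)
  (hw1 : R.res ⟨w, hwO⟩ = 1) {D : Divisor K F}
  (hD : ∀ v : Place K F, (m : ℤ) * D v = v.ord w)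

include ht hDt hcart hgen hm hw0 hw1 hD in
/-- **Graded Nakayama (S1) for the `D`-twisted system**: `LamD(0,b+1) = LamD(0,b) + t LamD(0,b)`
for `b ≥ b₁`.  (`m D = div w`, `res w = 1`; no invertibility of `m`.) -/
theorem exists_S1_twist : ∃ b₁, ∀ b, b₁ ≤ b → ∀ x ∈ LamD R Dt D 0 (b + 1),
    ∃ y ∈ LamD R Dt D 0 b, ∃ z ∈ LamD R Dt D 0 b, x = y + C.t * z := by
  haveI := isSeparable_adjoin_of_charZero (K := K) C.t
  have hSC : ∀ (b : ℕ) (f : F) (hf : f ∈ S.O), f ∈ (TwoCharts.ofDivisor Dt).LN 0 b →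
      R.res ⟨f, hf⟩ ∈ C.Pk 0 b := by
    intro b f hf hfL
    rw [LN_eq C ht hDt] at hfL
    exact C.SC 0 b f hf hfL
  have hrad : ∀ (b : ℕ) (x : κ), x ^ m ∈ C.Pk 0 (m * b) → x ∈ C.Pk 0 b := by
    intro b x hx
    refine twoPole_radical hm 0 b x ?_
    rw [Nat.mul_zero]
    exact hx
  exact TheoremB.exists_latM_succ R C.t_ne hDt C.t_mem (C.Pk 0) hSC hrad hw0 hwO hw1 hD hgen
    (fun b => fg_LamD C ht hcart D 0 b)

include ht hDt hcart hgen hm hw0 hw1 hD in
/-- **The truncated Cech `H¹` of the twisted system stabilises.** -/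
theorem exists_le_sup_three_twist :
    ∃ b₁, ∀ a c : ℕ,
      LamD R Dt D a c ≤ LamD R Dt D b₁ b₁ ⊔ LamD R Dt D 0 c ⊔ LamD R Dt D a 0 := by
  obtain ⟨b₁, hb₁⟩ := exists_S1_twist C ht hDt hcart hgen hm hw0 hwO hw1 hD
  refine ⟨b₁, fun a c => ?_⟩
  exact H1Fg.le_sup_three (M := LamD R Dt D) (t := C.t) (s := C.t⁻¹) (b₁ := b₁) C.t_mul_tinv
    (LamD_twist C hDt D) (fun b b' h => LamD_mono R Dt D le_rfl h)
    (fun b x hx => t_mul_mem_LamD C hDt D hx) hb₁ a c

/-- the twisted chart module `B∞D = ⋃_b LamD(0,b)` -/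
abbrev BooD (R : RedSetup2 A S k κ) (Dt D : Divisor K F) : Submodule A F :=
  H1Fg.chartU (LamD R Dt D)

/-- the twisted chart module `B₀D = ⋃_a LamD(a,0)` -/
abbrev BzeroD (R : RedSetup2 A S k κ) (Dt D : Divisor K F) : Submodule A F :=
  H1Fg.chartU' (LamD R Dt D)

/-- the twisted overlap module `BxD = ⋃_{a,b} LamD(a,b)` -/
abbrev BxD (R : RedSetup2 A S k κ) (Dt D : Divisor K F) : Submodule A F :=
  H1Fg.chartX (LamD R Dt D)

include ht hDt hcart hgen hm hw0 hw1 hD in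
/-- **Bounded torsion of the twisted Cech `H¹`**: ONE `c ≠ 0` kills every torsion class of
`BxD / (B∞D + B₀D)`. -/
theorem exists_ne_zero_smul_mem_twist :
    ∃ c : A, c ≠ 0 ∧ ∀ γ ∈ BxD R Dt D,
      (∃ d : A, d ≠ 0 ∧ d • γ ∈ BooD R Dt D ⊔ BzeroD R Dt D) →
        c • γ ∈ BooD R Dt D ⊔ BzeroD R Dt D := by
  obtain ⟨b₁, hb₁⟩ := exists_S1_twist C ht hDt hcart hgen hm hw0 hwO hw1 hD
  exact H1Fg.exists_ne_zero_smul_mem (M := LamD R Dt D) (t := C.t) (s := C.t⁻¹) (b₁ := b₁)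
    C.t_mul_tinv (LamD_twist C hDt D) (fun b b' h => LamD_mono R Dt D le_rfl h)
    (fun b x hx => t_mul_mem_LamD C hDt D hx) hb₁ (fg_LamD C ht hcart D b₁ b₁)

end main

/-! ### Membership in the three twisted chart modules -/

section unions

variable {K : Type*} [Field K] {A : ValuationSubring K} {F : Type*} [Field F] [Algebra K F]
  {S : SmallRing F} {k κ : Type*} [Field k] [CommRing κ] [Algebra k κ]
  (R : RedSetup2 A S k κ) (Dt D : Divisor K F)

theorem mem_BooD_iff {x : F} : x ∈ BooD R Dt D ↔ ∃ b, x ∈ LamD R Dt D 0 b := by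
  unfold BooD H1Fg.chartU
  rw [Submodule.mem_iSup_of_directed]
  exact Monotone.directed_le fun b b' h => LamD_mono R Dt D le_rfl h

theorem mem_BzeroD_iff {x : F} : x ∈ BzeroD R Dt D ↔ ∃ a, x ∈ LamD R Dt D a 0 := by
  unfold BzeroD H1Fg.chartU'
  rw [Submodule.mem_iSup_of_directed]
  exact Monotone.directed_le fun a a' h => LamD_mono R Dt D h le_rfl

theorem mem_BxD_iff {x : F} : x ∈ BxD R Dt D ↔ ∃ a b, x ∈ LamD R Dt D a b := by
  constructor
  · intro hx
    have hle : BxD R Dt D ≤ ⨆ n : ℕ, LamD R Dt D n n := by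
      refine iSup_le fun a => iSup_le fun c => ?_
      exact (LamD_mono R Dt D (le_max_left a c) (le_max_right a c)).trans
        (le_iSup (fun n => LamD R Dt D n n) (max a c))
    have h2 := hle hx
    rw [Submodule.mem_iSup_of_directed] at h2
    · obtain ⟨n, hn⟩ := h2
      exact ⟨n, n, hn⟩
    · exact Monotone.directed_le fun n n' h => LamD_mono R Dt D h h
  · rintro ⟨a, b, hx⟩
    exact H1Fg.le_chartX (M := LamD R Dt D) a b hx

/-- `B∞D ∩ B₀D = L(D) ∩ S.O`. -/
theorem mem_rrs_of_mem_BooD_of_mem_BzeroD {x : F} (hx : x ∈ BooD R Dt D)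
    (hx' : x ∈ BzeroD R Dt D) : x ∈ riemannRochSpace D ∧ x ∈ S.O := by
  obtain ⟨b, hb⟩ := (mem_BooD_iff R Dt D).mp hx
  obtain ⟨a, ha⟩ := (mem_BzeroD_iff R Dt D).mp hx'
  exact (mem_LamD_zero_iff R Dt D).mp (mem_LamD_zero_of_mem R Dt D ha hb)

end unions

/-! ### `L(D) = 0` for a non-principal divisor of degree `0` -/

section rrs

variable {K : Type*} [Field K] [IsAlgClosed K] [CharZero K] {F : Type*} [Field F] [Algebra K F]
  {x : F} (hx : Transcendental K x) [FiniteDimensional K⟮x⟯ F]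

include hx in
/-- A divisor of degree `0` with a nonzero element in `L(D)` is principal (`D = div h⁻¹`). -/
theorem isPrincipal_of_mem_rrs {D : Divisor K F} (hdeg : Divisor.degree D = 0) {h : F}
    (hh : h ∈ riemannRochSpace D) (hh0 : h ≠ 0) : Divisor.IsPrincipal D := by
  classical
  haveI := hasPrincipalDivisors_cz hx
  haveI : ∀ v : Place K F, v.FiniteResidue := finiteResidue_cz hx
  haveI := nonempty_place_cz hx
  have hge : ∀ v : Place K F, 0 ≤ (divOf (K := K) h + D) v := by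
    intro v
    rw [Finsupp.add_apply, divOf_apply hh0]
    have := (mem_riemannRochSpace_iff.mp hh v).resolve_left hh0
    linarith
  have hdegE : Divisor.degree (divOf (K := K) h + D) = 0 := by
    rw [map_add, degree_divOf, hdeg, add_zero]
  have hE0 : ∀ v : Place K F, (divOf (K := K) h + D) v = 0 := by
    intro v
    by_contra hne
    have hpos : 0 < (divOf (K := K) h + D) v := lt_of_le_of_ne (hge v) (Ne.symm hne)
    have hsum := degree_eq_sum (divOf (K := K) h + D)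
    rw [hdegE, Finsupp.sum] at hsum
    have hmem : v ∈ (divOf (K := K) h + D).support := Finsupp.mem_support_iff.mpr hne
    have hterm : 0 < (divOf (K := K) h + D) v * (v.deg : ℤ) :=
      mul_pos hpos (by exact_mod_cast deg_pos v)
    have hnn : ∀ w ∈ (divOf (K := K) h + D).support,
        0 ≤ (divOf (K := K) h + D) w * (w.deg : ℤ) :=
      fun w _ => mul_nonneg (hge w) (Int.natCast_nonneg _)
    have := Finset.single_le_sum hnn hmem
    linarith
  refine ⟨h⁻¹, inv_ne_zero hh0, fun v => ?_⟩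
  have := hE0 v
  rw [Finsupp.add_apply, divOf_apply hh0] at this
  rw [v.ord_inv]
  linarith

include hx in
/-- `L(D) = 0` if `deg D = 0` and `D` is not principal. -/
theorem eq_zero_of_mem_rrs {D : Divisor K F} (hdeg : Divisor.degree D = 0)
    (hnp : ¬ Divisor.IsPrincipal D) {h : F} (hh : h ∈ riemannRochSpace D) : h = 0 := by
  by_contra hh0
  exact hnp (isPrincipal_of_mem_rrs hx hdeg hh hh0)

end rrs

section inf

variable {K : Type*} [Field K] [IsAlgClosed K] [CharZero K] {A : ValuationSubring K}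
  {F : Type*} [Field F] [Algebra K F] {S : SmallRing F}
  {k κ : Type*} [Field k] [CommRing κ] [Algebra k κ]
  (R : RedSetup2 A S k κ) {x : F} (hx : Transcendental K x) [FiniteDimensional K⟮x⟯ F]
  (Dt : Divisor K F)

include hx in
/-- **Hypothesis (i) of Inject**: `B∞D ∩ B₀D = 0` for a non-principal divisor `D` of degree `0`. -/
theorem inf_eq_bot {D : Divisor K F} (hdeg : Divisor.degree D = 0)
    (hnp : ¬ Divisor.IsPrincipal D) : BooD R Dt D ⊓ BzeroD R Dt D = ⊥ := by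
  rw [eq_bot_iff]
  rintro y ⟨hy, hy'⟩
  rw [Submodule.mem_bot]
  exact eq_zero_of_mem_rrs hx hdeg hnp (mem_rrs_of_mem_BooD_of_mem_BzeroD R Dt D hy hy').1

end inf

/-! ### An element reducing to `1` is not divisible by a small constant -/

section notSmall

variable {K : Type*} [Field K] {A : ValuationSubring K} {F : Type*} [Field F] [Algebra K F]
  {S : SmallRing F} {k κ : Type*} [Field k] [CommRing κ] [Algebra k κ] [Nontrivial κ]
  (R : RedSetup2 A S k κ)

/-- **Hypothesis (iii) of Inject**: an element of `S.O` reducing to `1` is not `ε • y` with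
`ε ∈ 𝔪_A`, `y ∈ S.O`. -/
theorem not_eq_smul_of_res_one {h y : F} (hh : h ∈ S.O) (hh1 : R.res ⟨h, hh⟩ = 1) {ε : A}
    (hε : ε ∈ IsLocalRing.maximalIdeal A) (hy : y ∈ S.O) (he : h = ε • y) : False := by
  have h1 : R.res ⟨h, hh⟩ = R.res ⟨ε • y, R.smul_mem_O ε hy⟩ := res_congr R he hh _
  rw [hh1, R.res_smul ε hy, (R.π_eq_zero_iff ε).mpr hε, zero_smul] at h1
  exact one_ne_zero h1

end notSmall

end Fermat.Agent.S33x.Cech.TwistH1
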