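import Fermat.Agent.S33x.Cech.InjectSep
import Fermat.Agent.S33x.Cech.TwistH1
import Fermat.Agent.S33x.Cech.Datum
import Fermat.Agent.S33x.H1.InstC4

/-!
# P-S33 Layer 2 (L2-I4, helper61): `cyc_sep` for the cocycle of a Cech datum

GEOMETRIC INSTANCE of `Cech/InjectSep.exists_sep_typed`.  Vocabulary of `S34x/Lattice2`,
`S33x/H1/InstC1`, `InstC4` (`BxAlg`, `BooAlg`, `BzeroAlg : Subalgebra A F`), `Cech/Datum`
(`CechDatum R Dt D`) and `Cech/TwistH1` (`BxD`, `BooD`, `BzeroD`).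

For a normalised pair `(w, D)` (`m D = div w`, `res w = 1`, `m > 0`), `deg D = 0`, `D` NOT
principal, and ANY Cech datum `d` of `D`: there is `δ ≠ 0` in `A` such that the cocycle
`d.cocycle = d.hoo * d.h0'` is not a near-one coboundary modulo `δ` (cross-multiplied form):

  `¬ ∃ voo woo ∈ B∞, v0 w0 ∈ B₀ near one, δ ∣ cocycle * voo * v0 - woo * w0`  in `↥Bx`,

i.e. `¬ CoordB.CobEq (ooIn Bx B∞) (zeroIn Bx B₀) δ cocycle 1`.  This is the hypothesis `cyc_sep`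
(ruling B5 v4) / `hinj` at ONE cocycle.
-/

set_option autoImplicit false
set_option linter.unusedSectionVars false
set_option linter.style.haveILetI false

noncomputable section

namespace Fermat.Agent.S33x.Cech.SepDatum

open AlgebraicCurve Module IntermediateField IsLocalRing
open Fermat.Agent.Gateway.C0 Fermat.Agent.S34x Fermat.Agent.S34x.C0two Fermat.Agent.S34x.Lattice2
open Fermat.Agent.S33x.H1.InstC1 Fermat.Agent.S33x.H1.InstC4 Fermat.Agent.Lib.RiemannRoch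
open Fermat.Agent.S33x.Cech Fermat.Agent.S33x.Cech.OfDirectSum

/-! ### abstract: the `CobEq` restatement -/

section cobEq

variable {A : Type*} [CommRing A] [IsDomain A] [ValuationRing A]
variable {B : Type*} [CommRing B] [Algebra A B]

/-- `CobEq δ c 1` unfolded -/
theorem cobEq_one_iff (Boo B0 : Subalgebra A B) (δ : A) (c : B) :
    CoordB.CobEq Boo B0 δ c 1 ↔
      ∃ (voo woo : Boo) (v0 w0 : B0), CoordB.NearOne Boo voo ∧ CoordB.NearOne Boo woo ∧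
        CoordB.NearOne B0 v0 ∧ CoordB.NearOne B0 w0 ∧
        algebraMap A B δ ∣ c * voo * v0 - woo * w0 := by
  unfold CoordB.CobEq
  simp only [one_mul]

end cobEq

/-! ### the instance -/

section main

variable {K : Type*} [Field K] [IsAlgClosed K] [CharZero K] {A : ValuationSubring K}
  {F : Type*} [Field F] [Algebra K F] {S : SmallRing F}
  {k κ : Type*} [Field k] [CommRing κ] [Algebra k κ] [Nontrivial κ]
  {R : RedSetup2 A S k κ} (C : ChartCoord R)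
  (ht : Transcendental K C.t) [FiniteDimensional K⟮C.t⟯ F]
  {Dt : Divisor K F} (hDt : ∀ v : Place K F, Dt v = v.ord C.t)
  (hcart : ∀ V : Submodule K F, FiniteDimensional K V → (R.lat V).FG)
  [hPfin : ∀ b, FiniteDimensional k (C.Pk 0 b)] {b₀ : ℕ}
  (hgen : ∀ b, b₀ ≤ b → ∀ x ∈ C.Pk 0 (b + 1), ∃ y ∈ C.Pk 0 b, ∃ z ∈ C.Pk 0 b, x = y + C.T * z)
  {m : ℕ} (hm : 0 < m) {w : F} (hw0 : w ≠ 0) (hwO : w ∈ S.O)
  (hw1 : R.res ⟨w, hwO⟩ = 1) {D : Divisor K F}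
  (hD : ∀ v : Place K F, (m : ℤ) * D v = v.ord w)

include ht hDt in
/-- the cocycle of a datum, as an element of the overlap ring -/
theorem cocycle_mem_BxAlg {D : Divisor K F} (d : Datum.CechDatum R Dt D) :
    d.cocycle ∈ BxAlg C := by
  haveI := isSeparable_adjoin_of_charZero (K := K) C.t
  have h := Datum.cocycle_mem_Bx C ht hDt d
  rw [← toSubmodule_BxAlg] at h
  exact h

include ht hDt in
/-- the module structures: `B∞ · B∞D ⊆ B∞D`, `B₀ · B₀D ⊆ B₀D`, `Bx · BxD ⊆ BxD` -/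
theorem mul_mem_BooD (D : Divisor K F) {x b : F} (hx : x ∈ TwistH1.BooD R Dt D)
    (hb : b ∈ BooAlg C) : x * b ∈ TwistH1.BooD R Dt D := by
  obtain ⟨n, hn⟩ := (TwistH1.mem_BooD_iff R Dt D).mp hx
  obtain ⟨n', hn'⟩ := (mem_BooAlg C).mp hb
  have h := TwistH1.Lam_mul_LamD C ht hDt D hn' hn
  rw [mul_comm]
  exact (TwistH1.mem_BooD_iff R Dt D).mpr ⟨n' + n, by simpa using h⟩

include ht hDt in
theorem mul_mem_BzeroD (D : Divisor K F) {x b : F} (hx : x ∈ TwistH1.BzeroD R Dt D)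
    (hb : b ∈ BzeroAlg C) : x * b ∈ TwistH1.BzeroD R Dt D := by
  obtain ⟨n, hn⟩ := (TwistH1.mem_BzeroD_iff R Dt D).mp hx
  obtain ⟨n', hn'⟩ := (mem_BzeroAlg C).mp hb
  have h := TwistH1.Lam_mul_LamD C ht hDt D hn' hn
  rw [mul_comm]
  exact (TwistH1.mem_BzeroD_iff R Dt D).mpr ⟨n' + n, by simpa using h⟩

include ht hDt in
theorem mul_mem_BxD (D : Divisor K F) {x b : F} (hx : x ∈ TwistH1.BxD R Dt D)
    (hb : b ∈ BxAlg C) : x * b ∈ TwistH1.BxD R Dt D := by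
  obtain ⟨n, n₂, hn⟩ := (TwistH1.mem_BxD_iff R Dt D).mp hx
  obtain ⟨n', n₂', hn'⟩ := (mem_BxAlg' C).mp hb
  have h := TwistH1.Lam_mul_LamD C ht hDt D hn' hn
  rw [mul_comm]
  exact (TwistH1.mem_BxD_iff R Dt D).mpr ⟨n' + n, n₂' + n₂, h⟩

/-- an element of `𝔪 P`, `P ⊆ S.O`, has zero reduction: elements reducing to `1` are not in
`𝔪 P` -/
theorem not_mem_smul_of_resOne {P : Submodule A F} (hP : ∀ x ∈ P, x ∈ S.O) {x : F}
    (hx : Datum.ResOne R x) : x ∉ maximalIdeal A • P := by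
  intro hmem
  have hsm : Small S x := Inject.small_of_mem_smul R.base hP hmem
  have h0 := (R.small_iff hx.mem).mp hsm
  rw [hx.res_eq] at h0
  exact one_ne_zero h0

include ht hDt hcart hgen hm hw0 hw1 hD in
/-- **`cyc_sep` at one Cech datum.** -/
theorem exists_sep_datum
    (hrank : ∀ x ∈ maximalIdeal A, ∀ c : A, c ≠ 0 → ∃ j : ℕ, c ∣ x ^ j)
    (hne : ∃ ε ∈ maximalIdeal A, ε ≠ 0)
    (hdeg : Divisor.degree D = 0) (hnp : ¬ Divisor.IsPrincipal D)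
    (d : Datum.CechDatum R Dt D) {c : BxAlg C} (hc : (c : F) = d.cocycle) :
    ∃ δ : A, δ ≠ 0 ∧
      ¬ ∃ (voo woo : ooIn (BxAlg C) (BooAlg C)) (v0 w0 : zeroIn (BxAlg C) (BzeroAlg C)),
        CoordB.NearOne (ooIn (BxAlg C) (BooAlg C)) voo ∧
        CoordB.NearOne (ooIn (BxAlg C) (BooAlg C)) woo ∧
        CoordB.NearOne (zeroIn (BxAlg C) (BzeroAlg C)) v0 ∧
        CoordB.NearOne (zeroIn (BxAlg C) (BzeroAlg C)) w0 ∧
        algebraMap A (BxAlg C) δ ∣ c * voo * v0 - woo * w0 := by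
  haveI := isSeparable_adjoin_of_charZero (K := K) C.t
  -- the three twisted modules
  have hMoo : TwistH1.BooD R Dt D ≤ TwistH1.BxD R Dt D := by
    intro x hx
    obtain ⟨n, hn⟩ := (TwistH1.mem_BooD_iff R Dt D).mp hx
    exact (TwistH1.mem_BxD_iff R Dt D).mpr ⟨0, n, hn⟩
  have hM0 : TwistH1.BzeroD R Dt D ≤ TwistH1.BxD R Dt D := by
    intro x hx
    obtain ⟨n, hn⟩ := (TwistH1.mem_BzeroD_iff R Dt D).mp hx
    exact (TwistH1.mem_BxD_iff R Dt D).mpr ⟨n, 0, hn⟩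
  have hinf : ∀ x, x ∈ TwistH1.BooD R Dt D → x ∈ TwistH1.BzeroD R Dt D → x = 0 := by
    intro x hx hx'
    have h := TwistH1.inf_eq_bot R ht Dt hdeg hnp
    have hx2 : x ∈ TwistH1.BooD R Dt D ⊓ TwistH1.BzeroD R Dt D := ⟨hx, hx'⟩
    rw [h] at hx2
    exact (Submodule.mem_bot A).mp hx2
  have htors := TwistH1.exists_ne_zero_smul_mem_twist C ht hDt hcart hgen hm hw0 hwO hw1 hD
  -- the datum
  obtain ⟨nb, hnb⟩ := d.hoo_mem
  have hhoo : d.hoo ∈ TwistH1.BooD R Dt D := (TwistH1.mem_BooD_iff R Dt D).mpr ⟨nb, hnb⟩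
  obtain ⟨na, hna⟩ := d.h0_mem
  have hh0 : d.h0 ∈ TwistH1.BzeroD R Dt D := (TwistH1.mem_BzeroD_iff R Dt D).mpr ⟨na, hna⟩
  have hBooO : ∀ x ∈ TwistH1.BooD R Dt D, x ∈ S.O := by
    intro x hx
    obtain ⟨n, hn⟩ := (TwistH1.mem_BooD_iff R Dt D).mp hx
    exact hn.2
  have hns : d.hoo ∉ maximalIdeal A • TwistH1.BooD R Dt D :=
    not_mem_smul_of_resOne hBooO d.res_hoo
  -- `h0 * h0' = 1 + ϖ₀ γ`
  obtain ⟨a, ha⟩ := d.h0_mul_h0'_mem
  rw [Datum.LamD_zero_eq C ht hDt] at ha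
  have h1 : (1 : F) ∈ Lam C a 0 := Lam_mono C (Nat.zero_le a) le_rfl (one_mem_Lam C)
  have hres : R.res ⟨d.h0 * d.h0', ha.2⟩ = R.res ⟨(1 : F), h1.2⟩ := by
    rw [d.h0_mul_h0'_resOne.res_eq]
    exact (map_one R.res).symm
  obtain ⟨ϖ₀, hϖ₀, γ, hγ, hγe⟩ := Fermat.Agent.S33x.H1.InstC2.exists_smul_of_res_eq C ha h1 hres
  have hγB : γ ∈ BzeroAlg C := (mem_BzeroAlg C).mpr ⟨a, hγ⟩
  have hu : d.h0 * d.h0' = 1 + ϖ₀ • γ := by rw [← hγe]; ring
  exact InjectSep.exists_sep_typed hrank hne (BooAlg_le C) (BzeroAlg_le C) hMoo hM0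
    (fun x hx b hb => mul_mem_BooD C ht hDt D hx hb)
    (fun x hx b hb => mul_mem_BzeroD C ht hDt D hx hb)
    (fun x hx b hb => mul_mem_BxD C ht hDt D hx hb)
    hinf htors hhoo hns hh0 hϖ₀ hγB hu hc

include ht hDt hcart hgen hm hw0 hw1 hD in
/-- **`cyc_sep` at one Cech datum, `CobEq` form.** -/
theorem exists_not_cobEq_one
    (hrank : ∀ x ∈ maximalIdeal A, ∀ c : A, c ≠ 0 → ∃ j : ℕ, c ∣ x ^ j)
    (hne : ∃ ε ∈ maximalIdeal A, ε ≠ 0)
    (hdeg : Divisor.degree D = 0) (hnp : ¬ Divisor.IsPrincipal D)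
    (d : Datum.CechDatum R Dt D) {c : BxAlg C} (hc : (c : F) = d.cocycle) :
    ∃ δ : A, δ ≠ 0 ∧
      ¬ CoordB.CobEq (ooIn (BxAlg C) (BooAlg C)) (zeroIn (BxAlg C) (BzeroAlg C)) δ c 1 := by
  obtain ⟨δ, hδ0, hδ⟩ := exists_sep_datum C ht hDt hcart hgen hm hw0 hwO hw1 hD hrank hne hdeg hnp
    d hc
  exact ⟨δ, hδ0, fun h => hδ ((cobEq_one_iff _ _ δ c).mp h)⟩

end main

end Fermat.Agent.S33x.Cech.SepDatum
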