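/-
P-S33, LAYER 2, final instantiation, glue (I1) + (I4) (helper49): the hypothesis `cyc_sep`
(ruling B5 v4) for the cocycle family `CycKm.CycB`.

* `IsData.degree_eq_zero`, `IsData.not_isPrincipal` : the divisor of a normalised Kummer pair of a
  class `ξ ≠ 0` has degree `0` and is not principal;
* `cycB_sep` : for `ξ ≠ 0` and `c ∈ CycB C Dt m ξ` there is `δ ≠ 0` with
  `¬ CobEq (ooIn ..) (zeroIn ..) δ c 1` (general `RedSetup2`; `SepDatum.exists_not_cobEq_one`);
  `cycB_sep_raw` : the same in the unfolded cross-multiplied form;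
* `cycB_sep_Mq` : the same at level `M q`, exponent `q ^ n`, chart `chart H hA x hx Hx`, with all
  lattice hypotheses discharged (`CtxMq.ctx_of_chart`).
-/
import Fermat.Agent.S33x.Cech.CycKm
import Fermat.Agent.S33x.Cech.SepDatum
import Fermat.Agent.S33x.Cech.CtxMq

set_option autoImplicit false
set_option linter.unusedSectionVars false
set_option linter.style.haveILetI false

noncomputable section

namespace Fermat.Agent.S33x.Cech.CycKmSep

open AlgebraicCurve Module IntermediateField IsLocalRing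
open Fermat.Agent.Gateway.C0 Fermat.Agent.S34x Fermat.Agent.S34x.C0two Fermat.Agent.S34x.Lattice2
open Fermat.Agent.S33x.H1.InstC1 Fermat.Agent.S33x.H1.InstC4
open Fermat.Agent.S33x.Cech Fermat.Agent.S33x.Cech.OfDirectSum
open Fermat.Agent.S33x.Cech.Datum Fermat.Agent.S33x.KummerPn Fermat.Agent.S33x.Cech.CycKm

section general

variable {K : Type*} [Field K] {A : ValuationSubring K} {F : Type*} [Field F] [Algebra K F]
  {S : SmallRing F} {k κ : Type*} [Field k] [CommRing κ] [Algebra k κ]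
  {R : RedSetup2 A S k κ} {m : ℕ}

theorem IsData.degree_eq_zero {ξ : Pic0 K F} {w : F} {D : Divisor K F} (h : IsData R m ξ w D) :
    Divisor.degree D = 0 := Divisor.mem_degZero.mp h.degZero

/-- the divisor of a normalised Kummer pair of a nonzero class is not principal -/
theorem IsData.not_isPrincipal {ξ : Pic0 K F} {w : F} {D : Divisor K F} (h : IsData R m ξ w D)
    (hξ : ξ ≠ 0) : ¬ Divisor.IsPrincipal D := by
  intro hp
  apply hξ
  rw [← h.mk_eq, Fermat.Agent.Gateway.Kummer.mk_eq_zero_iff]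
  exact hp

end general

section sep

variable {K : Type*} [Field K] [IsAlgClosed K] [CharZero K] {A : ValuationSubring K}
  {F : Type*} [Field F] [Algebra K F] {S : SmallRing F}
  {k κ : Type*} [Field k] [CommRing κ] [Algebra k κ] [Nontrivial κ]
  {R : RedSetup2 A S k κ} (C : ChartCoord R)
  (ht : Transcendental K C.t) [FiniteDimensional K⟮C.t⟯ F]
  {Dt : Divisor K F} (hDt : ∀ v : Place K F, Dt v = v.ord C.t)
  (hcart : ∀ V : Submodule K F, FiniteDimensional K V → (R.lat V).FG)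
  [hPfin : ∀ b, FiniteDimensional k (C.Pk 0 b)] {b₀ : ℕ}
  (hgen : ∀ b, b₀ ≤ b → ∀ x ∈ C.Pk 0 (b + 1), ∃ y ∈ C.Pk 0 b, ∃ z ∈ C.Pk 0 b, x = y + C.T * z)
  {m : ℕ} (hm : 0 < m)

include ht hDt hcart hgen hm in
/-- **`cyc_sep` for `CycB`** (`CobEq` form). -/
theorem cycB_sep {ξ : Pic0 K F} (hξ : ξ ≠ 0) {c : BxAlg C} (hc : c ∈ CycB C Dt m ξ) :
    ∃ δ : A, δ ≠ 0 ∧
      ¬ CoordB.CobEq (ooIn (BxAlg C) (BooAlg C)) (zeroIn (BxAlg C) (BzeroAlg C)) δ c 1 := by
  obtain ⟨w, D, h, d, hd⟩ := hc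
  exact SepDatum.exists_not_cobEq_one C ht hDt hcart hgen hm h.ne_zero h.mem_O h.res_eq h.ord
    R.rank_one R.exists_ne_zero (IsData.degree_eq_zero h) (IsData.not_isPrincipal h hξ) d hd.symm

include ht hDt hcart hgen hm in
/-- **`cyc_sep` for `CycB`** (unfolded cross-multiplied form). -/
theorem cycB_sep_raw {ξ : Pic0 K F} (hξ : ξ ≠ 0) {c : BxAlg C} (hc : c ∈ CycB C Dt m ξ) :
    ∃ δ : A, δ ≠ 0 ∧
      ¬ ∃ (voo woo : ooIn (BxAlg C) (BooAlg C)) (v0 w0 : zeroIn (BxAlg C) (BzeroAlg C)),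
        CoordB.NearOne (ooIn (BxAlg C) (BooAlg C)) voo ∧
        CoordB.NearOne (ooIn (BxAlg C) (BooAlg C)) woo ∧
        CoordB.NearOne (zeroIn (BxAlg C) (BzeroAlg C)) v0 ∧
        CoordB.NearOne (zeroIn (BxAlg C) (BzeroAlg C)) w0 ∧
        algebraMap A (BxAlg C) δ ∣ c * voo * v0 - woo * w0 := by
  obtain ⟨w, D, h, d, hd⟩ := hc
  exact SepDatum.exists_sep_datum C ht hDt hcart hgen hm h.ne_zero h.mem_O h.res_eq h.ord
    R.rank_one R.exists_ne_zero (IsData.degree_eq_zero h) (IsData.not_isPrincipal h hξ) d hd.symm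

end sep

/-! ## Concrete part: level `M q`, exponent `q ^ n` -/

section Mq

open ModularCurve
open Fermat.Agent.Gateway.Hecke Fermat.Agent.Gateway.ESC
open Fermat.Agent.Gateway.Red Fermat.Agent.Gateway.GoodRed Fermat.Agent.Gateway.AuxLevel
open Fermat.Agent.Gateway.GoodRed.ConjFamily Fermat.Agent.S24.Setup
open Fermat.Agent.S34x.TwoVal
open Fermat.Agent.S34x.Inst.L2 Fermat.Agent.S34x.Inst.IsL2Inst
open Fermat.Agent.S34x.Inst.RedSetupInst Fermat.Agent.S34x.Inst.ElementYRed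
open Fermat.Agent.S34x.Inst.ElementYInt Fermat.Agent.S34x.Inst.ElementYInt9
open Fermat.Agent.S34x.Inst.Charts Fermat.Agent.S34x.Inst.TheoremBMq
open Fermat.Agent.S34x.Inst

attribute [-instance] IsScalarTower.of_algHom

variable {L : Type} [Field L] [Algebra ℚ L] [IsAlgClosed L] [Algebra.IsAlgebraic ℚ L]
  {A : ValuationSubring L} {k : Type} [Field k] {π : A →+* k} [IsAlgClosed k]
variable {M q : ℕ} [NeZero M] [NeZero q] [Fact q.Prime] [CharP k q]
variable {hdeg : finrankAlong L (heckeAlphaBar L M q) = q + 1} {hq : q.Prime} {hqM : ¬ q ∣ M}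
variable {hrk : ∀ x ∈ maximalIdeal A, ∀ c : A, c ≠ 0 → ∃ j : ℕ, c ∣ x ^ j}
  {hπ : Function.Surjective π}
variable (H : ResidueFacts A π M q hdeg hq hqM hrk hπ) (hA : A.LiesOverPrime q)
variable [PerfectRing k q]
  (x : LaurentSeries ℤ) (hx : coeffMap (Int.castRingHom L) x ∈ FBar L M)
  (Hx : GoodLevelFactsT A π M q hπ hqM (tInt M x hx))

include Hx in
/-- **`cyc_sep` at level `M q`**, exponent `q ^ n`, for the chart `C = chart H hA x hx Hx`. -/
theorem cycB_sep_Mq (hxk : tbar k x ≠ 0) (hY : YFacts M q x hx)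
    {Dt : Divisor L (FL L (M * q))}
    (hDt : ∀ v : Place L (FL L (M * q)), Dt v = v.ord (chart H hA x hx Hx).t) {n : ℕ}
    {ξ : Pic0 L (FL L (M * q))} (hξ : ξ ≠ 0) {c : BxAlg (chart H hA x hx Hx)}
    (hc : c ∈ CycB (chart H hA x hx Hx) Dt (q ^ n) ξ) :
    ∃ δ : A, δ ≠ 0 ∧
      ¬ CoordB.CobEq (ooIn (BxAlg (chart H hA x hx Hx)) (BooAlg (chart H hA x hx Hx)))
        (zeroIn (BxAlg (chart H hA x hx Hx)) (BzeroAlg (chart H hA x hx Hx))) δ c 1 := by
  haveI : CharZero L := algebraRat.charZero L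
  have hctx := CtxMq.ctx_of_chart H hA x hx Hx (chart H hA x hx Hx) (chart_t H hA x hx Hx) hxk hY
    hDt
  haveI := hctx.fin_t
  haveI : ∀ b, FiniteDimensional k ((chart H hA x hx Hx).Pk 0 b) := fun b => hctx.finite_Pk 0 b
  obtain ⟨b₀, hgen⟩ := hctx.exists_hgen
  have hqn : 0 < q ^ n := pow_pos (Fact.out : q.Prime).pos n
  exact cycB_sep (chart H hA x hx Hx) hctx.ht hDt hctx.hcart hgen hqn hξ hc

end Mq

end Fermat.Agent.S33x.Cech.CycKmSep
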