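import Fermat.Agent.S34x.C0two.Count
import Fermat.Agent.Gateway.C0.Main

/-!
# P-S33, LAYER 2, leaf (L2-B1), independent second (helper72): Cech data of a divisor

Vocabulary of `S34x/Lattice2`: `R : C0two.RedSetup2 A S k κ` (`S.O = O_∞ ∩ O_0`), `T : TwoCharts K F`
(`C₀`, `C∞` = zeros and poles of the chart coordinate), `T.LM D a b = L(D + a C₀ + b C∞)`,
`Lam R T D a b = L(D + a C₀ + b C∞) ∩ O`.

* `InBx`, `InBoo`, `InB0` : membership in the chart rings `B = ⋃ Lam(0;a,b)`, `B_∞ = ⋃ Lam(0;0,b)`,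
  `B_0 = ⋃ Lam(0;a,0)` (as predicates; `ChartAlgebras` ties them to ANY three subalgebras with these
  carriers, e.g. those of `S33x/H1/Inst`);
* `ResOne R x` : `x ∈ O` with reduction `1`;
* `CechDatum R T D` : trivialisations `hoo ∈ Lam(D;0,b)`, `h0 ∈ Lam(D;a,0)`,
  `hoo' ∈ Lam(-D;0,b)`, `h0' ∈ Lam(-D;a,0)`, all with reduction `1`; `cocycle d = hoo * h0'`;
* (1) `cocycle_inBx`, `resOne_cocycle`, `exists_cocycle_sub_one` (`cocycle d - 1 ∈ ϖ • B`, `ϖ ∈ 𝔪`);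
* (2) `hoo_mul_hoo'`, `h0_mul_h0'` (coboundary parts, in `B_∞`, `B_0`, reduction `1`);
* (3) `CechDatum.mul`, `CechDatum.one`, `CechDatum.neg` and `cocycle_mul_cocycle_neg`;
* (4) `CechDatum.nonempty_of_triv` : existence from the four trivialisations of Layer 1.
-/

set_option autoImplicit false
set_option linter.unusedSectionVars false
set_option linter.unusedVariables false

noncomputable section

namespace Fermat.Agent.S33x.Cech.DatumB

open AlgebraicCurve IsLocalRing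
open Fermat.Agent.Gateway.C0 Fermat.Agent.S34x.C0two

variable {K : Type*} [Field K] {A : ValuationSubring K} {F : Type*} [Field F] [Algebra K F]
  {S : SmallRing F} {k κ : Type*} [Field k] [CommRing κ] [Algebra k κ]
  (R : RedSetup2 A S k κ) (T : TwoCharts K F)

/-! ### Lattices and chart rings -/

/-- `Lam(D;a,b) = L(D + a C₀ + b C∞) ∩ O`. -/
def Lam (D : Divisor K F) (a b : ℕ) : Submodule A F := R.lat (T.LM D a b)

theorem mem_Lam {D : Divisor K F} {a b : ℕ} {x : F} :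
    x ∈ Lam R T D a b ↔ x ∈ T.LM D a b ∧ x ∈ S.O := Iff.rfl

theorem Lam_mono (D : Divisor K F) {a b a' b' : ℕ} (ha : a ≤ a') (hb : b ≤ b') :
    Lam R T D a b ≤ Lam R T D a' b' := fun _ hx => ⟨T.LM_mono D ha hb hx.1, hx.2⟩

/-- the product rule `L(D + a C₀ + b C∞) · L(D' + a' C₀ + b' C∞) ⊆ L(D + D' + ...)`. -/
theorem mul_mem_LM {D D' : Divisor K F} {a b a' b' : ℕ} {x y : F} (hx : x ∈ T.LM D a b)
    (hy : y ∈ T.LM D' a' b') : x * y ∈ T.LM (D + D') (a + a') (b + b') := by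
  have := mul_mem_rrs hx hy
  rw [TwoCharts.LM, TwoCharts.dv_add]
  convert this using 2
  abel

theorem mul_mem_Lam {D D' : Divisor K F} {a b a' b' : ℕ} {x y : F} (hx : x ∈ Lam R T D a b)
    (hy : y ∈ Lam R T D' a' b') : x * y ∈ Lam R T (D + D') (a + a') (b + b') :=
  ⟨mul_mem_LM T hx.1 hy.1, S.O.mul_mem hx.2 hy.2⟩

/-- the product rule with explicit index equalities (avoids definitional unfolding). -/
theorem mul_mem_Lam' {D D' E : Divisor K F} {a b a' b' a'' b'' : ℕ} (hE : D + D' = E)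
    (ha : a + a' = a'') (hb : b + b' = b'') {x y : F} (hx : x ∈ Lam R T D a b)
    (hy : y ∈ Lam R T D' a' b') : x * y ∈ Lam R T E a'' b'' := by
  subst hE ha hb
  exact mul_mem_Lam R T hx hy

theorem one_mem_Lam : (1 : F) ∈ Lam R T 0 0 0 := by
  refine ⟨?_, S.O.one_mem⟩
  rw [TwoCharts.LM, TwoCharts.dv_zero, add_zero]
  exact one_mem_rrs_zero

/-- membership in `B = ⋃ Lam(0;a,b)` -/
def InBx (x : F) : Prop := ∃ a b, x ∈ Lam R T 0 a b

/-- membership in `B_∞ = ⋃ Lam(0;0,b)` -/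
def InBoo (x : F) : Prop := ∃ b, x ∈ Lam R T 0 0 b

/-- membership in `B_0 = ⋃ Lam(0;a,0)` -/
def InB0 (x : F) : Prop := ∃ a, x ∈ Lam R T 0 a 0

theorem InBoo.inBx {x : F} (h : InBoo R T x) : InBx R T x := ⟨0, h⟩

theorem InB0.inBx {x : F} (h : InB0 R T x) : InBx R T x := by
  obtain ⟨a, ha⟩ := h
  exact ⟨a, 0, ha⟩

theorem InBx.mem_O {x : F} (h : InBx R T x) : x ∈ S.O := by
  obtain ⟨a, b, h⟩ := h
  exact h.2

theorem InBx.mul {x y : F} (hx : InBx R T x) (hy : InBx R T y) : InBx R T (x * y) := by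
  obtain ⟨a, b, hx⟩ := hx
  obtain ⟨a', b', hy⟩ := hy
  exact ⟨a + a', b + b', mul_mem_Lam' R T (add_zero 0) rfl rfl hx hy⟩

theorem InBoo.mul {x y : F} (hx : InBoo R T x) (hy : InBoo R T y) : InBoo R T (x * y) := by
  obtain ⟨b, hx⟩ := hx
  obtain ⟨b', hy⟩ := hy
  exact ⟨b + b', mul_mem_Lam' R T (add_zero 0) (Nat.add_zero 0) rfl hx hy⟩

theorem InB0.mul {x y : F} (hx : InB0 R T x) (hy : InB0 R T y) : InB0 R T (x * y) := by
  obtain ⟨a, hx⟩ := hx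
  obtain ⟨a', hy⟩ := hy
  exact ⟨a + a', mul_mem_Lam' R T (add_zero 0) rfl (Nat.add_zero 0) hx hy⟩

theorem inBoo_one : InBoo R T (1 : F) := ⟨0, one_mem_Lam R T⟩

theorem inB0_one : InB0 R T (1 : F) := ⟨0, one_mem_Lam R T⟩

/-- Three subalgebras of `F` with the carriers `B`, `B_∞`, `B_0` (e.g. those of `S33x/H1/Inst`). -/
structure ChartAlgebras (Bx Boo B0 : Subalgebra A F) : Prop where
  mem_Bx : ∀ x : F, x ∈ Bx ↔ InBx R T x
  mem_Boo : ∀ x : F, x ∈ Boo ↔ InBoo R T x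
  mem_B0 : ∀ x : F, x ∈ B0 ↔ InB0 R T x

/-! ### Reduction `1` -/

/-- `x ∈ O` and `res x = 1`. -/
def ResOne (x : F) : Prop := ∃ hx : x ∈ S.O, R.res ⟨x, hx⟩ = 1

theorem resOne_one : ResOne R (1 : F) := ⟨S.O.one_mem, map_one R.res⟩

theorem ResOne.mul {x y : F} (hx : ResOne R x) (hy : ResOne R y) : ResOne R (x * y) := by
  obtain ⟨hxO, hx1⟩ := hx
  obtain ⟨hyO, hy1⟩ := hy
  refine ⟨S.O.mul_mem hxO hyO, ?_⟩
  have : (⟨x * y, S.O.mul_mem hxO hyO⟩ : S.O) = ⟨x, hxO⟩ * ⟨y, hyO⟩ := rfl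
  rw [this, map_mul, hx1, hy1, one_mul]

/-- an element of reduction `1` is congruent to `1` modulo `𝔪`: `x - 1 = ϖ • y`, `y ∈ O`. -/
theorem ResOne.exists_sub_one {x : F} (hx : ResOne R x) :
    ∃ ϖ ∈ maximalIdeal A, ∃ y ∈ S.O, x - 1 = ϖ • y := by
  obtain ⟨hxO, hx1⟩ := hx
  have hO : x - 1 ∈ S.O := S.O.sub_mem hxO S.O.one_mem
  have hsmall : Small S (x - 1) := by
    rw [R.small_iff hO]
    have : (⟨x - 1, hO⟩ : S.O) = ⟨x, hxO⟩ - 1 := rfl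
    rw [this, map_sub, hx1, map_one, sub_self]
  exact R.base.unram _ hsmall

/-- the kernel of the reduction on a lattice `V ∩ O` is `𝔪 (V ∩ O)`. -/
theorem exists_smul_of_res_eq_zero {V : Submodule K F} {x : F} (hx : x ∈ R.lat V)
    (h0 : R.res ⟨x, hx.2⟩ = 0) : ∃ ϖ ∈ maximalIdeal A, ∃ y ∈ R.lat V, x = ϖ • y := by
  by_cases hx0 : x = 0
  · obtain ⟨ϖ, hϖ, -⟩ := R.exists_ne_zero
    exact ⟨ϖ, hϖ, 0, (R.lat V).zero_mem, by rw [hx0, smul_zero]⟩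
  obtain ⟨ϖ, hϖ, y, hyO, hxy⟩ := R.base.unram x ((R.small_iff hx.2).mpr h0)
  refine ⟨ϖ, hϖ, y, ⟨?_, hyO⟩, hxy⟩
  have hϖ0 : (ϖ : K) ≠ 0 := by
    intro h
    apply hx0
    rw [hxy]
    have : ϖ = 0 := Subtype.ext h
    rw [this, zero_smul]
  have hy : y = (ϖ : K)⁻¹ • x := by
    rw [hxy]
    show y = (ϖ : K)⁻¹ • ((ϖ : K) • y)
    rw [smul_smul, inv_mul_cancel₀ hϖ0, one_smul]
  rw [hy]
  exact V.smul_mem _ hx.1

/-! ### Cech data -/

/-- **Cech datum of a divisor `D`**: chart-wise trivialisations of `O(D)` and of `O(-D)` with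
reduction `1`. -/
structure CechDatum (D : Divisor K F) where
  /-- trivialisation of `O(D)` on the chart `∞` -/
  hoo : F
  /-- trivialisation of `O(D)` on the chart `0` -/
  h0 : F
  /-- trivialisation of `O(-D)` on the chart `∞` -/
  hoo' : F
  /-- trivialisation of `O(-D)` on the chart `0` -/
  h0' : F
  hoo_mem : ∃ b, hoo ∈ Lam R T D 0 b
  h0_mem : ∃ a, h0 ∈ Lam R T D a 0
  hoo'_mem : ∃ b, hoo' ∈ Lam R T (-D) 0 b
  h0'_mem : ∃ a, h0' ∈ Lam R T (-D) a 0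
  res_hoo : ResOne R hoo
  res_h0 : ResOne R h0
  res_hoo' : ResOne R hoo'
  res_h0' : ResOne R h0'

namespace CechDatum

variable {R T} {D D1 D2 : Divisor K F}

/-- the cocycle `hoo * h0'` of a Cech datum -/
def cocycle (d : CechDatum R T D) : F := d.hoo * d.h0'

/-- **(1)** the cocycle lies in `B`. -/
theorem cocycle_inBx (d : CechDatum R T D) : InBx R T d.cocycle := by
  obtain ⟨b, hb⟩ := d.hoo_mem
  obtain ⟨a, ha⟩ := d.h0'_mem
  exact ⟨a, b, mul_mem_Lam' R T (add_neg_cancel D) (Nat.zero_add a) (Nat.add_zero b) hb ha⟩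

/-- **(1)** the cocycle has reduction `1`. -/
theorem resOne_cocycle (d : CechDatum R T D) : ResOne R d.cocycle := d.res_hoo.mul R d.res_h0'

/-- **(1)** `cocycle d - 1 ∈ ϖ • B` for some `ϖ ∈ 𝔪`. -/
theorem exists_cocycle_sub_one (d : CechDatum R T D) :
    ∃ ϖ ∈ maximalIdeal A, ∃ y : F, InBx R T y ∧ d.cocycle - 1 = ϖ • y := by
  obtain ⟨a, b, hab⟩ := d.cocycle_inBx
  obtain ⟨hcO, hc1⟩ := d.resOne_cocycle
  have h1 : d.cocycle - 1 ∈ R.lat (T.LM 0 a b) :=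
    (R.lat _).sub_mem hab (Lam_mono R T 0 (Nat.zero_le a) (Nat.zero_le b) (one_mem_Lam R T))
  have h0 : R.res ⟨d.cocycle - 1, h1.2⟩ = 0 := by
    have : (⟨d.cocycle - 1, h1.2⟩ : S.O) = ⟨d.cocycle, hcO⟩ - 1 := rfl
    rw [this, map_sub, hc1, map_one, sub_self]
  obtain ⟨ϖ, hϖ, y, hy, hxy⟩ := exists_smul_of_res_eq_zero R h1 h0
  exact ⟨ϖ, hϖ, y, ⟨a, b, hy⟩, hxy⟩

/-- **(2)** `hoo * hoo' ∈ B_∞`. -/
theorem hoo_mul_hoo'_inBoo (d : CechDatum R T D) : InBoo R T (d.hoo * d.hoo') := by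
  obtain ⟨b, hb⟩ := d.hoo_mem
  obtain ⟨b', hb'⟩ := d.hoo'_mem
  exact ⟨b + b', mul_mem_Lam' R T (add_neg_cancel D) (Nat.add_zero 0) rfl hb hb'⟩

theorem resOne_hoo_mul_hoo' (d : CechDatum R T D) : ResOne R (d.hoo * d.hoo') :=
  d.res_hoo.mul R d.res_hoo'

/-- **(2)** `h0 * h0' ∈ B_0`. -/
theorem h0_mul_h0'_inB0 (d : CechDatum R T D) : InB0 R T (d.h0 * d.h0') := by
  obtain ⟨a, ha⟩ := d.h0_mem
  obtain ⟨a', ha'⟩ := d.h0'_mem
  exact ⟨a + a', mul_mem_Lam' R T (add_neg_cancel D) rfl (Nat.add_zero 0) ha ha'⟩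

theorem resOne_h0_mul_h0' (d : CechDatum R T D) : ResOne R (d.h0 * d.h0') :=
  d.res_h0.mul R d.res_h0'

/-- **(3)** the product datum of `D1 + D2`. -/
def mul (d1 : CechDatum R T D1) (d2 : CechDatum R T D2) : CechDatum R T (D1 + D2) where
  hoo := d1.hoo * d2.hoo
  h0 := d1.h0 * d2.h0
  hoo' := d1.hoo' * d2.hoo'
  h0' := d1.h0' * d2.h0'
  hoo_mem := by
    obtain ⟨b1, h1⟩ := d1.hoo_mem
    obtain ⟨b2, h2⟩ := d2.hoo_mem
    exact ⟨b1 + b2, mul_mem_Lam' R T rfl (Nat.add_zero 0) rfl h1 h2⟩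
  h0_mem := by
    obtain ⟨a1, h1⟩ := d1.h0_mem
    obtain ⟨a2, h2⟩ := d2.h0_mem
    exact ⟨a1 + a2, mul_mem_Lam' R T rfl rfl (Nat.add_zero 0) h1 h2⟩
  hoo'_mem := by
    obtain ⟨b1, h1⟩ := d1.hoo'_mem
    obtain ⟨b2, h2⟩ := d2.hoo'_mem
    exact ⟨b1 + b2, mul_mem_Lam' R T (neg_add D1 D2).symm (Nat.add_zero 0) rfl h1 h2⟩
  h0'_mem := by
    obtain ⟨a1, h1⟩ := d1.h0'_mem
    obtain ⟨a2, h2⟩ := d2.h0'_mem
    exact ⟨a1 + a2, mul_mem_Lam' R T (neg_add D1 D2).symm rfl (Nat.add_zero 0) h1 h2⟩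
  res_hoo := d1.res_hoo.mul R d2.res_hoo
  res_h0 := d1.res_h0.mul R d2.res_h0
  res_hoo' := d1.res_hoo'.mul R d2.res_hoo'
  res_h0' := d1.res_h0'.mul R d2.res_h0'

theorem cocycle_mul (d1 : CechDatum R T D1) (d2 : CechDatum R T D2) :
    (d1.mul d2).cocycle = d1.cocycle * d2.cocycle := by
  show d1.hoo * d2.hoo * (d1.h0' * d2.h0') = d1.hoo * d1.h0' * (d2.hoo * d2.h0')
  ring

variable (R T) in
/-- **(3)** the datum of the zero divisor. -/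
def one : CechDatum R T (0 : Divisor K F) where
  hoo := 1
  h0 := 1
  hoo' := 1
  h0' := 1
  hoo_mem := ⟨0, one_mem_Lam R T⟩
  h0_mem := ⟨0, one_mem_Lam R T⟩
  hoo'_mem := ⟨0, by rw [neg_zero]; exact one_mem_Lam R T⟩
  h0'_mem := ⟨0, by rw [neg_zero]; exact one_mem_Lam R T⟩
  res_hoo := resOne_one R
  res_h0 := resOne_one R
  res_hoo' := resOne_one R
  res_h0' := resOne_one R

theorem cocycle_one : (one R T).cocycle = 1 := by
  show (1 : F) * 1 = 1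
  rw [mul_one]

/-- **(3)** the negative datum, of `-D`. -/
def neg (d : CechDatum R T D) : CechDatum R T (-D) where
  hoo := d.hoo'
  h0 := d.h0'
  hoo' := d.hoo
  h0' := d.h0
  hoo_mem := d.hoo'_mem
  h0_mem := d.h0'_mem
  hoo'_mem := by rw [neg_neg]; exact d.hoo_mem
  h0'_mem := by rw [neg_neg]; exact d.h0_mem
  res_hoo := d.res_hoo'
  res_h0 := d.res_h0'
  res_hoo' := d.res_hoo
  res_h0' := d.res_h0

theorem cocycle_neg (d : CechDatum R T D) : d.neg.cocycle = d.hoo' * d.h0 := rfl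

/-- **(3)** the product of the cocycles of `d` and of `neg d` is a product of coboundaries. -/
theorem cocycle_mul_cocycle_neg (d : CechDatum R T D) :
    d.cocycle * d.neg.cocycle = (d.hoo * d.hoo') * (d.h0 * d.h0') := by
  show d.hoo * d.h0' * (d.hoo' * d.h0) = d.hoo * d.hoo' * (d.h0 * d.h0')
  ring

/-- **(4)** existence from the four trivialisations (the export of Layer 1). -/
theorem nonempty_of_triv
    (hoo : ∃ (b : ℕ) (h : F), h ∈ Lam R T D 0 b ∧ ResOne R h)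
    (h0 : ∃ (a : ℕ) (h : F), h ∈ Lam R T D a 0 ∧ ResOne R h)
    (hoo' : ∃ (b : ℕ) (h : F), h ∈ Lam R T (-D) 0 b ∧ ResOne R h)
    (h0' : ∃ (a : ℕ) (h : F), h ∈ Lam R T (-D) a 0 ∧ ResOne R h) :
    Nonempty (CechDatum R T D) := by
  obtain ⟨b, x1, h1, r1⟩ := hoo
  obtain ⟨a, x2, h2, r2⟩ := h0
  obtain ⟨b', x3, h3, r3⟩ := hoo'
  obtain ⟨a', x4, h4, r4⟩ := h0'
  exact ⟨⟨x1, x2, x3, x4, ⟨b, h1⟩, ⟨a, h2⟩, ⟨b', h3⟩, ⟨a', h4⟩, r1, r2, r3, r4⟩⟩

/-! ### The subalgebra form -/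

section Alg

variable {Bx Boo B0 : Subalgebra A F} (hB : ChartAlgebras R T Bx Boo B0)
include hB

theorem cocycle_mem (d : CechDatum R T D) : d.cocycle ∈ Bx :=
  (hB.mem_Bx _).mpr d.cocycle_inBx

theorem exists_cocycle_sub_one_mem (d : CechDatum R T D) :
    ∃ ϖ ∈ maximalIdeal A, ∃ y ∈ Bx, d.cocycle - 1 = ϖ • y := by
  obtain ⟨ϖ, hϖ, y, hy, h⟩ := d.exists_cocycle_sub_one
  exact ⟨ϖ, hϖ, y, (hB.mem_Bx _).mpr hy, h⟩

theorem hoo_mul_hoo'_mem (d : CechDatum R T D) : d.hoo * d.hoo' ∈ Boo :=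
  (hB.mem_Boo _).mpr d.hoo_mul_hoo'_inBoo

theorem h0_mul_h0'_mem (d : CechDatum R T D) : d.h0 * d.h0' ∈ B0 :=
  (hB.mem_B0 _).mpr d.h0_mul_h0'_inB0

end Alg

end CechDatum

end Fermat.Agent.S33x.Cech.DatumB
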