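import Fermat.Agent.S33x.Cech.Datum
import Fermat.Agent.S33x.Cech.OfDirectSum
import Fermat.Agent.S33x.H1.InstC4
import Fermat.Agent.S33x.H1.StableLN

/-!
# P-S33 Layer 2 (I3-datum, abstract core; helper61): semilinear transport of Cech data

General `RedSetup2` context.  `g : SemilinearAut K F` is GOOD for the chart coordinate `t` if it
fixes `t`, preserves `S.O` and commutes with the reduction (`IsGood R t g`: one element of the set
`Γ` of helper43's `CtxMq.CtxGal R C Γ`).  Then

* `smul_mem_rrs`   : `f ∈ L(D) → g • f ∈ L(g • D)`;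
* `dv_smul`        : `g • (a C₀ + b C∞) = a C₀ + b C∞`  (`C₀, C∞` the zeros / poles of `t`);
* `smul_mem_LM`    : `f ∈ L(D + a C₀ + b C∞) → g • f ∈ L(g • D + a C₀ + b C∞)`;
* `smulDatum`      : `d : CechDatum R Dt D ↦ g • d : CechDatum R Dt (g • D)`, with
  `cocycle (g • d) = g • cocycle d`;
* `actB`           : the ring endomorphism `c ↦ g • c` of the TYPE `↥(BxAlg C)`, preserving the
  two charts `ooIn`, `zeroIn`; `actA` : the restriction of the base automorphism of `g` to `A`;
  `actB (algebraMap z) = algebraMap (actA z)`; `actB` fixes `aIn H i` if `g • a i = a i`.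
-/

set_option autoImplicit false
set_option linter.unusedSectionVars false
set_option linter.style.haveILetI false

noncomputable section

namespace Fermat.Agent.S33x.Cech.GalDatumCore

open AlgebraicCurve IsLocalRing
open Fermat.Agent.Gateway.C0 Fermat.Agent.S34x Fermat.Agent.S34x.C0two Fermat.Agent.S34x.Lattice2
open Fermat.Agent.S33x.H1.InstC1 Fermat.Agent.S33x.H1.InstC4 Fermat.Agent.S33x.H1
open Fermat.Agent.S33x.Cech Fermat.Agent.S33x.Cech.OfDirectSum

/-! ### Riemann-Roch spaces -/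

section rrs

variable {K : Type*} [Field K] {F : Type*} [Field F] [Algebra K F]

/-- `f ∈ L(D) → g • f ∈ L(g • D)`. -/
theorem smul_mem_rrs (g : SemilinearAut K F) {D : Divisor K F} {f : F}
    (hf : f ∈ riemannRochSpace D) : g • f ∈ riemannRochSpace (g • D) := by
  rw [mem_riemannRochSpace_iff] at hf ⊢
  intro w
  rcases hf (g⁻¹ • w) with h | h
  · left
    rw [h, smul_zero]
  · right
    rw [SemilinearAut.divisor_smul_apply]
    have h2 := SemilinearAut.ord_smul g (g⁻¹ • w) f
    rw [smul_inv_smul] at h2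
    rw [h2]
    exact h

/-- the divisor of a function fixed by `g` is `g`-invariant (pointwise form) -/
theorem apply_inv_smul (g : SemilinearAut K F) {t : F} (hgt : g • t = t) {Dt : Divisor K F}
    (hDt : ∀ v : Place K F, Dt v = v.ord t) (w : Place K F) : Dt (g⁻¹ • w) = Dt w := by
  rw [hDt, hDt]
  have h := SemilinearAut.ord_smul g (g⁻¹ • w) t
  rw [smul_inv_smul, hgt] at h
  exact h.symm

/-- `g • (a C₀ + b C∞) = a C₀ + b C∞`. -/
theorem dv_smul (g : SemilinearAut K F) {t : F} (hgt : g • t = t) {Dt : Divisor K F}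
    (hDt : ∀ v : Place K F, Dt v = v.ord t) (a b : ℕ) :
    g • (TwoCharts.ofDivisor Dt).dv a b = (TwoCharts.ofDivisor Dt).dv a b := by
  ext w
  rw [SemilinearAut.divisor_smul_apply, TwoCharts.dv_apply, TwoCharts.dv_apply,
    TwoCharts.ofDivisor_Czero_apply, TwoCharts.ofDivisor_Cinf_apply,
    TwoCharts.ofDivisor_Czero_apply, TwoCharts.ofDivisor_Cinf_apply,
    apply_inv_smul g hgt hDt w]

/-- `f ∈ L(D + a C₀ + b C∞) → g • f ∈ L(g • D + a C₀ + b C∞)`. -/
theorem smul_mem_LM (g : SemilinearAut K F) {t : F} (hgt : g • t = t) {Dt : Divisor K F}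
    (hDt : ∀ v : Place K F, Dt v = v.ord t) {D : Divisor K F} {a b : ℕ} {f : F}
    (hf : f ∈ (TwoCharts.ofDivisor Dt).LM D a b) :
    g • f ∈ (TwoCharts.ofDivisor Dt).LM (g • D) a b := by
  have h := smul_mem_rrs g hf
  rw [smul_add, dv_smul g hgt hDt] at h
  exact h

end rrs

/-! ### Cech data -/

section datum

variable {K : Type*} [Field K] {A : ValuationSubring K} {F : Type*} [Field F] [Algebra K F]
  {S : SmallRing F} {k κ : Type*} [Field k] [CommRing κ] [Algebra k κ]

/-- `g` fixes the coordinate `t`, preserves `S.O` and commutes with the reduction. -/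
structure IsGood (R : RedSetup2 A S k κ) (t : F) (g : SemilinearAut K F) : Prop where
  smul_t : g • t = t
  smul_mem : ∀ f ∈ S.O, g • f ∈ S.O
  res_smul : ∀ (f : F) (hf : f ∈ S.O), R.res ⟨g • f, smul_mem f hf⟩ = R.res ⟨f, hf⟩

variable {R : RedSetup2 A S k κ} {t : F} {g : SemilinearAut K F}

theorem resOne_smul (hg : IsGood R t g) {x : F} (hx : Datum.ResOne R x) :
    Datum.ResOne R (g • x) :=
  ⟨hg.smul_mem x hx.mem, (hg.res_smul x hx.mem).trans hx.2⟩

theorem smul_mem_LamD (hg : IsGood R t g) {Dt : Divisor K F}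
    (hDt : ∀ v : Place K F, Dt v = v.ord t) {D : Divisor K F} {a b : ℕ} {f : F}
    (hf : f ∈ Datum.LamD R Dt D a b) : g • f ∈ Datum.LamD R Dt (g • D) a b :=
  ⟨smul_mem_LM g hg.smul_t hDt hf.1, hg.smul_mem f hf.2⟩

/-- **Semilinear transport of a Cech datum.** -/
def smulDatum (hg : IsGood R t g) {Dt : Divisor K F} (hDt : ∀ v : Place K F, Dt v = v.ord t)
    {D : Divisor K F} (d : Datum.CechDatum R Dt D) : Datum.CechDatum R Dt (g • D) where
  hoo := g • d.hoo
  h0 := g • d.h0
  hoo' := g • d.hoo'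
  h0' := g • d.h0'
  hoo_mem := by
    obtain ⟨b, hb⟩ := d.hoo_mem
    exact ⟨b, smul_mem_LamD hg hDt hb⟩
  h0_mem := by
    obtain ⟨a, ha⟩ := d.h0_mem
    exact ⟨a, smul_mem_LamD hg hDt ha⟩
  hoo'_mem := by
    obtain ⟨b, hb⟩ := d.hoo'_mem
    refine ⟨b, ?_⟩
    have h := smul_mem_LamD hg hDt hb
    rwa [smul_neg] at h
  h0'_mem := by
    obtain ⟨a, ha⟩ := d.h0'_mem
    refine ⟨a, ?_⟩
    have h := smul_mem_LamD hg hDt ha
    rwa [smul_neg] at h
  res_hoo := resOne_smul hg d.res_hoo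
  res_h0 := resOne_smul hg d.res_h0
  res_hoo' := resOne_smul hg d.res_hoo'
  res_h0' := resOne_smul hg d.res_h0'

theorem cocycle_smulDatum (hg : IsGood R t g) {Dt : Divisor K F}
    (hDt : ∀ v : Place K F, Dt v = v.ord t) {D : Divisor K F} (d : Datum.CechDatum R Dt D) :
    (smulDatum hg hDt d).cocycle = g • d.cocycle := by
  simp only [Datum.CechDatum.cocycle, smulDatum, smul_mul']

/-- the literal of (I3-datum): a datum of `g • D` whose cocycle is `g • cocycle d`. -/
theorem exists_datum_smul (hg : IsGood R t g) {Dt : Divisor K F}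
    (hDt : ∀ v : Place K F, Dt v = v.ord t) {D : Divisor K F} (d : Datum.CechDatum R Dt D) :
    ∃ d' : Datum.CechDatum R Dt (g • D), d'.cocycle = g • d.cocycle :=
  ⟨smulDatum hg hDt d, cocycle_smulDatum hg hDt d⟩

end datum

/-! ### The action on the overlap ring -/

section act

variable {K : Type*} [Field K] {A : ValuationSubring K} {F : Type*} [Field F] [Algebra K F]
  {S : SmallRing F} {k κ : Type*} [Field k] [CommRing κ] [Algebra k κ]
  {R : RedSetup2 A S k κ} (C : ChartCoord R) {g : SemilinearAut K F} (hg : IsGood R C.t g)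

include hg in
theorem smul_mem_Lam {a b : ℕ} {x : F} (hx : x ∈ Lam C a b) : g • x ∈ Lam C a b :=
  ⟨StableLN.smul_mem_LN C g hg.smul_t hx.1, hg.smul_mem x hx.2⟩

include hg in
theorem smul_mem_BxAlg {x : F} (hx : x ∈ BxAlg C) : g • x ∈ BxAlg C := by
  obtain ⟨a, b, h⟩ := (mem_BxAlg' C).mp hx
  exact (mem_BxAlg' C).mpr ⟨a, b, smul_mem_Lam C hg h⟩

include hg in
theorem smul_mem_BooAlg {x : F} (hx : x ∈ BooAlg C) : g • x ∈ BooAlg C := by
  obtain ⟨b, h⟩ := (mem_BooAlg C).mp hx
  exact (mem_BooAlg C).mpr ⟨b, smul_mem_Lam C hg h⟩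

include hg in
theorem smul_mem_BzeroAlg {x : F} (hx : x ∈ BzeroAlg C) : g • x ∈ BzeroAlg C := by
  obtain ⟨a, h⟩ := (mem_BzeroAlg C).mp hx
  exact (mem_BzeroAlg C).mpr ⟨a, smul_mem_Lam C hg h⟩

/-- the ring endomorphism `c ↦ g • c` of the TYPE `↥(BxAlg C)` -/
def actB : BxAlg C →+* BxAlg C :=
  ((SemilinearAut.toRingAut g : F ≃+* F) : F →+* F).restrict (BxAlg C) (BxAlg C)
    (fun x hx => smul_mem_BxAlg C hg hx)

@[simp] theorem coe_actB (c : BxAlg C) : ((actB C hg c : BxAlg C) : F) = g • (c : F) := rfl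

theorem actB_mem_ooIn {c : BxAlg C} (hc : c ∈ ooIn (BxAlg C) (BooAlg C)) :
    actB C hg c ∈ ooIn (BxAlg C) (BooAlg C) := by
  rw [mem_ooIn] at hc ⊢
  rw [coe_actB]
  exact smul_mem_BooAlg C hg hc

theorem actB_mem_zeroIn {c : BxAlg C} (hc : c ∈ zeroIn (BxAlg C) (BzeroAlg C)) :
    actB C hg c ∈ zeroIn (BxAlg C) (BzeroAlg C) := by
  rw [mem_zeroIn] at hc ⊢
  rw [coe_actB]
  exact smul_mem_BzeroAlg C hg hc

/-- `actB` fixes the fixed elements -/
theorem actB_eq_self {c : BxAlg C} (hc : g • (c : F) = (c : F)) : actB C hg c = c :=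
  Subtype.ext ((coe_actB C hg c).trans hc)

/-- `actB` fixes the `aᵢ` of a decomposition with `g`-fixed `aᵢ` -/
theorem actB_aIn {n : ℕ} {a : Fin n → F}
    (H : DirectSum (BxAlg C) (BooAlg C) (BzeroAlg C) a) (i : Fin n) (hfix : g • a i = a i) :
    actB C hg (aIn H i) = aIn H i :=
  actB_eq_self C hg hfix

variable [Nontrivial κ]

include hg in
/-- the base automorphism of a good `g` preserves `A = S.O ∩ K` -/
theorem baseAut_mem {z : K} (hz : z ∈ A) : SemilinearAut.baseAut g z ∈ A := by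
  have h1 : g • algebraMap K F z ∈ S.O := hg.smul_mem _ (R.algebraMap_mem ⟨z, hz⟩)
  rw [SemilinearAut.smul_algebraMap] at h1
  exact InstC2.mem_A_of_algebraMap_mem_O (R := R) h1

/-- the restriction of the base automorphism of `g` to `A` -/
def actA : A →+* A :=
  ((SemilinearAut.baseAut g : K ≃+* K) : K →+* K).restrict A A
    (fun z hz => baseAut_mem C hg hz)

@[simp] theorem coe_actA (z : A) : ((actA C hg z : A) : K) = SemilinearAut.baseAut g (z : K) := rfl

/-- semilinearity: `actB (algebraMap z) = algebraMap (actA z)` -/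
theorem actB_algebraMap (z : A) :
    actB C hg (algebraMap A (BxAlg C) z) = algebraMap A (BxAlg C) (actA C hg z) := by
  apply Subtype.ext
  rw [coe_actB, Subalgebra.coe_algebraMap, Subalgebra.coe_algebraMap, R.algebraMap_A,
    R.algebraMap_A, SemilinearAut.smul_algebraMap, coe_actA]

end act

end Fermat.Agent.S33x.Cech.GalDatumCore
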