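import Fermat.Agent.S34x.Inst.SigmaGlue
import Fermat.Agent.S34x.Lattice2.Setup

/-!
# P-S33, Layer 2 (L2-B3), abstract part: inertia-like semilinear automorphisms and the lattices

`R : RedSetup2 A S k κ` a reduction set-up on a small ring `S` of `F / K`, and
`g : SemilinearAut K F` which is *inertia-like* for `R`:

* `g` preserves the small ring `S.O`,
* `res (g • f) = res f` for `f ∈ S.O` (trivial action on the residue ring).

Then

* `g` preserves the small elements and the congruence relation, and `res (g • f) = 1 ↔ res f = 1`;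
* PLACE FORM: if `g` fixes the two chart divisors `C₀, C∞` of `T : TwoCharts K F` (e.g.
  `T = TwoCharts.ofDivisor Dt`, `Dt v = v.ord t`, `g • t = t`: `smul_Czero_of_ord`,
  `smul_Cinf_of_ord`), then `g` maps `Lam(D; a, b) = R.lat (T.LM D a b)` into
  `Lam(g • D; a, b)` (`smul_mem_lat_LM`) and preserves `R.lat (T.LN a b)`;
* PLACE-FREE FORM: if `g • t = t` then `g` preserves `twoPole K t t⁻¹ a b`
  (`smul_mem_twoPole`), hence `R.lat (C.LN a b)` for a chart coordinate `C` with `g • C.t = C.t`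
  (`smul_mem_lat_LN'`);
* trivialisations: `y ∈ Lam(D; a, b)`, `res y = 1` gives `g • y ∈ Lam(g • D; a, b)`,
  `res (g • y) = 1` (`smul_triv`), and the cocycle `h_∞ * h'_0` is transported to
  `g • h_∞ * g • h'_0 = g • (h_∞ * h'_0)` (`smul_cocycle`);
* unions: any subalgebra `B` of `F` which is a union of lattices preserved by `g` is preserved
  by `g` (`smul_mem_of_union`), and `g • B = B` as sets if `g⁻¹` is inertia-like too
  (`smul_mem_iff_of_union`).

No modular objects; `S34x/Inst/GaloisInst` (`gal_smul_mem_S2`, `res_gal_smul`,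
`gal_smul_alpha_eq_self`) provides the hypotheses for the inertia group at level `M q`.
-/

set_option autoImplicit false
set_option linter.unusedSectionVars false

noncomputable section

namespace Fermat.Agent.S33x.Cech.GaloisLat

open AlgebraicCurve Fermat.Agent.Gateway.C0 Fermat.Agent.S34x.C0two Fermat.Agent.S34x.Lattice2
  Fermat.Agent.S34x.Inst.SigmaGlue

variable {K : Type*} [Field K] {A : ValuationSubring K} {F : Type*} [Field F] [Algebra K F]
  {S : SmallRing F} {k κ : Type*} [Field k] [CommRing κ] [Algebra k κ]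

/-! ### Inertia-like automorphisms -/

/-- `g` preserves the small ring and acts trivially on the residue ring. -/
structure InertiaLike (R : RedSetup2 A S k κ) (g : SemilinearAut K F) : Prop where
  smul_mem : ∀ f ∈ S.O, g • f ∈ S.O
  res_smul : ∀ (f : F) (hf : f ∈ S.O), R.res ⟨g • f, smul_mem f hf⟩ = R.res ⟨f, hf⟩

namespace InertiaLike

variable {R : RedSetup2 A S k κ} {g : SemilinearAut K F} (hg : InertiaLike R g)
include hg

/-- proof-irrelevant form of `res_smul` -/
theorem res_smul' {f : F} (hf : f ∈ S.O) (hgf : g • f ∈ S.O) :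
    R.res ⟨g • f, hgf⟩ = R.res ⟨f, hf⟩ :=
  hg.res_smul f hf

theorem small_smul {f : F} (hf : Small S f) : Small S (g • f) := by
  obtain ⟨hO, hI⟩ := hf
  refine ⟨hg.smul_mem f hO, ?_⟩
  rw [← R.res_ker, hg.res_smul f hO, R.res_ker]
  exact hI

theorem cong_smul {x y : F} (h : Cong S x y) : Cong S (g • x) (g • y) := by
  have := hg.small_smul h
  rwa [smul_sub] at this

theorem res_smul_eq_one {f : F} (hf : f ∈ S.O) (h1 : R.res ⟨f, hf⟩ = 1) :
    R.res ⟨g • f, hg.smul_mem f hf⟩ = 1 := by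
  rw [hg.res_smul f hf, h1]

/-- `g` maps `V ∩ S.O` into `V' ∩ S.O` as soon as it maps `V` into `V'`. -/
theorem smul_mem_lat {V V' : Submodule K F} (hV : ∀ f ∈ V, g • f ∈ V') {f : F}
    (hf : f ∈ R.lat V) : g • f ∈ R.lat V' :=
  ⟨hV f hf.1, hg.smul_mem f hf.2⟩

/-- the reduction of `V ∩ S.O` is contained in the reduction of `V' ∩ S.O`. -/
theorem redLat_le {V V' : Submodule K F} (hV : ∀ f ∈ V, g • f ∈ V') :
    R.redLat V ≤ R.redLat V' := by
  rintro y ⟨x, hx, hxV, rfl⟩
  exact ⟨g • x, hg.smul_mem x hx, hV x hxV, hg.res_smul x hx⟩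

end InertiaLike

/-! ### The chart divisors of a fixed function -/

section ChartDivisors

variable (g : SemilinearAut K F) {t : F} {Dt : Divisor K F}

/-- a divisor given by the orders of a `g`-fixed function is `g`-fixed -/
theorem smul_eq_of_ord (hDt : ∀ v : Place K F, Dt v = v.ord t) (ht : g • t = t) :
    g • Dt = Dt := by
  ext w
  rw [SemilinearAut.divisor_smul_apply, hDt, hDt, ← ord_smul', ht]

theorem smul_Czero_of_ord (hDt : ∀ v : Place K F, Dt v = v.ord t) (ht : g • t = t) :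
    g • (TwoCharts.ofDivisor Dt).Czero = (TwoCharts.ofDivisor Dt).Czero := by
  show g • (Dt ⊔ 0) = Dt ⊔ 0
  rw [smul_sup_zero, smul_eq_of_ord g hDt ht]

theorem smul_Cinf_of_ord (hDt : ∀ v : Place K F, Dt v = v.ord t) (ht : g • t = t) :
    g • (TwoCharts.ofDivisor Dt).Cinf = (TwoCharts.ofDivisor Dt).Cinf := by
  show g • ((-Dt) ⊔ 0) = (-Dt) ⊔ 0
  rw [smul_sup_zero, smul_neg, smul_eq_of_ord g hDt ht]

end ChartDivisors

/-! ### Place form: the lattices `Lam(D; a, b) = L(D + a C₀ + b C∞) ∩ S.O` -/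

section PlaceForm

variable {R : RedSetup2 A S k κ} {g : SemilinearAut K F} (hg : InertiaLike R g)
  {T : TwoCharts K F} (hC0 : g • T.Czero = T.Czero) (hCinf : g • T.Cinf = T.Cinf)
include hg hC0 hCinf

/-- `g` maps `Lam(D; a, b)` into `Lam(g • D; a, b)`. -/
theorem smul_mem_lat_LM {D : Divisor K F} {a b : ℕ} {f : F} (hf : f ∈ R.lat (T.LM D a b)) :
    g • f ∈ R.lat (T.LM (g • D) a b) :=
  hg.smul_mem_lat (fun _ h => smul_mem_LM g hC0 hCinf h) hf

/-- `g` preserves `Lam(0; a, b)`. -/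
theorem smul_mem_lat_LN {a b : ℕ} {f : F} (hf : f ∈ R.lat (T.LN a b)) :
    g • f ∈ R.lat (T.LN a b) :=
  hg.smul_mem_lat (fun _ h => smul_mem_LN g hC0 hCinf h) hf

/-- **transport of a trivialisation**: `y ∈ Lam(D; a, b)` with `res y = 1` gives
`g • y ∈ Lam(g • D; a, b)` with `res (g • y) = 1`. -/
theorem smul_triv {D : Divisor K F} {a b : ℕ} {y : F} (hy : y ∈ S.O) (hyL : y ∈ T.LM D a b)
    (h1 : R.res ⟨y, hy⟩ = 1) :
    ∃ hy' : g • y ∈ S.O, g • y ∈ T.LM (g • D) a b ∧ R.res ⟨g • y, hy'⟩ = 1 :=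
  ⟨hg.smul_mem y hy, smul_mem_LM g hC0 hCinf hyL, hg.res_smul_eq_one hy h1⟩

/-- the existential (Layer 1) form of `smul_triv`, chart `∞` -/
theorem exists_smul_triv_inf {D : Divisor K F} {y : F}
    (h : ∃ (b : ℕ) (hy : y ∈ S.O), y ∈ T.LM D 0 b ∧ R.res ⟨y, hy⟩ = 1) :
    ∃ (b : ℕ) (hy : g • y ∈ S.O), g • y ∈ T.LM (g • D) 0 b ∧ R.res ⟨g • y, hy⟩ = 1 := by
  obtain ⟨b, hy, hyL, h1⟩ := h
  obtain ⟨hy', hyL', h1'⟩ := smul_triv hg hC0 hCinf hy hyL h1
  exact ⟨b, hy', hyL', h1'⟩

/-- the existential (Layer 1) form of `smul_triv`, chart `0` -/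
theorem exists_smul_triv_zero {D : Divisor K F} {y : F}
    (h : ∃ (a : ℕ) (hy : y ∈ S.O), y ∈ T.LM D a 0 ∧ R.res ⟨y, hy⟩ = 1) :
    ∃ (a : ℕ) (hy : g • y ∈ S.O), g • y ∈ T.LM (g • D) a 0 ∧ R.res ⟨g • y, hy⟩ = 1 := by
  obtain ⟨a, hy, hyL, h1⟩ := h
  obtain ⟨hy', hyL', h1'⟩ := smul_triv hg hC0 hCinf hy hyL h1
  exact ⟨a, hy', hyL', h1'⟩

end PlaceForm

/-- the cocycle of the transported trivialisations is the transported cocycle -/
theorem smul_cocycle (g : SemilinearAut K F) (hoo h0' : F) :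
    g • hoo * g • h0' = g • (hoo * h0') :=
  (smul_mul' g hoo h0').symm

/-- `g • (-D) = -(g • D)` -/
theorem smul_neg_divisor (g : SemilinearAut K F) (D : Divisor K F) : g • (-D) = -(g • D) :=
  smul_neg g D

/-! ### Place-free form: `twoPole K t t⁻¹ a b` -/

section PlaceFree

variable (g : SemilinearAut K F) {t : F}

/-- `g` maps `K[u]` into itself if `g • u = u`. -/
theorem smul_mem_adjoin {u : F} (hu : g • u = u) {x : F} (hx : x ∈ Algebra.adjoin K {u}) :
    g • x ∈ Algebra.adjoin K {u} := by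
  induction hx using Algebra.adjoin_induction with
  | mem x hx =>
    rw [Set.mem_singleton_iff] at hx
    rw [hx, hu]
    exact Algebra.self_mem_adjoin_singleton K u
  | algebraMap c =>
    rw [SemilinearAut.smul_algebraMap]
    exact Subalgebra.algebraMap_mem _ _
  | add x y _ _ hx hy =>
    rw [smul_add]
    exact add_mem hx hy
  | mul x y _ _ hx hy =>
    rw [smul_mul']
    exact mul_mem hx hy

/-- the restriction of `g` to `K[u]` -/
def adjoinHom {u : F} (hu : g • u = u) : Algebra.adjoin K {u} →+* Algebra.adjoin K {u} where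
  toFun x := ⟨g • (x : F), smul_mem_adjoin g hu x.2⟩
  map_one' := Subtype.ext (smul_one g)
  map_mul' x y := Subtype.ext (smul_mul' g (x : F) (y : F))
  map_zero' := Subtype.ext (smul_zero g)
  map_add' x y := Subtype.ext (smul_add g (x : F) (y : F))

/-- `g` preserves integrality over `K[u]` if `g • u = u`. -/
theorem isIntegral_smul {u : F} (hu : g • u = u) {y : F}
    (hy : IsIntegral (Algebra.adjoin K {u}) y) : IsIntegral (Algebra.adjoin K {u}) (g • y) := by
  have h := IsIntegral.map_of_comp_eq (adjoinHom g hu)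
    (MulSemiringAction.toRingHom (SemilinearAut K F) F g) (by
      ext x
      rfl) hy
  exact h

theorem smul_inv_eq (ht : g • t = t) : g • t⁻¹ = t⁻¹ := by
  rw [smul_inv'', ht]

/-- `g` preserves `twoPole K t t⁻¹ a b` if `g • t = t`. -/
theorem smul_mem_twoPole (ht : g • t = t) {a b : ℕ} {y : F}
    (hy : y ∈ twoPole K t t⁻¹ a b) : g • y ∈ twoPole K t t⁻¹ a b := by
  have hti := smul_inv_eq g ht
  refine ⟨?_, ?_⟩
  · have h := isIntegral_smul g ht hy.1
    rwa [smul_mul', smul_pow', ht] at h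
  · have h := isIntegral_smul g hti hy.2
    rwa [smul_mul', smul_pow', hti] at h

variable {g} {R : RedSetup2 A S k κ} (hg : InertiaLike R g) (C : ChartCoord R)
include hg

/-- `g` preserves `Lam(a, b) = R.lat (C.LN a b)` if it fixes the chart coordinate. -/
theorem smul_mem_lat_LN' (ht : g • C.t = C.t) {a b : ℕ} {f : F} (hf : f ∈ R.lat (C.LN a b)) :
    g • f ∈ R.lat (C.LN a b) :=
  hg.smul_mem_lat (fun _ h => smul_mem_twoPole g ht h) hf

/-- the reduction of a transported element of `Lam(a, b)` -/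
theorem res_smul_lat_LN' (ht : g • C.t = C.t) {a b : ℕ} {f : F} (hf : f ∈ R.lat (C.LN a b)) :
    R.res ⟨g • f, (smul_mem_lat_LN' hg C ht hf).2⟩ = R.res ⟨f, hf.2⟩ :=
  hg.res_smul f hf.2

end PlaceFree

/-! ### Unions of lattices (the chart rings `B∞`, `B₀`, `Bx`) -/

section Unions

variable {g : SemilinearAut K F} {ι : Type*} (Lam : ι → Submodule A F)

/-- a set which is a union of `A`-lattices each mapped into itself by `g` is mapped into itself
by `g`; stated for an arbitrary membership predicate so that it applies to any definition of the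
chart rings. -/
theorem smul_mem_of_union {B : Set F} (hB : ∀ x, x ∈ B ↔ ∃ i, x ∈ Lam i)
    (hLam : ∀ i, ∀ x ∈ Lam i, g • x ∈ Lam i) {x : F} (hx : x ∈ B) : g • x ∈ B := by
  obtain ⟨i, hi⟩ := (hB x).mp hx
  exact (hB _).mpr ⟨i, hLam i x hi⟩

/-- if `g⁻¹` preserves the lattices too, `g • x ∈ B ↔ x ∈ B`. -/
theorem smul_mem_iff_of_union {B : Set F} (hB : ∀ x, x ∈ B ↔ ∃ i, x ∈ Lam i)
    (hLam : ∀ i, ∀ x ∈ Lam i, g • x ∈ Lam i) (hLam' : ∀ i, ∀ x ∈ Lam i, g⁻¹ • x ∈ Lam i)
    {x : F} : g • x ∈ B ↔ x ∈ B := by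
  refine ⟨fun h => ?_, smul_mem_of_union Lam hB hLam⟩
  have := smul_mem_of_union (g := g⁻¹) Lam hB hLam' h
  rwa [inv_smul_smul] at this

end Unions

/-! ### A subgroup of inertia-like automorphisms -/

section Subgroup

variable {R : RedSetup2 A S k κ} (Γ : Subgroup (SemilinearAut K F))

/-- for a SUBGROUP of inertia-like automorphisms: `g • f ∈ S.O ↔ f ∈ S.O`. -/
theorem smul_mem_O_iff (hΓ : ∀ g ∈ Γ, InertiaLike R g) {g : SemilinearAut K F} (hg : g ∈ Γ)
    {f : F} : g • f ∈ S.O ↔ f ∈ S.O := by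
  refine ⟨fun h => ?_, (hΓ g hg).smul_mem f⟩
  have := (hΓ g⁻¹ (Γ.inv_mem hg)).smul_mem _ h
  rwa [inv_smul_smul] at this

/-- for a subgroup of inertia-like automorphisms fixing the chart coordinate, `g` induces a
bijection of each `Lam(a, b)`. -/
theorem smul_mem_lat_LN'_iff (hΓ : ∀ g ∈ Γ, InertiaLike R g) (C : ChartCoord R)
    (ht : ∀ g ∈ Γ, g • C.t = C.t) {g : SemilinearAut K F} (hg : g ∈ Γ) {a b : ℕ} {f : F} :
    g • f ∈ R.lat (C.LN a b) ↔ f ∈ R.lat (C.LN a b) := by
  refine ⟨fun h => ?_, smul_mem_lat_LN' (hΓ g hg) C (ht g hg)⟩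
  have := smul_mem_lat_LN' (hΓ g⁻¹ (Γ.inv_mem hg)) C (ht g⁻¹ (Γ.inv_mem hg)) h
  rwa [inv_smul_smul] at this

end Subgroup

end Fermat.Agent.S33x.Cech.GaloisLat
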