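import Fermat.Agent.S33x.Cech.Datum
import Fermat.Agent.S33x.Cech.GaloisLat

/-!
# P-S33, Layer 2 (L2-B3): Galois transport of Cech data and cocycles

`R : RedSetup2 A S k κ`, `g : SemilinearAut K F` inertia-like for `R`
(`GaloisLat.InertiaLike`: preserves `S.O`, trivial on the residue ring), fixing the chart
coordinate `t` (`Dt v = v.ord t`, `g • t = t`).  Then

* `resOne_smul` : `ResOne R x → ResOne R (g • x)`;
* `smul_mem_LamD` : `g` maps `Lam(D; a, b)` into `Lam(g • D; a, b)`;
* `smulDatum hg hDt ht d : CechDatum R Dt (g • D)` for `d : CechDatum R Dt D`, with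
  `cocycle_smulDatum : (smulDatum hg hDt ht d).cocycle = g • d.cocycle`, and the compatibilities
  with the unit, product and negative data on the level of the four components;
* `smul_mem_Lam`, `smul_mem_Boo`, `smul_mem_Bzero`, `smul_mem_Bx` : `g` preserves the untwisted
  lattices `Lam C a b` and the chart rings `B∞`, `B₀`, `Bx` of `H1/InstC1` (as sets) when
  `g • C.t = C.t`; `_iff` versions for a subgroup `Γ` of such automorphisms;
* `smul_sum_smul` : `g • (f + h + ∑ s_i • a_i) = g • f + g • h + ∑ g(s_i) • a_i` for `g`-fixed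
  `a_i` (the shape in which the normal form of `g • cocycle` is compared with the
  normal form of the cocycle, `NormalFormAux.normalForm_map`).
-/

set_option autoImplicit false
set_option linter.unusedSectionVars false

noncomputable section

namespace Fermat.Agent.S33x.Cech.GaloisDatum

open AlgebraicCurve Fermat.Agent.Gateway.C0 Fermat.Agent.S34x Fermat.Agent.S34x.C0two
  Fermat.Agent.S34x.Lattice2 Fermat.Agent.S33x.H1.InstC1 Fermat.Agent.S33x.Cech.Datum
  Fermat.Agent.S33x.Cech.GaloisLat

variable {K : Type*} [Field K] {A : ValuationSubring K} {F : Type*} [Field F] [Algebra K F]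
  {S : SmallRing F} {k κ : Type*} [Field k] [CommRing κ] [Algebra k κ]
  {R : RedSetup2 A S k κ} {g : SemilinearAut K F}

/-! ### elements reducing to `1` and the twisted lattices -/

theorem resOne_smul (hg : InertiaLike R g) {x : F} (hx : ResOne R x) : ResOne R (g • x) := by
  obtain ⟨hxO, hx1⟩ := hx
  exact ⟨hg.smul_mem x hxO, hg.res_smul_eq_one hxO hx1⟩

section Twisted

variable (hg : InertiaLike R g) {t : F} {Dt : Divisor K F}
  (hDt : ∀ v : Place K F, Dt v = v.ord t) (ht : g • t = t)
include hg hDt ht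

/-- `g` maps `Lam(D; a, b)` into `Lam(g • D; a, b)`. -/
theorem smul_mem_LamD {D : Divisor K F} {a b : ℕ} {x : F} (hx : x ∈ LamD R Dt D a b) :
    g • x ∈ LamD R Dt (g • D) a b :=
  smul_mem_lat_LM hg (smul_Czero_of_ord g hDt ht) (smul_Cinf_of_ord g hDt ht) hx

/-- `g` maps `Lam(-D; a, b)` into `Lam(-(g • D); a, b)`. -/
theorem smul_mem_LamD_neg {D : Divisor K F} {a b : ℕ} {x : F} (hx : x ∈ LamD R Dt (-D) a b) :
    g • x ∈ LamD R Dt (-(g • D)) a b := by
  have h := smul_mem_LamD hg hDt ht hx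
  rwa [smul_neg] at h

/-- **Galois transport of a Cech datum.** -/
def smulDatum {D : Divisor K F} (d : CechDatum R Dt D) : CechDatum R Dt (g • D) where
  hoo := g • d.hoo
  h0 := g • d.h0
  hoo' := g • d.hoo'
  h0' := g • d.h0'
  hoo_mem := by
    obtain ⟨b, hb⟩ := d.hoo_mem
    exact ⟨b, smul_mem_LamD hg hDt ht hb⟩
  h0_mem := by
    obtain ⟨a, ha⟩ := d.h0_mem
    exact ⟨a, smul_mem_LamD hg hDt ht ha⟩
  hoo'_mem := by
    obtain ⟨b, hb⟩ := d.hoo'_mem
    exact ⟨b, smul_mem_LamD_neg hg hDt ht hb⟩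
  h0'_mem := by
    obtain ⟨a, ha⟩ := d.h0'_mem
    exact ⟨a, smul_mem_LamD_neg hg hDt ht ha⟩
  res_hoo := resOne_smul hg d.res_hoo
  res_h0 := resOne_smul hg d.res_h0
  res_hoo' := resOne_smul hg d.res_hoo'
  res_h0' := resOne_smul hg d.res_h0'

@[simp] theorem smulDatum_hoo {D : Divisor K F} (d : CechDatum R Dt D) :
    (smulDatum hg hDt ht d).hoo = g • d.hoo := rfl

@[simp] theorem smulDatum_h0 {D : Divisor K F} (d : CechDatum R Dt D) :
    (smulDatum hg hDt ht d).h0 = g • d.h0 := rfl

@[simp] theorem smulDatum_hoo' {D : Divisor K F} (d : CechDatum R Dt D) :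
    (smulDatum hg hDt ht d).hoo' = g • d.hoo' := rfl

@[simp] theorem smulDatum_h0' {D : Divisor K F} (d : CechDatum R Dt D) :
    (smulDatum hg hDt ht d).h0' = g • d.h0' := rfl

/-- the cocycle of the transported datum is the transported cocycle -/
theorem cocycle_smulDatum {D : Divisor K F} (d : CechDatum R Dt D) :
    (smulDatum hg hDt ht d).cocycle = g • d.cocycle := by
  simp only [CechDatum.cocycle, smulDatum, smul_mul']

/-- transport commutes with the negative datum (on cocycles) -/
theorem cocycle_neg_smulDatum {D : Divisor K F} (d : CechDatum R Dt D) :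
    (smulDatum hg hDt ht d).neg.cocycle = g • d.neg.cocycle := by
  simp only [CechDatum.cocycle, CechDatum.neg, smulDatum, smul_mul']

/-- transport commutes with the product datum (on cocycles) -/
theorem cocycle_mul_smulDatum {D D' : Divisor K F} (d : CechDatum R Dt D)
    (d' : CechDatum R Dt D') :
    ((smulDatum hg hDt ht d).mul (smulDatum hg hDt ht d')).cocycle = g • (d.mul d').cocycle := by
  simp only [CechDatum.cocycle, CechDatum.mul, smulDatum, smul_mul']

/-- the chart-`∞` unit `hoo * hoo'` of the transported datum -/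
theorem hoo_mul_hoo'_smulDatum {D : Divisor K F} (d : CechDatum R Dt D) :
    (smulDatum hg hDt ht d).hoo * (smulDatum hg hDt ht d).hoo' = g • (d.hoo * d.hoo') := by
  simp only [smulDatum, smul_mul']

/-- the chart-`0` unit `h0 * h0'` of the transported datum -/
theorem h0_mul_h0'_smulDatum {D : Divisor K F} (d : CechDatum R Dt D) :
    (smulDatum hg hDt ht d).h0 * (smulDatum hg hDt ht d).h0' = g • (d.h0 * d.h0') := by
  simp only [smulDatum, smul_mul']

/-- existence form: Cech data exist for `g • D` as soon as they exist for `D` -/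
theorem nonempty_cechDatum_smul {D : Divisor K F} (h : Nonempty (CechDatum R Dt D)) :
    Nonempty (CechDatum R Dt (g • D)) :=
  h.map (smulDatum hg hDt ht)

end Twisted

/-! ### the untwisted lattices and the chart rings of `H1/InstC1` -/

section ChartRings

variable (hg : InertiaLike R g) (C : ChartCoord R) (ht : g • C.t = C.t)
include hg ht

/-- `g` preserves `Lam(a, b)`. -/
theorem smul_mem_Lam {a b : ℕ} {x : F} (hx : x ∈ Lam C a b) : g • x ∈ Lam C a b :=
  smul_mem_lat_LN' hg C ht hx

/-- the reduction of `g • x`, `x ∈ Lam(a, b)` -/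
theorem res_smul_Lam {a b : ℕ} {x : F} (hx : x ∈ Lam C a b) :
    R.res ⟨g • x, (smul_mem_Lam hg C ht hx).2⟩ = R.res ⟨x, hx.2⟩ :=
  hg.res_smul x hx.2

/-- `g` preserves the chart ring `B∞ = ⋃_b Lam(0, b)`. -/
theorem smul_mem_Boo {x : F} (hx : x ∈ Boo C) : g • x ∈ Boo C := by
  refine Submodule.iSup_induction (fun c => Lam C 0 c) (motive := fun x => g • x ∈ Boo C) hx
    (fun c x hx => H1Fg.le_chartU (M := Lam C) c (smul_mem_Lam hg C ht hx)) ?_ ?_
  · rw [smul_zero]
    exact Submodule.zero_mem _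
  · intro x y hx hy
    rw [smul_add]
    exact Submodule.add_mem _ hx hy

/-- `g` preserves the chart ring `B₀ = ⋃_a Lam(a, 0)`. -/
theorem smul_mem_Bzero {x : F} (hx : x ∈ Bzero C) : g • x ∈ Bzero C := by
  refine Submodule.iSup_induction (fun a => Lam C a 0) (motive := fun x => g • x ∈ Bzero C) hx
    (fun a x hx => H1Fg.le_chartU' (M := Lam C) a (smul_mem_Lam hg C ht hx)) ?_ ?_
  · rw [smul_zero]
    exact Submodule.zero_mem _
  · intro x y hx hy
    rw [smul_add]
    exact Submodule.add_mem _ hx hy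

/-- `g` preserves the overlap ring `Bx = ⋃_{a,b} Lam(a, b)`. -/
theorem smul_mem_Bx {x : F} (hx : x ∈ Bx C) : g • x ∈ Bx C := by
  refine Submodule.iSup_induction (fun a => ⨆ c, Lam C a c) (motive := fun x => g • x ∈ Bx C) hx
    (fun a x hx => ?_) ?_ ?_
  · refine Submodule.iSup_induction (fun c => Lam C a c) (motive := fun x => g • x ∈ Bx C) hx
      (fun c x hx => H1Fg.le_chartX (M := Lam C) a c (smul_mem_Lam hg C ht hx)) ?_ ?_
    · rw [smul_zero]
      exact Submodule.zero_mem _
    · intro x y hx hy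
      rw [smul_add]
      exact Submodule.add_mem _ hx hy
  · rw [smul_zero]
    exact Submodule.zero_mem _
  · intro x y hx hy
    rw [smul_add]
    exact Submodule.add_mem _ hx hy

end ChartRings

/-! ### a subgroup of inertia-like automorphisms: `g` induces bijections -/

section Subgroup

variable (Γ : Subgroup (SemilinearAut K F)) (hΓ : ∀ g ∈ Γ, InertiaLike R g)
  (C : ChartCoord R) (ht : ∀ g ∈ Γ, g • C.t = C.t)
include hΓ ht

theorem smul_mem_Lam_iff {g : SemilinearAut K F} (hg : g ∈ Γ) {a b : ℕ} {x : F} :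
    g • x ∈ Lam C a b ↔ x ∈ Lam C a b :=
  smul_mem_lat_LN'_iff Γ hΓ C ht hg

theorem smul_mem_Boo_iff {g : SemilinearAut K F} (hg : g ∈ Γ) {x : F} :
    g • x ∈ Boo C ↔ x ∈ Boo C := by
  refine ⟨fun h => ?_, smul_mem_Boo (hΓ g hg) C (ht g hg)⟩
  have := smul_mem_Boo (hΓ g⁻¹ (Γ.inv_mem hg)) C (ht g⁻¹ (Γ.inv_mem hg)) h
  rwa [inv_smul_smul] at this

theorem smul_mem_Bzero_iff {g : SemilinearAut K F} (hg : g ∈ Γ) {x : F} :
    g • x ∈ Bzero C ↔ x ∈ Bzero C := by
  refine ⟨fun h => ?_, smul_mem_Bzero (hΓ g hg) C (ht g hg)⟩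
  have := smul_mem_Bzero (hΓ g⁻¹ (Γ.inv_mem hg)) C (ht g⁻¹ (Γ.inv_mem hg)) h
  rwa [inv_smul_smul] at this

theorem smul_mem_Bx_iff {g : SemilinearAut K F} (hg : g ∈ Γ) {x : F} :
    g • x ∈ Bx C ↔ x ∈ Bx C := by
  refine ⟨fun h => ?_, smul_mem_Bx (hΓ g hg) C (ht g hg)⟩
  have := smul_mem_Bx (hΓ g⁻¹ (Γ.inv_mem hg)) C (ht g⁻¹ (Γ.inv_mem hg)) h
  rwa [inv_smul_smul] at this

end Subgroup

/-! ### transport of a decomposition `f + h + ∑ s_i a_i` with fixed `a_i` -/

section Decomposition

/-- the action of `g` on `a • x` for `a : A` (semilinearity over the valuation ring) -/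
theorem smul_valSMul (g : SemilinearAut K F) (a : A) (x : F) :
    g • (a • x) = (SemilinearAut.baseAut g (a : K)) • (g • x) := by
  have h1 : a • x = algebraMap K F (a : K) * x := by
    rw [← Algebra.smul_def]
    rfl
  rw [h1, smul_mul', SemilinearAut.smul_algebraMap, ← Algebra.smul_def]

/-- `g • (f + h + ∑ s_i • a_i) = g • f + g • h + ∑ g(s_i) • a_i` for `g`-fixed `a_i`. -/
theorem smul_sum_smul (g : SemilinearAut K F) {ι : Type*} [Fintype ι] (a : ι → F)
    (ha : ∀ i, g • a i = a i) (f h : F) (s : ι → A) :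
    g • (f + h + ∑ i, s i • a i) =
      g • f + g • h + ∑ i, (SemilinearAut.baseAut g (s i : K)) • a i := by
  rw [smul_add, smul_add, Finset.smul_sum]
  congr 1
  refine Finset.sum_congr rfl fun i _ => ?_
  rw [smul_valSMul, ha]

end Decomposition

end Fermat.Agent.S33x.Cech.GaloisDatum
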