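/-
P-S33 (blueprint v2), LAYER 2, leaf (B3)/(I3-datum), independent SECOND (helper32): the Galois
transport of Cech data and of their cocycles, and the typed semilinear action on the overlap ring.

Vocabulary: `R : RedSetup2 A S k κ`, `C : ChartCoord R`, `Dt = div C.t`, `CechDatum R Dt D`
(`Cech/Datum`, helper49), `Cyc`, `CycB`, `IsData` (`Cech/CycKm`, helper49), `BxAlg C`, `BooAlg C`,
`BzeroAlg C : Subalgebra A F` (`H1/InstC4`, helper50), `ooIn`, `zeroIn`, `aIn`
(`Cech/OfDirectSum`, helper33), `CtxGal` (`Cech/CtxMq`, helper43).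

PART 1 (any `RedSetup2`, `g : SemilinearAut K F`): `GalHyp R t g` = `g` fixes `t`, preserves `S.O`
and commutes with the reduction;  `GalHyp.of_ctxGal`;  `smul_mem_LamD`, `resOne_smul`,
`smulDatum h hDt d : CechDatum R Dt (g • D)` with `cocycle_smulDatum`, `unitOne_smul`, `isData_smul`,
`smul_mem_cyc` (= `cyc_gal` inside `F`), `gal_datum` (the literal of ruling v5).

PART 2 (chart rings): `g` preserves `Lam C a b`, `BxAlg C`, `BooAlg C`, `BzeroAlg C`.

PART 3 (typed action): `actB h ht hDt : ↥(BxAlg C) →+* ↥(BxAlg C)` with `coe_actB`, `actB_mem_ooIn`,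
`actB_mem_zeroIn`, `actB_algebraMap` (= `hAB`), `actB_aIn` (= `ha`), `actB_mem_cycB` (= `cyc_gal`),
the restriction `actA : A →+* A` of the base automorphism, and `associated_actA` (= `hAss`) for
automorphisms with finite orbits preserving `A` in both directions.

PART 4 (level `M q`): the same for `g_τ = arithmeticGalois (modularFunctionFieldFull (M * q)) τ`,
`τ` in the inertia group: `galHyp_inertia`, `cyc_gal_inertia`.
-/
import Fermat.Agent.S33x.Cech.CycKm
import Fermat.Agent.S33x.Cech.CtxMq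
import Fermat.Agent.S33x.Cech.OfDirectSum
import Fermat.Agent.S34x.Inst.SigmaGlue
import Fermat.Agent.S34x.Inst.UnitQuot
import Fermat.Agent.S33x.H1.StableLN

set_option autoImplicit false
set_option linter.unusedSectionVars false
set_option linter.style.haveILetI false

noncomputable section

namespace Fermat.Agent.S33x.Cech.GaloisDatumB

open AlgebraicCurve Module IntermediateField IsLocalRing
open Fermat.Agent.Gateway.C0 Fermat.Agent.S34x Fermat.Agent.S34x.C0two Fermat.Agent.S34x.Lattice2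
open Fermat.Agent.S33x.H1.InstC1 Fermat.Agent.S33x.H1.InstC4
open Fermat.Agent.S33x.Cech.Datum Fermat.Agent.S33x.Cech.CycKm Fermat.Agent.S33x.KummerPn
open Fermat.Agent.S34x.Inst

/-! ## Part 1: transport of Cech data -/

section general

variable {K : Type*} [Field K] {A : ValuationSubring K} {F : Type*} [Field F] [Algebra K F]
  {S : SmallRing F} {k κ : Type*} [Field k] [CommRing κ] [Algebra k κ]

/-- **The Galois hypothesis** on one semilinear automorphism `g`: it fixes the coordinate `t`,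
preserves `S.O` and commutes with the reduction. -/
structure GalHyp (R : RedSetup2 A S k κ) (t : F) (g : SemilinearAut K F) : Prop where
  smul_t : g • t = t
  smul_mem : ∀ f ∈ S.O, g • f ∈ S.O
  res_smul : ∀ (f : F) (hf : f ∈ S.O), R.res ⟨g • f, smul_mem f hf⟩ = R.res ⟨f, hf⟩

variable {R : RedSetup2 A S k κ} {t : F} {g : SemilinearAut K F}

namespace GalHyp

variable (h : GalHyp R t g) {Dt : Divisor K F} (hDt : ∀ v : Place K F, Dt v = v.ord t)

include h hDt in
/-- `g` fixes the divisor of `t`. -/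
theorem smul_Dt : g • Dt = Dt := by
  ext w
  rw [SemilinearAut.divisor_smul_apply, hDt, hDt, ← SigmaGlue.ord_smul', h.smul_t]

include h hDt in
theorem smul_Czero : g • (TwoCharts.ofDivisor Dt).Czero = (TwoCharts.ofDivisor Dt).Czero := by
  show g • (Dt ⊔ 0) = Dt ⊔ 0
  rw [SigmaGlue.smul_sup_zero, h.smul_Dt hDt]

include h hDt in
theorem smul_Cinf : g • (TwoCharts.ofDivisor Dt).Cinf = (TwoCharts.ofDivisor Dt).Cinf := by
  show g • ((-Dt) ⊔ 0) = (-Dt) ⊔ 0
  rw [SigmaGlue.smul_sup_zero, smul_neg, h.smul_Dt hDt]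

include h hDt in
/-- `g` maps `Lam(D; a, b)` to `Lam(g • D; a, b)`. -/
theorem smul_mem_LamD {D : Divisor K F} {a b : ℕ} {f : F} (hf : f ∈ LamD R Dt D a b) :
    g • f ∈ LamD R Dt (g • D) a b :=
  ⟨SigmaGlue.smul_mem_LM g (h.smul_Czero hDt) (h.smul_Cinf hDt) hf.1, h.smul_mem f hf.2⟩

include h hDt in
/-- `g` preserves `Lam(0; a, b)`. -/
theorem smul_mem_LamD_zero {a b : ℕ} {f : F} (hf : f ∈ LamD R Dt 0 a b) :
    g • f ∈ LamD R Dt 0 a b := by
  have := h.smul_mem_LamD hDt hf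
  rwa [smul_zero] at this

include h in
/-- `g` preserves the elements reducing to `1`. -/
theorem resOne_smul {f : F} (hf : ResOne R f) : ResOne R (g • f) := by
  obtain ⟨hfO, hf1⟩ := hf
  exact ⟨h.smul_mem f hfO, by rw [h.res_smul f hfO, hf1]⟩

include h in
/-- `g` preserves the units of `S.O` reducing to `1`. -/
theorem unitOne_smul {w : F} (hw : UnitOne R w) : UnitOne R (g • w) := by
  obtain ⟨hO, hiO, h1⟩ := hw
  refine ⟨h.smul_mem w hO, ?_, by rw [h.res_smul w hO, h1]⟩
  have := h.smul_mem _ hiO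
  rwa [smul_inv''] at this

/-- **The transported Cech datum** of `g • D`. -/
def smulDatum {D : Divisor K F} (d : CechDatum R Dt D) : CechDatum R Dt (g • D) where
  hoo := g • d.hoo
  h0 := g • d.h0
  hoo' := g • d.hoo'
  h0' := g • d.h0'
  hoo_mem := by
    obtain ⟨b, hb⟩ := d.hoo_mem
    exact ⟨b, h.smul_mem_LamD hDt hb⟩
  h0_mem := by
    obtain ⟨a, ha⟩ := d.h0_mem
    exact ⟨a, h.smul_mem_LamD hDt ha⟩
  hoo'_mem := by
    obtain ⟨b, hb⟩ := d.hoo'_mem
    refine ⟨b, ?_⟩
    have := h.smul_mem_LamD hDt hb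
    rwa [smul_neg] at this
  h0'_mem := by
    obtain ⟨a, ha⟩ := d.h0'_mem
    refine ⟨a, ?_⟩
    have := h.smul_mem_LamD hDt ha
    rwa [smul_neg] at this
  res_hoo := h.resOne_smul d.res_hoo
  res_h0 := h.resOne_smul d.res_h0
  res_hoo' := h.resOne_smul d.res_hoo'
  res_h0' := h.resOne_smul d.res_h0'

@[simp] theorem cocycle_smulDatum {D : Divisor K F} (d : CechDatum R Dt D) :
    (h.smulDatum hDt d).cocycle = g • d.cocycle := by
  show g • d.hoo * g • d.h0' = g • (d.hoo * d.h0')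
  rw [smul_mul']

include h hDt in
/-- **(I3-datum), `gal_datum`**: the literal of ruling v5. -/
theorem gal_datum {D : Divisor K F} (d : CechDatum R Dt D) :
    ∃ d' : CechDatum R Dt (g • D), d'.cocycle = g • d.cocycle :=
  ⟨h.smulDatum hDt d, h.cocycle_smulDatum hDt d⟩

include h in
/-- **Galois transport of normalised Kummer pairs.** -/
theorem isData_smul {m : ℕ} {ξ : Pic0 K F} {w : F} {D : Divisor K F} (hd : IsData R m ξ w D) :
    IsData R m (g • ξ) (g • w) (g • D) where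
  ne_zero := SigmaGlue.smul_ne_zero g hd.ne_zero
  unitOne := h.unitOne_smul hd.unitOne
  ord := fun v => by
    rw [SemilinearAut.divisor_smul_apply, hd.ord, SigmaGlue.ord_smul']
  cls := by
    obtain ⟨hD, rfl⟩ := hd.cls
    exact ⟨SemilinearAut.smul_mem_degZero g hD, (SemilinearAut.pic0_smul_mk g ⟨D, hD⟩).symm⟩

include h hDt in
/-- **`cyc_gal`** inside `F`. -/
theorem smul_mem_cyc {m : ℕ} {ξ : Pic0 K F} {c : F} (hc : c ∈ Cyc R Dt m ξ) :
    g • c ∈ Cyc R Dt m (g • ξ) := by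
  obtain ⟨w, D, hd, d, rfl⟩ := hc
  exact ⟨g • w, g • D, h.isData_smul hd, h.smulDatum hDt d, h.cocycle_smulDatum hDt d⟩

end GalHyp

/-- from helper43's `CtxGal` (a SET of automorphisms) to the hypothesis on one automorphism -/
theorem GalHyp.of_ctxGal {E : Type*} [Field E] [Algebra k E] {R : RedSetup2 A S k (E × E)}
    {C : ChartCoord R} {G : Set (SemilinearAut K F)} (hG : CtxMq.CtxGal R C G)
    {g : SemilinearAut K F} (hg : g ∈ G) : GalHyp R C.t g :=
  ⟨hG.smul_t g hg, hG.smul_mem g hg, hG.res_smul g hg⟩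

/-! ## Part 2: the chart rings are stable -/

section rings

variable (C : ChartCoord R) (h : GalHyp R C.t g)

include h in
/-- `g` preserves `Lam(a, b) = L(a C₀ + b C∞) ∩ S.O` (place-free, via `H1/StableLN`). -/
theorem GalHyp.smul_mem_Lam {a b : ℕ} {f : F} (hf : f ∈ Lam C a b) : g • f ∈ Lam C a b :=
  ⟨H1.StableLN.smul_mem_LN C g h.smul_t hf.1, h.smul_mem f hf.2⟩

include h in
theorem GalHyp.smul_mem_BxAlg {f : F} (hf : f ∈ BxAlg C) : g • f ∈ BxAlg C := by
  obtain ⟨a, b, hab⟩ := (mem_BxAlg' C).mp hf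
  exact (mem_BxAlg' C).mpr ⟨a, b, h.smul_mem_Lam C hab⟩

include h in
theorem GalHyp.smul_mem_BooAlg {f : F} (hf : f ∈ BooAlg C) : g • f ∈ BooAlg C := by
  obtain ⟨b, hb⟩ := (mem_BooAlg C).mp hf
  exact (mem_BooAlg C).mpr ⟨b, h.smul_mem_Lam C hb⟩

include h in
theorem GalHyp.smul_mem_BzeroAlg {f : F} (hf : f ∈ BzeroAlg C) : g • f ∈ BzeroAlg C := by
  obtain ⟨a, ha⟩ := (mem_BzeroAlg C).mp hf
  exact (mem_BzeroAlg C).mpr ⟨a, h.smul_mem_Lam C ha⟩

end rings

/-! ## Part 3: the typed action on `B := ↥(BxAlg C)` -/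

section typed

open Fermat.Agent.S33x.Cech.OfDirectSum

variable (C : ChartCoord R) (h : GalHyp R C.t g)

/-- **The action of `g` on the TYPE `↥(BxAlg C)`**, as a ring endomorphism. -/
def actB : BxAlg C →+* BxAlg C :=
  (((SemilinearAut.toRingAut g : F ≃+* F) : F →+* F)).restrict (BxAlg C) (BxAlg C)
    (fun _ hx => h.smul_mem_BxAlg C hx)

@[simp] theorem coe_actB (c : BxAlg C) : ((actB C h c : BxAlg C) : F) = g • (c : F) := rfl

/-- **`hoo`** -/
theorem actB_mem_ooIn {x : BxAlg C} (hx : x ∈ ooIn (BxAlg C) (BooAlg C)) :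
    actB C h x ∈ ooIn (BxAlg C) (BooAlg C) :=
  h.smul_mem_BooAlg C hx

/-- **`h0`** -/
theorem actB_mem_zeroIn {x : BxAlg C} (hx : x ∈ zeroIn (BxAlg C) (BzeroAlg C)) :
    actB C h x ∈ zeroIn (BxAlg C) (BzeroAlg C) :=
  h.smul_mem_BzeroAlg C hx

/-- `g` on constants of `A`, inside `F` -/
theorem smul_algebraMap_A (z : A) :
    g • algebraMap A F z = algebraMap K F (SemilinearAut.baseAut g (z : K)) := by
  have e : algebraMap A F z = algebraMap K F (z : K) := rfl
  rw [e, SemilinearAut.smul_algebraMap]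

/-- **semilinearity over `A`**: `actB (z) = z'` whenever `z' = g-base z`. -/
theorem actB_algebraMap {z z' : A} (hz : (z' : K) = SemilinearAut.baseAut g (z : K)) :
    actB C h (algebraMap A (BxAlg C) z) = algebraMap A (BxAlg C) z' := by
  apply Subtype.ext
  show g • algebraMap A F z = algebraMap A F z'
  rw [smul_algebraMap_A, ← hz]
  rfl

/-- **The restriction of the base automorphism to `A`**. -/
def actA (hA : ∀ c ∈ A, SemilinearAut.baseAut g c ∈ A) : A →+* A :=
  ((SemilinearAut.baseAut g : K ≃+* K) : K →+* K).restrict A A hA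

@[simp] theorem coe_actA (hA : ∀ c ∈ A, SemilinearAut.baseAut g c ∈ A) (c : A) :
    ((actA hA c : A) : K) = SemilinearAut.baseAut g (c : K) := rfl

/-- **`hAB`** -/
theorem actB_algebraMap_actA (hA : ∀ c ∈ A, SemilinearAut.baseAut g c ∈ A) (c : A) :
    actB C h (algebraMap A (BxAlg C) c) = algebraMap A (BxAlg C) (actA hA c) :=
  actB_algebraMap C h (coe_actA hA c)

/-- **`ha`**: fixed `aᵢ` are fixed in the type. -/
theorem actB_aIn {n : ℕ} {a : Fin n → F}
    (H : DirectSum (BxAlg C) (BooAlg C) (BzeroAlg C) a) {i : Fin n} (hi : g • a i = a i) :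
    actB C h (aIn H i) = aIn H i :=
  Subtype.ext hi

variable {Dt : Divisor K F} (hDt : ∀ v : Place K F, Dt v = v.ord C.t)

include hDt in
/-- **`cyc_gal`** in the type `↥(BxAlg C)`. -/
theorem actB_mem_cycB {m : ℕ} {ξ : Pic0 K F} {c : BxAlg C} (hc : c ∈ CycB C Dt m ξ) :
    actB C h c ∈ CycB C Dt m (g • ξ) :=
  h.smul_mem_cyc hDt hc

include hDt in
/-- **(I3-datum), typed form**: the cocycle of the transported datum is `actB` of the cocycle. -/
theorem gal_datum_typed {D : Divisor K F} (d : CechDatum R Dt D) {c : BxAlg C}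
    (hc : (c : F) = d.cocycle) :
    ∃ d' : CechDatum R Dt (g • D), ((actB C h c : BxAlg C) : F) = d'.cocycle :=
  ⟨h.smulDatum hDt d, by rw [coe_actB, hc, h.cocycle_smulDatum hDt d]⟩

end typed

end general

/-! ## Part 4: level `M q`, the inertia group -/

section Mq

open ModularCurve
open Fermat.Agent.Gateway.Hecke Fermat.Agent.Gateway.ESC
open Fermat.Agent.Gateway.Red Fermat.Agent.Gateway.GoodRed
open Fermat.Agent.Gateway.GoodRed.ConjFamily
open Fermat.Agent.S34x.TwoVal
open Fermat.Agent.S34x.Inst.L2 Fermat.Agent.S34x.Inst.IsL2Inst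
open Fermat.Agent.S34x.Inst.RedSetupInst Fermat.Agent.S34x.Inst.ElementYRed
open Fermat.Agent.S34x.Inst.ElementYInt Fermat.Agent.S34x.Inst.Charts
open Fermat.Agent.S34x.Inst.TheoremBMq
open Fermat.Agent.S33x.Cech.OfDirectSum

attribute [-instance] IsScalarTower.of_algHom

variable {L : Type} [Field L] [Algebra ℚ L] [IsAlgClosed L] [Algebra.IsAlgebraic ℚ L]
  {A : ValuationSubring L} {k : Type} [Field k] {π : A →+* k} [IsAlgClosed k]
variable {M q : ℕ} [NeZero M] [NeZero q] [Fact q.Prime] [CharP k q]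
variable {hdeg : finrankAlong L (heckeAlphaBar L M q) = q + 1} {hq : q.Prime} {hqM : ¬ q ∣ M}
variable {hrk : ∀ x ∈ maximalIdeal A, ∀ c : A, c ≠ 0 → ∃ j : ℕ, c ∣ x ^ j}
  {hπ : Function.Surjective π}
variable (H : ResidueFacts A π M q hdeg hq hqM hrk hπ) (hA : A.LiesOverPrime q)
  (x : LaurentSeries ℤ) (hx : coeffMap (Int.castRingHom L) x ∈ FBar L M)
  (Hx : GoodLevelFactsT A π M q hπ hqM (tInt M x hx))

include Hx in
/-- the inertia group satisfies the Galois hypothesis at every chart with coordinate `t = α t'` -/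
theorem galHyp_inertia (C : ChartCoord (redSetup2 H hA)) (hCt : C.t = tA M q x hx)
    {τ : L ≃ₐ[ℚ] L} (hτ : τ ∈ A.inertiaSubgroupIn ℚ) :
    GalHyp (redSetup2 H hA) C.t (arithmeticGalois (modularFunctionFieldFull (M * q)) τ) :=
  GalHyp.of_ctxGal (CtxMq.ctxGal_inertia H hA x hx Hx C hCt) ⟨τ, hτ, rfl⟩

omit [IsAlgClosed L] [Algebra.IsAlgebraic ℚ L] [NeZero M] [NeZero q] [Fact q.Prime] in
/-- the decomposition group preserves `A` (hypothesis `hA` of `actA`) -/
theorem baseAut_mem {τ : L ≃ₐ[ℚ] L} (hτ : τ ∈ A.decompositionSubgroup ℚ) :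
    ∀ c ∈ A, SemilinearAut.baseAut
      (arithmeticGalois (modularFunctionFieldFull (M * q)) τ) c ∈ A :=
  fun _ hc => UnitQuot.apply_mem A hτ hc

omit [IsAlgClosed L] [NeZero M] [NeZero q] [Fact q.Prime] in
/-- **`hAss`**: the decomposition group preserves valuations. -/
theorem associated_actA {τ : L ≃ₐ[ℚ] L} (hτ : τ ∈ A.decompositionSubgroup ℚ) (c : A) :
    Associated (actA (g := arithmeticGalois (modularFunctionFieldFull (M * q)) τ)
      (baseAut_mem hτ) c) c := by
  by_cases hc : c = 0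
  · rw [hc, map_zero]
  have hc0 : (c : L) ≠ 0 := fun h0 => hc (Subtype.ext h0)
  obtain ⟨u, hu⟩ := UnitQuot.exists_unit_eq_apply_div A hτ hc0
  refine ⟨u⁻¹, ?_⟩
  have h1 : actA (g := arithmeticGalois (modularFunctionFieldFull (M * q)) τ)
      (baseAut_mem hτ) c = c * u := by
    apply Subtype.ext
    show τ (c : L) = (c : L) * ((u : A) : L)
    rw [hu]
    field_simp
  rw [h1, mul_assoc, ← Units.val_mul, mul_inv_cancel, Units.val_one, mul_one]

include Hx in
/-- **The Galois fields of the Cyc-literal** (`hAB`, `hAss`, `hoo`, `h0`, `ha`, `cyc_gal`) at the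
concrete chart `C = chart H hA x hx Hx`, for the inertia group acting through
`g_τ = arithmeticGalois (modularFunctionFieldFull (M * q)) τ`; `Cyc y := CycB C Dt m (φ y)` for any
map `φ : X → Pic0` equivariant for an action `actX` of the inertia group on `X`. -/
theorem gal_fields {Dt : Divisor L (FL L (M * q))}
    (hDt : ∀ v : Place L (FL L (M * q)), Dt v = v.ord (chart H hA x hx Hx).t) (m : ℕ)
    {n : ℕ} {a : Fin n → FL L (M * q)}
    (Hd : DirectSum (BxAlg (chart H hA x hx Hx)) (BooAlg (chart H hA x hx Hx))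
      (BzeroAlg (chart H hA x hx Hx)) a)
    (hfix : ∀ τ ∈ A.inertiaSubgroupIn ℚ, ∀ i,
      arithmeticGalois (modularFunctionFieldFull (M * q)) τ • a i = a i)
    {X : Type*} (actX : A.inertiaSubgroupIn ℚ → X → X) (φ : X → Pic0 L (FL L (M * q)))
    (hφ : ∀ (σ : A.inertiaSubgroupIn ℚ) (y : X), φ (actX σ y) = (σ : L ≃ₐ[ℚ] L) • φ y) :
    ∃ (actA' : A.inertiaSubgroupIn ℚ → A →+* A)
      (actB' : A.inertiaSubgroupIn ℚ → BxAlg (chart H hA x hx Hx) →+* BxAlg (chart H hA x hx Hx)),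
      (∀ σ (c : A), ((actA' σ c : A) : L) = (σ : L ≃ₐ[ℚ] L) (c : L)) ∧
      (∀ σ (c : BxAlg (chart H hA x hx Hx)), ((actB' σ c : BxAlg (chart H hA x hx Hx)) :
        FL L (M * q)) =
          arithmeticGalois (modularFunctionFieldFull (M * q)) (σ : L ≃ₐ[ℚ] L) • (c : FL L (M * q))) ∧
      (∀ σ c, actB' σ (algebraMap A (BxAlg (chart H hA x hx Hx)) c) =
        algebraMap A (BxAlg (chart H hA x hx Hx)) (actA' σ c)) ∧
      (∀ σ c, Associated (actA' σ c) c) ∧
      (∀ σ, ∀ z ∈ ooIn (BxAlg (chart H hA x hx Hx)) (BooAlg (chart H hA x hx Hx)),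
        actB' σ z ∈ ooIn (BxAlg (chart H hA x hx Hx)) (BooAlg (chart H hA x hx Hx))) ∧
      (∀ σ, ∀ z ∈ zeroIn (BxAlg (chart H hA x hx Hx)) (BzeroAlg (chart H hA x hx Hx)),
        actB' σ z ∈ zeroIn (BxAlg (chart H hA x hx Hx)) (BzeroAlg (chart H hA x hx Hx))) ∧
      (∀ σ i, actB' σ (aIn Hd i) = aIn Hd i) ∧
      (∀ σ y, ∀ c ∈ CycB (chart H hA x hx Hx) Dt m (φ y),
        actB' σ c ∈ CycB (chart H hA x hx Hx) Dt m (φ (actX σ y))) := by
  have hG : ∀ σ : A.inertiaSubgroupIn ℚ, GalHyp (redSetup2 H hA) (chart H hA x hx Hx).t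
      (arithmeticGalois (modularFunctionFieldFull (M * q)) (σ : L ≃ₐ[ℚ] L)) := fun σ =>
    galHyp_inertia H hA x hx Hx _ (chart_t H hA x hx Hx) σ.2
  have hD : ∀ σ : A.inertiaSubgroupIn ℚ, (σ : L ≃ₐ[ℚ] L) ∈ A.decompositionSubgroup ℚ := fun σ =>
    GaloisInst.mem_decomposition_of_mem_inertia A σ.2
  refine ⟨fun σ => actA (baseAut_mem (hD σ)), fun σ => actB _ (hG σ), fun σ c => rfl,
    fun σ c => rfl, fun σ c => actB_algebraMap_actA _ (hG σ) (baseAut_mem (hD σ)) c,
    fun σ c => associated_actA (hD σ) c, fun σ z hz => actB_mem_ooIn _ (hG σ) hz,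
    fun σ z hz => actB_mem_zeroIn _ (hG σ) hz, fun σ i => actB_aIn _ (hG σ) Hd (hfix _ σ.2 i),
    fun σ y c hc => ?_⟩
  rw [hφ]
  exact actB_mem_cycB _ (hG σ) hDt hc

end Mq

end Fermat.Agent.S33x.Cech.GaloisDatumB
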