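import Fermat.Agent.S33x.Cech.GaloisDatum
import Fermat.Agent.S34x.Inst.TheoremBMq

/-!
# P-S33, Layer 2 (L2-B3), instance at the levels `M q`: the inertia group is inertia-like

Setting of `S34x/Inst/TheoremBMq` / `S33x/L1/InstMq`: `L` algebraically closed algebraic over `ℚ`,
`A ⊆ L` a valuation subring over the prime `q ∤ M`, `F = F_{Mq}`, `R = redSetup2 H hA` the
reduction set-up of the small ring `O_∞ ⊓ O_0`, `C = chart H hA x hx Hx` the concrete chart with
`C.t = tA M q x hx = α t'` (`t'` with integral `q`-expansion `x`).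

For `τ` in the inertia group of `A` and `g := arithmeticGalois (modularFunctionFieldFull (M q)) τ`:

* `inertiaLike_gal` : `g` is inertia-like for `R` (`GaloisLat.InertiaLike`);
* `gal_smul_tA`, `gal_smul_chart_t` : `g` fixes the chart coordinate (for EVERY `τ`);
* `inertiaAut` : the image of the inertia group in `SemilinearAut L F` (a subgroup), with
  `inertiaLike_of_mem`, `smul_chart_t_of_mem`;
* consumer forms: `galDatum` (transport of Cech data along `τ`, cocycle `g • cocycle`),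
  `gal_smul_mem_Lam_iff`, `gal_smul_mem_Boo_iff`, `gal_smul_mem_Bzero_iff`, `gal_smul_mem_Bx_iff`.
-/

set_option autoImplicit false
set_option linter.style.haveILetI false
set_option linter.unusedSectionVars false

noncomputable section

namespace Fermat.Agent.S33x.Cech.GaloisInstMq

open ModularCurve AlgebraicCurve IntermediateField IsLocalRing Module
open Fermat.Agent.Gateway.Hecke Fermat.Agent.Gateway.ESC
open Fermat.Agent.Gateway.Red Fermat.Agent.Gateway.GoodRed Fermat.Agent.Gateway.AuxLevel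
open Fermat.Agent.Gateway.C0
open Fermat.Agent.S34x.TwoVal Fermat.Agent.S34x.C0two Fermat.Agent.S34x.Lattice2
open Fermat.Agent.S34x.Inst.L2 Fermat.Agent.S34x.Inst.IsL2Inst
open Fermat.Agent.S34x.Inst.RedSetupInst Fermat.Agent.S34x.Inst.ElementYRed
open Fermat.Agent.S34x.Inst.Charts Fermat.Agent.S34x.Inst.TheoremBMq
open Fermat.Agent.S34x.Inst
open Fermat.Agent.S33x.H1.InstC1 Fermat.Agent.S33x.Cech.Datum
open Fermat.Agent.S33x.Cech.GaloisLat Fermat.Agent.S33x.Cech.GaloisDatum

attribute [-instance] IsScalarTower.of_algHom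

variable {L : Type} [Field L] [Algebra ℚ L] [IsAlgClosed L] [Algebra.IsAlgebraic ℚ L]
  {A : ValuationSubring L} {k : Type} [Field k] {π : A →+* k} [IsAlgClosed k]
variable {M q : ℕ} [NeZero M] [NeZero q] [Fact q.Prime] [CharP k q]
variable {hdeg : finrankAlong L (heckeAlphaBar L M q) = q + 1} {hq : q.Prime} {hqM : ¬ q ∣ M}
variable {hrk : ∀ x ∈ maximalIdeal A, ∀ c : A, c ≠ 0 → ∃ j : ℕ, c ∣ x ^ j}
  {hπ : Function.Surjective π}
variable (H : ResidueFacts A π M q hdeg hq hqM hrk hπ) (hA : A.LiesOverPrime q)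

/-! ### the inertia group is inertia-like -/

/-- **(K2) packaged**: an element of the inertia group of `A` preserves `O_∞ ⊓ O_0` and acts
trivially on the residue ring. -/
theorem inertiaLike_gal {τ : L ≃ₐ[ℚ] L} (hτ : τ ∈ A.inertiaSubgroupIn ℚ) :
    InertiaLike (redSetup2 H hA) (arithmeticGalois (modularFunctionFieldFull (M * q)) τ) where
  smul_mem _ hf := GaloisInst.gal_smul_mem_S2 A π M q hdeg hq hqM hrk hπ
    (GaloisInst.mem_decomposition_of_mem_inertia A hτ) hf
  res_smul f hf := GaloisInst.res_gal_smul A π M q hdeg hq hqM hrk hπ (redSetup2 H hA) hτ f hf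

/-- the image of the inertia group of `A` in the semilinear automorphisms of `F_{Mq}` -/
def inertiaAut (A : ValuationSubring L) (M q : ℕ) [NeZero M] [NeZero q] :
    Subgroup (SemilinearAut L (FL L (M * q))) :=
  (A.inertiaSubgroupIn ℚ).map (arithmeticGalois (modularFunctionFieldFull (M * q)))

theorem gal_mem_inertiaAut {τ : L ≃ₐ[ℚ] L} (hτ : τ ∈ A.inertiaSubgroupIn ℚ) :
    arithmeticGalois (modularFunctionFieldFull (M * q)) τ ∈ inertiaAut A M q :=
  Subgroup.mem_map_of_mem _ hτ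

theorem inertiaLike_of_mem {g : SemilinearAut L (FL L (M * q))} (hg : g ∈ inertiaAut A M q) :
    InertiaLike (redSetup2 H hA) g := by
  obtain ⟨τ, hτ, rfl⟩ := hg
  exact inertiaLike_gal H hA hτ

/-! ### the chart coordinate is fixed -/

section Chart

variable (x : LaurentSeries ℤ) (hx : coeffMap (Int.castRingHom L) x ∈ FBar L M)

/-- every `τ` fixes `t = α t'`, `t'` with integral `q`-expansion. -/
theorem gal_smul_tA (τ : L ≃ₐ[ℚ] L) :
    arithmeticGalois (modularFunctionFieldFull (M * q)) τ • tA M q x hx = tA M q x hx :=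
  GaloisInst.gal_smul_alpha_eq_self_int M q τ (tInt M x hx) x rfl

variable (Hx : GoodLevelFactsT A π M q hπ hqM (tInt M x hx))

theorem gal_smul_chart_t (τ : L ≃ₐ[ℚ] L) :
    arithmeticGalois (modularFunctionFieldFull (M * q)) τ • (chart H hA x hx Hx).t =
      (chart H hA x hx Hx).t := by
  rw [chart_t]
  exact gal_smul_tA x hx τ

theorem smul_chart_t_of_mem {g : SemilinearAut L (FL L (M * q))} (hg : g ∈ inertiaAut A M q) :
    g • (chart H hA x hx Hx).t = (chart H hA x hx Hx).t := by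
  obtain ⟨τ, -, rfl⟩ := hg
  exact gal_smul_chart_t H hA x hx Hx τ

/-! ### consumer forms -/

/-- **Galois transport of a Cech datum** along an inertia element `τ`. -/
def galDatum {τ : L ≃ₐ[ℚ] L} (hτ : τ ∈ A.inertiaSubgroupIn ℚ)
    {Dt : Divisor L (FL L (M * q))}
    (hDt : ∀ v : Place L (FL L (M * q)), Dt v = v.ord (tA M q x hx))
    {D : Divisor L (FL L (M * q))} (d : CechDatum (redSetup2 H hA) Dt D) :
    CechDatum (redSetup2 H hA) Dt
      (arithmeticGalois (modularFunctionFieldFull (M * q)) τ • D) :=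
  smulDatum (inertiaLike_gal H hA hτ) hDt (gal_smul_tA x hx τ) d

theorem cocycle_galDatum {τ : L ≃ₐ[ℚ] L} (hτ : τ ∈ A.inertiaSubgroupIn ℚ)
    {Dt : Divisor L (FL L (M * q))}
    (hDt : ∀ v : Place L (FL L (M * q)), Dt v = v.ord (tA M q x hx))
    {D : Divisor L (FL L (M * q))} (d : CechDatum (redSetup2 H hA) Dt D) :
    (galDatum H hA x hx hτ hDt d).cocycle =
      arithmeticGalois (modularFunctionFieldFull (M * q)) τ • d.cocycle :=
  cocycle_smulDatum _ _ _ d

theorem gal_smul_mem_Lam_iff {τ : L ≃ₐ[ℚ] L} (hτ : τ ∈ A.inertiaSubgroupIn ℚ) {a b : ℕ}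
    {f : FL L (M * q)} :
    arithmeticGalois (modularFunctionFieldFull (M * q)) τ • f ∈ Lam (chart H hA x hx Hx) a b ↔
      f ∈ Lam (chart H hA x hx Hx) a b :=
  smul_mem_Lam_iff (inertiaAut A M q) (fun _ hg => inertiaLike_of_mem H hA hg)
    (chart H hA x hx Hx) (fun _ hg => smul_chart_t_of_mem H hA x hx Hx hg)
    (gal_mem_inertiaAut hτ)

theorem gal_smul_mem_Boo_iff {τ : L ≃ₐ[ℚ] L} (hτ : τ ∈ A.inertiaSubgroupIn ℚ)
    {f : FL L (M * q)} :
    arithmeticGalois (modularFunctionFieldFull (M * q)) τ • f ∈ Boo (chart H hA x hx Hx) ↔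
      f ∈ Boo (chart H hA x hx Hx) :=
  smul_mem_Boo_iff (inertiaAut A M q) (fun _ hg => inertiaLike_of_mem H hA hg)
    (chart H hA x hx Hx) (fun _ hg => smul_chart_t_of_mem H hA x hx Hx hg)
    (gal_mem_inertiaAut hτ)

theorem gal_smul_mem_Bzero_iff {τ : L ≃ₐ[ℚ] L} (hτ : τ ∈ A.inertiaSubgroupIn ℚ)
    {f : FL L (M * q)} :
    arithmeticGalois (modularFunctionFieldFull (M * q)) τ • f ∈ Bzero (chart H hA x hx Hx) ↔
      f ∈ Bzero (chart H hA x hx Hx) :=
  smul_mem_Bzero_iff (inertiaAut A M q) (fun _ hg => inertiaLike_of_mem H hA hg)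
    (chart H hA x hx Hx) (fun _ hg => smul_chart_t_of_mem H hA x hx Hx hg)
    (gal_mem_inertiaAut hτ)

theorem gal_smul_mem_Bx_iff {τ : L ≃ₐ[ℚ] L} (hτ : τ ∈ A.inertiaSubgroupIn ℚ)
    {f : FL L (M * q)} :
    arithmeticGalois (modularFunctionFieldFull (M * q)) τ • f ∈ Bx (chart H hA x hx Hx) ↔
      f ∈ Bx (chart H hA x hx Hx) :=
  smul_mem_Bx_iff (inertiaAut A M q) (fun _ hg => inertiaLike_of_mem H hA hg)
    (chart H hA x hx Hx) (fun _ hg => smul_chart_t_of_mem H hA x hx Hx hg)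
    (gal_mem_inertiaAut hτ)

/-- the reduction of `g • f` for `f ∈ O_∞ ⊓ O_0` (proof-irrelevant form) -/
theorem res_gal_smul' {τ : L ≃ₐ[ℚ] L} (hτ : τ ∈ A.inertiaSubgroupIn ℚ) {f : FL L (M * q)}
    (hf : f ∈ (twoVal (valInfty A π M q hrk hπ hqM) (valZero A π M q hdeg hq hqM hrk hπ)).O)
    (hgf : arithmeticGalois (modularFunctionFieldFull (M * q)) τ • f ∈
      (twoVal (valInfty A π M q hrk hπ hqM) (valZero A π M q hdeg hq hqM hrk hπ)).O) :
    (redSetup2 H hA).res ⟨_, hgf⟩ = (redSetup2 H hA).res ⟨f, hf⟩ :=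
  (inertiaLike_gal H hA hτ).res_smul' hf hgf

end Chart

end Fermat.Agent.S33x.Cech.GaloisInstMq
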