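import Fermat.Agent.S33x.Cech.NormalForm

/-!
# P-S33 LAYER 2 (G), independent second: the universal group law of the Čech normal form

Against helper91's `S33x/Cech/NormalForm.lean` API (`comb`, `Decomp`, `exists_normalForm`,
`SatData`, `normalForm_unique`).

`W` = the small ring of constants (inertia-fixed integers), `BW` the `W`-form of the overlap ring,
`Boo B0 : Subalgebra W BW`, `a : Fin g → BW` with the decomposition `Decomp Boo B0 a`.

* `polySub`, `decomp_poly` : the decomposition passes to `MvPolynomial σ BW` over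
  `MvPolynomial σ W` (coefficientwise);
* `IsGroupLaw Boo B0 a n F` : the generic normal-form identity of order `n + 1` for
  `(1 + ∑ X_i a_i)(1 + ∑ Y_i a_i)` with respect to the ideal of the variables;
  `exists_isGroupLaw` : such an `F : Fin g → MvPolynomial (Fin g ⊕ Fin g) W` exists, with `F k` in
  the ideal of the variables;
* `IsGroupLaw.spec` : specialisation along any `(fA : W →+* A, fB : BW →+* B)` respecting the
  subalgebras and the `a_i`, at coordinate vectors `τ τ'` in an ideal `J` of `A`: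
  `(1 + comb a' τ)(1 + comb a' τ') voo v0 - (1 + comb a' F(τ,τ')) ∈ J^(n+1) B` with
  `voo ∈ 1 + J Boo'`, `v0 ∈ 1 + J B0'`, `F(τ,τ') ∈ J`;
* `coord_add` : additivity of the coordinates modulo `π ^ n` from `normalForm_unique`.
-/

set_option autoImplicit false

namespace Fermat.Agent.S33x.Cech.GroupLawB

open MvPolynomial

attribute [local instance] MvPolynomial.algebraMvPolynomial

section poly

variable {W : Type*} [CommRing W] {BW : Type*} [CommRing BW] [Algebra W BW]
variable (Boo B0 : Subalgebra W BW) {g : ℕ} (a : Fin g → BW) (σ : Type*)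

theorem algebraMap_poly (x : MvPolynomial σ W) :
    algebraMap (MvPolynomial σ W) (MvPolynomial σ BW) x = MvPolynomial.map (algebraMap W BW) x :=
  rfl

/-- Polynomials with coefficients in a subalgebra `S`, as a subalgebra over `MvPolynomial σ W`. -/
noncomputable def polySub (S : Subalgebra W BW) :
    Subalgebra (MvPolynomial σ W) (MvPolynomial σ BW) where
  toSubsemiring := (MvPolynomial.map (σ := σ) (S.val : S →+* BW)).rangeS
  algebraMap_mem' x := by
    refine ⟨MvPolynomial.map (algebraMap W S) x, ?_⟩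
    rw [MvPolynomial.map_map, algebraMap_poly]
    rfl

theorem mem_polySub {S : Subalgebra W BW} {f : MvPolynomial σ BW} :
    f ∈ polySub σ S ↔ ∃ p : MvPolynomial σ S, MvPolynomial.map (S.val : S →+* BW) p = f :=
  Iff.rfl

theorem comb_poly (s : Fin g → MvPolynomial σ W) :
    comb (fun i => (C (a i) : MvPolynomial σ BW)) s =
      ∑ i, MvPolynomial.map (algebraMap W BW) (s i) * C (a i) := by
  rw [comb, Fintype.linearCombination_apply]
  refine Finset.sum_congr rfl fun i _ => ?_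
  rw [Algebra.smul_def, algebraMap_poly]

/-- The decomposition passes to the polynomial extension. -/
theorem decomp_poly (hdec : Decomp Boo B0 a) :
    Decomp (polySub σ Boo) (polySub σ B0) (fun i => (C (a i) : MvPolynomial σ BW)) := by
  intro b
  induction b using MvPolynomial.induction_on' with
  | monomial m r =>
    obtain ⟨βoo, β0, s, hr⟩ := hdec r
    refine ⟨⟨monomial m (βoo : BW), ⟨monomial m βoo, by simp⟩⟩,
      ⟨monomial m (β0 : BW), ⟨monomial m β0, by simp⟩⟩, fun i => monomial m (s i), ?_⟩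
    rw [comb_poly]
    simp only
    rw [hr, map_add, map_add]
    congr 1
    rw [comb, Fintype.linearCombination_apply, map_sum]
    refine Finset.sum_congr rfl fun i _ => ?_
    rw [MvPolynomial.map_monomial, C_apply, monomial_mul, add_zero, Algebra.smul_def]
  | add p q hp hq =>
    obtain ⟨βoo, β0, s, hp⟩ := hp
    obtain ⟨γoo, γ0, s', hq⟩ := hq
    refine ⟨βoo + γoo, β0 + γ0, s + s', ?_⟩
    rw [hp, hq, map_add]
    push_cast
    ring

end poly

/-! ### The generic identity -/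

section law

variable {W : Type*} [CommRing W] {BW : Type*} [CommRing BW] [Algebra W BW]
variable (Boo B0 : Subalgebra W BW) {g : ℕ} (a : Fin g → BW)

/-- The ideal generated by the variables. -/
noncomputable def varIdeal (σ : Type*) (W : Type*) [CommRing W] : Ideal (MvPolynomial σ W) :=
  Ideal.span (Set.range X)

theorem X_mem_varIdeal {σ : Type*} (j : σ) : (X j : MvPolynomial σ W) ∈ varIdeal σ W :=
  Ideal.subset_span ⟨j, rfl⟩

/-- `F` is a group law of order `n + 1`: the generic normal-form identity for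
`(1 + ∑ X_i a_i)(1 + ∑ Y_i a_i)` with respect to the ideal of the variables. -/
def IsGroupLaw (n : ℕ) (F : Fin g → MvPolynomial (Fin g ⊕ Fin g) W) : Prop :=
  (∀ k, F k ∈ varIdeal (Fin g ⊕ Fin g) W) ∧
  ∃ (voo : polySub (Fin g ⊕ Fin g) Boo) (v0 : polySub (Fin g ⊕ Fin g) B0),
    voo - 1 ∈ (varIdeal (Fin g ⊕ Fin g) W).map
      (algebraMap (MvPolynomial (Fin g ⊕ Fin g) W) (polySub (Fin g ⊕ Fin g) Boo)) ∧
    v0 - 1 ∈ (varIdeal (Fin g ⊕ Fin g) W).map
      (algebraMap (MvPolynomial (Fin g ⊕ Fin g) W) (polySub (Fin g ⊕ Fin g) B0)) ∧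
    (1 + comb (fun i => (C (a i) : MvPolynomial (Fin g ⊕ Fin g) BW))
        (fun i => (X (Sum.inl i) : MvPolynomial (Fin g ⊕ Fin g) W))) *
      (1 + comb (fun i => (C (a i) : MvPolynomial (Fin g ⊕ Fin g) BW))
        (fun i => (X (Sum.inr i) : MvPolynomial (Fin g ⊕ Fin g) W))) *
      (voo : MvPolynomial (Fin g ⊕ Fin g) BW) * (v0 : MvPolynomial (Fin g ⊕ Fin g) BW) - (1 + comb (fun i => (C (a i) : MvPolynomial (Fin g ⊕ Fin g) BW)) F) ∈
      ((varIdeal (Fin g ⊕ Fin g) W) ^ (n + 1)).map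
        (algebraMap (MvPolynomial (Fin g ⊕ Fin g) W) (MvPolynomial (Fin g ⊕ Fin g) BW))

variable {Boo B0 a}

/-- **Existence of the universal group law** to every order. -/
theorem exists_isGroupLaw (hdec : Decomp Boo B0 a) (n : ℕ) :
    ∃ F : Fin g → MvPolynomial (Fin g ⊕ Fin g) W, IsGroupLaw Boo B0 a n F := by
  set a' : Fin g → MvPolynomial (Fin g ⊕ Fin g) BW := fun i => C (a i) with ha'
  set I := varIdeal (Fin g ⊕ Fin g) W with hI
  set xl : Fin g → MvPolynomial (Fin g ⊕ Fin g) W := fun i => X (Sum.inl i) with hxl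
  set xr : Fin g → MvPolynomial (Fin g ⊕ Fin g) W := fun i => X (Sum.inr i) with hxr
  have h1 : comb a' xl ∈
      I.map (algebraMap (MvPolynomial (Fin g ⊕ Fin g) W) (MvPolynomial (Fin g ⊕ Fin g) BW)) :=
    comb_mem_map a' fun i => X_mem_varIdeal _
  have h2 : comb a' xr ∈
      I.map (algebraMap (MvPolynomial (Fin g ⊕ Fin g) W) (MvPolynomial (Fin g ⊕ Fin g) BW)) :=
    comb_mem_map a' fun i => X_mem_varIdeal _
  have hu : (1 + comb a' xl) * (1 + comb a' xr) - 1 ∈
      I.map (algebraMap (MvPolynomial (Fin g ⊕ Fin g) W) (MvPolynomial (Fin g ⊕ Fin g) BW)) := by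
    have : (1 + comb a' xl) * (1 + comb a' xr) - 1 =
        comb a' xl + comb a' xr + comb a' xl * comb a' xr := by ring
    rw [this]
    exact Ideal.add_mem _ (Ideal.add_mem _ h1 h2) (Ideal.mul_mem_left _ _ h2)
  obtain ⟨voo, v0, t, hvoo, hv0, ht, herr⟩ :=
    exists_normalForm (decomp_poly Boo B0 a (Fin g ⊕ Fin g) hdec) I _ hu n
  exact ⟨t, ht, voo, v0, hvoo, hv0, herr⟩

end law

/-! ### Specialisation -/

section spec

variable {W : Type*} [CommRing W] {BW : Type*} [CommRing BW] [Algebra W BW]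
variable {A : Type*} [CommRing A] {B : Type*} [CommRing B] [Algebra A B]
variable (fA : W →+* A) (fB : BW →+* B)
variable {σ : Type*} (v : σ → A)

/-- Evaluation of the constants. -/
noncomputable def evA : MvPolynomial σ W →+* A := eval₂Hom fA v

/-- Evaluation of the polynomial extension. -/
noncomputable def evB : MvPolynomial σ BW →+* B := eval₂Hom fB (fun j => algebraMap A B (v j))

variable {fA fB}

theorem evB_algebraMap (hcomm : ∀ x, fB (algebraMap W BW x) = algebraMap A B (fA x))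
    (x : MvPolynomial σ W) :
    evB fB v (algebraMap (MvPolynomial σ W) (MvPolynomial σ BW) x) =
      algebraMap A B (evA fA v x) := by
  rw [algebraMap_poly, evB, evA, coe_eval₂Hom, coe_eval₂Hom, eval₂_map,
    eval₂_comp_left (algebraMap A B) fA v x]
  congr 1
  exact RingHom.ext hcomm

theorem evB_comb (hcomm : ∀ x, fB (algebraMap W BW x) = algebraMap A B (fA x)) {g : ℕ}
    (a : Fin g → BW) (s : Fin g → MvPolynomial σ W) :
    evB fB v (comb (fun i => (C (a i) : MvPolynomial σ BW)) s) =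
      comb (fun i => fB (a i)) (fun i => evA fA v (s i)) := by
  rw [comb, comb, Fintype.linearCombination_apply, Fintype.linearCombination_apply, map_sum]
  refine Finset.sum_congr rfl fun i _ => ?_
  rw [Algebra.smul_def, Algebra.smul_def, map_mul, evB_algebraMap v hcomm]
  congr 1
  simp [evB]

theorem evB_mem {S : Subalgebra W BW} {S' : Subalgebra A B} (hS : ∀ x ∈ S, fB x ∈ S')
    {f : MvPolynomial σ BW} (hf : f ∈ polySub σ S) : evB fB v f ∈ S' := by
  obtain ⟨p, rfl⟩ := hf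
  induction p using MvPolynomial.induction_on with
  | C x =>
    rw [MvPolynomial.map_C]
    simp only [evB, coe_eval₂Hom, eval₂_C]
    exact hS _ x.2
  | add p q hp hq =>
    rw [map_add, map_add]
    exact S'.add_mem hp hq
  | mul_X p j hp =>
    rw [map_mul, MvPolynomial.map_X, map_mul]
    refine S'.mul_mem hp ?_
    simp only [evB, coe_eval₂Hom, eval₂_X]
    exact S'.algebraMap_mem _

/-- Evaluation restricted to the polynomial subalgebras. -/
noncomputable def evSub {S : Subalgebra W BW} {S' : Subalgebra A B} (hS : ∀ x ∈ S, fB x ∈ S') :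
    polySub σ S →+* S' :=
  (evB fB v).restrict (polySub σ S) S' fun _ hf => evB_mem v hS hf

theorem coe_evSub {S : Subalgebra W BW} {S' : Subalgebra A B} (hS : ∀ x ∈ S, fB x ∈ S')
    (y : polySub σ S) : ((evSub v hS y : S') : B) = evB fB v (y : MvPolynomial σ BW) := rfl

theorem evSub_algebraMap (hcomm : ∀ x, fB (algebraMap W BW x) = algebraMap A B (fA x))
    {S : Subalgebra W BW} {S' : Subalgebra A B} (hS : ∀ x ∈ S, fB x ∈ S')
    (x : MvPolynomial σ W) :
    evSub v hS (algebraMap (MvPolynomial σ W) (polySub σ S) x) = algebraMap A S' (evA fA v x) := by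
  apply Subtype.ext
  rw [coe_evSub]
  exact evB_algebraMap v hcomm x

theorem evSub_mem_map (hcomm : ∀ x, fB (algebraMap W BW x) = algebraMap A B (fA x))
    {S : Subalgebra W BW} {S' : Subalgebra A B} (hS : ∀ x ∈ S, fB x ∈ S')
    {I : Ideal (MvPolynomial σ W)} {J : Ideal A} (hIJ : I.map (evA fA v) ≤ J)
    {y : polySub σ S} (hy : y ∈ I.map (algebraMap (MvPolynomial σ W) (polySub σ S))) :
    evSub v hS y ∈ J.map (algebraMap A S') := by
  have h1 := Ideal.mem_map_of_mem (evSub v hS) hy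
  rw [Ideal.map_map] at h1
  have h2 : (evSub v hS).comp (algebraMap (MvPolynomial σ W) (polySub σ S)) =
      (algebraMap A S').comp (evA fA v) := RingHom.ext fun x => evSub_algebraMap v hcomm hS x
  rw [h2, ← Ideal.map_map] at h1
  exact Ideal.map_mono hIJ h1

theorem evB_mem_map (hcomm : ∀ x, fB (algebraMap W BW x) = algebraMap A B (fA x))
    {I : Ideal (MvPolynomial σ W)} {J : Ideal A} (hIJ : I.map (evA fA v) ≤ J)
    {y : MvPolynomial σ BW}
    (hy : y ∈ I.map (algebraMap (MvPolynomial σ W) (MvPolynomial σ BW))) :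
    evB fB v y ∈ J.map (algebraMap A B) := by
  have h1 := Ideal.mem_map_of_mem (evB fB v) hy
  rw [Ideal.map_map] at h1
  have h2 : (evB fB v).comp (algebraMap (MvPolynomial σ W) (MvPolynomial σ BW)) =
      (algebraMap A B).comp (evA fA v) := RingHom.ext fun x => evB_algebraMap v hcomm x
  rw [h2, ← Ideal.map_map] at h1
  exact Ideal.map_mono hIJ h1

theorem map_varIdeal_le {J : Ideal A} (hv : ∀ j, v j ∈ J) :
    (varIdeal σ W).map (evA fA v) ≤ J := by
  rw [varIdeal, Ideal.map_span, Ideal.span_le]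
  rintro _ ⟨_, ⟨j, rfl⟩, rfl⟩
  simpa [evA] using hv j

theorem map_varIdeal_pow_le {J : Ideal A} (hv : ∀ j, v j ∈ J) (n : ℕ) :
    ((varIdeal σ W) ^ n).map (evA fA v) ≤ J ^ n := by
  rw [Ideal.map_pow]
  exact Ideal.pow_right_mono (map_varIdeal_le v hv) n

/-- **Specialisation of the group law.** -/
theorem IsGroupLaw.spec {Boo B0 : Subalgebra W BW} {g : ℕ} {a : Fin g → BW} {n : ℕ}
    {F : Fin g → MvPolynomial (Fin g ⊕ Fin g) W} (hF : IsGroupLaw Boo B0 a n F)
    (hcomm : ∀ x, fB (algebraMap W BW x) = algebraMap A B (fA x))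
    {Boo' B0' : Subalgebra A B} (hoo : ∀ x ∈ Boo, fB x ∈ Boo') (h0 : ∀ x ∈ B0, fB x ∈ B0')
    {a' : Fin g → B} (ha : ∀ i, fB (a i) = a' i) {J : Ideal A} {τ τ' : Fin g → A}
    (hτ : ∀ i, τ i ∈ J) (hτ' : ∀ i, τ' i ∈ J) :
    (∀ k, eval₂ fA (Sum.elim τ τ') (F k) ∈ J) ∧
    ∃ (voo : Boo') (v0 : B0'), voo - 1 ∈ J.map (algebraMap A Boo') ∧
      v0 - 1 ∈ J.map (algebraMap A B0') ∧
      (1 + comb a' τ) * (1 + comb a' τ') * voo * v0 -
        (1 + comb a' (fun k => eval₂ fA (Sum.elim τ τ') (F k))) ∈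
        (J ^ (n + 1)).map (algebraMap A B) := by
  obtain ⟨hFk, voo, v0, hvoo, hv0, herr⟩ := hF
  have hv : ∀ j, Sum.elim τ τ' j ∈ J := by
    rintro (i | i)
    · exact hτ i
    · exact hτ' i
  have hIJ := map_varIdeal_le (fA := fA) (W := W) (Sum.elim τ τ') hv
  have ha' : (fun i => fB (a i)) = a' := funext ha
  refine ⟨fun k => hIJ (Ideal.mem_map_of_mem (evA fA (Sum.elim τ τ')) (hFk k)),
    evSub (Sum.elim τ τ') hoo voo, evSub (Sum.elim τ τ') h0 v0, ?_, ?_, ?_⟩
  · have := evSub_mem_map (Sum.elim τ τ') hcomm hoo hIJ hvoo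
    rwa [map_sub, map_one] at this
  · have := evSub_mem_map (Sum.elim τ τ') hcomm h0 hIJ hv0
    rwa [map_sub, map_one] at this
  · have h1 := evB_mem_map (Sum.elim τ τ') hcomm
      (map_varIdeal_pow_le (fA := fA) (W := W) (Sum.elim τ τ') hv (n + 1)) herr
    simp only [map_sub, map_mul, map_add, map_one, evB_comb _ hcomm, ha'] at h1
    have e1 : (fun i => evA fA (Sum.elim τ τ') (X (Sum.inl i) : MvPolynomial (Fin g ⊕ Fin g) W)) =
        τ := by
      funext i; simp [evA]
    have e2 : (fun i => evA fA (Sum.elim τ τ') (X (Sum.inr i) : MvPolynomial (Fin g ⊕ Fin g) W)) =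
        τ' := by
      funext i; simp [evA]
    rw [e1, e2] at h1
    exact h1

end spec

/-! ### The `π`-adic form and additivity of the coordinates -/

section additivity

variable {W : Type*} [CommRing W] {BW : Type*} [CommRing BW] [Algebra W BW]
variable {A : Type*} [CommRing A] {B : Type*} [CommRing B] [Algebra A B]
variable {fA : W →+* A} {fB : BW →+* B}

theorem mem_map_span_singleton_iff {S : Type*} [CommRing S] [Algebra A S] (π : A) (n : ℕ)
    (y : S) :
    y ∈ ((Ideal.span {π} : Ideal A) ^ n).map (algebraMap A S) ↔ algebraMap A S π ^ n ∣ y := by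
  rw [Ideal.span_singleton_pow, Ideal.map_span, Set.image_singleton, Ideal.mem_span_singleton,
    map_pow]

theorem mem_map_span_singleton_iff' {S : Type*} [CommRing S] [Algebra A S] (π : A) (y : S) :
    y ∈ (Ideal.span {π} : Ideal A).map (algebraMap A S) ↔ algebraMap A S π ∣ y := by
  rw [Ideal.map_span, Set.image_singleton, Ideal.mem_span_singleton]

theorem dvd_mul_sub_one {S : Type*} [CommRing S] {c x y : S} (hx : c ∣ x - 1) (hy : c ∣ y - 1) :
    c ∣ x * y - 1 := by
  have : x * y - 1 = (x - 1) * y + (y - 1) := by ring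
  rw [this]
  exact dvd_add (Dvd.dvd.mul_right hx y) hy

/-- **The group law in `π`-adic form.** -/
theorem IsGroupLaw.spec_pi {Boo B0 : Subalgebra W BW} {g : ℕ} {a : Fin g → BW} {n : ℕ}
    {F : Fin g → MvPolynomial (Fin g ⊕ Fin g) W} (hF : IsGroupLaw Boo B0 a n F)
    (hcomm : ∀ x, fB (algebraMap W BW x) = algebraMap A B (fA x))
    {Boo' B0' : Subalgebra A B} (hoo : ∀ x ∈ Boo, fB x ∈ Boo') (h0 : ∀ x ∈ B0, fB x ∈ B0')
    {a' : Fin g → B} (ha : ∀ i, fB (a i) = a' i) {π : A} {τ τ' : Fin g → A}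
    (hτ : ∀ i, π ∣ τ i) (hτ' : ∀ i, π ∣ τ' i) :
    (∀ k, π ∣ eval₂ fA (Sum.elim τ τ') (F k)) ∧
    ∃ (voo : Boo') (v0 : B0'), algebraMap A Boo' π ∣ voo - 1 ∧ algebraMap A B0' π ∣ v0 - 1 ∧
      algebraMap A B π ^ (n + 1) ∣ (1 + comb a' τ) * (1 + comb a' τ') * voo * v0 -
        (1 + comb a' (fun k => eval₂ fA (Sum.elim τ τ') (F k))) := by
  obtain ⟨h1, voo, v0, h2, h3, h4⟩ := hF.spec hcomm hoo h0 ha (J := Ideal.span {π})
    (fun i => Ideal.mem_span_singleton.mpr (hτ i)) (fun i => Ideal.mem_span_singleton.mpr (hτ' i))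
  refine ⟨fun k => Ideal.mem_span_singleton.mp (h1 k), voo, v0, ?_, ?_, ?_⟩
  · exact (mem_map_span_singleton_iff' π _).mp h2
  · exact (mem_map_span_singleton_iff' π _).mp h3
  · exact (mem_map_span_singleton_iff π (n + 1) _).mp h4

/-- **Additivity of the coordinates**: if `ux`, `uy`, `uxy` have normal-form coordinates `tx`, `ty`,
`txy` modulo `π ^ (n+1)` and `uxy` is `ux * uy` up to a coboundary modulo `π ^ (n+1)`, then
`txy = F(tx, ty)` modulo `π ^ (n+1)`. -/
theorem coord_add {Boo B0 : Subalgebra W BW} {g : ℕ} {a : Fin g → BW} {n : ℕ}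
    {F : Fin g → MvPolynomial (Fin g ⊕ Fin g) W} (hF : IsGroupLaw Boo B0 a n F)
    (hcomm : ∀ x, fB (algebraMap W BW x) = algebraMap A B (fA x))
    {Boo' B0' : Subalgebra A B} (hoo : ∀ x ∈ Boo, fB x ∈ Boo') (h0 : ∀ x ∈ B0, fB x ∈ B0')
    {a' : Fin g → B} (ha : ∀ i, fB (a i) = a' i) {π : A} (H : SatData Boo' B0' a' π)
    {tx ty txy : Fin g → A} (htx : ∀ i, π ∣ tx i) (hty : ∀ i, π ∣ ty i) (htxy : ∀ i, π ∣ txy i)
    {ux uy uxy : B}
    (hx : ∃ (voo : Boo') (v0 : B0'), algebraMap A Boo' π ∣ voo - 1 ∧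
      algebraMap A B0' π ∣ v0 - 1 ∧
      algebraMap A B π ^ (n + 1) ∣ ux * voo * v0 - (1 + comb a' tx))
    (hy : ∃ (voo : Boo') (v0 : B0'), algebraMap A Boo' π ∣ voo - 1 ∧
      algebraMap A B0' π ∣ v0 - 1 ∧
      algebraMap A B π ^ (n + 1) ∣ uy * voo * v0 - (1 + comb a' ty))
    (hxy : ∃ (voo : Boo') (v0 : B0'), algebraMap A Boo' π ∣ voo - 1 ∧
      algebraMap A B0' π ∣ v0 - 1 ∧
      algebraMap A B π ^ (n + 1) ∣ uxy * voo * v0 - (1 + comb a' txy))
    (hcob : ∃ (coo : Boo') (c0 : B0'), algebraMap A Boo' π ∣ coo - 1 ∧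
      algebraMap A B0' π ∣ c0 - 1 ∧
      algebraMap A B π ^ (n + 1) ∣ uxy * coo * c0 - ux * uy) :
    ∀ i, π ^ (n + 1) ∣ txy i - eval₂ fA (Sum.elim tx ty) (F i) := by
  obtain ⟨xoo, x0, hxoo, hx0, e1, h1⟩ := hx
  obtain ⟨yoo, y0, hyoo, hy0, e2, h2⟩ := hy
  obtain ⟨zoo, z0, hzoo, hz0, e3, h3⟩ := hxy
  obtain ⟨coo, c0, hcoo, hc0, e4, h4⟩ := hcob
  obtain ⟨hFπ, goo, g0, hgoo, hg0, e5, h5⟩ := hF.spec_pi hcomm hoo h0 ha htx hty
  refine normalForm_unique H (n + 1) htxy hFπ (voo := zoo) (woo := coo * xoo * yoo * goo)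
    (v0 := z0) (w0 := c0 * x0 * y0 * g0) hzoo
    (dvd_mul_sub_one (dvd_mul_sub_one (dvd_mul_sub_one hcoo hxoo) hyoo) hgoo) hz0
    (dvd_mul_sub_one (dvd_mul_sub_one (dvd_mul_sub_one hc0 hx0) hy0) hg0) ?_
  refine ⟨-e3 * ((coo : B) * xoo * yoo * goo * (c0 * x0 * y0 * g0)) + e5 * ((zoo : B) * z0) +
    e4 * ((xoo : B) * x0 * (yoo * y0) * (goo * g0) * (zoo * z0)) +
    (e1 * (uy * (yoo * y0)) + e2 * (ux * (xoo * x0)) -
      algebraMap A B π ^ (n + 1) * e1 * e2) * ((goo : B) * g0 * (zoo * z0)), ?_⟩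
  push_cast
  linear_combination (-((coo : B) * xoo * yoo * goo * (c0 * x0 * y0 * g0))) * h3 +
    ((zoo : B) * z0) * h5 +
    ((1 + comb a' ty) * ((goo : B) * g0) * ((zoo : B) * z0)) * h1 +
    ((ux * ((xoo : B) * x0) - algebraMap A B π ^ (n + 1) * e1) * ((goo : B) * g0) *
      ((zoo : B) * z0)) * h2 +
    (((xoo : B) * x0) * ((yoo : B) * y0) * ((goo : B) * g0) * ((zoo : B) * z0)) * h4

end additivity

end Fermat.Agent.S33x.Cech.GroupLawB
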