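/-
P-S33 (LAYER 2, adapter; helper91).  From the final export of block W
(`S33x/W/CechFixed`: `DirectSum` over the valuation ring `P` and over a ring `Wf ≤ inertiaInt P` of
inertia-fixed constants, with the SAME `aᵢ`) to the LITERAL hypotheses `hdec`, `hsat`, `hGL` of
`Cech/CoordBQbar.hasApproxCharts` (helper3), on the TYPE `B := ↥Bx` with the charts
`ooIn Bx Boo`, `zeroIn Bx B0` and the elements `aIn H`.

* `coe_aeval_eq_map` : `((aeval t Φ : P) : Qbar) = aeval (↑ ∘ t) (map j Φ)`;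
* `hGL_of_directSum_map` : the universal group law with coefficients in `inertiaInt P`, in the
  literal shape of `hGL`, for ANY ring of constants `Wf` (`Algebra Wf P`, `Algebra Wf F`, scalar
  tower) with a compatible ring map `j : Wf →+* inertiaInt P` (e.g. a `Subring P` of fixed elements);
* `algebraFixed`, `isScalarTower_fixed` : the `Wf`-algebra structure of `P` for a `Subring Qbar`;
* `hGL_of_directSum` : the same for `Wf : Subring Qbar`, `Wf ≤ inertiaInt P`;
* `hasApproxCharts_of_directSum` : `CoordBQbar.hasApproxCharts` with `hdec`, `hsat`, `hGL` discharged.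
-/
import Fermat.Agent.S33x.Cech.WAdapter
import Fermat.Agent.S33x.Cech.CoordBQbar

set_option autoImplicit false
set_option linter.style.haveILetI false

noncomputable section

namespace Fermat.Agent.S33x.Cech.GroupLawQbar

open Fermat.Agent.S33x.Cech Fermat.Agent.S33x.Cech.OfDirectSum Fermat.Agent.S33x.Cech.CoordB
open Fermat.Agent.S33x.Iface Fermat.Agent.S56x.Flat.InertiaField IsLocalRing

local notation "Qbar" => AlgebraicClosure ℚ
local notation "Γℚ" => (AlgebraicClosure ℚ ≃ₐ[ℚ] AlgebraicClosure ℚ)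

variable {P : ValuationSubring Qbar}

section General

/-! ### `Wf` an arbitrary ring of constants mapping to `inertiaInt P` -/

variable {Wf : Type*} [CommRing Wf] [Algebra Wf P]

/-- evaluation in `P` of a polynomial over `Wf` = evaluation in `Qbar` of its image over
`inertiaInt P`, for a ring map `j : Wf →+* inertiaInt P` compatible with the structure map. -/
theorem coe_aeval_eq_map (j : Wf →+* inertiaInt P)
    (hj : ∀ w, ((j w : inertiaInt P) : Qbar) = ((algebraMap Wf P w : P) : Qbar))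
    {σ : Type*} (t : σ → P) (Φ : MvPolynomial σ Wf) :
    ((MvPolynomial.aeval t Φ : P) : Qbar)
      = MvPolynomial.aeval (fun i => (t i : Qbar)) (MvPolynomial.map j Φ) := by
  have h1 : ((MvPolynomial.aeval t Φ : P) : Qbar)
      = P.subtype (MvPolynomial.eval₂ (algebraMap Wf P) t Φ) := rfl
  rw [h1, MvPolynomial.eval₂_comp_left, MvPolynomial.aeval_def, MvPolynomial.eval₂_map]
  have h2 : (P.subtype : P →+* Qbar).comp (algebraMap Wf P)
      = (algebraMap (inertiaInt P) Qbar).comp j := RingHom.ext fun w => (hj w).symm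
  rw [h2]
  rfl

variable {F : Type*} [Field F] [Algebra Qbar F] [Algebra Wf F] [IsScalarTower Wf P F]
variable {Bx Boo B0 : Subalgebra P F} {BxW BooW B0W : Subalgebra Wf F} {g : ℕ} {a : Fin g → F}

/-- **The literal `hGL` of `CoordBQbar.hasApproxCharts`** from the two direct sum decompositions,
for an arbitrary ring of constants `Wf` with a compatible ring map to `inertiaInt P`. -/
theorem hGL_of_directSum_map (j : Wf →+* inertiaInt P)
    (hj : ∀ w, ((j w : inertiaInt P) : Qbar) = ((algebraMap Wf P w : P) : Qbar))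
    (H : DirectSum Bx Boo B0 a) (HW : DirectSum BxW BooW B0W a)
    (hx : ∀ x ∈ BxW, x ∈ Bx) (hoo : ∀ x ∈ BooW, x ∈ Boo) (h0 : ∀ x ∈ B0W, x ∈ B0) (n : ℕ) :
    ∃ Fl : Fin g → MvPolynomial (Fin g ⊕ Fin g) (inertiaInt P),
      ∀ (π : P) (t t' : Fin g → P), (∀ i, π ∣ t i) → (∀ i, π ∣ t' i) →
        ∃ T : Fin g → P,
          (∀ k, (T k : Qbar) = MvPolynomial.aeval
            (Sum.elim (fun i => (t i : Qbar)) (fun i => (t' i : Qbar))) (Fl k)) ∧
          (∀ k, π ∣ T k) ∧
          ∃ (voo : ooIn Bx Boo) (v0 : zeroIn Bx B0),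
            algebraMap P (ooIn Bx Boo) π ∣ voo - 1 ∧ algebraMap P (zeroIn Bx B0) π ∣ v0 - 1 ∧
            algebraMap P Bx π ^ (n + 1) ∣
              (1 + comb (aIn H) t) * (1 + comb (aIn H) t') * voo * v0 - (1 + comb (aIn H) T) := by
  obtain ⟨Φ, -, -, hΦ⟩ := WAdapter.exists_groupLaw_fixed H HW hx hoo h0 n
  refine ⟨fun k => MvPolynomial.map j (Φ k), ?_⟩
  intro π t t' ht ht'
  obtain ⟨hdiv, voo, v0, h1, h2, h3⟩ := hΦ π t t' ht ht'
  refine ⟨fun k => MvPolynomial.aeval (Sum.elim t t') (Φ k), ?_, hdiv, voo, v0, h1, h2, h3⟩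
  intro k
  rw [coe_aeval_eq_map j hj]
  have hfun : (fun i => ((Sum.elim t t' i : P) : Qbar))
      = Sum.elim (fun i => (t i : Qbar)) (fun i => (t' i : Qbar)) := by
    funext i
    cases i <;> rfl
  rw [hfun]

end General

/-! ### `Wf` a subring of `Qbar` contained in `inertiaInt P` -/

variable {Wf : Subring Qbar}

/-- the inclusion `Wf → P` for a subring of `inertiaInt P` -/
def inclP (hWf : Wf ≤ inertiaInt P) : Wf →+* P where
  toFun w := ⟨(w : Qbar), (hWf w.2).1⟩
  map_one' := rfl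
  map_mul' _ _ := rfl
  map_zero' := rfl
  map_add' _ _ := rfl

/-- `P` as a `Wf`-algebra -/
@[reducible] def algebraFixed (hWf : Wf ≤ inertiaInt P) : Algebra Wf P := (inclP hWf).toAlgebra

theorem isScalarTower_fixed (hWf : Wf ≤ inertiaInt P) {F : Type*} [Field F] [Algebra Qbar F] :
    letI := algebraFixed hWf
    IsScalarTower Wf P F := by
  letI := algebraFixed hWf
  exact IsScalarTower.of_algebraMap_eq fun _ => rfl

variable {F : Type*} [Field F] [Algebra Qbar F]
variable {Bx Boo B0 : Subalgebra P F} {BxW BooW B0W : Subalgebra Wf F} {g : ℕ} {a : Fin g → F}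

/-- **The literal `hGL` of `CoordBQbar.hasApproxCharts`** from the two direct sum decompositions. -/
theorem hGL_of_directSum (hWf : Wf ≤ inertiaInt P) (H : DirectSum Bx Boo B0 a)
    (HW : DirectSum BxW BooW B0W a)
    (hx : ∀ x ∈ BxW, x ∈ Bx) (hoo : ∀ x ∈ BooW, x ∈ Boo) (h0 : ∀ x ∈ B0W, x ∈ B0) (n : ℕ) :
    ∃ Fl : Fin g → MvPolynomial (Fin g ⊕ Fin g) (inertiaInt P),
      ∀ (π : P) (t t' : Fin g → P), (∀ i, π ∣ t i) → (∀ i, π ∣ t' i) →
        ∃ T : Fin g → P,
          (∀ k, (T k : Qbar) = MvPolynomial.aeval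
            (Sum.elim (fun i => (t i : Qbar)) (fun i => (t' i : Qbar))) (Fl k)) ∧
          (∀ k, π ∣ T k) ∧
          ∃ (voo : ooIn Bx Boo) (v0 : zeroIn Bx B0),
            algebraMap P (ooIn Bx Boo) π ∣ voo - 1 ∧ algebraMap P (zeroIn Bx B0) π ∣ v0 - 1 ∧
            algebraMap P Bx π ^ (n + 1) ∣
              (1 + comb (aIn H) t) * (1 + comb (aIn H) t') * voo * v0 - (1 + comb (aIn H) T) := by
  letI := algebraFixed hWf
  haveI : IsScalarTower Wf P F := isScalarTower_fixed hWf
  exact hGL_of_directSum_map (Subring.inclusion hWf) (fun _ => rfl) H HW hx hoo h0 n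

theorem faithfulSMul_valuationSubring : FaithfulSMul P F :=
  (faithfulSMul_iff_algebraMap_injective P F).mpr
    ((algebraMap Qbar F).injective.comp Subtype.coe_injective)

/-- **`CoordBQbar.hasApproxCharts` with `hdec`, `hsat`, `hGL` discharged** from the two direct sum
decompositions (block H1 over `P`, block W over `Wf ≤ inertiaInt P`).  What is left are the four
cocycle axioms on the TYPE `↥Bx`. -/
theorem hasApproxCharts_of_directSum {p : ℕ} (hp : p.Prime) (hP : P.LiesOverPrime p)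
    {X : Type} [AddCommGroup X] [Finite X] (act : Γℚ → X → X)
    (hWf : Wf ≤ inertiaInt P) (H : DirectSum Bx Boo B0 a) (HW : DirectSum BxW BooW B0W a)
    (hx : ∀ x ∈ BxW, x ∈ Bx) (hoo : ∀ x ∈ BooW, x ∈ Boo) (h0 : ∀ x ∈ B0W, x ∈ B0)
    (c : X → Bx)
    (hc1 : ∀ x, ∃ π ∈ maximalIdeal P, algebraMap P Bx π ∣ c x - 1)
    (hmul : ∀ x y, CobEq (ooIn Bx Boo) (zeroIn Bx B0) 0 (c (x + y)) (c x * c y))
    (hgal : ∀ σ ∈ P.inertiaSubgroupIn ℚ, ∃ φ : Bx →+* Bx,
      (∀ z z' : P, (z' : Qbar) = σ (z : Qbar) → φ (algebraMap P Bx z) = algebraMap P Bx z') ∧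
      (∀ b ∈ ooIn Bx Boo, φ b ∈ ooIn Bx Boo) ∧ (∀ b ∈ zeroIn Bx B0, φ b ∈ zeroIn Bx B0) ∧
      (∀ i, φ (aIn H i) = aIn H i) ∧
      ∀ x, CobEq (ooIn Bx Boo) (zeroIn Bx B0) 0 (φ (c x)) (c (act σ x)))
    (hsep : ∀ x y, x ≠ y → ∃ δ : P, δ ≠ 0 ∧ ¬ CobEq (ooIn Bx Boo) (zeroIn Bx B0) δ (c x) (c y)) :
    HasApproxCharts p P X act := by
  haveI : FaithfulSMul P F := faithfulSMul_valuationSubring
  exact CoordBQbar.hasApproxCharts hp hP act (ooIn Bx Boo) (zeroIn Bx B0) (aIn H)
    (OfDirectSum.decomp H) (fun _ hπ => OfDirectSum.satData H hπ)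
    (hGL_of_directSum hWf H HW hx hoo h0) c hc1 hmul hgal hsep

end Fermat.Agent.S33x.Cech.GroupLawQbar

end
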