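/-
P-S33 (LAYER 2, adapter; helper91).  `Cech/GroupLawQbar` specialised to the final export of block W
(`S33x/W/CechFixed`, helper5): `Wf := fixedSubring P Γ` for a set `Γ` of semilinear automorphisms of
`F / Qbar` through which the whole inertia group of `P` acts on the constants.

* `fixedSubring_le_inertiaInt` : `fixedSubring P Γ ≤ inertiaInt P`;
* `hGL_of_levelSys` : the literal `hGL` of `CoordBQbar.hasApproxCharts` from a `LevelSys` + `FixData2`;
* `hasApproxCharts_of_levelSys` : `CoordBQbar.hasApproxCharts` with `hdec`, `hsat`, `hGL` discharged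
  from a `LevelSys` + `FixData2`.
-/
import Fermat.Agent.S33x.Cech.GroupLawQbar
import Fermat.Agent.S33x.W.CechFixed

set_option autoImplicit false
set_option linter.style.haveILetI false

noncomputable section

namespace Fermat.Agent.S33x.Cech.GroupLawQbarFixed

open AlgebraicCurve
open Fermat.Agent.S33x.Cech Fermat.Agent.S33x.Cech.OfDirectSum Fermat.Agent.S33x.Cech.CoordB
open Fermat.Agent.S33x.Iface Fermat.Agent.S56x.Flat.InertiaField IsLocalRing
open Fermat.Agent.S34x.C0two Fermat.Agent.S33x.W.LatticeFixed2 Fermat.Agent.S33x.W.CechFixed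
open Fermat.Agent.S19x.Geo.LatticeFixed (IsFixed IsFixedK)

local notation "Qbar" => AlgebraicClosure ℚ
local notation "Γℚ" => (AlgebraicClosure ℚ ≃ₐ[ℚ] AlgebraicClosure ℚ)

variable {P : ValuationSubring Qbar} {F : Type*} [Field F] [Algebra Qbar F]

/-- If every element of the inertia group of `P` acts on the constants as some element of `Γ`, the
`Γ`-fixed constants of `P` lie in `inertiaInt P`. -/
theorem fixedSubring_le_inertiaInt (Γ : Set (SemilinearAut Qbar F))
    (hΓ : ∀ t ∈ P.inertiaSubgroupIn ℚ, ∃ s ∈ Γ, ∀ c : Qbar, SemilinearAut.baseAut s c = t c) :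
    fixedSubring P Γ ≤ inertiaInt P := by
  intro c hc
  refine ⟨hc.1, fun t ht => ?_⟩
  obtain ⟨s, hs, hst⟩ := hΓ t ht
  rw [← hst c]
  exact hc.2 s hs

variable {Sr : SmallRing F} {k κ : Type*} [Field k] [CommRing κ] [Algebra k κ]
  {R : RedSetup2 P Sr k κ} {Γ : Set (SemilinearAut Qbar F)}
  {Bx Boo B0 : Subalgebra P F} {X U V : ℕ → Submodule Qbar F} {g : ℕ} {a : Fin g → F} {n₁ : ℕ}

/-- **The literal `hGL` of `CoordBQbar.hasApproxCharts`** from the final export of block W. -/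
theorem hGL_of_levelSys (L : LevelSys R Γ Bx Boo B0 X U V a n₁) (hD : FixData2 R Γ)
    (hF : Submodule.span Qbar {f : F | IsFixed Γ f} = ⊤)
    (hΓ : ∀ t ∈ P.inertiaSubgroupIn ℚ, ∃ s ∈ Γ, ∀ c : Qbar, SemilinearAut.baseAut s c = t c)
    (n : ℕ) :
    ∃ Fl : Fin g → MvPolynomial (Fin g ⊕ Fin g) (inertiaInt P),
      ∀ (π : P) (t t' : Fin g → P), (∀ i, π ∣ t i) → (∀ i, π ∣ t' i) →
        ∃ T : Fin g → P,
          (∀ k, (T k : Qbar) = MvPolynomial.aeval
            (Sum.elim (fun i => (t i : Qbar)) (fun i => (t' i : Qbar))) (Fl k)) ∧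
          (∀ k, π ∣ T k) ∧
          ∃ (voo : ooIn Bx Boo) (v0 : zeroIn Bx B0),
            algebraMap P (ooIn Bx Boo) π ∣ voo - 1 ∧ algebraMap P (zeroIn Bx B0) π ∣ v0 - 1 ∧
            algebraMap P Bx π ^ (n + 1) ∣
              (1 + comb (aIn L.directSum) t) * (1 + comb (aIn L.directSum) t') * voo * v0
                - (1 + comb (aIn L.directSum) T) :=
  GroupLawQbar.hGL_of_directSum (fixedSubring_le_inertiaInt Γ hΓ) L.directSum
    (L.fixed_directSum hD hF) (fun _ h => h.1) (fun _ h => h.1) (fun _ h => h.1) n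

/-- **`CoordBQbar.hasApproxCharts` with `hdec`, `hsat`, `hGL` discharged** from the final export of
block W (`LevelSys` + `FixData2`); what is left are the four cocycle axioms on the TYPE `↥Bx`. -/
theorem hasApproxCharts_of_levelSys {p : ℕ} (hp : p.Prime) (hP : P.LiesOverPrime p)
    {Y : Type} [AddCommGroup Y] [Finite Y] (act : Γℚ → Y → Y)
    (L : LevelSys R Γ Bx Boo B0 X U V a n₁) (hD : FixData2 R Γ)
    (hF : Submodule.span Qbar {f : F | IsFixed Γ f} = ⊤)
    (hΓ : ∀ t ∈ P.inertiaSubgroupIn ℚ, ∃ s ∈ Γ, ∀ c : Qbar, SemilinearAut.baseAut s c = t c)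
    (c : Y → Bx)
    (hc1 : ∀ x, ∃ π ∈ maximalIdeal P, algebraMap P Bx π ∣ c x - 1)
    (hmul : ∀ x y, CobEq (ooIn Bx Boo) (zeroIn Bx B0) 0 (c (x + y)) (c x * c y))
    (hgal : ∀ σ ∈ P.inertiaSubgroupIn ℚ, ∃ φ : Bx →+* Bx,
      (∀ z z' : P, (z' : Qbar) = σ (z : Qbar) → φ (algebraMap P Bx z) = algebraMap P Bx z') ∧
      (∀ b ∈ ooIn Bx Boo, φ b ∈ ooIn Bx Boo) ∧ (∀ b ∈ zeroIn Bx B0, φ b ∈ zeroIn Bx B0) ∧
      (∀ i, φ (aIn L.directSum i) = aIn L.directSum i) ∧
      ∀ x, CobEq (ooIn Bx Boo) (zeroIn Bx B0) 0 (φ (c x)) (c (act σ x)))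
    (hsep : ∀ x y, x ≠ y → ∃ δ : P, δ ≠ 0 ∧ ¬ CobEq (ooIn Bx Boo) (zeroIn Bx B0) δ (c x) (c y)) :
    HasApproxCharts p P Y act :=
  GroupLawQbar.hasApproxCharts_of_directSum hp hP act (fixedSubring_le_inertiaInt Γ hΓ) L.directSum
    (L.fixed_directSum hD hF) (fun _ h => h.1) (fun _ h => h.1) (fun _ h => h.1) c hc1 hmul hgal hsep

end Fermat.Agent.S33x.Cech.GroupLawQbarFixed

end
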