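import Fermat.Agent.S34x.C0two.Twist

/-!
# P-S33 Layer 2 (L2-B4, helper61): a nontrivial class is not a coboundary to high precision

Abstract form (`not_coboundary_core`): `A` a local domain whose valuation has rank one, `F` a
torsion-free commutative `A`-algebra; `M` (sections of `O(D)` over the overlap of the two charts),
`Moo`, `M0 ≤ M` (sections over the two charts), `Boo`, `B0` the chart rings.  Assume

* `hinf`  : `Moo ∩ M0 = 0`                      (no global section: `D` is not principal);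
* `htors` : bounded torsion of `M / (Moo + M0)` with bound `cD ≠ 0`;
* `hns`   : `hoo ∉ 𝔪 Moo`                        (`hoo` reduces to `1`).

Then for `ε ∈ 𝔪`, `ε ≠ 0`, the cocycle `hoo / h0` is NOT a coboundary modulo `cD ε`:
`hoo (1 + ϖ₁ boo) (1 + ϖ₂ β) - h0 ∉ (cD ε) M` for all `boo ∈ Boo`, `β ∈ B0`, `ϖ₁ ϖ₂ ∈ 𝔪`.

This is the gluing argument of `S34x/C0two/Twist.lean` (`TwistCore.exists_global`) read backwards:
there the two chart-wise trivialisations are approximate `m`-th roots (this needs `m` invertible);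
here they are arbitrary, no hypothesis on `m` is used, and the conclusion is that agreement to
precision `cD ε` would produce a nonzero global section.

Wrapper (`TwistCore.not_coboundary`, `TwistCore.exists_forall_not_coboundary`): for a
`TwistCore A S m u` (output of `S34x/TheoremB.exists_twistCore`, valid for every `m`) with
`M 0 0 = 0`, the hypotheses hold with `M = ⋃ M n n`, `Moo = ⋃ M 0 n`, `M0 = ⋃ M n 0`; the
bound `cD` comes from `Gateway.C0.exists_ne_zero_smul_mem_of_saturation` and `three`.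
-/

set_option autoImplicit false
set_option linter.unusedSectionVars false

namespace Fermat.Agent.S33x.Cech.Inject

open IsLocalRing

/-! ### The abstract core -/

section core

variable {A : Type*} [CommRing A] [IsDomain A] [IsLocalRing A]
variable {F : Type*} [CommRing F] [Algebra A F] [Module.IsTorsionFree A F]

/-- **Abstract injectivity**: the cocycle of two trivialisations `hoo`, `h0` of a line bundle
without global sections is not a coboundary modulo `cD ε`. -/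
theorem not_coboundary_core
    (hrank : ∀ x ∈ maximalIdeal A, ∀ c : A, c ≠ 0 → ∃ j : ℕ, c ∣ x ^ j)
    {M Moo M0 : Submodule A F} {Boo B0 : Subalgebra A F}
    (hMoo : Moo ≤ M)
    (hMooB : ∀ x ∈ Moo, ∀ b ∈ Boo, x * b ∈ Moo)
    (hM0B : ∀ x ∈ M0, ∀ b ∈ B0, x * b ∈ M0)
    (hMB0 : ∀ x ∈ M, ∀ b ∈ B0, x * b ∈ M)
    (hinf : ∀ x, x ∈ Moo → x ∈ M0 → x = 0)
    {cD : A} (hcD : cD ≠ 0)
    (htors : ∀ y ∈ M, (∃ d : A, d ≠ 0 ∧ d • y ∈ Moo ⊔ M0) → cD • y ∈ Moo ⊔ M0)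
    {hoo h0 : F} (hhoo : hoo ∈ Moo) (hns : hoo ∉ maximalIdeal A • Moo) (hh0 : h0 ∈ M0)
    {ε : A} (hε : ε ∈ maximalIdeal A) (hε0 : ε ≠ 0)
    {ϖ₁ ϖ₂ : A} (hϖ₁ : ϖ₁ ∈ maximalIdeal A) (hϖ₂ : ϖ₂ ∈ maximalIdeal A)
    {boo : F} (hboo : boo ∈ Boo) {β : F} (hβ : β ∈ B0) {y : F} (hy : y ∈ M) :
    hoo * (1 + ϖ₁ • boo) * (1 + ϖ₂ • β) - h0 ≠ (cD * ε) • y := by
  intro heq
  set π : A := cD * ε with hπ
  have hπ0 : π ≠ 0 := mul_ne_zero hcD hε0
  obtain ⟨J, q, hq⟩ := hrank ϖ₂ hϖ₂ π hπ0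
  -- the truncated inverse of `1 + ϖ₂ β`
  set x : F := -(ϖ₂ • β) with hx
  have hxB : x ∈ B0 := B0.neg_mem (B0.smul_mem hβ ϖ₂)
  set ut : F := ∑ j ∈ Finset.range J, x ^ j with hut
  have hutB : ut ∈ B0 := B0.sum_mem fun j _ => B0.pow_mem hxB j
  set w : F := q • (-β) ^ J with hw
  have hwB : w ∈ B0 := B0.smul_mem (B0.pow_mem (B0.neg_mem hβ) J) q
  have hxJ : x ^ J = π • w := by
    have : x = ϖ₂ • (-β) := by rw [hx, smul_neg]
    rw [this, smul_pow, hq, hw, mul_smul]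
  have hgeom : (1 + ϖ₂ • β) * ut = 1 - π • w := by
    have h1 : (1 + ϖ₂ • β) = 1 - x := by rw [hx]; ring
    rw [h1, hut, mul_neg_geom_sum, hxJ]
  -- `s = hoo (1 + ϖ₁ boo)`
  set s : F := hoo * (1 + ϖ₁ • boo) with hs
  have hsoo : s ∈ Moo :=
    hMooB hoo hhoo _ (Boo.add_mem Boo.one_mem (Boo.smul_mem hboo ϖ₁))
  set y' : F := y * ut + s * w with hy'
  have hy'M : y' ∈ M := M.add_mem (hMB0 y hy ut hutB) (hMB0 s (hMoo hsoo) w hwB)
  have hkey : s - h0 * ut = π • y' := by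
    have h2 : (s * (1 + ϖ₂ • β) - h0) * ut = (π • y) * ut := by rw [heq]
    have h3 : s * ((1 + ϖ₂ • β) * ut) - h0 * ut = π • (y * ut) := by
      rw [smul_mul_assoc] at h2
      linear_combination h2
    rw [hgeom] at h3
    rw [hy', smul_add, ← h3]
    simp only [Algebra.smul_def]
    ring
  have hh0ut : h0 * ut ∈ M0 := hM0B h0 hh0 ut hutB
  have hsup : π • y' ∈ Moo ⊔ M0 := by
    rw [← hkey]
    exact Submodule.sub_mem _ (Submodule.mem_sup_left hsoo) (Submodule.mem_sup_right hh0ut)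
  obtain ⟨yoo, hyoo, y0, hy0, hsum⟩ := Submodule.mem_sup.mp (htors y' hy'M ⟨π, hπ0, hsup⟩)
  -- the global section
  have hz0 : cD • s - π • yoo = cD • (h0 * ut) + π • y0 := by
    have h4 : cD • (s - h0 * ut) = π • (cD • y') := by
      rw [hkey, smul_comm]
    rw [← hsum, smul_add, smul_sub] at h4
    linear_combination h4
  have hzoo : cD • s - π • yoo ∈ Moo :=
    Moo.sub_mem (Moo.smul_mem _ hsoo) (Moo.smul_mem _ hyoo)
  have hzM0 : cD • s - π • yoo ∈ M0 := by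
    rw [hz0]
    exact M0.add_mem (M0.smul_mem _ hh0ut) (M0.smul_mem _ hy0)
  have hz := hinf _ hzoo hzM0
  have hs' : s = ε • yoo := by
    have h5 : cD • s = cD • (ε • yoo) := by
      rw [smul_smul, ← hπ]
      exact sub_eq_zero.mp hz
    exact smul_right_injective F hcD h5
  -- contradiction with `hns`
  apply hns
  have h6 : hoo = ε • yoo - ϖ₁ • (hoo * boo) := by
    rw [← hs', hs]
    simp only [Algebra.smul_def]
    ring
  rw [h6]
  exact Submodule.sub_mem _ (Submodule.smul_mem_smul hε hyoo)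
    (Submodule.smul_mem_smul hϖ₁ (hMooB hoo hhoo boo hboo))

end core

/-! ### The wrapper for a twisted bifiltered lattice system -/

section twist

open Fermat.Agent.S34x.C0two

variable {A : Type*} [CommRing A] [IsDomain A] [ValuationRing A]
variable {F : Type*} [Field F] [Algebra A F] [Module.IsTorsionFree A F]
variable {S : SmallRing F} {m : ℕ} {u : F}

/-- elements of `𝔪 P` are small -/
theorem small_of_mem_smul (hB : Base A S) {P : Submodule A F} (hP : ∀ x ∈ P, x ∈ S.O) {x : F}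
    (hx : x ∈ maximalIdeal A • P) : Small S x := by
  refine Submodule.smul_induction_on hx (fun r hr y hy => ?_) (fun y z hy hz => hy.add hz)
  exact hB.small_smul hr (hP y hy)

/-- the bounded torsion of the truncated Čech `H¹` of the twisted system, for the unions. -/
theorem exists_torsion_bound (T : TwistCore A S m u) :
    ∃ cD : A, cD ≠ 0 ∧ ∀ y ∈ T.chartX.P,
      (∃ d : A, d ≠ 0 ∧ d • y ∈ T.chartU.P ⊔ T.chartU'.P) → cD • y ∈ T.chartU.P ⊔ T.chartU'.P := by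
  obtain ⟨cD, hcD, hc⟩ := Fermat.Agent.Gateway.C0.exists_ne_zero_smul_mem_of_saturation
    (S := T.M 0 T.n₁ ⊔ T.M T.n₁ 0) (T := T.M T.n₁ T.n₁) (T.M_fg _ _)
  refine ⟨cD, hcD, ?_⟩
  rintro y ⟨n, hn⟩ ⟨d, hd, hdy⟩
  obtain ⟨p, ⟨nb, hp⟩, q, ⟨na, hq⟩, hpq⟩ := Submodule.mem_sup.mp hdy
  -- a common index
  obtain ⟨n₂, h₂n, h₂b, h₂a, h₂1⟩ : ∃ n₂, n ≤ n₂ ∧ nb ≤ n₂ ∧ na ≤ n₂ ∧ T.n₁ ≤ n₂ :=
    ⟨max (max n nb) (max na T.n₁), by omega, by omega, by omega, by omega⟩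
  have hp₂ : p ∈ T.M 0 n₂ := T.M_mono le_rfl h₂b hp
  have hq₂ : q ∈ T.M n₂ 0 := T.M_mono h₂a le_rfl hq
  have hy₂ : y ∈ T.M n₂ n₂ := T.M_mono h₂n h₂n hn
  obtain ⟨γy, hγy, z₁, hz₁, hsum⟩ := Submodule.mem_sup.mp (T.three h₂1 h₂1 hy₂)
  obtain ⟨γ₁, hγ₁, y₁, hy₁, hsum'⟩ := Submodule.mem_sup.mp hγy
  have hdec : y = γ₁ + y₁ + z₁ := by rw [hsum', hsum]
  -- `d γ₁ = p' + q'`
  have hp' : p - d • y₁ ∈ T.M 0 n₂ := sub_mem hp₂ (Submodule.smul_mem _ _ hy₁)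
  have hq' : q - d • z₁ ∈ T.M n₂ 0 := sub_mem hq₂ (Submodule.smul_mem _ _ hz₁)
  have hrel : d • γ₁ = (p - d • y₁) + (q - d • z₁) := by
    have : d • y = d • γ₁ + d • y₁ + d • z₁ := by rw [hdec, smul_add, smul_add]
    rw [← hpq] at this
    linear_combination -this
  have hp'2 : p - d • y₁ ∈ T.M n₂ T.n₁ := by
    have : p - d • y₁ = d • γ₁ - (q - d • z₁) := by rw [hrel]; ring
    rw [this]
    exact sub_mem (Submodule.smul_mem _ _ (T.M_mono h₂1 le_rfl hγ₁))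
      (T.M_mono le_rfl (Nat.zero_le _) hq')
  have hp'3 : p - d • y₁ ∈ T.M 0 T.n₁ := by
    have := T.M_inf hp' hp'2
    rwa [Nat.zero_min, min_eq_right h₂1] at this
  have hq'2 : q - d • z₁ ∈ T.M T.n₁ n₂ := by
    have : q - d • z₁ = d • γ₁ - (p - d • y₁) := by rw [hrel]; ring
    rw [this]
    exact sub_mem (Submodule.smul_mem _ _ (T.M_mono le_rfl h₂1 hγ₁))
      (T.M_mono (Nat.zero_le _) le_rfl hp')
  have hq'3 : q - d • z₁ ∈ T.M T.n₁ 0 := by
    have := T.M_inf hq' hq'2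
    rwa [min_eq_right h₂1, Nat.zero_min] at this
  have hS : d • γ₁ ∈ T.M 0 T.n₁ ⊔ T.M T.n₁ 0 := by
    rw [hrel]
    exact Submodule.add_mem_sup hp'3 hq'3
  obtain ⟨β₁, hβ₁, β₁', hβ₁', hβsum⟩ := Submodule.mem_sup.mp (hc γ₁ hγ₁ ⟨d, hd, hS⟩)
  have hfin : cD • y = (β₁ + cD • y₁) + (β₁' + cD • z₁) := by
    rw [hdec, smul_add, smul_add, ← hβsum]; ring
  rw [hfin]
  exact Submodule.add_mem_sup
    (⟨max T.n₁ n₂, (T.M 0 _).add_mem (T.M_mono le_rfl (le_max_left _ _) hβ₁)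
      (Submodule.smul_mem _ _ (T.M_mono le_rfl (le_max_right _ _) hy₁))⟩ : _ ∈ T.chartU.P)
    (⟨max T.n₁ n₂, (T.M _ 0).add_mem (T.M_mono (le_max_left _ _) le_rfl hβ₁')
      (Submodule.smul_mem _ _ (T.M_mono (le_max_right _ _) le_rfl hz₁))⟩ : _ ∈ T.chartU'.P)

/-- **Injectivity, twisted-system form.**  If the twisted system has no global section
(`M 0 0 = 0`), there is `cD ≠ 0` such that no pair of trivialisations `hoo ∈ ⋃ M 0 n`,
`h0 ∈ ⋃ M n 0` (with `hoo ≡ 1`) agrees modulo `cD ε`, `ε ∈ 𝔪`, up to chart units `voo ≡ 1`,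
`u0 ≡ 1`. -/
theorem not_coboundary (T : TwistCore A S m u) (hB : Base A S) (h1 : ¬ Small S (1 : F))
    (hM00 : ∀ x ∈ T.M 0 0, x = 0) :
    ∃ cD : A, cD ≠ 0 ∧ ∀ {ε : A}, ε ∈ maximalIdeal A → ε ≠ 0 →
      ∀ {hoo h0 voo u0 y : F}, hoo ∈ T.chartU.P → Cong S hoo 1 → h0 ∈ T.chartU'.P →
        voo ∈ T.chartU.R → Cong S voo 1 → u0 ∈ T.chartU'.R → Cong S u0 1 → y ∈ T.chartX.P →
        hoo * voo * u0 - h0 ≠ (cD * ε) • y := by
  obtain ⟨cD, hcD, htors⟩ := exists_torsion_bound T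
  refine ⟨cD, hcD, ?_⟩
  intro ε hε hε0 hoo h0 voo u0 y hhoo hhoo1 hh0 hvoo hvoo1 hu0 hu01 hy
  -- write the chart units as `1 + ϖ b`
  obtain ⟨ϖ₁, hϖ₁, boo, hboo, hvb⟩ :=
    T.chartU.exists_smul_of_small_R hB (T.chartU.R.sub_mem hvoo T.chartU.R.one_mem) hvoo1
  obtain ⟨ϖ₂, hϖ₂, β, hβ, huβ⟩ :=
    T.chartU'.exists_smul_of_small_R hB (T.chartU'.R.sub_mem hu0 T.chartU'.R.one_mem) hu01
  have hvoo' : voo = 1 + ϖ₁ • boo := by rw [← hvb]; ring
  have hu0' : u0 = 1 + ϖ₂ • β := by rw [← huβ]; ring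
  rw [hvoo', hu0']
  refine not_coboundary_core (M := T.chartX.P) (Moo := T.chartU.P) (M0 := T.chartU'.P)
    (Boo := T.chartU.R) (B0 := T.chartU'.R) hB.rank_one ?_ ?_ ?_ ?_ ?_ hcD htors hhoo ?_ hh0
    hε hε0 hϖ₁ hϖ₂ hboo hβ hy
  · rintro x ⟨n, hn⟩
    exact ⟨n, T.M_mono (Nat.zero_le n) le_rfl hn⟩
  · intro x hx b hb
    rw [mul_comm]
    exact T.chartU.R_mul_P hb hx
  · intro x hx b hb
    rw [mul_comm]
    exact T.chartU'.R_mul_P hb hx
  · rintro x hx b ⟨n, hn⟩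
    rw [mul_comm]
    exact T.chartX.R_mul_P ⟨n, T.N_mono le_rfl (Nat.zero_le n) hn⟩ hx
  · rintro x ⟨b, hb⟩ ⟨a, ha⟩
    have := T.M_inf hb ha
    rw [Nat.zero_min, Nat.min_zero] at this
    exact hM00 x this
  · intro hmem
    have hs : Small S hoo := small_of_mem_smul hB (fun x hx => T.chartU.P_le hx) hmem
    have : Small S (hoo - (hoo - 1)) := hs.sub hhoo1
    rw [sub_sub_cancel] at this
    exact h1 this

/-- **Injectivity for large `N`.**  For `ϖ ∈ 𝔪`, `ϖ ≠ 0` there is `N₀` such that for `N ≥ N₀` no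
pair of trivialisations agrees modulo `ϖ ^ N` up to chart units. -/
theorem exists_forall_not_coboundary (T : TwistCore A S m u) (hB : Base A S)
    (h1 : ¬ Small S (1 : F)) (hM00 : ∀ x ∈ T.M 0 0, x = 0) {ϖ : A}
    (hϖ : ϖ ∈ maximalIdeal A) (hϖ0 : ϖ ≠ 0) :
    ∃ N₀ : ℕ, ∀ N, N₀ ≤ N →
      ∀ {hoo h0 voo u0 y : F}, hoo ∈ T.chartU.P → Cong S hoo 1 → h0 ∈ T.chartU'.P →
        voo ∈ T.chartU.R → Cong S voo 1 → u0 ∈ T.chartU'.R → Cong S u0 1 → y ∈ T.chartX.P →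
        hoo * voo * u0 - h0 ≠ ϖ ^ N • y := by
  obtain ⟨cD, hcD, hnc⟩ := not_coboundary T hB h1 hM00
  obtain ⟨j, q, hq⟩ := hB.rank_one ϖ hϖ cD hcD
  refine ⟨j + 1, fun N hN => ?_⟩
  intro hoo h0 voo u0 y hhoo hhoo1 hh0 hvoo hvoo1 hu0 hu01 hy
  have hN' : ϖ ^ N = cD * (q * ϖ ^ (N - j)) := by
    rw [← mul_assoc, ← hq, ← pow_add]
    congr 1
    omega
  have hε : q * ϖ ^ (N - j) ∈ maximalIdeal A :=
    Ideal.mul_mem_left _ _ (Ideal.pow_mem_of_mem _ hϖ _ (by omega))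
  have hε0 : q * ϖ ^ (N - j) ≠ 0 := by
    intro h0'
    have : ϖ ^ N = 0 := by rw [hN', h0', mul_zero]
    exact pow_ne_zero N hϖ0 this
  rw [hN']
  exact hnc hε hε0 hhoo hhoo1 hh0 hvoo hvoo1 hu0 hu01 hy

end twist

end Fermat.Agent.S33x.Cech.Inject
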