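import Mathlib

/-!
# P-S33, LAYER 2, leaf (L2-B4), independent second, ABSTRACT FORM: injectivity of the Cech
coordinates for large precision

Pure algebra, Mathlib only.  Dictionary (blueprint v2, board `S33_L2_LEAVES`):

* `A` the valuation ring of constants, `𝔞` its maximal ideal, `ϖ ∈ 𝔞`;
* `F` the function field (any torsion-free commutative `A`-algebra);
* `Boo`, `B0` the integral coordinate rings of the two charts;
* `M` the sections of `O(D)` over the overlap (`⋃ Lam(D; a, b)`), `Moo = ⋃_b Lam(D; 0, b)`,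
  `M0 = ⋃_a Lam(D; a, 0)` the sections over the two charts;
* `(i)`  `Moo ⊓ M0 = ⊥`  (`L(D) = 0` for `D` of degree `0`, not principal);
* `(ii)` bounded torsion of the twisted `H¹ = M / (Moo + M0)`: one `cD ≠ 0` kills all the
  `ϖ`-power torsion (twisted `H1Fg.exists_ne_zero_smul_mem`), and `cD ∣ ϖ ^ j` (rank one);
* `(iii)` `hoo ∈ Moo` is not in `𝔞 • Moo` (its reduction is `1`).

Conclusion (`InjData.not_approx_coboundary`): there is `N0`, depending only on `cD` and `ϖ`, such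
that for `N ≥ N0` the cocycle is NOT a coboundary modulo `ϖ ^ N`: there are no `b ∈ Boo`,
`β ∈ B0`, `h0 ∈ M0` with `hoo * (1 + ϖ b) * (1 + ϖ β) - h0 ∈ ϖ ^ N M`.

Proof: with the truncated inverse `u' = ∑_{j<N} (-ϖ β)^j` of `u0 = 1 + ϖ β`,
`soo := hoo (1 + ϖ b) ∈ Moo` satisfies `soo - h0 u' = ϖ ^ N y'` with `y' ∈ M`; by `(ii)`
`cD y' = yoo + y0`, so `cD soo - ϖ ^ N yoo = cD h0 u' + ϖ ^ N y0 ∈ Moo ⊓ M0 = ⊥`; as
`ϖ ^ N = cD ε` with `ε ∈ 𝔞`, torsion-freeness gives `soo = ε yoo ∈ 𝔞 Moo`, hence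
`hoo = soo - ϖ (hoo b) ∈ 𝔞 Moo`, contradicting `(iii)`.
-/

set_option autoImplicit false

namespace Fermat.Agent.S33x.Cech.InjectB

variable {A F : Type*} [CommRing A] [CommRing F] [Algebra A F]

/-- The truncated geometric series `∑_{j<N} (-x)^j`, a truncated inverse of `1 + x`. -/
def truncInv (x : F) (N : ℕ) : F := ∑ j ∈ Finset.range N, (-x) ^ j

theorem one_add_mul_truncInv (x : F) (N : ℕ) : (1 + x) * truncInv x N = 1 - (-x) ^ N := by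
  have h := mul_neg_geom_sum (-x) N
  rw [sub_neg_eq_add] at h
  simpa [truncInv] using h

theorem truncInv_mem (S : Subalgebra A F) {x : F} (hx : x ∈ S) (N : ℕ) : truncInv x N ∈ S :=
  S.sum_mem fun _ _ => S.pow_mem (S.neg_mem hx) _

/-- The abstract data of leaf (L2-B4): see the file header for the dictionary. -/
structure InjData (𝔞 : Ideal A) (ϖ : A) (Boo B0 : Subalgebra A F) (M Moo M0 : Submodule A F) :
    Prop where
  ϖ_mem : ϖ ∈ 𝔞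
  Moo_le : Moo ≤ M
  B0_M : ∀ b ∈ B0, ∀ y ∈ M, b * y ∈ M
  B0_M0 : ∀ b ∈ B0, ∀ y ∈ M0, b * y ∈ M0
  Boo_Moo : ∀ b ∈ Boo, ∀ y ∈ Moo, b * y ∈ Moo
  /-- `(i)` no global section -/
  inf_eq_bot : Moo ⊓ M0 = ⊥
  /-- `(ii)` bounded `ϖ`-power torsion of `M / (Moo + M0)`, killed by `cD`, with `cD ∣ ϖ ^ j` -/
  tors : ∃ cD : A, (∀ z : F, cD • z = 0 → z = 0) ∧ (∃ j : ℕ, cD ∣ ϖ ^ j) ∧
    ∀ y ∈ M, (∃ N : ℕ, ϖ ^ N • y ∈ Moo ⊔ M0) → cD • y ∈ Moo ⊔ M0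

namespace InjData

variable {𝔞 : Ideal A} {ϖ : A} {Boo B0 : Subalgebra A F} {M Moo M0 : Submodule A F}

/-- **(L2-B4), abstract form.** There is `N0` (depending only on the torsion bound `cD` and on
`ϖ`) such that for `N ≥ N0` no section `hoo ∈ Moo ∖ 𝔞 Moo` becomes, after multiplication by
coboundaries `1 + ϖ b` (`b ∈ Boo`) and `1 + ϖ β` (`β ∈ B0`), congruent modulo `ϖ ^ N M` to a
section `h0 ∈ M0`. -/
theorem not_approx_coboundary (h : InjData 𝔞 ϖ Boo B0 M Moo M0) :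
    ∃ N0 : ℕ, ∀ N, N0 ≤ N → ∀ hoo ∈ Moo, hoo ∉ 𝔞 • Moo → ∀ h0 ∈ M0, ∀ b ∈ Boo, ∀ β ∈ B0,
      ¬ ∃ y ∈ M, hoo * (1 + ϖ • b) * (1 + ϖ • β) - h0 = ϖ ^ N • y := by
  obtain ⟨cD, hcD, ⟨j, hj⟩, htors⟩ := h.tors
  refine ⟨j + 1, fun N hN hoo hhoo hnot h0 hh0 b hb β hβ => ?_⟩
  rintro ⟨y, hy, hEq⟩
  -- `ϖ ^ N = cD * ε` with `ε ∈ 𝔞`
  obtain ⟨e, he⟩ := hj
  have hε : ∃ ε ∈ 𝔞, ϖ ^ N = cD * ε := by
    refine ⟨e * ϖ ^ (N - j), 𝔞.mul_mem_left _ (𝔞.pow_mem_of_mem h.ϖ_mem _ (by omega)), ?_⟩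
    rw [← mul_assoc, ← he, ← pow_add]
    congr 1
    omega
  obtain ⟨ε, hε𝔞, hεN⟩ := hε
  -- the section `soo` over the chart `∞`
  set soo : F := hoo * (1 + ϖ • b) with hsoo
  have hbm : hoo * b ∈ Moo := by
    rw [mul_comm]
    exact h.Boo_Moo b hb hoo hhoo
  have hsooM : soo ∈ Moo := by
    have : soo = hoo + ϖ • (hoo * b) := by
      rw [hsoo, mul_add, mul_one, mul_smul_comm]
    rw [this]
    exact Moo.add_mem hhoo (Moo.smul_mem _ hbm)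
  -- the truncated inverse of `u0 = 1 + ϖ β`
  have hϖβ : ϖ • β ∈ B0 := B0.smul_mem hβ ϖ
  set u' : F := truncInv (ϖ • β) N with hu'
  have hu'B : u' ∈ B0 := truncInv_mem B0 hϖβ N
  have hinv : (1 + ϖ • β) * u' = 1 - (-(ϖ • β)) ^ N := one_add_mul_truncInv _ _
  have hpow : (-(ϖ • β)) ^ N = ϖ ^ N • (-β) ^ N := by
    rw [← smul_neg, smul_pow]
  -- `soo - h0 u' = ϖ ^ N y'`
  set y' : F := u' * y + (-β) ^ N * soo with hy'
  have hy'M : y' ∈ M := by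
    refine M.add_mem (h.B0_M _ hu'B _ hy) (h.B0_M _ ?_ _ (h.Moo_le hsooM))
    exact B0.pow_mem (B0.neg_mem hβ) _
  have hkey : soo - u' * h0 = ϖ ^ N • y' := by
    have h1 : soo * ((1 + ϖ • β) * u') - u' * h0 = u' * (ϖ ^ N • y) := by
      rw [← hEq]
      ring
    rw [hinv, hpow] at h1
    rw [hy']
    simp only [Algebra.smul_def] at h1 ⊢
    linear_combination h1
  have hu'h0 : u' * h0 ∈ M0 := h.B0_M0 _ hu'B _ hh0
  -- bounded torsion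
  have hmem : cD • y' ∈ Moo ⊔ M0 := by
    refine htors y' hy'M ⟨N, ?_⟩
    rw [← hkey]
    exact Submodule.sub_mem _ (Submodule.mem_sup_left hsooM) (Submodule.mem_sup_right hu'h0)
  obtain ⟨yoo, hyoo, y0, hy0, hsum⟩ := Submodule.mem_sup.mp hmem
  -- the element of `Moo ⊓ M0`
  have hz : cD • soo - ϖ ^ N • yoo = cD • (u' * h0) + ϖ ^ N • y0 := by
    have h2 : cD • (soo - u' * h0) = ϖ ^ N • (yoo + y0) := by
      rw [hkey, hsum, smul_comm]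
    rw [smul_sub, smul_add] at h2
    linear_combination (exp := 1) h2
  have hzero : cD • soo - ϖ ^ N • yoo = 0 := by
    have hin : cD • soo - ϖ ^ N • yoo ∈ Moo ⊓ M0 := by
      refine ⟨Moo.sub_mem (Moo.smul_mem _ hsooM) (Moo.smul_mem _ hyoo), ?_⟩
      rw [SetLike.mem_coe, hz]
      exact M0.add_mem (M0.smul_mem _ hu'h0) (M0.smul_mem _ hy0)
    rw [h.inf_eq_bot] at hin
    exact (Submodule.mem_bot A).mp hin
  -- `soo = ε yoo`
  have hsooε : soo = ε • yoo := by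
    have : cD • (soo - ε • yoo) = 0 := by
      rw [smul_sub, smul_smul, ← hεN]
      exact hzero
    exact sub_eq_zero.mp (hcD _ this)
  -- contradiction with `(iii)`
  apply hnot
  have hhoo' : hoo = ε • yoo - ϖ • (hoo * b) := by
    rw [← hsooε, hsoo, mul_add, mul_one, mul_smul_comm]
    ring
  rw [hhoo']
  exact Submodule.sub_mem _ (Submodule.smul_mem_smul hε𝔞 hyoo)
    (Submodule.smul_mem_smul h.ϖ_mem hbm)

/-- **(L2-B4), cocycle form.**  `Bx` the coordinate ring of the overlap, `h0' ` a section of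
`O(-D)` over the chart `0` with `h0 * h0' = 1 + ϖ γ` (`γ ∈ B0`), `h0 Bx ⊆ M`.  For `N ≥ N0` the
cocycle `hoo * h0'` is not a coboundary modulo `ϖ ^ N Bx`: no `b ∈ Boo`, `β ∈ B0` with
`hoo * h0' * (1 + ϖ b) * (1 + ϖ β) - 1 ∈ ϖ ^ N Bx`. -/
theorem not_cocycle_coboundary (h : InjData 𝔞 ϖ Boo B0 M Moo M0) (Bx : Subalgebra A F) :
    ∃ N0 : ℕ, ∀ N, N0 ≤ N → ∀ hoo ∈ Moo, hoo ∉ 𝔞 • Moo → ∀ h0 ∈ M0, (∀ r ∈ Bx, h0 * r ∈ M) →
      ∀ h0' : F, ∀ γ ∈ B0, h0 * h0' = 1 + ϖ • γ → ∀ b ∈ Boo, ∀ β ∈ B0,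
        ¬ ∃ r ∈ Bx, hoo * h0' * (1 + ϖ • b) * (1 + ϖ • β) - 1 = ϖ ^ N • r := by
  obtain ⟨N0, hN0⟩ := h.not_approx_coboundary
  refine ⟨N0, fun N hN hoo hhoo hnot h0 hh0 hBx h0' γ hγ hh b hb β hβ => ?_⟩
  rintro ⟨r, hr, hEq⟩
  refine hN0 N hN hoo hhoo hnot h0 hh0 b hb (γ + β + ϖ • (γ * β))
    (B0.add_mem (B0.add_mem hγ hβ) (B0.smul_mem (B0.mul_mem hγ hβ) ϖ)) ⟨h0 * r, hBx r hr, ?_⟩
  have h1 : h0 * (hoo * h0' * (1 + ϖ • b) * (1 + ϖ • β) - 1) = h0 * (ϖ ^ N • r) := by rw [hEq]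
  simp only [Algebra.smul_def] at h1 hh ⊢
  linear_combination h1 - hoo * (1 + algebraMap A F ϖ * b) * (1 + algebraMap A F ϖ * β) * hh

end InjData

/-- `(iii)` from a residue function: if `res` is additive on `Moo`, kills `𝔞 Moo` and
`res hoo ≠ 0`, then `hoo ∉ 𝔞 • Moo`. -/
theorem not_mem_smul_of_res {𝔞 : Ideal A} {Moo : Submodule A F} {κ : Type*} [AddCommGroup κ]
    (res : F → κ) (hadd : ∀ x ∈ Moo, ∀ y ∈ Moo, res (x + y) = res x + res y)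
    (hsm : ∀ a ∈ 𝔞, ∀ y ∈ Moo, res (a • y) = 0) {hoo : F} (hne : res hoo ≠ 0) :
    hoo ∉ 𝔞 • Moo := by
  intro hmem
  have key : ∀ x ∈ 𝔞 • Moo, x ∈ Moo ∧ res x = 0 := by
    intro x hx
    refine Submodule.smul_induction_on hx (fun a ha y hy => ⟨Moo.smul_mem a hy, hsm a ha y hy⟩) ?_
    rintro x y ⟨hxM, hx0⟩ ⟨hyM, hy0⟩
    exact ⟨Moo.add_mem hxM hyM, by rw [hadd x hxM y hyM, hx0, hy0, add_zero]⟩
  exact hne (key hoo hmem).2

/-- The field `tors` of `InjData` over a domain of rank one (`c ∣ x ^ j` for `x` in the maximal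
ideal) acting without torsion. -/
theorem tors_of_rankOne [IsDomain A] [NoZeroSMulDivisors A F] {ϖ : A} {M Moo M0 : Submodule A F}
    (hrk : ∀ c : A, c ≠ 0 → ∃ j : ℕ, c ∣ ϖ ^ j)
    (htors : ∃ cD : A, cD ≠ 0 ∧
      ∀ y ∈ M, (∃ N : ℕ, ϖ ^ N • y ∈ Moo ⊔ M0) → cD • y ∈ Moo ⊔ M0) :
    ∃ cD : A, (∀ z : F, cD • z = 0 → z = 0) ∧ (∃ j : ℕ, cD ∣ ϖ ^ j) ∧
      ∀ y ∈ M, (∃ N : ℕ, ϖ ^ N • y ∈ Moo ⊔ M0) → cD • y ∈ Moo ⊔ M0 := by
  obtain ⟨cD, hcD, h⟩ := htors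
  exact ⟨cD, fun z hz => (smul_eq_zero.mp hz).resolve_left hcD, hrk cD hcD, h⟩

end Fermat.Agent.S33x.Cech.InjectB
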