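import Fermat.Agent.S33x.Cech.Inject
import Fermat.Agent.S33x.Cech.OfDirectSum

/-!
# P-S33 Layer 2 (L2-I4, helper61): injectivity in CROSS-MULTIPLIED form

`Cech/Inject.lean` shows that the cocycle `hoo / h0` of two trivialisations of a line bundle
without global sections is not a coboundary to high precision.  The abstract assembly (B5) wants
this for the cocycle `c = hoo * h0'` (`h0 * h0' ≡ 1`) in the *cross-multiplied* form

  `π ^ N ∤ c * voo * v0 - woo * w0`   (`voo, woo ∈ 1 + π Boo`, `v0, w0 ∈ 1 + π B0`),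

which avoids inverses.  We reduce to `Inject.not_coboundary_core` by multiplying with `h0` and with
the truncated inverse of `woo` modulo `π ^ N`.

* `not_cross_coboundary` : the statement for submodules / subalgebras of an ambient algebra `F`;
* `not_cross_coboundary_typed` : the same statement on the TYPE `↥Bx`, with `OfDirectSum.ooIn`,
  `OfDirectSum.zeroIn`, in the literal inner shape of the hypothesis `cyc_inj` of B5.
-/

set_option autoImplicit false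
set_option linter.unusedSectionVars false

namespace Fermat.Agent.S33x.Cech.InjectCross

open IsLocalRing

section field

variable {A : Type*} [CommRing A] [IsDomain A] [ValuationRing A]
variable {F : Type*} [CommRing F] [Algebra A F] [Module.IsTorsionFree A F]

/-- In a valuation ring, a product of two elements `≡ 1` modulo `𝔪 B` is `1 + ϖ β` for ONE
`ϖ ∈ 𝔪`. -/
theorem exists_one_add_mul {B : Subalgebra A F} {ϖ₁ ϖ₂ : A} (h₁ : ϖ₁ ∈ maximalIdeal A)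
    (h₂ : ϖ₂ ∈ maximalIdeal A) {β₁ β₂ : F} (hβ₁ : β₁ ∈ B) (hβ₂ : β₂ ∈ B) :
    ∃ ϖ ∈ maximalIdeal A, ∃ β ∈ B, (1 + ϖ₁ • β₁) * (1 + ϖ₂ • β₂) = 1 + ϖ • β := by
  rcases ValuationRing.dvd_total ϖ₁ ϖ₂ with ⟨e, he⟩ | ⟨e, he⟩
  · refine ⟨ϖ₁, h₁, β₁ + e • β₂ + ϖ₂ • (β₁ * β₂), ?_, ?_⟩
    · exact B.add_mem (B.add_mem hβ₁ (B.smul_mem hβ₂ e)) (B.smul_mem (B.mul_mem hβ₁ hβ₂) ϖ₂)
    · have he' : algebraMap A F ϖ₂ = algebraMap A F ϖ₁ * algebraMap A F e := by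
        rw [he, map_mul]
      simp only [Algebra.smul_def]
      linear_combination β₂ * he'
  · refine ⟨ϖ₂, h₂, e • β₁ + β₂ + ϖ₁ • (β₁ * β₂), ?_, ?_⟩
    · exact B.add_mem (B.add_mem (B.smul_mem hβ₁ e) hβ₂) (B.smul_mem (B.mul_mem hβ₁ hβ₂) ϖ₁)
    · have he' : algebraMap A F ϖ₁ = algebraMap A F ϖ₂ * algebraMap A F e := by
        rw [he, map_mul]
      simp only [Algebra.smul_def]
      linear_combination β₁ * he'

/-- **Injectivity, cross-multiplied form.**  `hoo ∈ Moo`, `h0 ∈ M0` trivialisations of a line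
bundle without global sections (`hinf`), with bounded torsion of `M / (Moo + M0)` (`htors`),
`hoo ∉ 𝔪 Moo`, and `h0'` an inverse of `h0` up to `1 + 𝔪 B0`.  Then for `N ≥ N0` the cocycle
`hoo * h0'` is not a coboundary modulo `π ^ N` in the cross-multiplied sense. -/
theorem not_cross_coboundary
    (hrank : ∀ x ∈ maximalIdeal A, ∀ c : A, c ≠ 0 → ∃ j : ℕ, c ∣ x ^ j)
    {M Moo M0 : Submodule A F} {Bx Boo B0 : Subalgebra A F}
    (hooBx : Boo ≤ Bx) (h0Bx : B0 ≤ Bx)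
    (hMoo : Moo ≤ M) (hM0 : M0 ≤ M)
    (hMooB : ∀ x ∈ Moo, ∀ b ∈ Boo, x * b ∈ Moo)
    (hM0B : ∀ x ∈ M0, ∀ b ∈ B0, x * b ∈ M0)
    (hMBx : ∀ x ∈ M, ∀ b ∈ Bx, x * b ∈ M)
    (hinf : ∀ x, x ∈ Moo → x ∈ M0 → x = 0)
    {cD : A} (hcD : cD ≠ 0)
    (htors : ∀ y ∈ M, (∃ d : A, d ≠ 0 ∧ d • y ∈ Moo ⊔ M0) → cD • y ∈ Moo ⊔ M0)
    {hoo h0 h0' : F} (hhoo : hoo ∈ Moo) (hns : hoo ∉ maximalIdeal A • Moo) (hh0 : h0 ∈ M0)
    {ϖ₀ : A} (hϖ₀ : ϖ₀ ∈ maximalIdeal A) {γ : F} (hγ : γ ∈ B0) (hu : h0 * h0' = 1 + ϖ₀ • γ)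
    {π : A} (hπ : π ∈ maximalIdeal A) (hπ0 : π ≠ 0) :
    ∃ N0 : ℕ, ∀ N, N0 ≤ N → ∀ boo ∈ Boo, ∀ b ∈ Boo, ∀ β ∈ B0, ∀ w0 ∈ B0, ∀ z ∈ Bx,
      hoo * h0' * (1 + π • boo) * (1 + π • β) - (1 + π • b) * w0 ≠ π ^ N • z := by
  obtain ⟨j, q, hq⟩ := hrank π hπ (cD * π) (mul_ne_zero hcD hπ0)
  refine ⟨j + 1, fun N hN boo hboo b hb β hβ w0 hw0 z hz heq => ?_⟩
  obtain ⟨N', rfl⟩ : ∃ N', N = N' + 1 := ⟨N - 1, by omega⟩
  have hjN : j ≤ N' := by omega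
  -- the truncated inverse of `1 + π b`
  set x : F := π • (-b) with hx
  have hxB : x ∈ Boo := Boo.smul_mem (Boo.neg_mem hb) π
  set g : F := ∑ i ∈ Finset.range N', x ^ i with hg
  have hgB : g ∈ Boo := Boo.sum_mem fun i _ => Boo.pow_mem hxB i
  set wt : F := ∑ i ∈ Finset.range (N' + 1), x ^ i with hwt
  have hwt1 : wt = 1 + π • ((-b) * g) := by
    rw [hwt, Finset.sum_range_succ', pow_zero, hg, Finset.mul_sum, Finset.smul_sum, add_comm]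
    congr 1
    refine Finset.sum_congr rfl fun i _ => ?_
    rw [pow_succ', hx, smul_mul_assoc]
  have hwtB : wt ∈ Boo := Boo.sum_mem fun i _ => Boo.pow_mem hxB i
  have hgeom : (1 + π • b) * wt = 1 - π ^ (N' + 1) • (-b) ^ (N' + 1) := by
    have h1 : (1 + π • b) = 1 - x := by rw [hx, smul_neg, sub_neg_eq_add]
    rw [h1, hwt, mul_neg_geom_sum, hx, smul_pow]
  -- `voo * wt = 1 + π boo'`
  set boo' : F := boo + (-b) * g + π • (boo * ((-b) * g)) with hboo'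
  have hboo'B : boo' ∈ Boo :=
    Boo.add_mem (Boo.add_mem hboo (Boo.mul_mem (Boo.neg_mem hb) hgB))
      (Boo.smul_mem (Boo.mul_mem hboo (Boo.mul_mem (Boo.neg_mem hb) hgB)) π)
  have hvw : (1 + π • boo) * wt = 1 + π • boo' := by
    rw [hwt1, hboo']
    simp only [Algebra.smul_def]
    ring
  -- `(h0 h0') v0 = 1 + ϖ₂ β₂`
  obtain ⟨ϖ₂, hϖ₂, β₂, hβ₂, hprod⟩ := exists_one_add_mul (B := B0) hϖ₀ hπ hγ hβ
  -- the new relation
  have hbN : (-b) ^ (N' + 1) ∈ Bx := hooBx (Boo.pow_mem (Boo.neg_mem hb) _)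
  have hh0w0 : h0 * w0 ∈ M0 := hM0B h0 hh0 w0 hw0
  set y' : F := h0 * (wt * z) - (h0 * w0) * (-b) ^ (N' + 1) with hy'
  have hy'M : y' ∈ M :=
    M.sub_mem (hMBx h0 (hM0 hh0) _ (Bx.mul_mem (hooBx hwtB) hz)) (hMBx _ (hM0 hh0w0) _ hbN)
  have hrel : hoo * (1 + π • boo') * (1 + ϖ₂ • β₂) - h0 * w0 = π ^ (N' + 1) • y' := by
    rw [← hvw, ← hprod, ← hu, hy']
    have h2 : h0 * wt * (hoo * h0' * (1 + π • boo) * (1 + π • β) - (1 + π • b) * w0)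
        = h0 * wt * (π ^ (N' + 1) • z) := by rw [heq]
    have h3 : h0 * w0 * ((1 + π • b) * wt) = h0 * w0 * (1 - π ^ (N' + 1) • (-b) ^ (N' + 1)) := by
      rw [hgeom]
    simp only [Algebra.smul_def] at h2 h3 ⊢
    linear_combination h2 + h3
  -- `π ^ N = (cD π) * (q π ^ (N' - j))`
  have hpow : π ^ (N' + 1) = (cD * π) * (q * π ^ (N' + 1 - j)) := by
    have : π ^ (N' + 1) = π ^ j * π ^ (N' + 1 - j) := by
      rw [← pow_add]
      congr 1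
      omega
    rw [this, hq]
    ring
  have hMB0 : ∀ x ∈ M, ∀ b ∈ B0, x * b ∈ M := fun x hx b hb => hMBx x hx b (h0Bx hb)
  refine Inject.not_coboundary_core hrank hMoo hMooB hM0B hMB0 hinf hcD htors hhoo hns hh0w0
    hπ hπ0 hπ hϖ₂ hboo'B hβ₂ (M.smul_mem (q * π ^ (N' + 1 - j)) hy'M) ?_
  rw [hrel, hpow, mul_smul]

end field

section typed

open OfDirectSum

variable {A : Type*} [CommRing A] [IsDomain A] [ValuationRing A]
variable {F : Type*} [Field F] [Algebra A F] [Module.IsTorsionFree A F]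

/-- an element of a subalgebra `B` (viewed inside the type `↥Bx`) which is `≡ 1` modulo `π` -/
theorem exists_eq_one_add_of_dvd_sub_one {Bx : Subalgebra A F} (B : Subalgebra A Bx) {π : A}
    {v : B} (h : algebraMap A B π ∣ v - 1) :
    ∃ r : Bx, r ∈ B ∧ (((v : Bx) : F) = 1 + π • ((r : Bx) : F)) := by
  obtain ⟨r, hr⟩ := h
  refine ⟨(r : Bx), r.2, ?_⟩
  have h1 : (v : Bx) = 1 + algebraMap A Bx π * (r : Bx) := by
    have := congrArg (Subtype.val : B → Bx) hr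
    rw [Subalgebra.coe_sub, Subalgebra.coe_one, Subalgebra.coe_mul, Subalgebra.coe_algebraMap]
      at this
    rw [← this]
    ring
  have h2 := congrArg (Subtype.val : Bx → F) h1
  rw [Subalgebra.coe_add, Subalgebra.coe_one, Subalgebra.coe_mul, Subalgebra.coe_algebraMap]
    at h2
  rw [h2, Algebra.smul_def]

/-- **Injectivity, cross-multiplied form, on the type `↥Bx`** (the inner statement of the
hypothesis `cyc_inj` of the abstract assembly B5, for ONE cocycle `c = hoo * h0'`). -/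
theorem not_cross_coboundary_typed
    (hrank : ∀ x ∈ maximalIdeal A, ∀ c : A, c ≠ 0 → ∃ j : ℕ, c ∣ x ^ j)
    {M Moo M0 : Submodule A F} {Bx Boo B0 : Subalgebra A F}
    (hooBx : Boo ≤ Bx) (h0Bx : B0 ≤ Bx)
    (hMoo : Moo ≤ M) (hM0 : M0 ≤ M)
    (hMooB : ∀ x ∈ Moo, ∀ b ∈ Boo, x * b ∈ Moo)
    (hM0B : ∀ x ∈ M0, ∀ b ∈ B0, x * b ∈ M0)
    (hMBx : ∀ x ∈ M, ∀ b ∈ Bx, x * b ∈ M)
    (hinf : ∀ x, x ∈ Moo → x ∈ M0 → x = 0)
    {cD : A} (hcD : cD ≠ 0)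
    (htors : ∀ y ∈ M, (∃ d : A, d ≠ 0 ∧ d • y ∈ Moo ⊔ M0) → cD • y ∈ Moo ⊔ M0)
    {hoo h0 h0' : F} (hhoo : hoo ∈ Moo) (hns : hoo ∉ maximalIdeal A • Moo) (hh0 : h0 ∈ M0)
    {ϖ₀ : A} (hϖ₀ : ϖ₀ ∈ maximalIdeal A) {γ : F} (hγ : γ ∈ B0) (hu : h0 * h0' = 1 + ϖ₀ • γ)
    {c : Bx} (hc : (c : F) = hoo * h0')
    {π : A} (hπ : π ∈ maximalIdeal A) (hπ0 : π ≠ 0) :
    ∃ N0 : ℕ, ∀ N, N0 ≤ N →
      ¬ ∃ (voo woo : ooIn Bx Boo) (v0 w0 : zeroIn Bx B0),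
        algebraMap A (ooIn Bx Boo) π ∣ voo - 1 ∧ algebraMap A (ooIn Bx Boo) π ∣ woo - 1 ∧
        algebraMap A (zeroIn Bx B0) π ∣ v0 - 1 ∧ algebraMap A (zeroIn Bx B0) π ∣ w0 - 1 ∧
        algebraMap A Bx π ^ N ∣ c * voo * v0 - woo * w0 := by
  obtain ⟨N0, hN0⟩ := not_cross_coboundary hrank hooBx h0Bx hMoo hM0 hMooB hM0B hMBx hinf hcD htors
    hhoo hns hh0 hϖ₀ hγ hu hπ hπ0
  refine ⟨N0, fun N hN => ?_⟩
  rintro ⟨voo, woo, v0, w0, hvoo, hwoo, hv0, -, z, hz⟩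
  obtain ⟨boo, hboo, hvoo'⟩ := exists_eq_one_add_of_dvd_sub_one _ hvoo
  obtain ⟨b, hb, hwoo'⟩ := exists_eq_one_add_of_dvd_sub_one _ hwoo
  obtain ⟨β, hβ, hv0'⟩ := exists_eq_one_add_of_dvd_sub_one _ hv0
  refine hN0 N hN (boo : F) hboo (b : F) hb (β : F) hβ ((w0 : Bx) : F) w0.2 (z : F) z.2 ?_
  have h := congrArg (Subtype.val : Bx → F) hz
  rw [Subalgebra.coe_sub, Subalgebra.coe_mul, Subalgebra.coe_mul, Subalgebra.coe_mul,
    Subalgebra.coe_mul, Subalgebra.coe_pow, Subalgebra.coe_algebraMap, hc, hvoo', hwoo', hv0'] at h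
  rw [h, Algebra.smul_def, map_pow]

end typed

end Fermat.Agent.S33x.Cech.InjectCross
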