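import Fermat.Agent.S33x.Cech.InjectSep
import Fermat.Agent.S33x.Cech.TwistH1
import Fermat.Agent.S33x.Cech.Datum
import Fermat.Agent.S33x.H1.InstC4

/-!
# P-S33 Layer 2 (L2-I4, geometric wrapper, helper2): `cyc_sep` for the cocycle of a Cech datum

The geometric instance of `Cech/InjectSep.exists_sep_typed` (helper61): for a NORMALISED Kummer
pair `(w, D)` (`m D = div w`, `m > 0`, `w ∈ S.O`, `res w = 1`) with `deg D = 0` and `D` NOT
principal, and a Cech datum `d : Datum.CechDatum R Dt D`, the cocycle `d.cocycle = d.hoo * d.h0'`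
(an element of the overlap ring `BxAlg C`) is not a near-one coboundary modulo ONE `δ ≠ 0`, in the
cross-multiplied sense: this is the inner statement of the hypothesis `cyc_sep` of the abstract
assembly (B5) at one cocycle.

Inputs: `Cech/TwistH1` (helper73: the `D`-twisted lattice system `LamD`, bounded torsion of the
twisted `H¹`, `B∞D ∩ B₀D = 0`), `H1/InstC2` (kernel of the reduction on `Lam(a,0)`), `H1/InstC4`
(the chart rings `BxAlg`, `BooAlg`, `BzeroAlg` as subalgebras), `Cech/Datum` (helper49).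

* `BooAlg_mul_BooD`, `BzeroAlg_mul_BzeroD`, `BxAlg_mul_BxD`: module structures;
* `not_mem_smul_of_resOne`: an element of `S.O` reducing to `1` is not in `𝔪 Moo` for any
  submodule `Moo ≤ S.O`;
* `exists_eq_one_add_smul`: `h0 * h0' = 1 + ϖ₀ γ`, `ϖ₀ ∈ 𝔪`, `γ ∈ BzeroAlg C`;
* `exists_sep_raw`: the separation statement in the ambient field `F`;
* `exists_sep_cechDatum`: the typed statement, on `↥(BxAlg C)` with `CoordB.NearOne`.
-/

set_option autoImplicit false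
set_option linter.unusedSectionVars false
set_option linter.style.haveILetI false

noncomputable section

namespace Fermat.Agent.S33x.Cech.InjectInst

open AlgebraicCurve Module IntermediateField IsLocalRing
open Fermat.Agent.Gateway.C0 Fermat.Agent.S34x Fermat.Agent.S34x.C0two Fermat.Agent.S34x.Lattice2
open Fermat.Agent.S33x.H1.InstC1 Fermat.Agent.S33x.H1.InstC2 Fermat.Agent.S33x.H1.InstC4
open Fermat.Agent.S33x.Cech.TwistH1 Fermat.Agent.S33x.Cech.Datum

/-! ### The chart rings act on the twisted chart modules -/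

section modules

variable {K : Type*} [Field K] [IsAlgClosed K] [CharZero K] {A : ValuationSubring K}
  {F : Type*} [Field F] [Algebra K F] {S : SmallRing F}
  {k κ : Type*} [Field k] [CommRing κ] [Algebra k κ]
  {R : RedSetup2 A S k κ} (C : ChartCoord R)
  (ht : Transcendental K C.t) [FiniteDimensional K⟮C.t⟯ F]
  {Dt : Divisor K F} (hDt : ∀ v : Place K F, Dt v = v.ord C.t)
  [hPfin : ∀ b, FiniteDimensional k (C.Pk 0 b)] (D : Divisor K F)

include ht hDt in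
theorem BooAlg_mul_BooD {x b : F} (hx : x ∈ BooD R Dt D) (hb : b ∈ BooAlg C) :
    x * b ∈ BooD R Dt D := by
  obtain ⟨n, hn⟩ := (mem_BooD_iff R Dt D).mp hx
  obtain ⟨n', hn'⟩ := (mem_BooAlg C).mp hb
  refine (mem_BooD_iff R Dt D).mpr ⟨n' + n, ?_⟩
  have h := Lam_mul_LamD C ht hDt D hn' hn
  rwa [add_zero, mul_comm] at h

include ht hDt in
theorem BzeroAlg_mul_BzeroD {x b : F} (hx : x ∈ BzeroD R Dt D) (hb : b ∈ BzeroAlg C) :
    x * b ∈ BzeroD R Dt D := by
  obtain ⟨n, hn⟩ := (mem_BzeroD_iff R Dt D).mp hx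
  obtain ⟨n', hn'⟩ := (mem_BzeroAlg C).mp hb
  refine (mem_BzeroD_iff R Dt D).mpr ⟨n' + n, ?_⟩
  have h := Lam_mul_LamD C ht hDt D hn' hn
  rwa [add_zero, mul_comm] at h

include ht hDt in
theorem BxAlg_mul_BxD {x b : F} (hx : x ∈ BxD R Dt D) (hb : b ∈ BxAlg C) :
    x * b ∈ BxD R Dt D := by
  obtain ⟨a, c, hn⟩ := (mem_BxD_iff R Dt D).mp hx
  obtain ⟨a', c', hn'⟩ := (mem_BxAlg' C).mp hb
  refine (mem_BxD_iff R Dt D).mpr ⟨a' + a, c' + c, ?_⟩
  have h := Lam_mul_LamD C ht hDt D hn' hn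
  rwa [mul_comm] at h

end modules

/-! ### Hypothesis (iii): an element reducing to `1` is not in `𝔪 Moo` -/

section notSmall

variable {K : Type*} [Field K] {A : ValuationSubring K} {F : Type*} [Field F] [Algebra K F]
  {S : SmallRing F} {k κ : Type*} [Field k] [CommRing κ] [Algebra k κ] [Nontrivial κ]
  (R : RedSetup2 A S k κ)

theorem not_mem_smul_of_resOne {Moo : Submodule A F} (hMoo : ∀ x ∈ Moo, x ∈ S.O) {h : F}
    (hh : ResOne R h) : h ∉ maximalIdeal A • Moo := by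
  intro hmem
  have hsm : Small S h := by
    refine Submodule.smul_induction_on (p := fun x => Small S x) hmem ?_ ?_
    · intro r hr n hn
      exact R.base.small_smul hr (hMoo n hn)
    · intro x y hx hy
      exact hx.add hy
  have h0 := (R.small_iff hh.mem).mp hsm
  rw [hh.res_eq hh.mem] at h0
  exact one_ne_zero h0

end notSmall

/-! ### The main statements -/

section main

variable {K : Type*} [Field K] [IsAlgClosed K] [CharZero K] {A : ValuationSubring K}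
  {F : Type*} [Field F] [Algebra K F] {S : SmallRing F}
  {k κ : Type*} [Field k] [CommRing κ] [Algebra k κ] [Nontrivial κ]
  {R : RedSetup2 A S k κ} (C : ChartCoord R)
  (ht : Transcendental K C.t) [FiniteDimensional K⟮C.t⟯ F]
  {Dt : Divisor K F} (hDt : ∀ v : Place K F, Dt v = v.ord C.t)
  (hcart : ∀ V : Submodule K F, FiniteDimensional K V → (R.lat V).FG)
  [hPfin : ∀ b, FiniteDimensional k (C.Pk 0 b)] {b₀ : ℕ}
  (hgen : ∀ b, b₀ ≤ b → ∀ x ∈ C.Pk 0 (b + 1), ∃ y ∈ C.Pk 0 b, ∃ z ∈ C.Pk 0 b, x = y + C.T * z)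

include ht hDt in
/-- `h0 * h0' = 1 + ϖ₀ γ` with `ϖ₀ ∈ 𝔪` and `γ` in the chart ring `B₀`. -/
theorem exists_eq_one_add_smul {D : Divisor K F} (d : CechDatum R Dt D) :
    ∃ ϖ₀ ∈ maximalIdeal A, ∃ γ ∈ BzeroAlg C, d.h0 * d.h0' = 1 + ϖ₀ • γ := by
  haveI := isSeparable_adjoin_of_charZero (K := K) C.t
  obtain ⟨a, ha⟩ := d.h0_mul_h0'_mem
  rw [LamD_zero_eq C ht hDt] at ha
  have h1 : (1 : F) ∈ Lam C a 0 := Lam_mono C (Nat.zero_le a) le_rfl (one_mem_Lam C)
  obtain ⟨ϖ₀, hϖ₀, γ, hγ, h⟩ := exists_smul_of_res_eq C ha h1 (by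
    rw [d.h0_mul_h0'_resOne.res_eq ha.2]
    exact (map_one R.res).symm)
  exact ⟨ϖ₀, hϖ₀, γ, (mem_BzeroAlg C).mpr ⟨a, hγ⟩, by rw [← h]; ring⟩

variable {m : ℕ} (hm : 0 < m) {w : F} (hw0 : w ≠ 0) (hwO : w ∈ S.O)
  (hw1 : R.res ⟨w, hwO⟩ = 1) {D : Divisor K F}
  (hD : ∀ v : Place K F, (m : ℤ) * D v = v.ord w)

include ht hDt hcart hgen hm hw0 hw1 hD in
/-- **`cyc_sep` for the cocycle of a Cech datum, in the ambient field.**  ONE `δ ≠ 0` such that
`d.cocycle` is not a coboundary modulo `δ`, whatever the near-one chart units. -/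
theorem exists_sep_raw (hdeg : Divisor.degree D = 0) (hnp : ¬ Divisor.IsPrincipal D)
    (d : CechDatum R Dt D) :
    ∃ δ : A, δ ≠ 0 ∧ ∀ π₁ ∈ maximalIdeal A, ∀ π₂ ∈ maximalIdeal A, ∀ π₃ ∈ maximalIdeal A,
      ∀ boo ∈ BooAlg C, ∀ b ∈ BooAlg C, ∀ β ∈ BzeroAlg C, ∀ w0 ∈ BzeroAlg C, ∀ z ∈ BxAlg C,
        d.cocycle * (1 + π₁ • boo) * (1 + π₂ • β) - (1 + π₃ • b) * w0 ≠ δ • z := by
  obtain ⟨bo, hbo⟩ := d.hoo_mem
  obtain ⟨a0, ha0⟩ := d.h0_mem
  obtain ⟨ϖ₀, hϖ₀, γ, hγ, hu⟩ := exists_eq_one_add_smul C ht hDt d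
  have hinf : ∀ x, x ∈ BooD R Dt D → x ∈ BzeroD R Dt D → x = 0 := by
    intro x hx hx'
    have h := inf_eq_bot R ht Dt hdeg hnp
    have hx2 : x ∈ BooD R Dt D ⊓ BzeroD R Dt D := ⟨hx, hx'⟩
    rw [h] at hx2
    exact (Submodule.mem_bot A).mp hx2
  have hO : ∀ x ∈ BooD R Dt D, x ∈ S.O := by
    intro x hx
    obtain ⟨n, hn⟩ := (mem_BooD_iff R Dt D).mp hx
    exact hn.2
  exact InjectSep.exists_sep R.rank_one R.exists_ne_zero (BooAlg_le C) (BzeroAlg_le C)
    (H1Fg.chartU_le_chartX (M := TwistH1.LamD R Dt D))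
    (H1Fg.chartU'_le_chartX (M := TwistH1.LamD R Dt D))
    (fun x hx b hb => BooAlg_mul_BooD C ht hDt D hx hb)
    (fun x hx b hb => BzeroAlg_mul_BzeroD C ht hDt D hx hb)
    (fun x hx b hb => BxAlg_mul_BxD C ht hDt D hx hb)
    hinf (exists_ne_zero_smul_mem_twist C ht hDt hcart hgen hm hw0 hwO hw1 hD)
    ((mem_BooD_iff R Dt D).mpr ⟨bo, hbo⟩) (not_mem_smul_of_resOne R hO d.res_hoo)
    ((mem_BzeroD_iff R Dt D).mpr ⟨a0, ha0⟩) hϖ₀ hγ hu

open OfDirectSum in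
include ht hDt hcart hgen hm hw0 hw1 hD in
/-- **`cyc_sep` for the cocycle of a Cech datum, on the type `↥(BxAlg C)`**: the inner statement
of the hypothesis `cyc_sep` of the abstract assembly (B5) at the cocycle `c = d.cocycle` of a Cech
datum of a non-principal divisor `D` of degree `0` with a normalised Kummer function. -/
theorem exists_sep_cechDatum (hdeg : Divisor.degree D = 0) (hnp : ¬ Divisor.IsPrincipal D)
    (d : CechDatum R Dt D) {c : BxAlg C} (hc : (c : F) = d.cocycle) :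
    ∃ δ : A, δ ≠ 0 ∧
      ¬ ∃ (voo woo : ooIn (BxAlg C) (BooAlg C)) (v0 w0 : zeroIn (BxAlg C) (BzeroAlg C)),
        CoordB.NearOne (ooIn (BxAlg C) (BooAlg C)) voo ∧
        CoordB.NearOne (ooIn (BxAlg C) (BooAlg C)) woo ∧
        CoordB.NearOne (zeroIn (BxAlg C) (BzeroAlg C)) v0 ∧
        CoordB.NearOne (zeroIn (BxAlg C) (BzeroAlg C)) w0 ∧
        algebraMap A (BxAlg C) δ ∣ c * voo * v0 - woo * w0 := by
  obtain ⟨bo, hbo⟩ := d.hoo_mem
  obtain ⟨a0, ha0⟩ := d.h0_mem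
  obtain ⟨ϖ₀, hϖ₀, γ, hγ, hu⟩ := exists_eq_one_add_smul C ht hDt d
  have hinf : ∀ x, x ∈ BooD R Dt D → x ∈ BzeroD R Dt D → x = 0 := by
    intro x hx hx'
    have h := inf_eq_bot R ht Dt hdeg hnp
    have hx2 : x ∈ BooD R Dt D ⊓ BzeroD R Dt D := ⟨hx, hx'⟩
    rw [h] at hx2
    exact (Submodule.mem_bot A).mp hx2
  have hO : ∀ x ∈ BooD R Dt D, x ∈ S.O := by
    intro x hx
    obtain ⟨n, hn⟩ := (mem_BooD_iff R Dt D).mp hx
    exact hn.2
  exact InjectSep.exists_sep_typed R.rank_one R.exists_ne_zero (BooAlg_le C) (BzeroAlg_le C)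
    (H1Fg.chartU_le_chartX (M := TwistH1.LamD R Dt D))
    (H1Fg.chartU'_le_chartX (M := TwistH1.LamD R Dt D))
    (fun x hx b hb => BooAlg_mul_BooD C ht hDt D hx hb)
    (fun x hx b hb => BzeroAlg_mul_BzeroD C ht hDt D hx hb)
    (fun x hx b hb => BxAlg_mul_BxD C ht hDt D hx hb)
    hinf (exists_ne_zero_smul_mem_twist C ht hDt hcart hgen hm hw0 hwO hw1 hD)
    ((mem_BooD_iff R Dt D).mpr ⟨bo, hbo⟩) (not_mem_smul_of_resOne R hO d.res_hoo)
    ((mem_BzeroD_iff R Dt D).mpr ⟨a0, ha0⟩) hϖ₀ hγ hu hc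

include ht hDt in
/-- the cocycle of a Cech datum as an element of the type `↥(BxAlg C)` -/
theorem cocycle_mem_BxAlg {D : Divisor K F} (d : CechDatum R Dt D) : d.cocycle ∈ BxAlg C := by
  haveI := isSeparable_adjoin_of_charZero (K := K) C.t
  obtain ⟨a, b, h⟩ := d.cocycle_mem_LamD
  rw [LamD_zero_eq C ht hDt] at h
  exact (mem_BxAlg' C).mpr ⟨a, b, h⟩

open OfDirectSum in
include ht hDt hcart hgen hm hw0 hw1 in
/-- **Class form**: the same for a divisor `D` of degree `0` representing a NONZERO class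
`x = [D]` of `Pic⁰`. -/
theorem exists_sep_of_class_ne_zero {x : Pic0 K F} (hx : x ≠ 0)
    {D₀ : Divisor.degZero (K := K) (F := F)} (hDx : Pic0.mk D₀ = x)
    (hD₀ : ∀ v : Place K F, (m : ℤ) * (D₀ : Divisor K F) v = v.ord w)
    (d : CechDatum R Dt (D₀ : Divisor K F)) {c : BxAlg C} (hc : (c : F) = d.cocycle) :
    ∃ δ : A, δ ≠ 0 ∧
      ¬ ∃ (voo woo : ooIn (BxAlg C) (BooAlg C)) (v0 w0 : zeroIn (BxAlg C) (BzeroAlg C)),
        CoordB.NearOne (ooIn (BxAlg C) (BooAlg C)) voo ∧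
        CoordB.NearOne (ooIn (BxAlg C) (BooAlg C)) woo ∧
        CoordB.NearOne (zeroIn (BxAlg C) (BzeroAlg C)) v0 ∧
        CoordB.NearOne (zeroIn (BxAlg C) (BzeroAlg C)) w0 ∧
        algebraMap A (BxAlg C) δ ∣ c * voo * v0 - woo * w0 := by
  have hdeg : Divisor.degree (D₀ : Divisor K F) = 0 := AddMonoidHom.mem_ker.mp D₀.2
  have hnp : ¬ Divisor.IsPrincipal (D₀ : Divisor K F) := by
    intro hp
    apply hx
    rw [← hDx, Pic0.mk, QuotientAddGroup.eq_zero_iff, AddSubgroup.mem_addSubgroupOf]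
    exact hp
  exact exists_sep_cechDatum C ht hDt hcart hgen hm hw0 hwO hw1 hD₀ hdeg hnp d hc

end main

end Fermat.Agent.S33x.Cech.InjectInst
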