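import Fermat.Agent.S33x.Cech.Inject
import Fermat.Agent.S34x.TheoremB

/-!
# P-S33, LAYER 2, leaf (L2-B4) geometric wrapper, independent second (helper63)

`cyc_inj` in CROSS-MULTIPLIED cocycle form, for the twisted two-chart lattice system of a
normalised Kummer pair `(w, D)`, `m D = div w` (any `m > 0`, no hypothesis `IsUnit m`).

* `TwistCore.not_cocycle_cross` (abstract, for any `T : TwistCore A S m u` without global section,
  `T.M 0 0 = 0`): for `ϖ ∈ 𝔪`, `ϖ ≠ 0` there is `N₀` such that for `N ≥ N₀` there are NO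
  trivialisations `hoo ∈ ⋃ M 0 n`, `h0 ∈ ⋃ M n 0` (`hoo ≡ 1`), dual trivialisation `h0'` on the
  chart `0` (`h0 h0' ∈ ⋃ N n 0`, `≡ 1`), chart units `voo woo ∈ ⋃ N 0 n`, `v0 w0 ∈ ⋃ N n 0`
  (all `≡ 1`) and `r ∈ ⋃ N n n` with
  `hoo * h0' * voo * v0 - woo * w0 = ϖ ^ N • r`.
  Proof: multiply by `h0` and by a truncated inverse of `woo`; this is
  `Inject.exists_forall_not_coboundary` (helper61) for `h0 w0`, `voo woo⁻¹`, `h0 h0' v0`.
* `exists_twistCore_latN`: the `TwistCore` of `S34x/TheoremB.exists_twistCore` with BOTH families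
  exported (`C.M = latM R Dt E`, `C.N = latN R Dt`).
* `latM_zero_eq_bot`: `L(D) ∩ O = 0` for `deg D = 0`, `D` not principal.
* `not_cocycle_cross_latM`: the concrete statement for `latM R Dt D`, `latN R Dt`.
-/

set_option autoImplicit false
set_option linter.unusedSectionVars false
set_option linter.style.haveILetI false

noncomputable section

namespace Fermat.Agent.S33x.Cech.InjectInstB

open IsLocalRing Fermat.Agent.S34x.C0two

/-! ### Part 1: the cross-multiplied cocycle form for a `TwistCore` -/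

section twist

variable {A : Type*} [CommRing A] [IsDomain A] [ValuationRing A]
variable {F : Type*} [Field F] [Algebra A F] [Module.IsTorsionFree A F]
variable {S : SmallRing F} {m : ℕ} {u : F}

theorem chartU_R_le_chartX_R (T : TwistCore A S m u) {x : F} (hx : x ∈ T.chartU.R) :
    x ∈ T.chartX.R := by
  obtain ⟨n, hn⟩ := hx
  exact ⟨n, T.N_mono (Nat.zero_le n) le_rfl hn⟩

theorem chartU'_R_le_chartX_R (T : TwistCore A S m u) {x : F} (hx : x ∈ T.chartU'.R) :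
    x ∈ T.chartX.R := by
  obtain ⟨n, hn⟩ := hx
  exact ⟨n, T.N_mono le_rfl (Nat.zero_le n) hn⟩

theorem chartU'_P_le_chartX_P (T : TwistCore A S m u) {x : F} (hx : x ∈ T.chartU'.P) :
    x ∈ T.chartX.P := by
  obtain ⟨n, hn⟩ := hx
  exact ⟨n, T.M_mono le_rfl (Nat.zero_le n) hn⟩

/-- A unit `woo ≡ 1` of a chart ring has a truncated inverse modulo any `c ≠ 0`:
`woo * w' = 1 - c • e` with `w', e` in the chart ring and `w' ≡ 1`. -/
theorem exists_truncInv (C : Chart A S m u) (hB : Base A S) {woo : F} (hw : woo ∈ C.R)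
    (hw1 : Cong S woo 1) {c : A} (hc : c ≠ 0) :
    ∃ w' ∈ C.R, Cong S w' 1 ∧ ∃ e ∈ C.R, woo * w' = 1 - c • e := by
  obtain ⟨ϖ₁, hϖ₁, b, hb, hwb⟩ :=
    C.exists_smul_of_small_R hB (C.R.sub_mem hw C.R.one_mem) hw1
  have hwoo : woo = 1 + ϖ₁ • b := by rw [← hwb]; ring
  obtain ⟨J, q, hq⟩ := hB.rank_one ϖ₁ hϖ₁ c hc
  set x : F := -(ϖ₁ • b) with hx
  have hxR : x ∈ C.R := C.R.neg_mem (C.R.smul_mem hb ϖ₁)
  have hxs : Small S x := (hB.small_smul hϖ₁ (C.R_le hb)).neg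
  set w' : F := ∑ j ∈ Finset.range (J + 1), x ^ j with hw'
  have hw'R : w' ∈ C.R := C.R.sum_mem fun j _ => C.R.pow_mem hxR j
  set e : F := (q • (-b) ^ J) * x with he
  have heR : e ∈ C.R :=
    C.R.mul_mem (C.R.smul_mem (C.R.pow_mem (C.R.neg_mem hb) J) q) hxR
  have hxJ : x ^ (J + 1) = c • e := by
    have h1 : x = ϖ₁ • (-b) := by rw [hx, smul_neg]
    have h2 : x ^ J = c • (q • (-b) ^ J) := by
      rw [h1, smul_pow, hq, mul_smul]
    rw [pow_succ, h2, he, smul_mul_assoc]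
  have hgeom : woo * w' = 1 - c • e := by
    have h1 : woo = 1 - x := by rw [hwoo, hx]; ring
    rw [h1, hw', mul_neg_geom_sum, hxJ]
  refine ⟨w', hw'R, ?_, e, heR, hgeom⟩
  -- `w' ≡ 1`: all the terms with `j ≥ 1` are small
  have hsum : Cong S w' (∑ j ∈ Finset.range (J + 1), if j = 0 then (1 : F) else 0) := by
    refine Cong.sum _ _ _ fun j _ => ?_
    by_cases hj : j = 0
    · subst hj
      simpa using Cong.refl (S := S) (1 : F)
    · rw [if_neg hj, Cong, sub_zero]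
      obtain ⟨j', rfl⟩ := Nat.exists_eq_succ_of_ne_zero hj
      rw [pow_succ]
      exact Small.mul_left (S.O.pow_mem (C.R_le hxR) j') hxs
  have h1 : (∑ j ∈ Finset.range (J + 1), if j = 0 then (1 : F) else 0) = 1 := by
    rw [Finset.sum_ite_eq' (Finset.range (J + 1)) 0 (fun _ => (1 : F))]
    simp
  rwa [h1] at hsum

/-- **`cyc_inj`, cross-multiplied cocycle form, for a `TwistCore` without global section.** -/
theorem not_cocycle_cross (T : TwistCore A S m u) (hB : Base A S) (h1 : ¬ Small S (1 : F))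
    (hM00 : ∀ x ∈ T.M 0 0, x = 0) {ϖ : A} (hϖ : ϖ ∈ maximalIdeal A) (hϖ0 : ϖ ≠ 0) :
    ∃ N₀ : ℕ, ∀ N, N₀ ≤ N →
      ∀ {hoo h0 h0' voo v0 woo w0 r : F}, hoo ∈ T.chartU.P → Cong S hoo 1 → h0 ∈ T.chartU'.P →
        h0 * h0' ∈ T.chartU'.R → Cong S (h0 * h0') 1 →
        voo ∈ T.chartU.R → Cong S voo 1 → v0 ∈ T.chartU'.R → Cong S v0 1 →
        woo ∈ T.chartU.R → Cong S woo 1 → w0 ∈ T.chartU'.R → r ∈ T.chartX.R →
        hoo * h0' * voo * v0 - woo * w0 ≠ ϖ ^ N • r := by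
  obtain ⟨N₀, hN₀⟩ := Inject.exists_forall_not_coboundary T hB h1 hM00 hϖ hϖ0
  refine ⟨N₀, fun N hN => ?_⟩
  intro hoo h0 h0' voo v0 woo w0 r hhoo hhoo1 hh0 hhh hhh1 hvoo hvoo1 hv0 hv01 hwoo hwoo1 hw0 hr heq
  obtain ⟨w', hw'R, hw'1, e, heR, hwe⟩ :=
    exists_truncInv T.chartU hB hwoo hwoo1 (pow_ne_zero N hϖ0)
  -- the new data
  have hh0w0 : h0 * w0 ∈ T.chartU'.P := by
    rw [mul_comm]
    exact T.chartU'.R_mul_P hw0 hh0
  have hvw : voo * w' ∈ T.chartU.R := T.chartU.R.mul_mem hvoo hw'R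
  have hvw1 : Cong S (voo * w') 1 := by
    have := Cong.mul (S := S) (T.chartU.R_le hvoo) S.O.one_mem hvoo1 hw'1
    rwa [one_mul] at this
  have hu0 : h0 * h0' * v0 ∈ T.chartU'.R := T.chartU'.R.mul_mem hhh hv0
  have hu01 : Cong S (h0 * h0' * v0) 1 := by
    have := Cong.mul (S := S) (T.chartU'.R_le hhh) S.O.one_mem hhh1 hv01
    rwa [one_mul] at this
  have hh0X : h0 ∈ T.chartX.P := chartU'_P_le_chartX_P T hh0
  have hy : r * w' * h0 - (w0 * e) * h0 ∈ T.chartX.P := by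
    refine T.chartX.P.sub_mem (T.chartX.R_mul_P ?_ hh0X) (T.chartX.R_mul_P ?_ hh0X)
    · exact T.chartX.R.mul_mem hr (chartU_R_le_chartX_R T hw'R)
    · exact T.chartX.R.mul_mem (chartU'_R_le_chartX_R T hw0) (chartU_R_le_chartX_R T heR)
  refine hN₀ N hN hhoo hhoo1 hh0w0 hvw hvw1 hu0 hu01 hy ?_
  have h2 : (hoo * h0' * voo * v0 - woo * w0) * (h0 * w') = (ϖ ^ N • r) * (h0 * w') := by
    rw [heq]
  simp only [Algebra.smul_def] at h2 hwe ⊢
  linear_combination h2 + h0 * w0 * hwe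

end twist

/-! ### Part 2: the `TwistCore` of Theorem B with both families exported -/

section core

open AlgebraicCurve Fermat.Agent.Gateway.C0 Fermat.Agent.S34x Fermat.Agent.S34x.TheoremB

variable {K : Type*} [Field K] {A : ValuationSubring K}
  {F : Type*} [Field F] [Algebra K F] {S : SmallRing F}
  {k κ : Type*} [Field k] [CommRing κ] [Algebra k κ]
  (R : RedSetup2 A S k κ)
  {t : F} {Dt : Divisor K F} (ht0 : t ≠ 0) (hDt : ∀ v : Place K F, Dt v = v.ord t)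
  (htO : t ∈ S.O) (htiO : t⁻¹ ∈ S.O)
  (P : ℕ → Submodule k κ) {m : ℕ}
  (hSC : ∀ (b : ℕ) (f : F) (hf : f ∈ S.O), f ∈ (TwoCharts.ofDivisor Dt).LN 0 b →
    R.res ⟨f, hf⟩ ∈ P b)
  (hrad : ∀ (b : ℕ) (x : κ), x ^ m ∈ P (m * b) → x ∈ P b)
  {u : F} (hu0 : u ≠ 0) (huO : u ∈ S.O) (hu1 : R.res ⟨u, huO⟩ = 1)
  {E : Divisor K F} (hE : ∀ v : Place K F, (m : ℤ) * E v = v.ord u)

include ht0 hDt htO htiO hSC hrad hu0 hu1 hE in
/-- The twisted bifiltered lattice system of Theorem B (`S34x/TheoremB.exists_twistCore`), with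
BOTH families exported: `C.M = latM R Dt E` and `C.N = latN R Dt`.  Valid for every `m`. -/
theorem exists_twistCore_latN [∀ b, FiniteDimensional k (P b)] {b₀ : ℕ}
    (hgen : ∀ b, b₀ ≤ b → ∀ x ∈ P (b + 1), ∃ y ∈ P b, ∃ z ∈ P b, x = y + R.res ⟨t, htO⟩ * z)
    (hfg : ∀ a c, (latM R Dt E a c).FG)
    (hone : ∃ (n : ℕ) (g : F) (hg : g ∈ S.O),
      g ∈ (TwoCharts.ofDivisor Dt).LM E 0 n ∧ R.res ⟨g, hg⟩ = 1)
    (hone' : ∃ (n : ℕ) (g : F) (hg : g ∈ S.O),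
      g ∈ (TwoCharts.ofDivisor Dt).LM E n 0 ∧ R.res ⟨g, hg⟩ = 1) :
    ∃ C : TwistCore A S m u, C.M = latM R Dt E ∧ C.N = latN R Dt := by
  obtain ⟨b₁, hb₁⟩ := exists_latM_succ R ht0 hDt htO P hSC hrad hu0 huO hu1 hE hgen
    (fun b => hfg 0 b)
  obtain ⟨n, g, hg, hgM, hg1⟩ := hone
  obtain ⟨n', g', hg', hgM', hg1'⟩ := hone'
  set n₁ : ℕ := max b₁ (max n n') with hn₁
  have hb₁n : b₁ ≤ n₁ := le_max_left _ _
  have hnn : n ≤ n₁ := (le_max_left _ _).trans (le_max_right _ _)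
  have hnn' : n' ≤ n₁ := (le_max_right _ _).trans (le_max_right _ _)
  have hsat : ∀ (V : Submodule K F) {c : A} {x : F}, c ≠ 0 → x ∈ S.O → c • x ∈ R.lat V →
      x ∈ R.lat V := by
    intro V c x hc hx hcx
    refine ⟨?_, hx⟩
    have h1 : x = ((c : K))⁻¹ • (c • x) := by
      have : c • x = (c : K) • x := rfl
      rw [this, smul_smul, inv_mul_cancel₀ (by exact_mod_cast hc), one_smul]
    rw [h1]
    exact V.smul_mem _ hcx.1
  refine ⟨{
    N := latN R Dt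
    M := latM R Dt E
    n₁ := n₁
    N_le := fun _ _ _ hx => hx.2
    M_le := fun _ _ _ hx => hx.2
    N_mono := fun ha hb _ hx => ⟨(TwoCharts.ofDivisor Dt).LN_mono ha hb hx.1, hx.2⟩
    M_mono := fun ha hb => latM_mono R E ha hb
    one_mem := ⟨(TwoCharts.ofDivisor Dt).one_mem_LN, S.O.one_mem⟩
    N_mul := fun hx hy => ⟨(TwoCharts.ofDivisor Dt).LN_mul hx.1 hy.1, S.O.mul_mem hx.2 hy.2⟩
    N_mul_M := fun hx hy =>
      ⟨(TwoCharts.ofDivisor Dt).LN_mul_LM E hx.1 hy.1, S.O.mul_mem hx.2 hy.2⟩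
    prod_M := fun i j hij hx hy =>
      ⟨(TwoCharts.ofDivisor Dt).prod_LM hu0 hE i j hij hx.1 hy.1,
        S.O.mul_mem huO (S.O.mul_mem (S.O.pow_mem hx.2 i) (S.O.pow_mem hy.2 j))⟩
    M_inf := fun hx hy => ⟨(TwoCharts.ofDivisor Dt).LM_inf E hx.1 hy.1, hx.2⟩
    N_sat := fun hc hx hcx => hsat _ hc hx hcx
    M_sat := fun hc hx hcx => hsat _ hc hx hcx
    M_fg := hfg
    exists_one := ?_
    exists_one' := ?_
    three := ?_ }, rfl, rfl⟩
  · refine ⟨g, ⟨(TwoCharts.ofDivisor Dt).LM_mono E le_rfl hnn hgM, hg⟩, ?_⟩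
    rw [R.cong_iff hg S.O.one_mem, hg1]
    exact (map_one R.res).symm
  · refine ⟨g', ⟨(TwoCharts.ofDivisor Dt).LM_mono E hnn' le_rfl hgM', hg'⟩, ?_⟩
    rw [R.cong_iff hg' S.O.one_mem, hg1']
    exact (map_one R.res).symm
  · intro a b _ _
    exact H1Fg.le_sup_three (M := latM R Dt E) (t := t) (s := t⁻¹) (b₁ := n₁)
      (mul_inv_cancel₀ ht0) (latM_twist R ht0 hDt htO htiO E)
      (fun b b' hbb' => latM_mono R E le_rfl hbb') (mul_mem_latM_succ R hDt htO E)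
      (fun b hb => hb₁ b (hb₁n.trans hb)) a b

end core

/-! ### Part 3: no global section for a non-principal divisor of degree `0` -/

section nosection

open AlgebraicCurve WithZero Module IntermediateField
open Fermat.Agent.Gateway.C0 Fermat.Agent.Lib.RiemannRoch

variable {K F : Type*} [Field K] [Field F] [Algebra K F] [IsAlgClosed K] [CharZero K]
  {x : F} (hx : Transcendental K x) [FiniteDimensional K⟮x⟯ F]

include hx in
/-- A nonzero element of `L(D)`, `deg D = 0`, has divisor `-D`. -/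
theorem ord_eq_neg_of_mem_rrs {D : Divisor K F} (hdeg : Divisor.degree D = 0) {h : F}
    (hh : h ∈ riemannRochSpace D) (hh0 : h ≠ 0) : ∀ v : Place K F, v.ord h = - D v := by
  classical
  haveI := hasPrincipalDivisors_cz hx
  haveI : ∀ v : Place K F, v.FiniteResidue := finiteResidue_cz hx
  haveI := nonempty_place_cz hx
  have hge : ∀ v : Place K F, 0 ≤ (divOf (K := K) h + D) v := by
    intro v
    rw [Finsupp.add_apply, divOf_apply hh0]
    have := (mem_riemannRochSpace_iff.mp hh v).resolve_left hh0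
    linarith
  have hdegE : Divisor.degree (divOf (K := K) h + D) = 0 := by
    rw [map_add, degree_divOf, hdeg, add_zero]
  have hE0 : ∀ v : Place K F, (divOf (K := K) h + D) v = 0 := by
    intro v
    by_contra hne
    have hpos : 0 < (divOf (K := K) h + D) v := lt_of_le_of_ne (hge v) (Ne.symm hne)
    have hsum := degree_eq_sum (divOf (K := K) h + D)
    rw [hdegE, Finsupp.sum] at hsum
    have hmem : v ∈ (divOf (K := K) h + D).support := Finsupp.mem_support_iff.mpr hne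
    have hterm : 0 < (divOf (K := K) h + D) v * (v.deg : ℤ) :=
      mul_pos hpos (by exact_mod_cast deg_pos v)
    have hnn : ∀ w ∈ (divOf (K := K) h + D).support,
        0 ≤ (divOf (K := K) h + D) w * (w.deg : ℤ) :=
      fun w _ => mul_nonneg (hge w) (Int.natCast_nonneg _)
    have := Finset.single_le_sum hnn hmem
    linarith
  intro v
  have := hE0 v
  rw [Finsupp.add_apply, divOf_apply hh0] at this
  linarith

include hx in
/-- `L(D) = 0` for `deg D = 0`, `D` not principal. -/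
theorem eq_zero_of_mem_rrs {D : Divisor K F} (hdeg : Divisor.degree D = 0)
    (hnp : ¬ ∃ f : F, f ≠ 0 ∧ ∀ v : Place K F, D v = v.ord f) {h : F}
    (hh : h ∈ riemannRochSpace D) : h = 0 := by
  by_contra hh0
  refine hnp ⟨h⁻¹, inv_ne_zero hh0, fun v => ?_⟩
  rw [v.ord_inv, ord_eq_neg_of_mem_rrs hx hdeg hh hh0 v, neg_neg]

end nosection

/-! ### Part 4: the concrete statement for `latM R Dt D`, `latN R Dt` -/

section concrete

open AlgebraicCurve Module IntermediateField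
open Fermat.Agent.Gateway.C0 Fermat.Agent.S34x Fermat.Agent.S34x.TheoremB

variable {K : Type*} [Field K] [IsAlgClosed K] [CharZero K] {A : ValuationSubring K}
  {F : Type*} [Field F] [Algebra K F] {S : SmallRing F}
  {k κ : Type*} [Field k] [CommRing κ] [Algebra k κ] [Nontrivial κ]
  (R : RedSetup2 A S k κ)
  {t : F} (ht : Transcendental K t) [FiniteDimensional K⟮t⟯ F]
  {Dt : Divisor K F} (hDt : ∀ v : Place K F, Dt v = v.ord t)
  (htO : t ∈ S.O) (htiO : t⁻¹ ∈ S.O)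
  (hcart : ∀ V : Submodule K F, FiniteDimensional K V → (R.lat V).FG)
  (P : ℕ → Submodule k κ) [∀ b, FiniteDimensional k (P b)] {b₀ : ℕ}
  (hgen : ∀ b, b₀ ≤ b → ∀ x ∈ P (b + 1), ∃ y ∈ P b, ∃ z ∈ P b, x = y + R.res ⟨t, htO⟩ * z)
  {m : ℕ}
  (hSC : ∀ (b : ℕ) (f : F) (hf : f ∈ S.O), f ∈ (TwoCharts.ofDivisor Dt).LN 0 b →
    R.res ⟨f, hf⟩ ∈ P b)
  (hrad : ∀ (b : ℕ) (x : κ), x ^ m ∈ P (m * b) → x ∈ P b)
  {w : F} (hw0 : w ≠ 0) (hwO : w ∈ S.O) (hw1 : R.res ⟨w, hwO⟩ = 1)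
  {D : Divisor K F} (hD : ∀ v : Place K F, (m : ℤ) * D v = v.ord w)

/-- `x ≡ 1` in the vocabulary of `RedSetup2`. -/
theorem cong_one_of_res (R : RedSetup2 A S k κ) {x : F} (hxO : x ∈ S.O)
    (h : R.res ⟨x, hxO⟩ = 1) : Cong S x 1 := by
  rw [R.cong_iff hxO S.O.one_mem, h]
  exact (map_one R.res).symm

/-- `L(D + a C₀ + c C∞) · L(-D + a' C₀ + c' C∞) ⊆ L((a + a') C₀ + (c + c') C∞)`. -/
theorem LM_mul_LM_neg (T : TwoCharts K F) (E : Divisor K F) {a c a' c' : ℕ} {x y : F}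
    (hx : x ∈ T.LM E a c) (hy : y ∈ T.LM (-E) a' c') : x * y ∈ T.LN (a + a') (c + c') := by
  have h := mul_mem_rrs hx hy
  rw [TwoCharts.LN, TwoCharts.dv_add]
  convert h using 2
  abel

include ht hDt htiO hcart hgen hSC hrad hw0 hw1 hD in
/-- **`cyc_inj`, cross-multiplied cocycle form, at a normalised Kummer pair `(w, D)`**
(`m D = div w`, `res w = 1`, any `m`), `deg D = 0`, `D` NOT principal, given ONE trivialisation
on each chart (`hone`, `hone'`: Layer 1).  For `ϖ ∈ 𝔪_A`, `ϖ ≠ 0` there is `N₀` such that for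
`N ≥ N₀`: whatever the trivialisations `hoo ∈ L(D + b C∞) ∩ O`, `h0 ∈ L(D + a C₀) ∩ O`,
`h0' ∈ L(-D + a' C₀) ∩ O` (all with reduction `1`), the chart units
`voo woo ∈ ⋃ L(b C∞) ∩ O`, `v0 w0 ∈ ⋃ L(a C₀) ∩ O` (reduction `1`; none needed for `w0`) and
`r ∈ ⋃ L(a C₀ + b C∞) ∩ O`, the cocycle `hoo * h0'` satisfies
`hoo * h0' * voo * v0 - woo * w0 ≠ ϖ ^ N • r`. -/
theorem not_cocycle_cross_latM (hdeg : Divisor.degree D = 0)
    (hnp : ¬ ∃ f : F, f ≠ 0 ∧ ∀ v : Place K F, D v = v.ord f)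
    (hone : ∃ (n : ℕ) (g : F) (hg : g ∈ S.O),
      g ∈ (TwoCharts.ofDivisor Dt).LM D 0 n ∧ R.res ⟨g, hg⟩ = 1)
    (hone' : ∃ (n : ℕ) (g : F) (hg : g ∈ S.O),
      g ∈ (TwoCharts.ofDivisor Dt).LM D n 0 ∧ R.res ⟨g, hg⟩ = 1)
    {ϖ : A} (hϖ : ϖ ∈ maximalIdeal A) (hϖ0 : ϖ ≠ 0) :
    ∃ N₀ : ℕ, ∀ N, N₀ ≤ N →
      ∀ {hoo h0 h0' voo v0 woo w0 r : F} {b a a' b₁ a₁ b₂ a₂ a₃ b₃ : ℕ}
        (hhoo : hoo ∈ latM R Dt D 0 b) (_ : R.res ⟨hoo, hhoo.2⟩ = 1)
        (hh0 : h0 ∈ latM R Dt D a 0)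
        (hh0' : h0' ∈ latM R Dt (-D) a' 0)
        (_ : R.res ⟨h0 * h0', S.O.mul_mem hh0.2 hh0'.2⟩ = 1)
        (hvoo : voo ∈ latN R Dt 0 b₁) (_ : R.res ⟨voo, hvoo.2⟩ = 1)
        (hv0 : v0 ∈ latN R Dt a₁ 0) (_ : R.res ⟨v0, hv0.2⟩ = 1)
        (hwoo : woo ∈ latN R Dt 0 b₂) (_ : R.res ⟨woo, hwoo.2⟩ = 1)
        (_ : w0 ∈ latN R Dt a₂ 0) (_ : r ∈ latN R Dt a₃ b₃),
        hoo * h0' * voo * v0 - woo * w0 ≠ ϖ ^ N • r := by
  have ht0 : t ≠ 0 := by
    rintro rfl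
    exact ht isAlgebraic_zero
  obtain ⟨T, hTM, hTN⟩ := exists_twistCore_latN R ht0 hDt htO htiO P hSC hrad hw0 hwO hw1 hD hgen
    (fun a c => hcart _ ((TwoCharts.ofDivisor Dt).LM_finite ht D a c)) hone hone'
  have h1 : ¬ Small S (1 : F) := by
    intro hsm
    have h2 := (R.small_iff S.O.one_mem).mp hsm
    have e : (⟨1, S.O.one_mem⟩ : S.O) = 1 := rfl
    rw [e, map_one] at h2
    exact one_ne_zero h2
  have hM00 : ∀ x ∈ T.M 0 0, x = 0 := by
    intro x hx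
    rw [hTM] at hx
    have hx1 := hx.1
    rw [TwoCharts.LM, TwoCharts.dv_zero, add_zero] at hx1
    exact eq_zero_of_mem_rrs ht hdeg hnp hx1
  obtain ⟨N₀, hN₀⟩ := not_cocycle_cross T R.base h1 hM00 hϖ hϖ0
  refine ⟨N₀, fun N hN => ?_⟩
  intro hoo h0 h0' voo v0 woo w0 r b a a' b₁ a₁ b₂ a₂ a₃ b₃ hhoo hhoo1 hh0 hh0' hhh1 hvoo hvoo1
    hv0 hv01 hwoo hwoo1 hw0' hr
  refine hN₀ N hN (hoo := hoo) (h0 := h0) (h0' := h0') (voo := voo) (v0 := v0) (woo := woo)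
    (w0 := w0) (r := r) ?_ (cong_one_of_res R hhoo.2 hhoo1) ?_ ?_
    (cong_one_of_res R _ hhh1) ?_ (cong_one_of_res R hvoo.2 hvoo1) ?_
    (cong_one_of_res R hv0.2 hv01) ?_ (cong_one_of_res R hwoo.2 hwoo1) ?_ ?_
  · exact ⟨b, by show hoo ∈ T.M 0 b; rw [hTM]; exact hhoo⟩
  · exact ⟨a, by show h0 ∈ T.M a 0; rw [hTM]; exact hh0⟩
  · refine ⟨a + a', ?_⟩
    show h0 * h0' ∈ T.N (a + a') 0
    rw [hTN]
    have := LM_mul_LM_neg (TwoCharts.ofDivisor Dt) D hh0.1 hh0'.1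
    rw [add_zero] at this
    exact ⟨this, S.O.mul_mem hh0.2 hh0'.2⟩
  · exact ⟨b₁, by show voo ∈ T.N 0 b₁; rw [hTN]; exact hvoo⟩
  · exact ⟨a₁, by show v0 ∈ T.N a₁ 0; rw [hTN]; exact hv0⟩
  · exact ⟨b₂, by show woo ∈ T.N 0 b₂; rw [hTN]; exact hwoo⟩
  · exact ⟨a₂, by show w0 ∈ T.N a₂ 0; rw [hTN]; exact hw0'⟩
  · refine ⟨max a₃ b₃, ?_⟩
    show r ∈ T.N (max a₃ b₃) (max a₃ b₃)
    rw [hTN]
    exact ⟨(TwoCharts.ofDivisor Dt).LN_mono (le_max_left _ _) (le_max_right _ _) hr.1, hr.2⟩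

end concrete

end Fermat.Agent.S33x.Cech.InjectInstB
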