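import Fermat.Agent.S33x.Cech.CoordB

/-!
# P-S33 Layer 2 (I4 → B5 glue, helper90): the hypothesis `hsep` of `CoordBQbar.hasApproxCharts`

Pure algebra in the vocabulary of `Cech/CoordB.lean` (helper3): `CobEq δ u u'` = the cocycles `u`, `u'`
agree modulo `δ` up to near-one coboundaries, cross-multiplied.

* `cobEq_one_iff`  : `CobEq δ c 1` is literally the negated conclusion of
                     `InjectSep.exists_sep_typed` (helper61) / of the literal `cyc_sep`;
* `hsep_of_hinj`   : multiplicativity of the chosen cocycles up to exact near-one coboundaries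
                     (`hmul`), normalisation at `0` (`hzero`) and injectivity at every `z ≠ 0`
                     (`hinj`: `c z` is not `CobEq δ`-equivalent to `1` for some `δ ≠ 0`) give the
                     hypothesis `hsep` of `CoordBQbar.hasApproxCharts`, with the SAME `δ`
                     (that of `x - y`).  No inverse, no cancellation: multiply by `c (-y)`.
-/

set_option autoImplicit false

namespace Fermat.Agent.S33x.Cech.InjectNear

open Fermat.Agent.S33x.Cech.CoordB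

variable {A : Type*} [CommRing A] [IsDomain A] [ValuationRing A]
variable {B : Type*} [CommRing B] [Algebra A B] {Boo B0 : Subalgebra A B}

/-- `CobEq δ c 1` unfolded: the shape of the literal `cyc_sep` / of `InjectSep.exists_sep_typed`. -/
theorem cobEq_one_iff {δ : A} {c : B} :
    CobEq Boo B0 δ c 1 ↔ ∃ (voo woo : Boo) (v0 w0 : B0), NearOne Boo voo ∧ NearOne Boo woo ∧
      NearOne B0 v0 ∧ NearOne B0 w0 ∧ algebraMap A B δ ∣ c * voo * v0 - woo * w0 := by
  constructor
  · rintro ⟨r, r', s, s', hr, hr', hs, hs', h⟩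
    exact ⟨r, r', s, s', hr, hr', hs, hs', by rwa [one_mul] at h⟩
  · rintro ⟨r, r', s, s', hr, hr', hs, hs', h⟩
    exact ⟨r, r', s, s', hr, hr', hs, hs', by rwa [one_mul]⟩

/-- **The hypothesis `hsep` of `CoordBQbar.hasApproxCharts`** from multiplicativity of the cocycles
up to exact near-one coboundaries, normalisation at `0` and injectivity at every `z ≠ 0`. -/
theorem hsep_of_hinj {X : Type*} [AddCommGroup X] (c : X → B)
    (hmul : ∀ x y, CobEq Boo B0 0 (c (x + y)) (c x * c y))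
    (hzero : CobEq Boo B0 0 (c 0) 1)
    (hinj : ∀ z : X, z ≠ 0 → ∃ δ : A, δ ≠ 0 ∧ ¬ CobEq Boo B0 δ (c z) 1) :
    ∀ x y, x ≠ y → ∃ δ : A, δ ≠ 0 ∧ ¬ CobEq Boo B0 δ (c x) (c y) := by
  intro x y hxy
  obtain ⟨δ, hδ0, hδ⟩ := hinj (x - y) (sub_ne_zero.mpr hxy)
  refine ⟨δ, hδ0, fun hcon => hδ ?_⟩
  obtain ⟨r, r', s, s', hr, hr', hs, hs', d, ea⟩ := hcon
  obtain ⟨r1, r1', s1, s1', hr1, hr1', hs1, hs1', h1⟩ := hmul (x - y) y
  obtain ⟨r2, r2', s2, s2', hr2, hr2', hs2, hs2', h2⟩ := hmul y (-y)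
  obtain ⟨r3, r3', s3, s3', hr3, hr3', hs3, hs3', h3⟩ := hzero
  rw [map_zero, zero_dvd_iff, sub_eq_zero] at h1 h2 h3
  rw [sub_add_cancel] at h1
  rw [add_neg_cancel] at h2
  refine ⟨r3' * r2 * r1' * r, r3' * r2 * r' * r1, s3' * s2 * s1' * s, s3' * s2 * s' * s1,
    ((hr3'.mul hr2).mul hr1').mul hr, ((hr3'.mul hr2).mul hr').mul hr1,
    ((hs3'.mul hs2).mul hs1').mul hs, ((hs3'.mul hs2).mul hs').mul hs1,
    d * r1 * s1 * c (-y) * r2' * s2' * r3 * s3, ?_⟩
  push_cast
  linear_combination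
    (-(c (x - y) * r2 * s2 * r1' * s1' * r * s) + (r2 : B) * s2 * r' * s' * r1 * s1) * h3
    + (c (x - y) * r3 * s3 * r1' * s1' * r * s - (r' : B) * s' * r1 * s1 * r3 * s3) * h2
    - (c (-y) * r2' * s2' * r3 * s3 * r * s) * h1
    + ((r1 : B) * s1 * c (-y) * r2' * s2' * r3 * s3) * ea

/-- the same with `hzero` replaced by `c 0 = 1`. -/
theorem hsep_of_hinj' {X : Type*} [AddCommGroup X] (c : X → B)
    (hmul : ∀ x y, CobEq Boo B0 0 (c (x + y)) (c x * c y))
    (hzero : c 0 = 1)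
    (hinj : ∀ z : X, z ≠ 0 → ∃ δ : A, δ ≠ 0 ∧ ¬ CobEq Boo B0 δ (c z) 1) :
    ∀ x y, x ≠ y → ∃ δ : A, δ ≠ 0 ∧ ¬ CobEq Boo B0 δ (c x) (c y) :=
  hsep_of_hinj c hmul (by rw [hzero]; exact CobEq.refl 0 1) hinj

end Fermat.Agent.S33x.Cech.InjectNear
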