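import Fermat.Agent.S33x.Cech.InjectInstB
import Fermat.Agent.S33x.Cech.InjectCross
import Fermat.Agent.S33x.Cech.Datum
import Fermat.Agent.S33x.Cech.TwistH1
import Fermat.Agent.S33x.H1.InstC4

/-!
# P-S33, LAYER 2, (I4) `cyc_inj` at the instance, TYPED form, independent second (helper63)

The inner statement of the hypothesis `cyc_inj` of the abstract assembly B5 (note
`S33-IFACE-L2-B5 (architect literal)`), on the TYPE `↥(BxAlg C)` with `OfDirectSum.ooIn`,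
`OfDirectSum.zeroIn` (helper50's chart rings `H1/InstC4`), for the cocycles of ALL Cech data
(`Cech/Datum`, helper49) of a NON-principal divisor `D` of degree `0` belonging to a normalised
Kummer pair `(w, D)`, `m D = div w`, `res w = 1`, any `m > 0`.  Context = the variable block of
`Cech/TwistH1` (helper73).

`cyc_inj_datum`: for `π ∈ 𝔪_A`, `π ≠ 0` there is `N₀`, UNIFORM in the datum, such that for
`N ≥ N₀`, every `d : CechDatum R Dt D` and `c : ↥(BxAlg C)` with `(c : F) = d.cocycle`: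
no `voo woo ∈ 1 + π B∞`, `v0 w0 ∈ 1 + π B₀` with `π ^ N ∣ c * voo * v0 - woo * w0` in `↥Bx`.

Proof: `InjectInstB.not_cocycle_cross_latM` (raw `latM`/`latN` form) + unpacking of the types.
-/

set_option autoImplicit false
set_option linter.unusedSectionVars false
set_option linter.style.haveILetI false

noncomputable section

namespace Fermat.Agent.S33x.Cech.InjectTypedB

open AlgebraicCurve Module IntermediateField IsLocalRing
open Fermat.Agent.Gateway.C0 Fermat.Agent.S34x Fermat.Agent.S34x.C0two Fermat.Agent.S34x.Lattice2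
open Fermat.Agent.S33x.H1.InstC1 Fermat.Agent.S33x.H1.InstC4 Fermat.Agent.Lib.RiemannRoch
open Fermat.Agent.S33x.Cech.OfDirectSum Fermat.Agent.S33x.Cech.Datum

section general

variable {K : Type*} [Field K] {A : ValuationSubring K} {F : Type*} [Field F] [Algebra K F]
  {S : SmallRing F} {k κ : Type*} [Field k] [CommRing κ] [Algebra k κ]
  (R : RedSetup2 A S k κ)

/-- `x = 1 + π r` with `π ∈ 𝔪_A`, `r ∈ S.O` reduces to `1`. -/
theorem res_eq_one_of_eq_one_add {x r : F} (hx : x ∈ S.O) (hr : r ∈ S.O) {π : A}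
    (hπ : π ∈ maximalIdeal A) (h : x = 1 + π • r) : R.res ⟨x, hx⟩ = 1 := by
  have hc : C0two.Cong S x 1 := by
    have : x - 1 = π • r := by rw [h]; ring
    rw [C0two.Cong, this]
    exact R.base.small_smul hπ hr
  rw [(R.cong_iff hx S.O.one_mem).mp hc]
  exact map_one R.res

end general

section main

variable {K : Type*} [Field K] [IsAlgClosed K] [CharZero K] {A : ValuationSubring K}
  {F : Type*} [Field F] [Algebra K F] {S : SmallRing F}
  {k κ : Type*} [Field k] [CommRing κ] [Algebra k κ] [Nontrivial κ]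
  {R : RedSetup2 A S k κ} (C : ChartCoord R)
  (ht : Transcendental K C.t) [FiniteDimensional K⟮C.t⟯ F]
  {Dt : Divisor K F} (hDt : ∀ v : Place K F, Dt v = v.ord C.t)
  (hcart : ∀ V : Submodule K F, FiniteDimensional K V → (R.lat V).FG)
  [hPfin : ∀ b, FiniteDimensional k (C.Pk 0 b)] {b₀ : ℕ}
  (hgen : ∀ b, b₀ ≤ b → ∀ x ∈ C.Pk 0 (b + 1), ∃ y ∈ C.Pk 0 b, ∃ z ∈ C.Pk 0 b, x = y + C.T * z)
  {m : ℕ} (hm : 0 < m) {w : F} (hw0 : w ≠ 0) (hwO : w ∈ S.O)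
  (hw1 : R.res ⟨w, hwO⟩ = 1) {D : Divisor K F}
  (hD : ∀ v : Place K F, (m : ℤ) * D v = v.ord w)

include ht hDt in
/-- `Lam C a b` is the lattice `latN R Dt a b` of `S34x/TheoremB`. -/
theorem Lam_eq_latN (a b : ℕ) : Lam C a b = TheoremB.latN R Dt a b := by
  haveI := isSeparable_adjoin_of_charZero (K := K) C.t
  rw [Lam, TheoremB.latN, LN_eq C ht hDt]

include ht hDt hcart hgen hm hw0 hw1 hD in
/-- **`cyc_inj` at the instance, typed form, uniform in the Cech datum.** -/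
theorem cyc_inj_datum (hdeg : Divisor.degree D = 0) (hnp : ¬ Divisor.IsPrincipal D)
    {π : A} (hπ : π ∈ maximalIdeal A) (hπ0 : π ≠ 0) :
    ∃ N₀ : ℕ, ∀ N, N₀ ≤ N → ∀ (d : CechDatum R Dt D) (c : BxAlg C), (c : F) = d.cocycle →
      ¬ ∃ (voo woo : ooIn (BxAlg C) (BooAlg C)) (v0 w0 : zeroIn (BxAlg C) (BzeroAlg C)),
        algebraMap A (ooIn (BxAlg C) (BooAlg C)) π ∣ voo - 1 ∧
        algebraMap A (ooIn (BxAlg C) (BooAlg C)) π ∣ woo - 1 ∧
        algebraMap A (zeroIn (BxAlg C) (BzeroAlg C)) π ∣ v0 - 1 ∧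
        algebraMap A (zeroIn (BxAlg C) (BzeroAlg C)) π ∣ w0 - 1 ∧
        algebraMap A (BxAlg C) π ^ N ∣ c * voo * v0 - woo * w0 := by
  haveI := isSeparable_adjoin_of_charZero (K := K) C.t
  by_cases hne : Nonempty (CechDatum R Dt D)
  swap
  · exact ⟨0, fun N _ d => (hne ⟨d⟩).elim⟩
  obtain ⟨d₀⟩ := hne
  -- the hypotheses of the raw form
  have hSC : ∀ (b : ℕ) (f : F) (hf : f ∈ S.O), f ∈ (TwoCharts.ofDivisor Dt).LN 0 b →
      R.res ⟨f, hf⟩ ∈ C.Pk 0 b := by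
    intro b f hf hfL
    rw [LN_eq C ht hDt] at hfL
    exact C.SC 0 b f hf hfL
  have hrad : ∀ (b : ℕ) (x : κ), x ^ m ∈ C.Pk 0 (m * b) → x ∈ C.Pk 0 b := by
    intro b x hx
    refine twoPole_radical hm 0 b x ?_
    rw [Nat.mul_zero]
    exact hx
  have hone : ∃ (n : ℕ) (g : F) (hg : g ∈ S.O),
      g ∈ (TwoCharts.ofDivisor Dt).LM D 0 n ∧ R.res ⟨g, hg⟩ = 1 := by
    obtain ⟨b, hb⟩ := d₀.hoo_mem
    exact ⟨b, d₀.hoo, hb.2, hb.1, d₀.res_hoo.res_eq hb.2⟩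
  have hone' : ∃ (n : ℕ) (g : F) (hg : g ∈ S.O),
      g ∈ (TwoCharts.ofDivisor Dt).LM D n 0 ∧ R.res ⟨g, hg⟩ = 1 := by
    obtain ⟨a, ha⟩ := d₀.h0_mem
    exact ⟨a, d₀.h0, ha.2, ha.1, d₀.res_h0.res_eq ha.2⟩
  obtain ⟨N₀, hN₀⟩ := InjectInstB.not_cocycle_cross_latM R ht hDt C.t_mem C.tinv_mem hcart (C.Pk 0)
    hgen hSC hrad hw0 hwO hw1 hD hdeg hnp hone hone' hπ hπ0
  refine ⟨N₀, fun N hN d c hc => ?_⟩
  rintro ⟨voo, woo, v0, w0, hvoo, hwoo, hv0, -, z, hz⟩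
  -- unpack the typed elements
  obtain ⟨rvoo, -, hvoo'⟩ := InjectCross.exists_eq_one_add_of_dvd_sub_one _ hvoo
  obtain ⟨rwoo, -, hwoo'⟩ := InjectCross.exists_eq_one_add_of_dvd_sub_one _ hwoo
  obtain ⟨rv0, -, hv0'⟩ := InjectCross.exists_eq_one_add_of_dvd_sub_one _ hv0
  obtain ⟨b₁, hb₁⟩ := (mem_BooAlg C).mp voo.2
  obtain ⟨b₂, hb₂⟩ := (mem_BooAlg C).mp woo.2
  obtain ⟨a₁, ha₁⟩ := (mem_BzeroAlg C).mp v0.2
  obtain ⟨a₂, ha₂⟩ := (mem_BzeroAlg C).mp w0.2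
  obtain ⟨a₃, b₃, hz₃⟩ := (mem_BxAlg' C).mp z.2
  rw [Lam_eq_latN C ht hDt] at hb₁ hb₂ ha₁ ha₂ hz₃
  obtain ⟨b, hb⟩ := d.hoo_mem
  obtain ⟨a, ha⟩ := d.h0_mem
  obtain ⟨a', ha'⟩ := d.h0'_mem
  refine hN₀ N hN (hoo := d.hoo) (h0 := d.h0) (h0' := d.h0') (voo := ((voo : BxAlg C) : F))
    (v0 := ((v0 : BxAlg C) : F)) (woo := ((woo : BxAlg C) : F)) (w0 := ((w0 : BxAlg C) : F))
    (r := (z : F)) hb (d.res_hoo.res_eq hb.2) ha ha' (d.h0_mul_h0'_resOne.res_eq _)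
    hb₁ (res_eq_one_of_eq_one_add R hb₁.2 (mem_O_of_mem_BxAlg C rvoo.2) hπ hvoo')
    ha₁ (res_eq_one_of_eq_one_add R ha₁.2 (mem_O_of_mem_BxAlg C rv0.2) hπ hv0')
    hb₂ (res_eq_one_of_eq_one_add R hb₂.2 (mem_O_of_mem_BxAlg C rwoo.2) hπ hwoo')
    ha₂ hz₃ ?_
  have h := congrArg (Subtype.val : BxAlg C → F) hz
  rw [Subalgebra.coe_sub, Subalgebra.coe_mul, Subalgebra.coe_mul, Subalgebra.coe_mul,
    Subalgebra.coe_mul, Subalgebra.coe_pow, Subalgebra.coe_algebraMap, hc] at h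
  rw [CechDatum.cocycle] at h
  rw [h, Algebra.smul_def, map_pow]

end main

end Fermat.Agent.S33x.Cech.InjectTypedB
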