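import Fermat.Agent.S33x.Cech.CoordAsm32Lit
import Fermat.Agent.S33x.Cech.CycKm
import Fermat.Agent.S33x.Cech.CycKmSep
import Fermat.Agent.S33x.Cech.CycGal
import Fermat.Agent.S33x.Cech.CtxMq
import Fermat.Agent.S33x.Cech.RelKmBInst
import Fermat.Agent.S33x.Cech.InstIface
import Fermat.Agent.S33x.Cech.InstVal
import Fermat.Agent.S33x.H1.InstFixedMq
import Fermat.Agent.S33x.W.InstW

/-!
# P-S33, LAYER 2, leaf (I6), INDEPENDENT SECOND (helper50): the generic assembly

Same statement as `Cech/Inst.lean` (helper73): `InstIface.ChartsMq H hA (q ^ n)` in the variable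
context of `S34x/Inst/TheoremBMq` / `KummerPn`, under the hypotheses `hD : FixData2 ..`,
`hF : span fixed = ⊤` and `[Finite (Km H hA (q ^ n))]`.

DIFFERENT consumer: the abstract assembly is `CoordAsm32Lit.exists_coords_literal` (helper32), and
the conversion to `ChartsMq` is done here (`chartsMq_of_coords`).

* `exists_coords_ctx` : the abstract half, in helper43's bundle `CtxMq.Ctx R C p q x Dt` +
  `CtxMq.CtxGal R C Γ`: (B1) `H1/InstFixedMq.exists_directSum_fixed_prod`, the `W`-level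
  decomposition `W/InstW.directSum_fixedC`, the group law `W/InstW.exists_groupLaw_fixed'`,
  `cyc_ne` (Layer 1), `cyc_one/zero/mul` (`CycKm`), `cyc_rel` (`RelKmBInst.cycB_rel`), `cyc_sep`
  (`CycKmSep.cycB_sep_raw`), `cyc_gal` (`CycGal.cycB_gal`);
* `chartsMq_of_coords` : conversion of the conclusion to `InstIface.ChartsMq`;
* `chartsMq_gen` : the final statement.
-/

set_option autoImplicit false
set_option linter.unusedSectionVars false
set_option linter.style.haveILetI false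

noncomputable section

namespace Fermat.Agent.S33x.Cech.InstC

open AlgebraicCurve Module IntermediateField IsLocalRing
open Fermat.Agent.Gateway.C0 Fermat.Agent.S34x Fermat.Agent.S34x.C0two Fermat.Agent.S34x.Lattice2
open Fermat.Agent.S33x.H1.InstC1 Fermat.Agent.S33x.H1.InstC4
open Fermat.Agent.S33x.Cech Fermat.Agent.S33x.Cech.OfDirectSum Fermat.Agent.S33x.Cech.Datum
open Fermat.Agent.S33x.Cech.CycKm Fermat.Agent.S33x.Cech.CtxMq
open Fermat.Agent.S33x.H1 Fermat.Agent.S33x.H1.FixedDecomp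
open Fermat.Agent.S19x.Geo.LatticeFixed (IsFixed IsFixedK)

/-! ### The abstract half -/

section Abs

variable {K : Type*} [Field K] [IsAlgClosed K] [CharZero K] {A : ValuationSubring K}
  {F : Type*} [Field F] [Algebra K F] {S : SmallRing F}
  {k : Type*} [Field k] [IsAlgClosed k] {E : Type*} [Field E] [Algebra k E]
  {R : RedSetup2 A S k (E × E)} {C : ChartCoord R} {p q : ℕ} {x : E} {Dt : Divisor K F}

/-- `A` acts faithfully on `F`. -/
theorem faithfulSMul_val : FaithfulSMul A F := by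
  rw [faithfulSMul_iff_algebraMap_injective]
  intro a b hab
  have h1 : algebraMap K F (a : K) = algebraMap K F (b : K) := hab
  exact Subtype.ext ((algebraMap K F).injective h1)

/-- **`cyc_ne`** in the abstract context (LAYER 1). -/
theorem cycB_nonempty_ctx (h : Ctx R C p q x Dt) {e : ℕ} {ξ : Pic0 K F}
    (hξ : ∃ (w : F) (D : Divisor K F), IsData R (p ^ e) ξ w D) :
    (CycB C Dt (p ^ e) ξ).Nonempty := by
  haveI := h.fin_x
  haveI := h.sep_x
  haveI := h.fin_t
  haveI := h.isSeparable_t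
  haveI : Fact p.Prime := ⟨h.hp⟩
  haveI := h.charP
  obtain ⟨w, D, hd⟩ := hξ
  obtain ⟨r, hr, hN1⟩ := h.hN1
  obtain ⟨r₀, hr₀, hN1₀⟩ := h.hN1₀
  obtain ⟨d⟩ := nonempty_cechDatum_of_prod h.hx h.hq C h.hT h.ht h.hDt h.hn h.hcart h.hL2 h.hL2₀
    h.he h.he₀ hr hN1 hr₀ hN1₀ p hd.ne_zero hd.mem_O hd.inv_mem_O hd.res_eq hd.ord
  obtain ⟨c', hc', -⟩ := exists_cycB_of_mem_cyc C h.ht h.hDt (cocycle_mem_cyc hd d)
  exact ⟨c', hc'⟩

/-- **The abstract assembly at the instance**, consumer `CoordAsm32Lit.exists_coords_literal`. -/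
theorem exists_coords_ctx (h : Ctx R C p q x Dt)
    (hrk : ∀ x ∈ maximalIdeal A, ∀ c : A, c ≠ 0 → ∃ j : ℕ, c ∣ x ^ j)
    (hpm : (p : A) ∈ maximalIdeal A) (e : ℕ) (hroot : ∀ y : k, ∃ z : k, z ^ p ^ e = y)
    {Γ : Set (SemilinearAut K F)} (hG : CtxGal R C Γ) (hD : LatticeFixed2.FixData2 R Γ)
    (hF : Submodule.span K {f : F | IsFixed Γ f} = ⊤)
    {X : Type*} [AddCommGroup X] [Finite X] (φ : X →+ Pic0 K F) (hφ : Function.Injective φ)
    (hdata : ∀ y, ∃ (w : F) (D : Divisor K F), IsData R (p ^ e) (φ y) w D)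
    {I : Type*} (gI : I → SemilinearAut K F) (hgI : ∀ s, gI s ∈ Γ)
    (hbase : ∀ s, ∀ c ∈ A, SemilinearAut.baseAut (gI s) c ∈ A)
    (hAss : ∀ s (c : A), Associated (CycGal.actA (gI s) (hbase s) c) c)
    (actX : I → X → X) (hactX : ∀ s y, φ (actX s y) = gI s • φ y) :
    ∃ (g c0 : ℕ), ∀ n : ℕ, ∃ (coord : X → Fin g → A)
      (Φ : Fin g → MvPolynomial (Fin g ⊕ Fin g) (fixedSubring (A := A) Γ)),
      (∀ y i, coord y i ∈ maximalIdeal A) ∧
      (∀ s y i, (p : A) ^ n ∣ coord (actX s y) i - CycGal.actA (gI s) (hbase s) (coord y i)) ∧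
      (∀ y y' i, (p : A) ^ n ∣ coord (y + y') i -
        MvPolynomial.aeval (Sum.elim (coord y) (coord y')) (Φ i)) ∧
      (∀ y y', y ≠ y' → ∃ i, ¬ (p : A) ^ c0 ∣ coord y i - coord y' i) := by
  haveI := h.fin_x
  haveI := h.sep_x
  haveI := h.fin_t
  haveI := h.isSeparable_t
  haveI : Fact p.Prime := ⟨h.hp⟩
  haveI := h.charP
  haveI : CharP E p := charP_of_injective_algebraMap (algebraMap k E).injective p
  haveI : CharP (E × E) p := Prod.charP E E p
  haveI : FaithfulSMul A F := faithfulSMul_val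
  haveI hPfin : ∀ b, FiniteDimensional k (C.Pk 0 b) := fun b => h.finite_Pk 0 b
  obtain ⟨b₀, hgen⟩ := h.exists_hgen
  have hp0 : (p : A) ≠ 0 := by
    intro h0
    have h1 : ((p : A) : K) = 0 := by rw [h0]; rfl
    have h2 : (p : K) = 0 := by
      rw [← h1]
      push_cast
      rfl
    exact h.hp.ne_zero (Nat.cast_eq_zero.mp h2)
  -- (B1): the direct sum decomposition with fixed `aᵢ`
  obtain ⟨b₁, g, a, ha, hafix, Hds⟩ := InstFixedMq.exists_directSum_fixed_prod h.hx h.hq C h.hT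
    h.ht h.hDt h.hcart Γ hD hF hG.smul_t
  -- the decomposition over `W`
  haveI : ∀ a b, FiniteDimensional K (C.LN a b) := fun a b =>
    InstFixed.finiteDimensional_LN C h.ht h.hDt a b
  have HW := Fermat.Agent.S33x.W.InstW.directSum_fixedC C hD hF
    (fun a b => h.hcart _ inferInstance) (fun a b => StableLN.stable_LN C hG.smul_t a b)
    hafix ha Hds
  -- the group law over `W`
  have hGL : ∀ m : ℕ, ∃ Φ : Fin g → MvPolynomial (Fin g ⊕ Fin g) (fixedSubring (A := A) Γ),
      CoordAsm32.IsGroupLaw (ooIn (BxAlg C) (BooAlg C)) (zeroIn (BxAlg C) (BzeroAlg C))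
        (aIn Hds) m Φ := by
    intro m
    obtain ⟨Φ, -, hΦ⟩ := Fermat.Agent.S33x.W.InstW.exists_groupLaw_fixed' Hds HW m
    exact ⟨Φ, hΦ⟩
  -- the operators
  have hadm : ∀ s, CycGal.Adm R Dt (gI s) := fun s => CycGal.adm_of_ctxGal hG h.hDt (hgI s)
  refine ⟨g, ?_⟩
  exact CoordAsm32Lit.exists_coords_literal (W := fixedSubring (A := A) Γ)
    (Cyc := fun y => CycB C Dt (p ^ e) (φ y)) (actX := actX)
    (actA := fun s => CycGal.actA (gI s) (hbase s))
    (actB := fun s => CycGal.actBAdm C h.ht h.hDt (hadm s))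
    (OfDirectSum.decomp Hds) (fun π hπ => OfDirectSum.satData Hds hπ) hGL hpm hp0 hrk
    (fun s c => CycGal.actB_algebraMap C (gI s) _ (hbase s) c) hAss
    (fun s f hf => CycGal.actBAdm_mem_oo C h.ht h.hDt (hadm s) hf)
    (fun s f hf => CycGal.actBAdm_mem_zero C h.ht h.hDt (hadm s) hf)
    (fun s i => CycGal.actB_fixed C (gI s) _ (hafix i (gI s) (hgI s)))
    (fun y => cycB_nonempty_ctx h (hdata y))
    (fun y c hc => cycB_one C h.ht h.hDt hc)
    (by
      show (1 : BxAlg C) ∈ CycB C Dt (p ^ e) (φ 0)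
      rw [map_zero]
      exact cycB_zero C)
    (fun y y' c hc c' hc' => by
      show c * c' ∈ CycB C Dt (p ^ e) (φ (y + y'))
      rw [map_add]
      exact cycB_mul C hc hc')
    (fun y c hc c' hc' => RelKmBInst.cycB_rel C h.ht h.hDt p e hroot hc hc')
    (fun s y c hc => by
      show CycGal.actBAdm C h.ht h.hDt (hadm s) c ∈ CycB C Dt (p ^ e) (φ (actX s y))
      rw [hactX]
      exact CycGal.cycB_gal C h.ht h.hDt (hadm s) hc)
    (CoordAsm32Lit.inj_of_sep hrk (fun y hy c hc => by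
      have hξ0 : φ y ≠ 0 := fun h0 => hy (hφ (by rw [h0, map_zero]))
      exact CycKmSep.cycB_sep_raw C h.ht h.hDt h.hcart hgen (pow_pos h.hp.pos e) hξ0 hc))

end Abs

/-! ### Conversion to `InstIface.ChartsMq` -/

section Conv

open ModularCurve
open Fermat.Agent.Gateway.Hecke Fermat.Agent.Gateway.ESC
open Fermat.Agent.Gateway.Red Fermat.Agent.Gateway.GoodRed
open Fermat.Agent.S34x.TwoVal
open Fermat.Agent.S34x.Inst.RedSetupInst Fermat.Agent.S34x.Inst
open Fermat.Agent.S33x.KummerPn Fermat.Agent.S33x.Cech.InstIface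

section Val

variable {L : Type} [Field L] {A : ValuationSubring L}

theorem powMemA_iff {q N : ℕ} {x : A} : PowMemA A q N (x : L) ↔ (q : A) ^ N ∣ x := by
  constructor
  · rintro ⟨w, hw, hxw⟩
    refine ⟨⟨w, hw⟩, Subtype.ext ?_⟩
    rw [hxw]
    push_cast
    rfl
  · rintro ⟨w, hw⟩
    refine ⟨(w : L), w.2, ?_⟩
    rw [hw]
    push_cast
    rfl

/-- the ring map `W → A → L` for a subring `W` of `A` -/
def subToL (A : ValuationSubring L) (W : Subring A) : W →+* L :=
  (A.subtype).comp W.subtype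

theorem eval_map_subToL {σ : Type*} (W : Subring A) (Φ : MvPolynomial σ W) (v : σ → A) :
    MvPolynomial.eval (fun j => ((v j : A) : L)) (MvPolynomial.map (subToL A W) Φ)
      = ((MvPolynomial.aeval v Φ : A) : L) := by
  rw [MvPolynomial.eval_map, MvPolynomial.aeval_def]
  exact (MvPolynomial.eval₂_comp_left A.subtype (algebraMap W A) v Φ).symm

end Val

variable {L : Type} [Field L] [Algebra ℚ L] [IsAlgClosed L] [Algebra.IsAlgebraic ℚ L]
  {A : ValuationSubring L}
  {k : Type} [Field k] {π : A →+* k} [IsAlgClosed k]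
variable {M q : ℕ} [NeZero M] [NeZero q] [Fact q.Prime] [CharP k q]
variable {hdeg : finrankAlong L (heckeAlphaBar L M q) = q + 1} {hq : q.Prime} {hqM : ¬ q ∣ M}
variable {hrk : ∀ x ∈ maximalIdeal A, ∀ c : A, c ≠ 0 → ∃ j : ℕ, c ∣ x ^ j}
  {hπ : Function.Surjective π}
variable {H : ResidueFacts A π M q hdeg hq hqM hrk hπ} {hA : A.LiesOverPrime q}

/-- **Conversion**: coordinates with values in `𝔪_A`, equivariant and additive modulo `q ^ n` (group
law over a subring `W ≤ A` of inertia-fixed constants), separating modulo `q ^ c0`, give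
`InstIface.ChartsMq`. -/
theorem chartsMq_of_coords {m : ℕ} (W : Subring A)
    (hW : ∀ w : W, ∀ τ ∈ A.inertiaSubgroupIn ℚ, τ (((w : A)) : L) = ((w : A) : L))
    (actA : A.inertiaSubgroupIn ℚ → A →+* A)
    (hactA : ∀ s (c : A), ((actA s c : A) : L) = (s : L ≃ₐ[ℚ] L) (c : L))
    (actX : A.inertiaSubgroupIn ℚ → Km H hA m → Km H hA m)
    (hactX : ∀ s (y : Km H hA m), ((actX s y : Km H hA m) : Pic0 L (FL L (M * q)))
      = (s : L ≃ₐ[ℚ] L) • (y : Pic0 L (FL L (M * q))))
    (h : ∃ (g c0 : ℕ), ∀ n : ℕ, ∃ (coord : Km H hA m → Fin g → A)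
      (Φ : Fin g → MvPolynomial (Fin g ⊕ Fin g) W),
      (∀ y i, coord y i ∈ maximalIdeal A) ∧
      (∀ s y i, (q : A) ^ n ∣ coord (actX s y) i - actA s (coord y i)) ∧
      (∀ y y' i, (q : A) ^ n ∣ coord (y + y') i -
        MvPolynomial.aeval (Sum.elim (coord y) (coord y')) (Φ i)) ∧
      (∀ y y', y ≠ y' → ∃ i, ¬ (q : A) ^ c0 ∣ coord y i - coord y' i)) :
    ChartsMq H hA m := by
  obtain ⟨g, c0, hc0⟩ := h
  refine ⟨c0, fun N => ?_⟩
  obtain ⟨coord, Φ, hmem, heq, hadd, hsep⟩ := hc0 N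
  refine ⟨g, fun y i => ((coord y i : A) : L), fun i => MvPolynomial.map (subToL A W) (Φ i),
    ?_, ?_, ?_, ?_, ?_⟩
  · intro y i
    exact (ValuationSubring.coe_mem_nonunits_iff).mpr (hmem y i)
  · intro τ hτ y hy i
    have h1 : (⟨τ • (y : Pic0 L (FL L (M * q))), hy⟩ : Km H hA m) = actX ⟨τ, hτ⟩ y :=
      Subtype.ext (hactX ⟨τ, hτ⟩ y).symm
    rw [h1]
    have h2 := powMemA_iff.mpr (heq ⟨τ, hτ⟩ y i)
    rw [AddSubgroupClass.coe_sub, hactA] at h2
    exact h2
  · intro i d
    rw [MvPolynomial.coeff_map]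
    exact ⟨(((MvPolynomial.coeff d (Φ i) : W) : A)).2, fun τ hτ => hW _ τ hτ⟩
  · intro y y' i
    have h2 := powMemA_iff.mpr (hadd y y' i)
    rw [AddSubgroupClass.coe_sub, ← eval_map_subToL] at h2
    convert h2 using 4
    funext j
    cases j <;> rfl
  · intro y y' hyy'
    obtain ⟨i, hi⟩ := hsep y y' hyy'
    refine ⟨i, fun hP => hi ?_⟩
    apply powMemA_iff.mp
    rwa [AddSubgroupClass.coe_sub]

end Conv

/-! ### The generic assembly at level `M q` -/

section Mq

open ModularCurve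
open Fermat.Agent.Gateway.Hecke Fermat.Agent.Gateway.ESC
open Fermat.Agent.Gateway.Red Fermat.Agent.Gateway.GoodRed
open Fermat.Agent.Gateway.GoodRed.ConjFamily
open Fermat.Agent.S34x.TwoVal
open Fermat.Agent.S34x.Inst.L2 Fermat.Agent.S34x.Inst.IsL2Inst
open Fermat.Agent.S34x.Inst.RedSetupInst Fermat.Agent.S34x.Inst.ElementYRed
open Fermat.Agent.S34x.Inst.ElementYInt Fermat.Agent.S34x.Inst.Charts
open Fermat.Agent.S34x.Inst.TheoremBMq
open Fermat.Agent.S34x.Inst
open Fermat.Agent.S33x.KummerPn Fermat.Agent.S33x.Cech.InstIface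

attribute [-instance] IsScalarTower.of_algHom

variable {L : Type} [Field L] [Algebra ℚ L] [IsAlgClosed L] [Algebra.IsAlgebraic ℚ L]
  {A : ValuationSubring L} {k : Type} [Field k] {π : A →+* k} [IsAlgClosed k]
variable {M q : ℕ} [NeZero M] [NeZero q] [Fact q.Prime] [CharP k q]
variable {hdeg : finrankAlong L (heckeAlphaBar L M q) = q + 1} {hq : q.Prime} {hqM : ¬ q ∣ M}
variable {hrk : ∀ x ∈ maximalIdeal A, ∀ c : A, c ≠ 0 → ∃ j : ℕ, c ∣ x ^ j}
  {hπ : Function.Surjective π}
variable (H : ResidueFacts A π M q hdeg hq hqM hrk hπ) (hA : A.LiesOverPrime q)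

/-- **(I6), independent second**: the export of LAYER 2 in the generic context. -/
theorem chartsMq_gen [PerfectRing k q]
    (x : LaurentSeries ℤ) (hx : coeffMap (Int.castRingHom L) x ∈ FBar L M)
    (Hx : GoodLevelFactsT A π M q hπ hqM (tInt M x hx))
    (hxk : tbar k x ≠ 0) (hY : YFacts M q x hx)
    (hD : LatticeFixed2.FixData2 (redSetup2 H hA)
      {g | ∃ τ ∈ A.inertiaSubgroupIn ℚ,
        g = arithmeticGalois (modularFunctionFieldFull (M * q)) τ})
    (hF : Submodule.span L {f : FL L (M * q) | IsFixed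
      {g | ∃ τ ∈ A.inertiaSubgroupIn ℚ,
        g = arithmeticGalois (modularFunctionFieldFull (M * q)) τ} f} = ⊤)
    (n : ℕ) [Finite (Km H hA (q ^ n))] :
    ChartsMq H hA (q ^ n) := by
  haveI : CharZero L := algebraRat.charZero L
  have hq0 : q ≠ 0 := (Fact.out : q.Prime).ne_zero
  have hqn : 0 < q ^ n := pow_pos (Fact.out : q.Prime).pos n
  -- the context
  have ht : Transcendental L (chart H hA x hx Hx).t := by
    rw [chart_t]; exact Charts.transcendental_tα L M q Hx.trans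
  haveI htfin : FiniteDimensional L⟮(chart H hA x hx Hx).t⟯ (FL L (M * q)) := by
    rw [chart_t]; exact finiteDimensional_tA x hx Hx
  have hctx := ctx_of_chart H hA x hx Hx (chart H hA x hx Hx) (chart_t H hA x hx Hx) hxk hY
    (Charts.divT_apply ht)
  have hGal := ctxGal_inertia H hA x hx Hx (chart H hA x hx Hx) (chart_t H hA x hx Hx)
  have hpm : ((q : ℕ) : A) ∈ maximalIdeal A := (InstVal.natCast_mem_small A hq0 hA).1
  have hroot : ∀ y : k, ∃ z : k, z ^ q ^ n = y := fun y =>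
    IsAlgClosed.exists_pow_nat_eq y hqn
  -- the operators
  have hbase : ∀ s : A.inertiaSubgroupIn ℚ, ∀ c ∈ A, SemilinearAut.baseAut
      (arithmeticGalois (L := L) (modularFunctionFieldFull (M * q)) s.1) c ∈ A :=
    fun s c hc => InstVal.preserves_inertia A s.1 s.2 c hc
  obtain h := exists_coords_ctx hctx hrk hpm n hroot hGal hD hF
    (X := Km H hA (q ^ n)) (Km H hA (q ^ n)).subtype Subtype.coe_injective
    (fun y => exists_isData_of_mem_Km H hA y.2)
    (I := A.inertiaSubgroupIn ℚ)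
    (fun s => arithmeticGalois (L := L) (modularFunctionFieldFull (M * q)) s.1)
    (fun s => ⟨s.1, s.2, rfl⟩) hbase
    (fun s c => by
      have h1 := InstVal.associated_inertiaRes A s c
      have h2 : CycGal.actA (arithmeticGalois (L := L) (modularFunctionFieldFull (M * q)) s.1)
          (hbase s) c = InstVal.inertiaRes A s c := Subtype.ext rfl
      rw [h2]
      exact h1)
    (fun s y => ⟨s.1 • (y : Pic0 L (FL L (M * q))), smul_mem_Km hqn s.2 y.2⟩)
    (fun s y => rfl)
  refine chartsMq_of_coords (H := H) (hA := hA) _ ?_ _ ?_ _ ?_ h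
  · intro w τ hτ
    exact w.2 _ ⟨τ, hτ, rfl⟩
  · intro s c
    rfl
  · intro s y
    rfl

end Mq

end Fermat.Agent.S33x.Cech.InstC
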