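/-
P-S33, LAYER 2, glue for the final instantiation (I6) (helper90; ruling v5 (6) / v6): the field
`hcycinj` of `Coord.exists_charts_of_cyc` (helper8) from the uniform literal `cyc_sep`
(`CycKmSep`, helper49), and the conversions between the relation `CoordB.CobEq` (near-one units,
helper3) and the relation `Coord.Rel sm` (units `≡ 1` modulo ONE element of `sm`, helper8).

(The other fields: `hne hcyc1 hcyc0 hcycmul` = `CycKm.cyc_family`, `hcycrel` =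
`RelKmBInst.cycB_coordRel_family`, `hcycgal` + `σB` = `CycGal` / `CycGalMq(B)`, `σA hσdvd sm htot
hgcd hrank` = `InstVal`.)

ABSTRACT PART (`A` a valuation domain, `sm : Set A` any set of "small" elements):
* `rel_of_cobEq`, `cobEq_of_rel` : `CoordB.CobEq δ u v ↔ Coord.Rel sm δ u v`;
* `rel_zero_of_eq`               : the literal of (I2) gives `Rel sm 0 c c'`;
* `not_rel_of_sep`, `exists_not_rel_of_sep`, `exists_not_rel_of_not_cobEq` : the uniform literal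
  `cyc_sep` (not a near-one coboundary modulo `δ ≠ 0`) gives `∃ N0, ¬ Rel sm (p ^ N0) c 1`
  (rank one, `p ∈ 𝔪`);
* `hcycinj_of_cyc_sep` : the field `hcycinj` for ANY family `Cyc : X → Set B` with `cyc_ne` and
  `cyc_sep`.

CONCRETE PART (level `M q`, exponent `q ^ n`, `X := ↥(Km H hA (q ^ n))`):
* `hcycinj_Mq` : the field `hcycinj` with `sm := InstVal.small A`, `p := (q : A)`, no hypothesis
  left besides the context `x hx Hx hxk hY hDt`.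
-/
import Fermat.Agent.S33x.Cech.Coord
import Fermat.Agent.S33x.Cech.CoordB
import Fermat.Agent.S33x.Cech.CycKmSep
import Fermat.Agent.S33x.Cech.InstVal

set_option autoImplicit false
set_option linter.unusedSectionVars false
set_option linter.style.haveILetI false

namespace Fermat.Agent.S33x.Cech.InstFields

open Fermat.Agent.S33x.Cech IsLocalRing

/-! ## Abstract part: `NearOne` units versus the `Rel` of `Cech/Coord.lean` -/

section abstract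

variable {A : Type*} [CommRing A] [IsDomain A] [ValuationRing A]
variable {B : Type*} [CommRing B] [Algebra A B] {Boo B0 : Subalgebra A B} {sm : Set A}

/-- a near-one unit is `≡ 1` modulo a NONZERO element of the maximal ideal dividing any given
nonzero element of the maximal ideal -/
theorem exists_dvd_of_nearOne {S : Subalgebra A B} {r : S} (hr : CoordB.NearOne S r) {ε₀ : A}
    (hε₀ : ε₀ ∈ maximalIdeal A) (hε₀0 : ε₀ ≠ 0) :
    ∃ ε ∈ maximalIdeal A, ε ≠ 0 ∧ ε ∣ ε₀ ∧ algebraMap A S ε ∣ r - 1 := by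
  obtain ⟨π, hπ, hd⟩ := hr
  rcases ValuationRing.dvd_total ε₀ π with h | h
  · exact ⟨ε₀, hε₀, hε₀0, dvd_rfl, (map_dvd (algebraMap A S) h).trans hd⟩
  · refine ⟨π, hπ, ?_, h, hd⟩
    rintro rfl
    exact hε₀0 (zero_dvd_iff.mp h)

/-- four near-one units are `≡ 1` modulo ONE nonzero element of the maximal ideal -/
theorem exists_dvd_of_nearOne₄ {r r' : Boo} {s s' : B0} (hr : CoordB.NearOne Boo r)
    (hr' : CoordB.NearOne Boo r') (hs : CoordB.NearOne B0 s) (hs' : CoordB.NearOne B0 s')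
    (hne : ∃ ε ∈ maximalIdeal A, ε ≠ 0) :
    ∃ ε ∈ maximalIdeal A, ε ≠ 0 ∧ algebraMap A Boo ε ∣ r - 1 ∧ algebraMap A Boo ε ∣ r' - 1 ∧
      algebraMap A B0 ε ∣ s - 1 ∧ algebraMap A B0 ε ∣ s' - 1 := by
  obtain ⟨ε₀, hε₀, hε₀0⟩ := hne
  obtain ⟨ε₁, h₁, n₁, d₁, e₁⟩ := exists_dvd_of_nearOne hr hε₀ hε₀0
  obtain ⟨ε₂, h₂, n₂, d₂, e₂⟩ := exists_dvd_of_nearOne hr' h₁ n₁
  obtain ⟨ε₃, h₃, n₃, d₃, e₃⟩ := exists_dvd_of_nearOne hs h₂ n₂
  obtain ⟨ε₄, h₄, n₄, d₄, e₄⟩ := exists_dvd_of_nearOne hs' h₃ n₃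
  exact ⟨ε₄, h₄, n₄, (map_dvd (algebraMap A Boo) ((d₄.trans d₃).trans d₂)).trans e₁,
    (map_dvd (algebraMap A Boo) (d₄.trans d₃)).trans e₂, (map_dvd (algebraMap A B0) d₄).trans e₃,
    e₄⟩

/-- `CoordB.CobEq` implies `Coord.Rel` (for `sm ⊇` the nonzero elements of the maximal ideal). -/
theorem rel_of_cobEq (hsm : ∀ π ∈ maximalIdeal A, π ≠ 0 → π ∈ sm)
    (hne : ∃ ε ∈ maximalIdeal A, ε ≠ 0) {δ : A} {u v : B}
    (h : CoordB.CobEq Boo B0 δ u v) : Coord.Rel Boo B0 sm δ u v := by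
  obtain ⟨r, r', s, s', hr, hr', hs, hs', hd⟩ := h
  obtain ⟨ε, hε, hε0, e₁, e₂, e₃, e₄⟩ := exists_dvd_of_nearOne₄ hr hr' hs hs' hne
  exact ⟨ε, hsm ε hε hε0, r, r', s, s', e₁, e₂, e₃, e₄, hd⟩

/-- `Coord.Rel` implies `CoordB.CobEq` (for `sm ⊆` the maximal ideal). -/
theorem cobEq_of_rel (hsm' : ∀ ε ∈ sm, ε ∈ maximalIdeal A) {δ : A} {u v : B}
    (h : Coord.Rel Boo B0 sm δ u v) : CoordB.CobEq Boo B0 δ u v := by
  obtain ⟨ε, hε, r, r', s, s', e₁, e₂, e₃, e₄, hd⟩ := h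
  exact ⟨r, r', s, s', ⟨ε, hsm' ε hε, e₁⟩, ⟨ε, hsm' ε hε, e₂⟩, ⟨ε, hsm' ε hε, e₃⟩,
    ⟨ε, hsm' ε hε, e₄⟩, hd⟩

/-- **(I2) ⟹ `hcycrel`**: the datum-level literal `c' * Eoo * E0 = c * Goo * G0` with near-one
coboundaries gives `Rel sm 0 c c'`. -/
theorem rel_zero_of_eq (hsm : ∀ π ∈ maximalIdeal A, π ≠ 0 → π ∈ sm)
    (hne : ∃ ε ∈ maximalIdeal A, ε ≠ 0) {c c' : B}
    (h : ∃ (Eoo Goo : Boo) (E0 G0 : B0), CoordB.NearOne Boo Eoo ∧ CoordB.NearOne Boo Goo ∧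
      CoordB.NearOne B0 E0 ∧ CoordB.NearOne B0 G0 ∧ c' * Eoo * E0 = c * Goo * G0) :
    Coord.Rel Boo B0 sm 0 c c' := by
  obtain ⟨Eoo, Goo, E0, G0, hE, hG, hE0, hG0, heq⟩ := h
  refine rel_of_cobEq hsm hne ⟨Goo, Eoo, G0, E0, hG, hE, hG0, hE0, ?_⟩
  rw [heq, sub_self]
  exact dvd_zero _

/-- **(I4) ⟹ `hcycinj`** at one cocycle: not a near-one coboundary modulo `δ`, `δ ∣ q`, gives
`¬ Rel sm q c 1`. -/
theorem not_rel_of_sep (hsm' : ∀ ε ∈ sm, ε ∈ maximalIdeal A) {δ q : A} (hδ : δ ∣ q) {c : B}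
    (h : ¬ ∃ (voo woo : Boo) (v0 w0 : B0), CoordB.NearOne Boo voo ∧ CoordB.NearOne Boo woo ∧
      CoordB.NearOne B0 v0 ∧ CoordB.NearOne B0 w0 ∧ algebraMap A B δ ∣ c * voo * v0 - woo * w0) :
    ¬ Coord.Rel Boo B0 sm q c 1 := by
  rintro ⟨ε, hε, r, r', s, s', e₁, e₂, e₃, e₄, hd⟩
  refine h ⟨r, r', s, s', ⟨ε, hsm' ε hε, e₁⟩, ⟨ε, hsm' ε hε, e₂⟩, ⟨ε, hsm' ε hε, e₃⟩,
    ⟨ε, hsm' ε hε, e₄⟩, ?_⟩
  rw [one_mul] at hd
  exact (map_dvd (algebraMap A B) hδ).trans hd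

/-- the same with the existence of the exponent `N0` from rank one -/
theorem exists_not_rel_of_sep (hsm' : ∀ ε ∈ sm, ε ∈ maximalIdeal A)
    (hrk : ∀ x ∈ maximalIdeal A, ∀ c : A, c ≠ 0 → ∃ j : ℕ, c ∣ x ^ j)
    {p : A} (hp : p ∈ maximalIdeal A) {δ : A} (hδ0 : δ ≠ 0) {c : B}
    (h : ¬ ∃ (voo woo : Boo) (v0 w0 : B0), CoordB.NearOne Boo voo ∧ CoordB.NearOne Boo woo ∧
      CoordB.NearOne B0 v0 ∧ CoordB.NearOne B0 w0 ∧ algebraMap A B δ ∣ c * voo * v0 - woo * w0) :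
    ∃ N0 : ℕ, ¬ Coord.Rel Boo B0 sm (p ^ N0) c 1 := by
  obtain ⟨N0, hN0⟩ := hrk p hp δ hδ0
  exact ⟨N0, not_rel_of_sep hsm' hN0 h⟩

/-- the same from the `CobEq` form of `cyc_sep` -/
theorem exists_not_rel_of_not_cobEq (hsm' : ∀ ε ∈ sm, ε ∈ maximalIdeal A)
    (hrk : ∀ x ∈ maximalIdeal A, ∀ c : A, c ≠ 0 → ∃ j : ℕ, c ∣ x ^ j)
    {p : A} (hp : p ∈ maximalIdeal A) {δ : A} (hδ0 : δ ≠ 0) {c : B}
    (h : ¬ CoordB.CobEq Boo B0 δ c 1) :
    ∃ N0 : ℕ, ¬ Coord.Rel Boo B0 sm (p ^ N0) c 1 := by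
  obtain ⟨N0, hN0⟩ := hrk p hp δ hδ0
  exact ⟨N0, fun hrel => h ((cobEq_of_rel hsm' hrel).of_dvd hN0)⟩

/-- **The field `hcycinj`** of `Coord.exists_charts_of_cyc` for ANY family of cocycles with
`cyc_ne` and the uniform `cyc_sep` (ruling B5 v4). -/
theorem hcycinj_of_cyc_sep (hsm' : ∀ ε ∈ sm, ε ∈ maximalIdeal A)
    (hrk : ∀ x ∈ maximalIdeal A, ∀ c : A, c ≠ 0 → ∃ j : ℕ, c ∣ x ^ j)
    {p : A} (hp : p ∈ maximalIdeal A) {X : Type*} [AddCommGroup X] (Cyc : X → Set B)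
    (hne : ∀ x, (Cyc x).Nonempty)
    (hsep : ∀ x, x ≠ 0 → ∀ c ∈ Cyc x, ∃ δ : A, δ ≠ 0 ∧ ¬ CoordB.CobEq Boo B0 δ c 1) :
    ∀ x, x ≠ 0 → ∃ c ∈ Cyc x, ∃ N0 : ℕ, ¬ Coord.Rel Boo B0 sm (p ^ N0) c 1 := by
  intro x hx
  obtain ⟨c, hc⟩ := hne x
  obtain ⟨δ, hδ0, hδ⟩ := hsep x hx c hc
  exact ⟨c, hc, exists_not_rel_of_not_cobEq hsm' hrk hp hδ0 hδ⟩

end abstract

/-! ## Concrete part: level `M q`, exponent `q ^ n`, `X := ↥(Km H hA (q ^ n))` -/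

noncomputable section

open AlgebraicCurve Module IntermediateField ModularCurve
open Fermat.Agent.Gateway.C0 Fermat.Agent.S34x Fermat.Agent.S34x.C0two Fermat.Agent.S34x.Lattice2
open Fermat.Agent.S33x.H1.InstC1 Fermat.Agent.S33x.H1.InstC4
open Fermat.Agent.S33x.Cech.OfDirectSum Fermat.Agent.S33x.Cech.Datum
open Fermat.Agent.S33x.Cech.CycKm Fermat.Agent.S33x.KummerPn
open Fermat.Agent.Gateway.Hecke Fermat.Agent.Gateway.ESC
open Fermat.Agent.Gateway.Red Fermat.Agent.Gateway.GoodRed Fermat.Agent.Gateway.AuxLevel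
open Fermat.Agent.Gateway.GoodRed.ConjFamily Fermat.Agent.S24.Setup
open Fermat.Agent.S34x.TwoVal
open Fermat.Agent.S34x.Inst.L2 Fermat.Agent.S34x.Inst.IsL2Inst
open Fermat.Agent.S34x.Inst.RedSetupInst Fermat.Agent.S34x.Inst.ElementYRed
open Fermat.Agent.S34x.Inst.ElementYInt Fermat.Agent.S34x.Inst.ElementYInt9
open Fermat.Agent.S34x.Inst.Charts Fermat.Agent.S34x.Inst.TheoremBMq
open Fermat.Agent.S34x.Inst

section Mq

attribute [-instance] IsScalarTower.of_algHom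

variable {L : Type} [Field L] [Algebra ℚ L] [IsAlgClosed L] [Algebra.IsAlgebraic ℚ L]
  {A : ValuationSubring L} {k : Type} [Field k] {π : A →+* k} [IsAlgClosed k]
variable {M q : ℕ} [NeZero M] [NeZero q] [Fact q.Prime] [CharP k q]
variable {hdeg : finrankAlong L (heckeAlphaBar L M q) = q + 1} {hq : q.Prime} {hqM : ¬ q ∣ M}
variable {hrk : ∀ x ∈ maximalIdeal A, ∀ c : A, c ≠ 0 → ∃ j : ℕ, c ∣ x ^ j}
  {hπ : Function.Surjective π}
variable (H : ResidueFacts A π M q hdeg hq hqM hrk hπ) (hA : A.LiesOverPrime q)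
variable [PerfectRing k q]
  (x : LaurentSeries ℤ) (hx : coeffMap (Int.castRingHom L) x ∈ FBar L M)
  (Hx : GoodLevelFactsT A π M q hπ hqM (tInt M x hx))

include Hx in
/-- **The field `hcycinj`** of `Coord.exists_charts_of_cyc` at `X := ↥(Km H hA (q ^ n))`,
`Cyc y := CycB (chart H hA x hx Hx) Dt (q ^ n) (y : Pic0)`, `sm := InstVal.small A`,
`p := (q : A)`. -/
theorem hcycinj_Mq (hxk : tbar k x ≠ 0) (hY : YFacts M q x hx)
    {Dt : Divisor L (FL L (M * q))}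
    (hDt : ∀ v : Place L (FL L (M * q)), Dt v = v.ord (chart H hA x hx Hx).t) {n : ℕ} :
    ∀ y : Km H hA (q ^ n), y ≠ 0 →
      ∃ c ∈ CycB (chart H hA x hx Hx) Dt (q ^ n) (y : Pic0 L (FL L (M * q))), ∃ N0 : ℕ,
        ¬ Coord.Rel (ooIn (BxAlg (chart H hA x hx Hx)) (BooAlg (chart H hA x hx Hx)))
          (zeroIn (BxAlg (chart H hA x hx Hx)) (BzeroAlg (chart H hA x hx Hx)))
          (InstVal.small A) (((q : ℕ) : A) ^ N0) c 1 := by
  refine hcycinj_of_cyc_sep (InstVal.small_mem_maximalIdeal A) hrk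
    (InstVal.natCast_mem_small A (NeZero.ne q) hA).1
    (fun y : Km H hA (q ^ n) =>
      CycB (chart H hA x hx Hx) Dt (q ^ n) (y : Pic0 L (FL L (M * q))))
    (fun y => cycB_nonempty H hA x hx Hx hxk hY hDt y.2) (fun y hy c hc => ?_)
  have hξ : (y : Pic0 L (FL L (M * q))) ≠ 0 := fun h => hy (Subtype.ext h)
  exact CycKmSep.cycB_sep_Mq H hA x hx Hx hxk hY hDt hξ hc

end Mq

end

end Fermat.Agent.S33x.Cech.InstFields
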