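import Fermat.Agent.S33x.H1.FixedDecomp
import Fermat.Agent.S33x.W.CechFixed
import Fermat.Agent.S33x.Cech.WAdapter
import Fermat.Agent.S33x.Cech.Coord
import Fermat.Agent.S33x.Cech.CoordAsm32
import Fermat.Prelude.Def_ModularCurve_ArithmeticGalois
import Fermat.Prelude.Def_FLTPrelim_Ramification

/-!
# P-S33 LAYER 2 (I6 plumbing, helper47): the fixed rings of constants as coefficient rings

The universal Čech group law has coefficients in a ring `Wf` of inertia-fixed constants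
(`Cech/WAdapter.exists_groupLaw_fixed`, for ANY `Wf` with `Algebra Wf A`, `Algebra Wf F`,
`IsScalarTower Wf A F`).  Two such rings are on main:

* `H1.FixedDecomp.fixedSubring Γ : Subring ↥A` (block W, helper17): all three instances are found
  by Mathlib (`Algebra.ofSubsemiring`, `Submonoid.instIsScalarTowerSubtypeMem`); `rfl`-lemmas
  `fixedA_algebraMap_A`, `fixedA_algebraMap_F`;
* `W.CechFixed.fixedSubring A Γ : Subring K` (block W, helper5): `Algebra Wf F` is Mathlib's,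
  `Algebra Wf ↥A` and `IsScalarTower Wf ↥A F` are the INSTANCES `algFixedK`, `towerFixedK` below
  (inclusion `inclFixedK : Wf →+* A`).

Then, for any `Wf` (in particular both of them):

* `isLaw_of_directSum` : the hypothesis `hG` of `Cech/Coord.exists_charts_of_cyc`
  (`∀ N, ∃ F over Wf, Coord.IsLaw (ooIn Bx Boo) (zeroIn Bx B0) (aIn H) sm F N`) from the two
  `DirectSum`s (over `A` and over `Wf`, same `aᵢ`);
* `isGroupLaw_of_directSum` : the hypothesis `hGL` of `Cech/CoordAsm32Lit.exists_coords_literal`;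
* `isLaw_fixedA`, `isLaw_fixedK`, `isGroupLaw_fixedA`, `isGroupLaw_fixedK` : the same at the two
  fixed rings (these also serve as compiled instance checks);
* `hW_fixedA`, `hW_fixedK` : the hypothesis `hW` of `Cech/InstConv.chartsMq_of_charts`: the
  elements of the fixed ring are fixed by every `τ ∈ H` as soon as `Γ` contains
  `arithmeticGalois τ` for `τ ∈ H`; `_image` (`Γ := arithmeticGalois '' inertia`, which is
  `ScalFixed2.galSL L N inertia` unfolded) and `_setOf` (the `Γ` of `Cech/CtxMq.ctxGal_inertia`).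
-/

set_option autoImplicit false
set_option linter.unusedSectionVars false

noncomputable section

namespace Fermat.Agent.S33x.Cech.InstPlumbing

open AlgebraicCurve ModularCurve
open Fermat.Agent.S19x.Geo.LatticeFixed (IsFixed IsFixedK)
open Fermat.Agent.S33x.Cech Fermat.Agent.S33x.Cech.OfDirectSum

/-! ### Any ring of constants `Wf` -/

section Generic

variable {A : Type*} [CommRing A] {F : Type*} [Field F] [Algebra A F]
variable {Wf : Type*} [CommRing Wf] [Algebra Wf A] [Algebra Wf F] [IsScalarTower Wf A F]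
variable {Bx Boo B0 : Subalgebra A F} {BxW BooW B0W : Subalgebra Wf F} {g : ℕ} {a : Fin g → F}

/-- **`hG` of `Coord.exists_charts_of_cyc`** from the two `DirectSum`s. -/
theorem isLaw_of_directSum (H : DirectSum Bx Boo B0 a) (HW : DirectSum BxW BooW B0W a)
    (hx : ∀ x ∈ BxW, x ∈ Bx) (hoo : ∀ x ∈ BooW, x ∈ Boo) (h0 : ∀ x ∈ B0W, x ∈ B0)
    (sm : Set A) (N : ℕ) :
    ∃ Φ : Fin g → MvPolynomial (Fin g ⊕ Fin g) Wf,
      Coord.IsLaw (ooIn Bx Boo) (zeroIn Bx B0) (aIn H) sm Φ N := by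
  obtain ⟨Φ, -, -, hΦ⟩ := WAdapter.exists_groupLaw_fixed H HW hx hoo h0 N
  exact ⟨Φ, fun π _ t t' ht ht' => hΦ π t t' ht ht'⟩

/-- **`hGL` of `CoordAsm32Lit.exists_coords_literal`** from the two `DirectSum`s. -/
theorem isGroupLaw_of_directSum (H : DirectSum Bx Boo B0 a) (HW : DirectSum BxW BooW B0W a)
    (hx : ∀ x ∈ BxW, x ∈ Bx) (hoo : ∀ x ∈ BooW, x ∈ Boo) (h0 : ∀ x ∈ B0W, x ∈ B0) (m : ℕ) :
    ∃ Φ : Fin g → MvPolynomial (Fin g ⊕ Fin g) Wf,
      CoordAsm32.IsGroupLaw (ooIn Bx Boo) (zeroIn Bx B0) (aIn H) m Φ := by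
  obtain ⟨Φ, -, -, hΦ⟩ := WAdapter.exists_groupLaw_fixed H HW hx hoo h0 m
  exact ⟨Φ, fun π t t' ht ht' => hΦ π t t' ht ht'⟩

/-- `hdec` of the B5 assemblies. -/
theorem hdec_of_directSum (H : DirectSum Bx Boo B0 a) :
    Decomp (ooIn Bx Boo) (zeroIn Bx B0) (aIn H) := OfDirectSum.decomp H

/-- `hsat` of `Coord.exists_charts_of_cyc` for a set `sm` of nonzero elements. -/
theorem hsat_of_directSum [IsDomain A] [FaithfulSMul A F] (H : DirectSum Bx Boo B0 a)
    {sm : Set A} (hsm : ∀ ε ∈ sm, ε ≠ 0) :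
    ∀ ε ∈ sm, SatData (ooIn Bx Boo) (zeroIn Bx B0) (aIn H) ε :=
  fun ε hε => OfDirectSum.satData H (hsm ε hε)

end Generic

/-! ### The two fixed rings -/

variable {K : Type*} [Field K] {A : ValuationSubring K} {F : Type*} [Field F] [Algebra K F]

section FixedA

open Fermat.Agent.S33x.H1.FixedDecomp

variable (Γ : Set (SemilinearAut K F))

/-- For `Wf := H1.FixedDecomp.fixedSubring Γ : Subring ↥A` the three instances are Mathlib's. -/
example : Algebra (fixedSubring (A := A) Γ) A := inferInstance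
example : Algebra (fixedSubring (A := A) Γ) F := inferInstance
example : IsScalarTower (fixedSubring (A := A) Γ) A F := inferInstance

theorem fixedA_algebraMap_A (w : fixedSubring (A := A) Γ) :
    algebraMap (fixedSubring (A := A) Γ) A w = (w : A) := rfl

theorem fixedA_algebraMap_F (w : fixedSubring (A := A) Γ) :
    algebraMap (fixedSubring (A := A) Γ) F w = algebraMap K F (((w : A)) : K) := rfl

theorem fixedA_coe_algebraMap (w : fixedSubring (A := A) Γ) :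
    ((algebraMap (fixedSubring (A := A) Γ) A w : A) : K) = (((w : A)) : K) := rfl

variable {Γ}
variable {Bx Boo B0 : Subalgebra A F} {BxW BooW B0W : Subalgebra (fixedSubring (A := A) Γ) F}
  {g : ℕ} {a : Fin g → F}

/-- `hG` over `H1.FixedDecomp.fixedSubring Γ`. -/
theorem isLaw_fixedA (H : DirectSum Bx Boo B0 a) (HW : DirectSum BxW BooW B0W a)
    (hx : ∀ x ∈ BxW, x ∈ Bx) (hoo : ∀ x ∈ BooW, x ∈ Boo) (h0 : ∀ x ∈ B0W, x ∈ B0)
    (sm : Set A) (N : ℕ) :
    ∃ Φ : Fin g → MvPolynomial (Fin g ⊕ Fin g) (fixedSubring (A := A) Γ),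
      Coord.IsLaw (ooIn Bx Boo) (zeroIn Bx B0) (aIn H) sm Φ N :=
  isLaw_of_directSum H HW hx hoo h0 sm N

/-- `hGL` over `H1.FixedDecomp.fixedSubring Γ`. -/
theorem isGroupLaw_fixedA (H : DirectSum Bx Boo B0 a) (HW : DirectSum BxW BooW B0W a)
    (hx : ∀ x ∈ BxW, x ∈ Bx) (hoo : ∀ x ∈ BooW, x ∈ Boo) (h0 : ∀ x ∈ B0W, x ∈ B0) (m : ℕ) :
    ∃ Φ : Fin g → MvPolynomial (Fin g ⊕ Fin g) (fixedSubring (A := A) Γ),
      CoordAsm32.IsGroupLaw (ooIn Bx Boo) (zeroIn Bx B0) (aIn H) m Φ :=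
  isGroupLaw_of_directSum H HW hx hoo h0 m

end FixedA

section FixedK

open Fermat.Agent.S33x.W.CechFixed

variable (A) (Γ : Set (SemilinearAut K F))

theorem fixedK_le : fixedSubring A Γ ≤ A.toSubring := fun _ hc => hc.1

/-- The inclusion `W.CechFixed.fixedSubring A Γ →+* A`. -/
def inclFixedK : fixedSubring A Γ →+* A := Subring.inclusion (fixedK_le A Γ)

/-- `A` as an algebra over `W.CechFixed.fixedSubring A Γ`. -/
instance algFixedK : Algebra (fixedSubring A Γ) A := (inclFixedK A Γ).toAlgebra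

theorem fixedK_coe_algebraMap (w : fixedSubring A Γ) :
    ((algebraMap (fixedSubring A Γ) A w : A) : K) = (w : K) := rfl

theorem fixedK_algebraMap_F (w : fixedSubring A Γ) :
    algebraMap (fixedSubring A Γ) F w = algebraMap K F (w : K) := rfl

/-- The scalar tower `W.CechFixed.fixedSubring A Γ → A → F`. -/
instance towerFixedK : IsScalarTower (fixedSubring A Γ) A F :=
  IsScalarTower.of_algebraMap_eq fun _ => rfl

variable {A Γ}
variable {Bx Boo B0 : Subalgebra A F} {BxW BooW B0W : Subalgebra (fixedSubring A Γ) F}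
  {g : ℕ} {a : Fin g → F}

/-- `hG` over `W.CechFixed.fixedSubring A Γ`. -/
theorem isLaw_fixedK (H : DirectSum Bx Boo B0 a) (HW : DirectSum BxW BooW B0W a)
    (hx : ∀ x ∈ BxW, x ∈ Bx) (hoo : ∀ x ∈ BooW, x ∈ Boo) (h0 : ∀ x ∈ B0W, x ∈ B0)
    (sm : Set A) (N : ℕ) :
    ∃ Φ : Fin g → MvPolynomial (Fin g ⊕ Fin g) (fixedSubring A Γ),
      Coord.IsLaw (ooIn Bx Boo) (zeroIn Bx B0) (aIn H) sm Φ N :=
  isLaw_of_directSum H HW hx hoo h0 sm N

/-- `hGL` over `W.CechFixed.fixedSubring A Γ`. -/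
theorem isGroupLaw_fixedK (H : DirectSum Bx Boo B0 a) (HW : DirectSum BxW BooW B0W a)
    (hx : ∀ x ∈ BxW, x ∈ Bx) (hoo : ∀ x ∈ BooW, x ∈ Boo) (h0 : ∀ x ∈ B0W, x ∈ B0) (m : ℕ) :
    ∃ Φ : Fin g → MvPolynomial (Fin g ⊕ Fin g) (fixedSubring A Γ),
      CoordAsm32.IsGroupLaw (ooIn Bx Boo) (zeroIn Bx B0) (aIn H) m Φ :=
  isGroupLaw_of_directSum H HW hx hoo h0 m

end FixedK

/-! ### `hW`: the fixed rings consist of inertia-fixed elements -/

section HW

variable {L : Type*} [Field L] [Algebra ℚ L] {A : ValuationSubring L}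
  {F₀ : IntermediateField ℚ (LaurentSeries ℚ)}
  {Γ : Set (SemilinearAut L (laurentBaseChange L F₀))} {H : Set (L ≃ₐ[ℚ] L)}

/-- a constant fixed by `Γ ∋ arithmeticGalois τ` is fixed by `τ`. -/
theorem apply_eq_of_isFixedK (hΓ : ∀ τ ∈ H, arithmeticGalois (L := L) F₀ τ ∈ Γ) {c : L}
    (hc : IsFixedK Γ c) : ∀ τ ∈ H, τ c = c := by
  intro τ hτ
  have h := hc _ (hΓ τ hτ)
  rwa [baseAut_arithmeticGalois] at h

/-- **`hW` for `H1.FixedDecomp.fixedSubring Γ`.** -/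
theorem hW_fixedA (hΓ : ∀ τ ∈ H, arithmeticGalois (L := L) F₀ τ ∈ Γ)
    (w : Fermat.Agent.S33x.H1.FixedDecomp.fixedSubring (A := A) Γ) :
    ∀ τ ∈ H, τ ((algebraMap _ A w : A) : L) = ((algebraMap _ A w : A) : L) :=
  apply_eq_of_isFixedK hΓ w.2

/-- **`hW` for `W.CechFixed.fixedSubring A Γ`.** -/
theorem hW_fixedK (hΓ : ∀ τ ∈ H, arithmeticGalois (L := L) F₀ τ ∈ Γ)
    (w : Fermat.Agent.S33x.W.CechFixed.fixedSubring A Γ) :
    ∀ τ ∈ H, τ ((algebraMap _ A w : A) : L) = ((algebraMap _ A w : A) : L) :=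
  apply_eq_of_isFixedK hΓ w.2.2

/-- `hW` at `Γ := arithmeticGalois '' inertia` (`= ScalFixed2.galSL L N (A.inertiaSubgroupIn ℚ)`
for `F₀ := modularFunctionFieldFull N`, by unfolding), fixed ring inside `↥A`. -/
theorem hW_fixedA_image
    (w : Fermat.Agent.S33x.H1.FixedDecomp.fixedSubring (A := A)
      ((arithmeticGalois (L := L) F₀) '' (A.inertiaSubgroupIn ℚ : Set (L ≃ₐ[ℚ] L)))) :
    ∀ τ ∈ A.inertiaSubgroupIn ℚ, τ ((algebraMap _ A w : A) : L) = ((algebraMap _ A w : A) : L) :=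
  hW_fixedA (Γ := ((arithmeticGalois (L := L) F₀) '' (A.inertiaSubgroupIn ℚ : Set (L ≃ₐ[ℚ] L))))
    (H := (A.inertiaSubgroupIn ℚ : Set (L ≃ₐ[ℚ] L))) (fun τ hτ => ⟨τ, hτ, rfl⟩) w

/-- `hW` at `Γ := arithmeticGalois '' inertia`, fixed ring inside `L`. -/
theorem hW_fixedK_image
    (w : Fermat.Agent.S33x.W.CechFixed.fixedSubring A
      ((arithmeticGalois (L := L) F₀) '' (A.inertiaSubgroupIn ℚ : Set (L ≃ₐ[ℚ] L)))) :
    ∀ τ ∈ A.inertiaSubgroupIn ℚ, τ ((algebraMap _ A w : A) : L) = ((algebraMap _ A w : A) : L) :=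
  hW_fixedK (Γ := ((arithmeticGalois (L := L) F₀) '' (A.inertiaSubgroupIn ℚ : Set (L ≃ₐ[ℚ] L))))
    (H := (A.inertiaSubgroupIn ℚ : Set (L ≃ₐ[ℚ] L))) (fun τ hτ => ⟨τ, hτ, rfl⟩) w

/-- `hW` at the `Γ` of `Cech/CtxMq.ctxGal_inertia`, fixed ring inside `↥A`. -/
theorem hW_fixedA_setOf
    (w : Fermat.Agent.S33x.H1.FixedDecomp.fixedSubring (A := A)
      {γ | ∃ τ ∈ A.inertiaSubgroupIn ℚ, γ = arithmeticGalois (L := L) F₀ τ}) :
    ∀ τ ∈ A.inertiaSubgroupIn ℚ, τ ((algebraMap _ A w : A) : L) = ((algebraMap _ A w : A) : L) :=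
  hW_fixedA (Γ := {γ | ∃ τ ∈ A.inertiaSubgroupIn ℚ, γ = arithmeticGalois (L := L) F₀ τ})
    (H := (A.inertiaSubgroupIn ℚ : Set (L ≃ₐ[ℚ] L))) (fun τ hτ => ⟨τ, hτ, rfl⟩) w

/-- `hW` at the `Γ` of `Cech/CtxMq.ctxGal_inertia`, fixed ring inside `L`. -/
theorem hW_fixedK_setOf
    (w : Fermat.Agent.S33x.W.CechFixed.fixedSubring A
      {γ | ∃ τ ∈ A.inertiaSubgroupIn ℚ, γ = arithmeticGalois (L := L) F₀ τ}) :
    ∀ τ ∈ A.inertiaSubgroupIn ℚ, τ ((algebraMap _ A w : A) : L) = ((algebraMap _ A w : A) : L) :=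
  hW_fixedK (Γ := {γ | ∃ τ ∈ A.inertiaSubgroupIn ℚ, γ = arithmeticGalois (L := L) F₀ τ})
    (H := (A.inertiaSubgroupIn ℚ : Set (L ≃ₐ[ℚ] L))) (fun τ hτ => ⟨τ, hτ, rfl⟩) w

end HW

end Fermat.Agent.S33x.Cech.InstPlumbing
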