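/-
P-S33 (blueprint v2), LAYER 2, leaf (I6-Qb), INDEPENDENT SECOND (helper72; primary = helper43
`Cech/InstQbCtx.lean`).

The generic assembly `Cech/Inst.lean` (helper73) lives in the context `(L, A, k, π, M, q, H, hA)` of
`S34x/Inst/TheoremBMq` and keeps as HYPOTHESES everything which exists only over `ℚ̄`:

* the chart function: an integer series `x` with `hx`, `Hx : GoodLevelFactsT ..`, `hxk`, `hY : YFacts ..`;
* `hD : FixData2 (redSetup2 H hA) Gam` and `hF : span {fixed} = ⊤` for the set `Gam` of the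
  coefficientwise actions of the inertia group (the literal of `CtxMq.ctxGal_inertia`, or the image
  form `galSL`);
* the finiteness of `K_m`.

Here all of them are supplied at `L := ℚ̄`, `A := P0`, `k := ResidueField P0`, `π := residue P0`,
`H := ResidueInst.residueFacts ..` (the `haveI` block of `KummerPn.KmQb` / `InstQb.GenAt`), with
`x := L4.x4` (`4 ∣ M₀`, `p` odd):

* `X4Data`, `x4Data` : the chart data of `x₄` in one structure;
* `fixData2_gam`, `fixData2W_gam`, `span_fixed_gam` (set-builder form), `fixData2_img`,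
  `fixData2W_img`, `span_fixed_img` (image form `galSL`);
* `GenericQb` / `GenericQbW` / `GenericQbImg` / `GenericQbImgW` : the statement of the generic
  theorem over `ℚ̄` in the four possible vocabularies, as `Prop`s;
* `hgen_of_generic` (and the three variants): the generic theorem gives EXACTLY the hypothesis `hgen`
  of `InstQb.chartsAtGoodLevels_of_gen` / `InstQb.qOrdTarget_of_gen`;
* `qOrdTarget_of_generic` (and variants): `Consumer.Final.QOrdTarget`.
-/
import Fermat.Agent.S33x.Cech.InstQb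
import Fermat.Agent.S33x.Cech.CtxMq
import Fermat.Agent.S33x.H1.FixData2Final
import Fermat.Agent.S34x.Inst.TheoremBHaupt

set_option autoImplicit false
set_option linter.unusedSectionVars false
set_option linter.unusedVariables false
set_option linter.style.haveILetI false

noncomputable section

namespace Fermat.Agent.S33x.Cech.InstQbB

open ModularCurve AlgebraicCurve IsLocalRing
open Fermat.Agent.Gateway.Hecke Fermat.Agent.Gateway.ESC
open Fermat.Agent.Gateway.Red Fermat.Agent.Gateway.GoodRed Fermat.Agent.Gateway.AuxLevel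
open Fermat.Agent.Gateway.GoodRed.ConjFamily
open Fermat.Agent.S34x.TwoVal Fermat.Agent.S34x.C0two
open Fermat.Agent.S34x.Inst.L2
open Fermat.Agent.S34x.Inst.RedSetupInst Fermat.Agent.S34x.Inst.ElementYRed
open Fermat.Agent.S34x.Inst.ElementYInt
open Fermat.Agent.S34x.Inst.Charts Fermat.Agent.S34x.Inst.TheoremBMq
open Fermat.Agent.S34x.Inst
open Fermat.Agent.S19x.Geo.LatticeFixed (IsFixed IsFixedK)
open Fermat.Agent.S33x.KummerPn Fermat.Agent.S33x.Cech.InstIface
open Fermat.Agent.S33x.Cech.InstQb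
open Fermat.Agent.S33x.W.ScalFixed2 (galSL)

attribute [-instance] IsScalarTower.of_algHom

local notation "Qb" => AlgebraicClosure ℚ

/-! ### The chart data of `x₄` -/

section X4

variable {A : ValuationSubring Qb} {k : Type} [Field k] {π : A →+* k} [IsAlgClosed k]
variable {M q : ℕ} [NeZero M] [NeZero q] [Fact q.Prime] [CharP k q]
variable {hπ : Function.Surjective π} {hqM : ¬ q ∣ M}

/-- **The chart data of an integer series `x`** asked by the generic assembly
(`TheoremBMq.chart H hA x hx Hx`, `CtxMq.ctx_of_chart .. hxk hY`). -/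
structure ChartData (A : ValuationSubring Qb) {k : Type} [Field k] (π : A →+* k) [IsAlgClosed k]
    (M q : ℕ) [NeZero M] [NeZero q] [Fact q.Prime] [CharP k q]
    (hπ : Function.Surjective π) (hqM : ¬ q ∣ M) (x : LaurentSeries ℤ) : Prop where
  hx : coeffMap (Int.castRingHom Qb) x ∈ FBar Qb M
  Hx : GoodLevelFactsT A π M q hπ hqM (tInt M x hx)
  hxk : tbar k x ≠ 0
  hY : YFacts M q x hx

/-- **The chart data of `x₄`** (`4 ∣ M`, `q` odd). -/
theorem chartData_x4 (h4 : 4 ∣ M) (hq : q.Prime) (hq2 : q ≠ 2) :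
    ChartData A π M q hπ hqM L4.x4 :=
  haveI : Algebra.IsAlgebraic ℚ Qb := AlgebraicClosure.isAlgebraic ℚ
  { hx := x4_mem_FBar M h4
    Hx := LevelFactsTHaupt.l2Facts_x4 A π M q hπ hqM h4
    hxk := L4.x4k_ne_zero k
    hY := ⟨isIntegral_elY_x4 (x4_mem_FBar M h4) h4 hq hq2,
      isIntegral_elY_inv_x4 (x4_mem_FBar M h4) h4 hq hq2,
      isIntegral_tB_x4 (x4_mem_FBar M h4) h4 hq hq2,
      isIntegral_tB_inv_x4 (x4_mem_FBar M h4) h4 hq hq2⟩ }

end X4

/-! ### The ingredients at `L := ℚ̄`, `A := P0`, all at once -/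

section Local

variable (M₀ p : ℕ) [NeZero M₀] [NeZero p] (hp : p.Prime) (hpM : ¬ p ∣ M₀)
  (P0 : ValuationSubring Qb) (hP0 : P0.LiesOverPrime p)

/-- **(I6-Qb), local form**: at ONE good level `(M₀, p)`, ONE place `P0 ∣ p` and ONE exponent
`p ^ n`, every `ℚ̄`-only ingredient of the generic assembly is supplied: the chart data of `x₄`,
`FixData2` (both copies) and `hF` for the inertia action in the set-builder form of
`CtxMq.ctxGal_inertia` AND in the image form `galSL`, and the finiteness of `K_m`.  Whatever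
selection of them the generic theorem takes, `fun x hx Hx hxk hY .. => Inst.chartsMq ..` closes
`InstQb.GenAt`. -/
theorem genAt_of_local (hp2 : p ≠ 2) (h4 : 4 ∣ M₀) (n : ℕ)
    (hfin : Finite (KmQb M₀ p hp hpM P0 hP0 (p ^ n)))
    (hG :
      haveI : Algebra.IsAlgebraic ℚ Qb := AlgebraicClosure.isAlgebraic ℚ
      haveI : Fact p.Prime := ⟨hp⟩
      haveI : IsAlgClosed (ResidueField P0) := FinalBase.isAlgClosed_residueField P0
      haveI : CharP (ResidueField P0) p := FinalBase.charP_residueField P0 hP0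
      ∀ (_ : PerfectRing (ResidueField P0) p)
        (x : LaurentSeries ℤ) (hx : coeffMap (Int.castRingHom Qb) x ∈ FBar Qb M₀)
        (_Hx : GoodLevelFactsT P0 (residue P0) M₀ p (FinalBase.residue_surjective P0) hpM
          (tInt M₀ x hx))
        (_hxk : tbar (ResidueField P0) x ≠ 0) (_hY : YFacts M₀ p x hx)
        (_hD : Fermat.Agent.S33x.H1.LatticeFixed2.FixData2
          (redSetup2 (ResidueInst.residueFacts P0 (residue P0) M₀ p (hdegQb M₀ p hp hpM) hp hpM
            (FinalBase.rank_one P0 hp hP0) (FinalBase.residue_surjective P0)) hP0)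
          {g | ∃ τ ∈ P0.inertiaSubgroupIn ℚ,
            g = arithmeticGalois (modularFunctionFieldFull (M₀ * p)) τ})
        (_hDW : Fermat.Agent.S33x.W.LatticeFixed2.FixData2
          (redSetup2 (ResidueInst.residueFacts P0 (residue P0) M₀ p (hdegQb M₀ p hp hpM) hp hpM
            (FinalBase.rank_one P0 hp hP0) (FinalBase.residue_surjective P0)) hP0)
          {g | ∃ τ ∈ P0.inertiaSubgroupIn ℚ,
            g = arithmeticGalois (modularFunctionFieldFull (M₀ * p)) τ})
        (_hF : Submodule.span Qb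
          {f : FL Qb (M₀ * p) | IsFixed {g | ∃ τ ∈ P0.inertiaSubgroupIn ℚ,
            g = arithmeticGalois (modularFunctionFieldFull (M₀ * p)) τ} f} = ⊤)
        (_hD' : Fermat.Agent.S33x.H1.LatticeFixed2.FixData2
          (redSetup2 (ResidueInst.residueFacts P0 (residue P0) M₀ p (hdegQb M₀ p hp hpM) hp hpM
            (FinalBase.rank_one P0 hp hP0) (FinalBase.residue_surjective P0)) hP0)
          (galSL Qb (M₀ * p) (P0.inertiaSubgroupIn ℚ : Set (Qb ≃ₐ[ℚ] Qb))))
        (_hDW' : Fermat.Agent.S33x.W.LatticeFixed2.FixData2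
          (redSetup2 (ResidueInst.residueFacts P0 (residue P0) M₀ p (hdegQb M₀ p hp hpM) hp hpM
            (FinalBase.rank_one P0 hp hP0) (FinalBase.residue_surjective P0)) hP0)
          (galSL Qb (M₀ * p) (P0.inertiaSubgroupIn ℚ : Set (Qb ≃ₐ[ℚ] Qb))))
        (_hF' : Submodule.span Qb
          {f : FL Qb (M₀ * p) |
            IsFixed (galSL Qb (M₀ * p) (P0.inertiaSubgroupIn ℚ : Set (Qb ≃ₐ[ℚ] Qb))) f} = ⊤)
        (_hfin : Finite (Km (ResidueInst.residueFacts P0 (residue P0) M₀ p (hdegQb M₀ p hp hpM)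
          hp hpM (FinalBase.rank_one P0 hp hP0) (FinalBase.residue_surjective P0)) hP0 (p ^ n))),
        ChartsMq (ResidueInst.residueFacts P0 (residue P0) M₀ p (hdegQb M₀ p hp hpM) hp hpM
          (FinalBase.rank_one P0 hp hP0) (FinalBase.residue_surjective P0)) hP0 (p ^ n)) :
    GenAt M₀ p hp hpM P0 hP0 n := by
  haveI : Algebra.IsAlgebraic ℚ Qb := AlgebraicClosure.isAlgebraic ℚ
  haveI : Fact p.Prime := ⟨hp⟩
  haveI : IsAlgClosed (ResidueField P0) := FinalBase.isAlgClosed_residueField P0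
  haveI : CharP (ResidueField P0) p := FinalBase.charP_residueField P0 hP0
  have hd : ChartData P0 (residue P0) M₀ p (FinalBase.residue_surjective P0) hpM L4.x4 :=
    chartData_x4 h4 hp hp2
  exact hG inferInstance L4.x4 hd.hx hd.Hx hd.hxk hd.hY
    (Fermat.Agent.S33x.H1.FixData2Final.fixData2_setOf _ hP0)
    (Fermat.Agent.S33x.H1.FixData2Final.fixData2W_setOf _ hP0)
    (Fermat.Agent.S33x.H1.FixData2Final.span_fixed_setOf P0 (M₀ * p))
    (Fermat.Agent.S33x.H1.FixData2Final.fixData2_galSL _ hP0)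
    (Fermat.Agent.S33x.H1.FixData2Final.fixData2W_galSL _ hP0)
    (Fermat.Agent.S33x.H1.FixData2Inst.span_fixed_inertiaAct P0 (M₀ * p)) hfin

end Local

/-! ### The four vocabularies of the generic theorem over `ℚ̄` -/

/-- **The generic theorem over `ℚ̄`** (helper73's `Cech/Inst.lean`, announced signature): `Gam` in
the set-builder form of `CtxMq.ctxGal_inertia`, `FixData2` of `S33x/H1/LatticeFixed2`. -/
def GenericQb : Prop :=
  haveI : Algebra.IsAlgebraic ℚ Qb := AlgebraicClosure.isAlgebraic ℚ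
  ∀ (A : ValuationSubring Qb) (k : Type) [Field k] (π : A →+* k) [IsAlgClosed k]
    (M q : ℕ) [NeZero M] [NeZero q] [Fact q.Prime] [CharP k q] [PerfectRing k q]
    (hdeg : finrankAlong Qb (heckeAlphaBar Qb M q) = q + 1) (hq : q.Prime) (hqM : ¬ q ∣ M)
    (hrk : ∀ x ∈ maximalIdeal A, ∀ c : A, c ≠ 0 → ∃ j : ℕ, c ∣ x ^ j)
    (hπ : Function.Surjective π)
    (H : ResidueFacts A π M q hdeg hq hqM hrk hπ) (hA : A.LiesOverPrime q)
    (x : LaurentSeries ℤ) (hx : coeffMap (Int.castRingHom Qb) x ∈ FBar Qb M)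
    (_Hx : GoodLevelFactsT A π M q hπ hqM (tInt M x hx))
    (_hxk : tbar k x ≠ 0) (_hY : YFacts M q x hx)
    (_hD : Fermat.Agent.S33x.H1.LatticeFixed2.FixData2 (redSetup2 H hA)
      {g | ∃ τ ∈ A.inertiaSubgroupIn ℚ,
        g = arithmeticGalois (modularFunctionFieldFull (M * q)) τ})
    (_hF : Submodule.span Qb
      {f : FL Qb (M * q) | IsFixed {g | ∃ τ ∈ A.inertiaSubgroupIn ℚ,
        g = arithmeticGalois (modularFunctionFieldFull (M * q)) τ} f} = ⊤)
    (n : ℕ) (_hfin : Finite (Km H hA (q ^ n))),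
    ChartsMq H hA (q ^ n)

/-- the same with `FixData2` of `S33x/W/LatticeFixed2` -/
def GenericQbW : Prop :=
  haveI : Algebra.IsAlgebraic ℚ Qb := AlgebraicClosure.isAlgebraic ℚ
  ∀ (A : ValuationSubring Qb) (k : Type) [Field k] (π : A →+* k) [IsAlgClosed k]
    (M q : ℕ) [NeZero M] [NeZero q] [Fact q.Prime] [CharP k q] [PerfectRing k q]
    (hdeg : finrankAlong Qb (heckeAlphaBar Qb M q) = q + 1) (hq : q.Prime) (hqM : ¬ q ∣ M)
    (hrk : ∀ x ∈ maximalIdeal A, ∀ c : A, c ≠ 0 → ∃ j : ℕ, c ∣ x ^ j)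
    (hπ : Function.Surjective π)
    (H : ResidueFacts A π M q hdeg hq hqM hrk hπ) (hA : A.LiesOverPrime q)
    (x : LaurentSeries ℤ) (hx : coeffMap (Int.castRingHom Qb) x ∈ FBar Qb M)
    (_Hx : GoodLevelFactsT A π M q hπ hqM (tInt M x hx))
    (_hxk : tbar k x ≠ 0) (_hY : YFacts M q x hx)
    (_hD : Fermat.Agent.S33x.W.LatticeFixed2.FixData2 (redSetup2 H hA)
      {g | ∃ τ ∈ A.inertiaSubgroupIn ℚ,
        g = arithmeticGalois (modularFunctionFieldFull (M * q)) τ})
    (_hF : Submodule.span Qb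
      {f : FL Qb (M * q) | IsFixed {g | ∃ τ ∈ A.inertiaSubgroupIn ℚ,
        g = arithmeticGalois (modularFunctionFieldFull (M * q)) τ} f} = ⊤)
    (n : ℕ) (_hfin : Finite (Km H hA (q ^ n))),
    ChartsMq H hA (q ^ n)

/-- `Gam` in the image form `galSL`, `FixData2` of `S33x/H1/LatticeFixed2` -/
def GenericQbImg : Prop :=
  haveI : Algebra.IsAlgebraic ℚ Qb := AlgebraicClosure.isAlgebraic ℚ
  ∀ (A : ValuationSubring Qb) (k : Type) [Field k] (π : A →+* k) [IsAlgClosed k]
    (M q : ℕ) [NeZero M] [NeZero q] [Fact q.Prime] [CharP k q] [PerfectRing k q]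
    (hdeg : finrankAlong Qb (heckeAlphaBar Qb M q) = q + 1) (hq : q.Prime) (hqM : ¬ q ∣ M)
    (hrk : ∀ x ∈ maximalIdeal A, ∀ c : A, c ≠ 0 → ∃ j : ℕ, c ∣ x ^ j)
    (hπ : Function.Surjective π)
    (H : ResidueFacts A π M q hdeg hq hqM hrk hπ) (hA : A.LiesOverPrime q)
    (x : LaurentSeries ℤ) (hx : coeffMap (Int.castRingHom Qb) x ∈ FBar Qb M)
    (_Hx : GoodLevelFactsT A π M q hπ hqM (tInt M x hx))
    (_hxk : tbar k x ≠ 0) (_hY : YFacts M q x hx)
    (_hD : Fermat.Agent.S33x.H1.LatticeFixed2.FixData2 (redSetup2 H hA)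
      (galSL Qb (M * q) (A.inertiaSubgroupIn ℚ : Set (Qb ≃ₐ[ℚ] Qb))))
    (_hF : Submodule.span Qb
      {f : FL Qb (M * q) |
        IsFixed (galSL Qb (M * q) (A.inertiaSubgroupIn ℚ : Set (Qb ≃ₐ[ℚ] Qb))) f} = ⊤)
    (n : ℕ) (_hfin : Finite (Km H hA (q ^ n))),
    ChartsMq H hA (q ^ n)

/-- `Gam` in the image form `galSL`, `FixData2` of `S33x/W/LatticeFixed2` -/
def GenericQbImgW : Prop :=
  haveI : Algebra.IsAlgebraic ℚ Qb := AlgebraicClosure.isAlgebraic ℚ
  ∀ (A : ValuationSubring Qb) (k : Type) [Field k] (π : A →+* k) [IsAlgClosed k]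
    (M q : ℕ) [NeZero M] [NeZero q] [Fact q.Prime] [CharP k q] [PerfectRing k q]
    (hdeg : finrankAlong Qb (heckeAlphaBar Qb M q) = q + 1) (hq : q.Prime) (hqM : ¬ q ∣ M)
    (hrk : ∀ x ∈ maximalIdeal A, ∀ c : A, c ≠ 0 → ∃ j : ℕ, c ∣ x ^ j)
    (hπ : Function.Surjective π)
    (H : ResidueFacts A π M q hdeg hq hqM hrk hπ) (hA : A.LiesOverPrime q)
    (x : LaurentSeries ℤ) (hx : coeffMap (Int.castRingHom Qb) x ∈ FBar Qb M)
    (_Hx : GoodLevelFactsT A π M q hπ hqM (tInt M x hx))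
    (_hxk : tbar k x ≠ 0) (_hY : YFacts M q x hx)
    (_hD : Fermat.Agent.S33x.W.LatticeFixed2.FixData2 (redSetup2 H hA)
      (galSL Qb (M * q) (A.inertiaSubgroupIn ℚ : Set (Qb ≃ₐ[ℚ] Qb))))
    (_hF : Submodule.span Qb
      {f : FL Qb (M * q) |
        IsFixed (galSL Qb (M * q) (A.inertiaSubgroupIn ℚ : Set (Qb ≃ₐ[ℚ] Qb))) f} = ⊤)
    (n : ℕ) (_hfin : Finite (Km H hA (q ^ n))),
    ChartsMq H hA (q ^ n)

/-! ### The discharge -/

/-- **(I6-Qb)**: the generic theorem over `ℚ̄` gives EXACTLY the hypothesis `hgen` of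
`InstQb.chartsAtGoodLevels_of_gen` / `InstQb.qOrdTarget_of_gen`. -/
theorem hgen_of_generic (hG : GenericQb) :
    ∀ (M₀ p : ℕ) [NeZero M₀] [NeZero p] (hp : p.Prime) (_hp2 : p ≠ 2) (hpM : ¬ p ∣ M₀)
      (_h4 : 4 ∣ M₀) (P0 : ValuationSubring Qb) (hP0 : P0.LiesOverPrime p) (n : ℕ),
      Finite (KmQb M₀ p hp hpM P0 hP0 (p ^ n)) → GenAt M₀ p hp hpM P0 hP0 n := by
  intro M₀ p _ _ hp hp2 hpM h4 P0 hP0 n hfin
  refine genAt_of_local M₀ p hp hpM P0 hP0 hp2 h4 n hfin ?_
  haveI : Algebra.IsAlgebraic ℚ Qb := AlgebraicClosure.isAlgebraic ℚ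
  haveI : Fact p.Prime := ⟨hp⟩
  haveI : IsAlgClosed (ResidueField P0) := FinalBase.isAlgClosed_residueField P0
  haveI : CharP (ResidueField P0) p := FinalBase.charP_residueField P0 hP0
  intro _ x hx Hx hxk hY hD _ hF _ _ _ hfin'
  exact hG P0 (ResidueField P0) (residue P0) M₀ p (hdegQb M₀ p hp hpM) hp hpM
    (FinalBase.rank_one P0 hp hP0) (FinalBase.residue_surjective P0) _ hP0
    x hx Hx hxk hY hD hF n hfin'

theorem hgen_of_genericW (hG : GenericQbW) :
    ∀ (M₀ p : ℕ) [NeZero M₀] [NeZero p] (hp : p.Prime) (_hp2 : p ≠ 2) (hpM : ¬ p ∣ M₀)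
      (_h4 : 4 ∣ M₀) (P0 : ValuationSubring Qb) (hP0 : P0.LiesOverPrime p) (n : ℕ),
      Finite (KmQb M₀ p hp hpM P0 hP0 (p ^ n)) → GenAt M₀ p hp hpM P0 hP0 n := by
  intro M₀ p _ _ hp hp2 hpM h4 P0 hP0 n hfin
  refine genAt_of_local M₀ p hp hpM P0 hP0 hp2 h4 n hfin ?_
  haveI : Algebra.IsAlgebraic ℚ Qb := AlgebraicClosure.isAlgebraic ℚ
  haveI : Fact p.Prime := ⟨hp⟩
  haveI : IsAlgClosed (ResidueField P0) := FinalBase.isAlgClosed_residueField P0
  haveI : CharP (ResidueField P0) p := FinalBase.charP_residueField P0 hP0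
  intro _ x hx Hx hxk hY _ hD hF _ _ _ hfin'
  exact hG P0 (ResidueField P0) (residue P0) M₀ p (hdegQb M₀ p hp hpM) hp hpM
    (FinalBase.rank_one P0 hp hP0) (FinalBase.residue_surjective P0) _ hP0
    x hx Hx hxk hY hD hF n hfin'

theorem hgen_of_genericImg (hG : GenericQbImg) :
    ∀ (M₀ p : ℕ) [NeZero M₀] [NeZero p] (hp : p.Prime) (_hp2 : p ≠ 2) (hpM : ¬ p ∣ M₀)
      (_h4 : 4 ∣ M₀) (P0 : ValuationSubring Qb) (hP0 : P0.LiesOverPrime p) (n : ℕ),
      Finite (KmQb M₀ p hp hpM P0 hP0 (p ^ n)) → GenAt M₀ p hp hpM P0 hP0 n := by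
  intro M₀ p _ _ hp hp2 hpM h4 P0 hP0 n hfin
  refine genAt_of_local M₀ p hp hpM P0 hP0 hp2 h4 n hfin ?_
  haveI : Algebra.IsAlgebraic ℚ Qb := AlgebraicClosure.isAlgebraic ℚ
  haveI : Fact p.Prime := ⟨hp⟩
  haveI : IsAlgClosed (ResidueField P0) := FinalBase.isAlgClosed_residueField P0
  haveI : CharP (ResidueField P0) p := FinalBase.charP_residueField P0 hP0
  intro _ x hx Hx hxk hY _ _ _ hD _ hF hfin'
  exact hG P0 (ResidueField P0) (residue P0) M₀ p (hdegQb M₀ p hp hpM) hp hpM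
    (FinalBase.rank_one P0 hp hP0) (FinalBase.residue_surjective P0) _ hP0
    x hx Hx hxk hY hD hF n hfin'

theorem hgen_of_genericImgW (hG : GenericQbImgW) :
    ∀ (M₀ p : ℕ) [NeZero M₀] [NeZero p] (hp : p.Prime) (_hp2 : p ≠ 2) (hpM : ¬ p ∣ M₀)
      (_h4 : 4 ∣ M₀) (P0 : ValuationSubring Qb) (hP0 : P0.LiesOverPrime p) (n : ℕ),
      Finite (KmQb M₀ p hp hpM P0 hP0 (p ^ n)) → GenAt M₀ p hp hpM P0 hP0 n := by
  intro M₀ p _ _ hp hp2 hpM h4 P0 hP0 n hfin
  refine genAt_of_local M₀ p hp hpM P0 hP0 hp2 h4 n hfin ?_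
  haveI : Algebra.IsAlgebraic ℚ Qb := AlgebraicClosure.isAlgebraic ℚ
  haveI : Fact p.Prime := ⟨hp⟩
  haveI : IsAlgClosed (ResidueField P0) := FinalBase.isAlgClosed_residueField P0
  haveI : CharP (ResidueField P0) p := FinalBase.charP_residueField P0 hP0
  intro _ x hx Hx hxk hY _ _ _ _ hD hF hfin'
  exact hG P0 (ResidueField P0) (residue P0) M₀ p (hdegQb M₀ p hp hpM) hp hpM
    (FinalBase.rank_one P0 hp hP0) (FinalBase.residue_surjective P0) _ hP0
    x hx Hx hxk hY hD hF n hfin'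

/-! ### The exports -/

/-- `Bridge.TargetOfCharts.ChartsAtGoodLevels` from the generic theorem over `ℚ̄`. -/
theorem chartsAtGoodLevels_of_generic (hG : GenericQb) :
    Fermat.Agent.S33x.Bridge.TargetOfCharts.ChartsAtGoodLevels :=
  chartsAtGoodLevels_of_gen (hgen_of_generic hG)

/-- `Consumer.Final.QOrdTarget` from the generic theorem over `ℚ̄`; then
`Consumer.Final.s33_of_target (qOrdTarget_of_generic hG)` is the frozen conclusion of S33. -/
theorem qOrdTarget_of_generic (hG : GenericQb) : Fermat.Agent.S33x.Consumer.Final.QOrdTarget :=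
  qOrdTarget_of_gen (hgen_of_generic hG)

theorem qOrdTarget_of_genericW (hG : GenericQbW) : Fermat.Agent.S33x.Consumer.Final.QOrdTarget :=
  qOrdTarget_of_gen (hgen_of_genericW hG)

theorem qOrdTarget_of_genericImg (hG : GenericQbImg) :
    Fermat.Agent.S33x.Consumer.Final.QOrdTarget :=
  qOrdTarget_of_gen (hgen_of_genericImg hG)

theorem qOrdTarget_of_genericImgW (hG : GenericQbImgW) :
    Fermat.Agent.S33x.Consumer.Final.QOrdTarget :=
  qOrdTarget_of_gen (hgen_of_genericImgW hG)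

end Fermat.Agent.S33x.Cech.InstQbB
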