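/-
P-S33 (blueprint v2), LAYER 2, leaf (I6-Qb), INDEPENDENT SECOND, the PLUG (helper72).

`Cech/Inst.chartsMq_gen` (helper73, the generic-context final theorem of Layer 2) fed into
`Cech/InstQbB.hgen_of_generic` (the `ℚ̄`-only inputs: chart data of `x₄`, `FixData2`, `hF`,
finiteness, residue-field instances):

* `genericQb` : `InstQbB.GenericQb`, i.e. `Inst.chartsMq_gen` at `L := ℚ̄`;
* `hgen` : EXACTLY the hypothesis `hgen` of `InstQb.chartsAtGoodLevels_of_gen` /
  `InstQb.qOrdTarget_of_gen`, UNCONDITIONALLY;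
* `chartsAtGoodLevels` : `Bridge.TargetOfCharts.ChartsAtGoodLevels`;
* `qOrdTarget` : `Consumer.Final.QOrdTarget`; then `Consumer.Final.s33_of_target qOrdTarget` is the
  frozen conclusion of S33.
-/
import Fermat.Agent.S33x.Cech.InstQbB
import Fermat.Agent.S33x.Cech.Inst

set_option autoImplicit false
set_option linter.unusedSectionVars false
set_option linter.unusedVariables false
set_option linter.style.haveILetI false

noncomputable section

namespace Fermat.Agent.S33x.Cech.InstQbBDone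

open Fermat.Agent.S33x.KummerPn Fermat.Agent.S33x.Cech.InstQb

local notation "Qb" => AlgebraicClosure ℚ

/-- `Inst.chartsMq_gen` at `L := ℚ̄`. -/
theorem genericQb : Fermat.Agent.S33x.Cech.InstQbB.GenericQb :=
  haveI : Algebra.IsAlgebraic ℚ Qb := AlgebraicClosure.isAlgebraic ℚ
  fun A k _ π _ M q _ _ _ _ _ hdeg hq hqM hrk hπ H hA x hx Hx hxk hY hD hF n hfin =>
    haveI := hfin
    Fermat.Agent.S33x.Cech.Inst.chartsMq_gen H hA x hx Hx hxk hY hD hF n

/-- **(I6-Qb), closed**: the hypothesis `hgen` of `InstQb.chartsAtGoodLevels_of_gen` /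
`InstQb.qOrdTarget_of_gen`. -/
theorem hgen :
    ∀ (M₀ p : ℕ) [NeZero M₀] [NeZero p] (hp : p.Prime) (_hp2 : p ≠ 2) (hpM : ¬ p ∣ M₀)
      (_h4 : 4 ∣ M₀) (P0 : ValuationSubring Qb) (hP0 : P0.LiesOverPrime p) (n : ℕ),
      Finite (KmQb M₀ p hp hpM P0 hP0 (p ^ n)) → GenAt M₀ p hp hpM P0 hP0 n :=
  Fermat.Agent.S33x.Cech.InstQbB.hgen_of_generic genericQb

/-- **`ChartsAtGoodLevels`**, the single open hypothesis of the bridge (X4). -/
theorem chartsAtGoodLevels : Fermat.Agent.S33x.Bridge.TargetOfCharts.ChartsAtGoodLevels :=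
  chartsAtGoodLevels_of_gen hgen

/-- **`QOrdTarget`**, the target of the consumer. -/
theorem qOrdTarget : Fermat.Agent.S33x.Consumer.Final.QOrdTarget :=
  qOrdTarget_of_gen hgen

end Fermat.Agent.S33x.Cech.InstQbBDone
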