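/-
P-S33, LAYER 2, leaf (I6-Qb), the fixed-point inputs (helper9; co-owner of helper43's
`Cech/InstQbCtx`).

In the EXACT context of `Cech/InstQb.GenAt` / `KummerPn.KmQb` (`L := Qbar`, `A := P0` a valuation
subring of `Qbar` over `p`, `k := ResidueField P0`, `H := ResidueInst.residueFacts ..`, level
`M0 p`), for the set-builder literal
`Gam = {g | exists tau in P0.inertiaSubgroupIn Q, g = arithmeticGalois (mFFF (M0 p)) tau}`
of `CtxMq.ctxGal_inertia` / `Cech/Inst.chartsMq_gen`:

* `hD_Qb`  : the hypothesis `hD : H1.LatticeFixed2.FixData2 (redSetup2 H hP0) Gam`;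
* `hDW_Qb` : the same for the structure of `W/LatticeFixed2`;
* `hF_Qb`  : the hypothesis `hF : span Qbar {f | IsFixed Gam f} = top`.
Both are `H1/FixData2Final.fixData2_setOf` / `span_fixed_setOf` with the instances of `GenAt`.
-/
import Fermat.Agent.S33x.H1.FixData2Final
import Fermat.Agent.S33x.KummerPn

set_option autoImplicit false
set_option linter.unusedSectionVars false
set_option linter.unusedVariables false
set_option linter.style.haveILetI false
-- the instance `Algebra (ResidueField P0) (Fk x Fk)` needs more than the default 20000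
set_option synthInstance.maxHeartbeats 100000

noncomputable section

namespace Fermat.Agent.S33x.Cech.InstQbFix

open ModularCurve AlgebraicCurve IsLocalRing
open Fermat.Agent.Gateway.Hecke Fermat.Agent.Gateway.ESC
open Fermat.Agent.Gateway.Red Fermat.Agent.Gateway.GoodRed
open Fermat.Agent.S34x.TwoVal Fermat.Agent.S34x.C0two
open Fermat.Agent.S34x.Inst.RedSetupInst Fermat.Agent.S34x.Inst
open Fermat.Agent.S33x.KummerPn
open Fermat.Agent.S19x.Geo.LatticeFixed (IsFixed)

local notation "Qb" => AlgebraicClosure ℚ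

variable (M₀ p : ℕ) [NeZero M₀] [NeZero p] (hp : p.Prime) (hpM : ¬ p ∣ M₀)
  (P0 : ValuationSubring Qb) (hP0 : P0.LiesOverPrime p)

/-- **`hD` at `Qbar`** (structure of `H1/LatticeFixed2`), in the context of `InstQb.GenAt`. -/
theorem hD_Qb :
    haveI : Algebra.IsAlgebraic ℚ Qb := AlgebraicClosure.isAlgebraic ℚ
    haveI : Fact p.Prime := ⟨hp⟩
    haveI : IsAlgClosed (ResidueField P0) := FinalBase.isAlgClosed_residueField P0
    haveI : CharP (ResidueField P0) p := FinalBase.charP_residueField P0 hP0
    Fermat.Agent.S33x.H1.LatticeFixed2.FixData2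
      (redSetup2 (ResidueInst.residueFacts P0 (residue P0) M₀ p (hdegQb M₀ p hp hpM) hp hpM
        (FinalBase.rank_one P0 hp hP0) (FinalBase.residue_surjective P0)) hP0)
      {g | ∃ τ ∈ P0.inertiaSubgroupIn ℚ,
        g = arithmeticGalois (modularFunctionFieldFull (M₀ * p)) τ} := by
  haveI : Fact p.Prime := ⟨hp⟩
  haveI : IsAlgClosed (ResidueField P0) := FinalBase.isAlgClosed_residueField P0
  haveI : CharP (ResidueField P0) p := FinalBase.charP_residueField P0 hP0
  exact Fermat.Agent.S33x.H1.FixData2Final.fixData2_setOf _ hP0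

/-- **`hD` at `Qbar`** (structure of `W/LatticeFixed2`), in the context of `InstQb.GenAt`. -/
theorem hDW_Qb :
    haveI : Algebra.IsAlgebraic ℚ Qb := AlgebraicClosure.isAlgebraic ℚ
    haveI : Fact p.Prime := ⟨hp⟩
    haveI : IsAlgClosed (ResidueField P0) := FinalBase.isAlgClosed_residueField P0
    haveI : CharP (ResidueField P0) p := FinalBase.charP_residueField P0 hP0
    Fermat.Agent.S33x.W.LatticeFixed2.FixData2
      (redSetup2 (ResidueInst.residueFacts P0 (residue P0) M₀ p (hdegQb M₀ p hp hpM) hp hpM
        (FinalBase.rank_one P0 hp hP0) (FinalBase.residue_surjective P0)) hP0)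
      {g | ∃ τ ∈ P0.inertiaSubgroupIn ℚ,
        g = arithmeticGalois (modularFunctionFieldFull (M₀ * p)) τ} := by
  haveI : Fact p.Prime := ⟨hp⟩
  haveI : IsAlgClosed (ResidueField P0) := FinalBase.isAlgClosed_residueField P0
  haveI : CharP (ResidueField P0) p := FinalBase.charP_residueField P0 hP0
  exact Fermat.Agent.S33x.H1.FixData2Final.fixData2W_setOf _ hP0

/-- **`hF` at `Qbar`**: the function field of level `M0 p` is spanned by the inertia-fixed
functions (literal of `Cech/Inst.chartsMq_gen`). -/
theorem hF_Qb :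
    Submodule.span Qb {f : FL Qb (M₀ * p) | IsFixed
      {g | ∃ τ ∈ P0.inertiaSubgroupIn ℚ,
        g = arithmeticGalois (modularFunctionFieldFull (M₀ * p)) τ} f} = ⊤ :=
  Fermat.Agent.S33x.H1.FixData2Final.span_fixed_setOf P0 (M₀ * p)

end Fermat.Agent.S33x.Cech.InstQbFix
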