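import Fermat.Agent.S33x.Cech.InstVal
import Fermat.Agent.S33x.KummerPn

/-!
# P-S33, LAYER 2, instance plumbing (I6 support): the inertia group acting on the TYPE `K_m`

Context = the variable block of `S33x/KummerPn.lean` (`L` an algebraic closure of `ℚ`, `A` a
valuation subring of `L` over `q`, level `M q`).  The index type of the operators of
`Coord.exists_charts_of_cyc` / `InstConv.chartsMq_of_charts` is `Γ := ↥(A.inertiaSubgroupIn ℚ)`:

* `ι γ := γ.1`, `hι` (`inertia_index_surj`);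
* `σA γ := InstVal.inertiaRes A γ` with `hσA` (`coe_inertiaRes`, `rfl`) and `hσdvd`
  (`InstVal.dvd_inertiaRes`);
* `actKm hm γ : Km H hA m → Km H hA m`, `x ↦ γ • x` (`KummerPn.smul_mem_Km`), with `coe_actKm`
  (`hσX`), `actKm_add`, `actKm_zero`.
-/

set_option autoImplicit false
set_option linter.unusedSectionVars false

noncomputable section

namespace Fermat.Agent.S33x.Cech.InstValKm

open ModularCurve AlgebraicCurve IsLocalRing
open Fermat.Agent.Gateway.Hecke Fermat.Agent.Gateway.ESC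
open Fermat.Agent.Gateway.Red Fermat.Agent.Gateway.GoodRed
open Fermat.Agent.S34x.TwoVal Fermat.Agent.S34x.C0two
open Fermat.Agent.S34x.Inst.RedSetupInst Fermat.Agent.S34x.Inst
open Fermat.Agent.S33x.KummerPn Fermat.Agent.S33x.Cech.InstVal

variable {L : Type} [Field L] [Algebra ℚ L] [IsAlgClosed L] [Algebra.IsAlgebraic ℚ L]
  {A : ValuationSubring L}
  {k : Type} [Field k] {π : A →+* k} [IsAlgClosed k]
variable {M q : ℕ} [NeZero M] [NeZero q] [Fact q.Prime] [CharP k q]
variable {hdeg : finrankAlong L (heckeAlphaBar L M q) = q + 1} {hq : q.Prime} {hqM : ¬ q ∣ M}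
variable {hrk : ∀ x ∈ maximalIdeal A, ∀ c : A, c ≠ 0 → ∃ j : ℕ, c ∣ x ^ j}
  {hπ : Function.Surjective π}
variable {H : ResidueFacts A π M q hdeg hq hqM hrk hπ} {hA : A.LiesOverPrime q}

/-- every element of the inertia group is the value of the index map `γ ↦ γ.1`. -/
theorem inertia_index_surj (A : ValuationSubring L) :
    ∀ τ ∈ A.inertiaSubgroupIn ℚ, ∃ γ : A.inertiaSubgroupIn ℚ, (γ : L ≃ₐ[ℚ] L) = τ :=
  fun τ hτ => ⟨⟨τ, hτ⟩, rfl⟩

/-- the action of the inertia group on the TYPE `K_m`. -/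
def actKm {m : ℕ} (hm : 0 < m) (γ : A.inertiaSubgroupIn ℚ) (x : Km H hA m) : Km H hA m :=
  ⟨(γ : L ≃ₐ[ℚ] L) • (x : Pic0 L (FL L (M * q))), smul_mem_Km hm γ.2 x.2⟩

@[simp] theorem coe_actKm {m : ℕ} (hm : 0 < m) (γ : A.inertiaSubgroupIn ℚ) (x : Km H hA m) :
    ((actKm hm γ x : Km H hA m) : Pic0 L (FL L (M * q)))
      = (γ : L ≃ₐ[ℚ] L) • (x : Pic0 L (FL L (M * q))) := rfl

theorem actKm_add {m : ℕ} (hm : 0 < m) (γ : A.inertiaSubgroupIn ℚ) (x y : Km H hA m) :
    actKm hm γ (x + y) = actKm hm γ x + actKm hm γ y := by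
  apply Subtype.ext
  rw [AddSubgroup.coe_add, coe_actKm, coe_actKm, coe_actKm, AddSubgroup.coe_add, smul_add]

theorem actKm_zero {m : ℕ} (hm : 0 < m) (γ : A.inertiaSubgroupIn ℚ) :
    actKm hm γ (0 : Km H hA m) = 0 := by
  have h := actKm_add hm γ (0 : Km H hA m) 0
  rw [add_zero] at h
  exact left_eq_add.mp h

end Fermat.Agent.S33x.Cech.InstValKm
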