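import Mathlib

/-!
# P-S33 (blueprint v2, LAYER 2, abstract algebra): Čech normal forms of `1`-unit cocycles

Pure algebra, Mathlib only.  `R` plays the role of the integral coordinate ring of the overlap
`U_oo ∩ U_0` of the two charts (`B = ⋃ Lam(a,b)`), `Roo`, `R0` the integral coordinate rings of the
two charts (`B_oo`, `B_0`), `A` the ring of constants (a valuation ring, or its inertia-fixed
subring), `a 1 … a g ∈ R` representatives of a basis of `H¹(O) = R / (R0 + Roo)`.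

* `CechDec` : the decomposition `R = R0 + Roo + ∑ A a_i`  (blueprint (F1), existence part);
* `CechDec.Cob π c u u'` : `u (1 + π boo)(1 + π b0) = u' mod c` (same class in `H¹(1 + π O)` mod `c`);
  an equivalence relation compatible with products as soon as `c ∣ π ^ J`;
* `CechDec.exists_normalForm` : every `1 + π ε` is `Cob` to some `1 + π ∑ t_i a_i`;
* `CechSat` : saturation of the decomposition (blueprint (F1) saturation + (F2) + constants);
* `CechSat.normalForm_unique` : the coordinates `π t_i` of a normal form are unique mod `c`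
  (over a ring of constants with totally ordered divisibility);
* `CechDec.poly`, `CechDec.exists_universal_add` : the product of two normal forms is `Cob` to the
  normal form with coordinates given by ONE polynomial family `F` (the formal group law mod `c`),
  obtained by running `exists_normalForm` over the polynomial extension and specialising.
-/

set_option autoImplicit false

namespace Fermat.Agent.S33x.Cech.NormalFormB

open Finset

/-- Čech decomposition data: `R = R0 + Roo + ∑ A a_i`. -/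
structure CechDec (A R : Type*) [CommRing A] [CommRing R] (g : ℕ) where
  /-- the constants -/
  ι : A →+* R
  /-- functions regular on the chart `0` -/
  R0 : Subring R
  /-- functions regular on the chart `∞` -/
  Roo : Subring R
  ι_mem0 : ∀ x, ι x ∈ R0
  ι_memoo : ∀ x, ι x ∈ Roo
  /-- representatives of a basis of `H¹(O)` -/
  a : Fin g → R
  dec : ∀ r : R, ∃ b0 ∈ R0, ∃ boo ∈ Roo, ∃ s : Fin g → A, r = b0 + boo + ∑ i, ι (s i) * a i

namespace CechDec

variable {A R : Type*} [CommRing A] [CommRing R] {g : ℕ} (D : CechDec A R g)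

/-- The linear combination `∑ t_i a_i`. -/
def lin (t : Fin g → A) : R := ∑ i, D.ι (t i) * D.a i

theorem lin_zero : D.lin 0 = 0 := by simp [lin]

theorem lin_add (t t' : Fin g → A) : D.lin (t + t') = D.lin t + D.lin t' := by
  simp [lin, add_mul, Finset.sum_add_distrib]

theorem lin_sub (t t' : Fin g → A) : D.lin (t - t') = D.lin t - D.lin t' := by
  simp [lin, sub_mul, Finset.sum_sub_distrib]

theorem lin_smul (x : A) (t : Fin g → A) : D.lin (x • t) = D.ι x * D.lin t := by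
  simp [lin, Finset.mul_sum, mul_assoc]

theorem dec' (r : R) : ∃ b0 ∈ D.R0, ∃ boo ∈ D.Roo, ∃ s : Fin g → A, r = b0 + boo + D.lin s :=
  D.dec r

/-- `u` and `u'` define the same class modulo coboundaries `1 + π Roo`, `1 + π R0` and modulo `c`. -/
def Cob (π c : A) (u u' : R) : Prop :=
  ∃ boo ∈ D.Roo, ∃ b0 ∈ D.R0, ∃ r : R,
    u * (1 + D.ι π * boo) * (1 + D.ι π * b0) = u' + D.ι c * r

theorem Cob.refl (π c : A) (u : R) : D.Cob π c u u :=
  ⟨0, D.Roo.zero_mem, 0, D.R0.zero_mem, 0, by ring⟩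

theorem Cob.of_eq_add (π c : A) {u u' : R} (r : R) (h : u = u' + D.ι c * r) : D.Cob π c u u' :=
  ⟨0, D.Roo.zero_mem, 0, D.R0.zero_mem, r, by rw [h]; ring⟩

theorem Cob.of_dvd {π c c1 : A} (hcc : c ∣ c1) {u u' : R} (h : D.Cob π c1 u u') :
    D.Cob π c u u' := by
  obtain ⟨b, hb, b0, hb0, r, h⟩ := h
  obtain ⟨d, rfl⟩ := hcc
  exact ⟨b, hb, b0, hb0, D.ι d * r, by rw [h, map_mul]; ring⟩

theorem Cob.trans {π c : A} {u u' u'' : R} (h : D.Cob π c u u') (h' : D.Cob π c u' u'') :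
    D.Cob π c u u'' := by
  obtain ⟨b, hb, b0, hb0, r, h⟩ := h
  obtain ⟨d, hd, d0, hd0, r', h'⟩ := h'
  refine ⟨b + d + D.ι π * (b * d), ?_, b0 + d0 + D.ι π * (b0 * d0), ?_,
    r' + r * (1 + D.ι π * d) * (1 + D.ι π * d0), ?_⟩
  · exact D.Roo.add_mem (D.Roo.add_mem hb hd) (D.Roo.mul_mem (D.ι_memoo π) (D.Roo.mul_mem hb hd))
  · exact D.R0.add_mem (D.R0.add_mem hb0 hd0) (D.R0.mul_mem (D.ι_mem0 π) (D.R0.mul_mem hb0 hd0))
  · linear_combination (1 + D.ι π * d) * (1 + D.ι π * d0) * h + h'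

theorem Cob.mul {π c : A} {u u' v v' : R} (h : D.Cob π c u u') (h' : D.Cob π c v v') :
    D.Cob π c (u * v) (u' * v') := by
  obtain ⟨b, hb, b0, hb0, r, h⟩ := h
  obtain ⟨d, hd, d0, hd0, r', h'⟩ := h'
  refine ⟨b + d + D.ι π * (b * d), ?_, b0 + d0 + D.ι π * (b0 * d0), ?_,
    u' * r' + r * v' + D.ι c * (r * r'), ?_⟩
  · exact D.Roo.add_mem (D.Roo.add_mem hb hd) (D.Roo.mul_mem (D.ι_memoo π) (D.Roo.mul_mem hb hd))
  · exact D.R0.add_mem (D.R0.add_mem hb0 hd0) (D.R0.mul_mem (D.ι_mem0 π) (D.R0.mul_mem hb0 hd0))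
  · linear_combination (v * (1 + D.ι π * d) * (1 + D.ι π * d0)) * h + (u' + D.ι c * r) * h'

/-- Inverse of `1 + π b` modulo `c`, inside a subring containing the constants. -/
theorem exists_inv (S : Subring R) (hS : ∀ x, D.ι x ∈ S) {π c : A} {J : ℕ} (hJ : c ∣ π ^ J)
    {b : R} (hb : b ∈ S) :
    ∃ b' ∈ S, ∃ r : R, (1 + D.ι π * b) * (1 + D.ι π * b') = 1 + D.ι c * r := by
  obtain ⟨q, hq⟩ := hJ
  set x : R := -(D.ι π * b) with hx
  have hxS : x ∈ S := S.neg_mem (S.mul_mem (hS π) hb)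
  have hsum : ∑ i ∈ range J, x ^ i ∈ S := S.sum_mem fun i _ => S.pow_mem hxS i
  refine ⟨-(b * ∑ i ∈ range J, x ^ i), S.neg_mem (S.mul_mem hb hsum),
    D.ι π * b * (D.ι q * (-b) ^ J), ?_⟩
  have hgeom : (x - 1) * ∑ i ∈ range (J + 1), x ^ i = x ^ (J + 1) - 1 := by
    rw [mul_comm]; exact geom_sum_mul x (J + 1)
  have hsucc : ∑ i ∈ range (J + 1), x ^ i = x * ∑ i ∈ range J, x ^ i + 1 := by
    rw [Finset.sum_range_succ', pow_zero, Finset.mul_sum]
    congr 1
    exact Finset.sum_congr rfl fun i _ => by rw [pow_succ']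
  have hxJ : x ^ J = D.ι c * (D.ι q * (-b) ^ J) := by
    rw [hx, neg_eq_neg_one_mul (D.ι π * b), mul_pow, mul_pow, ← map_pow, hq, map_mul]
    rw [neg_pow b J]
    ring
  have hgeom2 : (x - 1) * (x * ∑ i ∈ range J, x ^ i + 1) = x * x ^ J - 1 := by
    rw [← hsucc, hgeom, pow_succ']
  rw [hxJ] at hgeom2
  rw [hx] at hgeom2 ⊢
  linear_combination (-1 : R) * hgeom2

theorem Cob.symm {π c : A} {J : ℕ} (hJ : c ∣ π ^ J) {u u' : R} (h : D.Cob π c u u') :
    D.Cob π c u' u := by
  obtain ⟨b, hb, b0, hb0, r, h⟩ := h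
  obtain ⟨b', hb', r1, h1⟩ := D.exists_inv D.Roo D.ι_memoo hJ hb
  obtain ⟨b0', hb0', r2, h2⟩ := D.exists_inv D.R0 D.ι_mem0 hJ hb0
  refine ⟨b', hb', b0', hb0',
    u * (r1 + r2 + D.ι c * (r1 * r2)) - r * (1 + D.ι π * b') * (1 + D.ι π * b0'), ?_⟩
  linear_combination (-(1 + D.ι π * b') * (1 + D.ι π * b0')) * h +
    (u * (1 + D.ι π * b0) * (1 + D.ι π * b0')) * h1 + (u * (1 + D.ι c * r1)) * h2

/-- One step of the successive approximation. -/
theorem normalForm_step (π : A) (ε : R) (k : ℕ)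
    (h : ∃ boo ∈ D.Roo, ∃ b0 ∈ D.R0, ∃ t : Fin g → A, ∃ r : R,
      (1 + D.ι π * ε) * (1 + D.ι π * boo) * (1 + D.ι π * b0) =
        1 + D.ι π * D.lin t + D.ι π ^ (k + 1) * r) :
    ∃ boo ∈ D.Roo, ∃ b0 ∈ D.R0, ∃ t : Fin g → A, ∃ r : R,
      (1 + D.ι π * ε) * (1 + D.ι π * boo) * (1 + D.ι π * b0) =
        1 + D.ι π * D.lin t + D.ι π ^ (k + 2) * r := by
  obtain ⟨boo, hboo, b0, hb0, t, r, h⟩ := h
  obtain ⟨d0, hd0, doo, hdoo, s, hr⟩ := D.dec' r
  have hπoo : D.ι π ∈ D.Roo := D.ι_memoo π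
  have hπ0 : D.ι π ∈ D.R0 := D.ι_mem0 π
  refine ⟨boo - D.ι π ^ k * doo * (1 + D.ι π * boo), ?_,
    b0 - D.ι π ^ k * d0 * (1 + D.ι π * b0), ?_, t + (π ^ k) • s,
    -(D.lin t + D.ι π ^ k * r) * (doo + d0) +
      (1 + D.ι π * D.lin t + D.ι π ^ (k + 1) * r) * D.ι π ^ k * (doo * d0), ?_⟩
  · exact D.Roo.sub_mem hboo (D.Roo.mul_mem (D.Roo.mul_mem (D.Roo.pow_mem hπoo k) hdoo)
      (D.Roo.add_mem D.Roo.one_mem (D.Roo.mul_mem hπoo hboo)))
  · exact D.R0.sub_mem hb0 (D.R0.mul_mem (D.R0.mul_mem (D.R0.pow_mem hπ0 k) hd0)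
      (D.R0.add_mem D.R0.one_mem (D.R0.mul_mem hπ0 hb0)))
  · rw [D.lin_add, D.lin_smul, map_pow]
    subst hr
    linear_combination (1 - D.ι π ^ (k + 1) * doo) * (1 - D.ι π ^ (k + 1) * d0) * h

/-- Successive approximation to every order. -/
theorem normalForm_pow (π : A) (ε : R) (k : ℕ) :
    ∃ boo ∈ D.Roo, ∃ b0 ∈ D.R0, ∃ t : Fin g → A, ∃ r : R,
      (1 + D.ι π * ε) * (1 + D.ι π * boo) * (1 + D.ι π * b0) =
        1 + D.ι π * D.lin t + D.ι π ^ (k + 1) * r := by
  induction k with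
  | zero =>
    exact ⟨0, D.Roo.zero_mem, 0, D.R0.zero_mem, 0, ε, by rw [D.lin_zero]; ring⟩
  | succ k ih => exact D.normalForm_step π ε k ih

/-- **Existence of the normal form.** -/
theorem exists_normalForm {π c : A} {J : ℕ} (hJ : c ∣ π ^ J) (ε : R) :
    ∃ t : Fin g → A, D.Cob π c (1 + D.ι π * ε) (1 + D.ι π * D.lin t) := by
  obtain ⟨boo, hboo, b0, hb0, t, r, h⟩ := D.normalForm_pow π ε J
  obtain ⟨q, hq⟩ := hJ
  refine ⟨t, boo, hboo, b0, hb0, D.ι q * D.ι π * r, ?_⟩
  rw [h, pow_succ, ← map_pow, hq, map_mul]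
  ring

end CechDec

/-! ### Saturation and uniqueness of the normal form -/

/-- Saturation of the decomposition, for nonzero moduli: blueprint (F1) saturation together with
(F2) (`red R0 ∩ red Roo = constants`) and saturation of the constants in `R`. -/
structure CechSat {A R : Type*} [CommRing A] [CommRing R] {g : ℕ} (D : CechDec A R g) : Prop where
  sat : ∀ m : A, m ≠ 0 → ∀ b0 ∈ D.R0, ∀ boo ∈ D.Roo, ∀ (s : Fin g → A) (r : R),
      b0 + boo + D.lin s = D.ι m * r →
      (∀ i, m ∣ s i) ∧ ∃ e : A, (∃ x0 ∈ D.R0, b0 - D.ι e = D.ι m * x0) ∧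
        (∃ xoo ∈ D.Roo, boo + D.ι e = D.ι m * xoo)
  const : ∀ m x : A, m ≠ 0 → ∀ r : R, D.ι x = D.ι m * r → m ∣ x

namespace CechSat

variable {A R : Type*} [CommRing A] [CommRing R] {g : ℕ} {D : CechDec A R g}

/-- The inductive claim: the coboundaries are constant modulo `m` and the coordinates agree
modulo `m`. -/
def Claim (D : CechDec A R g) (π m : A) (t t' : Fin g → A) (boo b0 : R) : Prop :=
  ∃ e f : A, ∃ doo ∈ D.Roo, ∃ d0 ∈ D.R0,
    D.ι π * boo = D.ι (π * e) + D.ι m * doo ∧ D.ι π * b0 = D.ι (π * f) + D.ι m * d0 ∧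
    ∀ i, m ∣ π * (t' i - t i)

/-- The polynomial identity behind one step. -/
theorem step_core (D : CechDec A R g) (n q m1 c' e f : A) (L L' boo b0 doo d0 r lσ : R)
    (E0 : (1 + D.ι (n * q) * L) * (1 + D.ι (n * q) * boo) * (1 + D.ι (n * q) * b0) =
      1 + D.ι (n * q) * L' + D.ι (n * q * m1 * n * c') * r)
    (hboo : D.ι (n * q) * boo = D.ι (n * q * e) + D.ι (n * q * m1) * doo)
    (hb0 : D.ι (n * q) * b0 = D.ι (n * q * f) + D.ι (n * q * m1) * d0)
    (hσ : D.ι (n * q * m1) * lσ = D.ι (n * q) * (L' - L)) :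
    (D.ι (n * q * e + n * q * f + n * q * e * (n * q * f)) + D.ι (n * q * m1) * d0) +
      D.ι (n * q * m1) * doo +
      (D.ι (n * q * e + n * q * f + n * q * e * (n * q * f)) * (D.ι (n * q) * L) -
        D.ι (n * q * m1) * lσ) =
    D.ι (n * q * m1 * n) * (D.ι c' * r -
      (D.ι q * D.ι e * d0 + D.ι q * D.ι f * doo + D.ι q * D.ι m1 * (doo * d0) +
        D.ι q * L * ((1 + D.ι (n * q * e)) * d0 + (1 + D.ι (n * q * f)) * doo) +
        D.ι q * D.ι (n * q * m1) * L * (doo * d0))) := by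
  simp only [map_mul, map_add] at *
  linear_combination E0 - (1 + D.ι n * D.ι q * L) * (1 + D.ι n * D.ι q * b0) * hboo -
    (1 + D.ι n * D.ι q * L) * (1 + (D.ι n * D.ι q * D.ι e + D.ι n * D.ι q * D.ι m1 * doo)) * hb0 -
    hσ

theorem claim_step (hD : CechSat D) {π m m' c n q m1 c' : A} (hπ : π = n * q) (hm : m = π * m1)
    (hm' : m' = m * n) (hc : c = m' * c') (hne : m' ≠ 0) {t t' : Fin g → A} {boo b0 r : R}
    (E0 : (1 + D.ι π * D.lin t) * (1 + D.ι π * boo) * (1 + D.ι π * b0) =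
      1 + D.ι π * D.lin t' + D.ι c * r)
    (h : Claim D π m t t' boo b0) : Claim D π m' t t' boo b0 := by
  subst hc hm' hm hπ
  obtain ⟨e, f, doo, hdoo, d0, hd0, hboo', hb0', hdvd⟩ := h
  choose σ hσ using hdvd
  have hmne : n * q * m1 ≠ 0 := left_ne_zero_of_mul hne
  have hlσ : D.ι (n * q * m1) * D.lin σ = D.ι (n * q) * (D.lin t' - D.lin t) := by
    rw [← D.lin_smul, ← D.lin_sub, ← D.lin_smul]
    congr 1
    funext i
    simp only [Pi.smul_apply, smul_eq_mul, Pi.sub_apply]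
    exact (hσ i).symm
  set κ : A := n * q * e + n * q * f + n * q * e * (n * q * f) with hκ
  have hcore := step_core D n q m1 c' e f (D.lin t) (D.lin t') boo b0 doo d0 r (D.lin σ)
    E0 hboo' hb0' hlσ
  have hlin : D.ι κ * (D.ι (n * q) * D.lin t) - D.ι (n * q * m1) * D.lin σ =
      D.lin (fun i => κ * (n * q * t i) - n * q * m1 * σ i) := by
    have : (fun i => κ * (n * q * t i) - n * q * m1 * σ i) =
        (κ * (n * q)) • t - (n * q * m1) • σ := by
      funext i
      simp only [Pi.sub_apply, Pi.smul_apply, smul_eq_mul]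
      ring
    rw [this, D.lin_sub, D.lin_smul, D.lin_smul]
    simp only [map_mul]
    ring
  rw [hlin] at hcore
  obtain ⟨hs, e2, ⟨x0, hx0, hx0e⟩, ⟨xoo, hxoo, hxooe⟩⟩ := hD.sat (n * q * m1 * n) hne
    (D.ι κ + D.ι (n * q * m1) * d0)
    (D.R0.add_mem (D.ι_mem0 _) (D.R0.mul_mem (D.ι_mem0 _) hd0))
    (D.ι (n * q * m1) * doo) (D.Roo.mul_mem (D.ι_memoo _) hdoo) _ _ hcore
  -- `m ∣ e2`
  obtain ⟨e3, he3⟩ : n * q * m1 ∣ e2 := by
    refine hD.const _ _ hmne (D.ι n * xoo - doo) ?_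
    simp only [map_mul] at hxooe ⊢
    linear_combination hxooe
  -- `m ∣ κ`
  obtain ⟨κ1, hκ1⟩ : n * q * m1 ∣ κ := by
    have h1 : n * q * m1 ∣ κ - e2 := by
      refine hD.const _ _ hmne (D.ι n * x0 - d0) ?_
      simp only [map_mul, map_sub] at hx0e ⊢
      linear_combination hx0e
    have := dvd_add h1 (Dvd.intro _ he3.symm)
    simpa using this
  refine ⟨e - m1 * e3, f + m1 * e3 - m1 * κ1, xoo, hxoo, x0, hx0, ?_, ?_, ?_⟩
  · have he2' : D.ι e2 = D.ι (n * q * m1) * D.ι e3 := by rw [← map_mul, ← he3]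
    simp only [map_mul, map_sub] at hboo' hxooe he2' ⊢
    linear_combination hboo' + hxooe - he2'
  · have he2' : D.ι e2 = D.ι (n * q * m1) * D.ι e3 := by rw [← map_mul, ← he3]
    have hκ' : D.ι κ = D.ι (n * q * m1) * D.ι κ1 := by rw [← map_mul, ← hκ1]
    simp only [map_mul, map_sub, map_add] at hb0' hx0e he2' hκ' ⊢
    linear_combination hb0' + hx0e + he2' - hκ'
  · intro i
    have h1 : n * q * m1 * n ∣ κ * (n * q * t i) := ⟨κ1 * q * t i, by rw [hκ1]; ring⟩
    have h2 := (dvd_sub h1 (hs i))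
    have h3 : κ * (n * q * t i) - (κ * (n * q * t i) - n * q * m1 * σ i) = n * q * m1 * σ i := by
      ring
    rw [h3, ← hσ i] at h2
    exact h2

/-- The claim holds modulo every power `π ^ (j + 1)` dividing `c`. -/
theorem claim_pow [IsDomain A] (hD : CechSat D) {π c : A} (hc : c ≠ 0) {t t' : Fin g → A}
    {boo b0 r : R} (hboo : boo ∈ D.Roo) (hb0 : b0 ∈ D.R0)
    (E0 : (1 + D.ι π * D.lin t) * (1 + D.ι π * boo) * (1 + D.ι π * b0) =
      1 + D.ι π * D.lin t' + D.ι c * r) (j : ℕ) (hj : π ^ (j + 1) ∣ c) :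
    Claim D π (π ^ (j + 1)) t t' boo b0 := by
  induction j with
  | zero =>
    refine ⟨0, 0, boo, hboo, b0, hb0, ?_, ?_, fun i => ?_⟩
    · simp
    · simp
    · simp
  | succ j ih =>
    have hj' : π ^ (j + 1) ∣ c := dvd_trans (pow_dvd_pow π (Nat.le_succ _)) hj
    obtain ⟨c', hc'⟩ := hj
    refine claim_step hD (n := π) (q := 1) (m1 := π ^ j) (c' := c') (mul_one π).symm
      (pow_succ' π j) (pow_succ π (j + 1)) hc' ?_ E0 (ih hj')
    intro h0
    rw [h0, zero_mul] at hc'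
    exact hc hc'

/-- **Uniqueness of the normal form**: over a domain of constants with totally ordered
divisibility (a valuation ring), two normal forms in the same class modulo `c` have the same
coordinates `π t_i` modulo `c`. -/
theorem normalForm_unique [IsDomain A] (hD : CechSat D) (htot : ∀ x y : A, x ∣ y ∨ y ∣ x)
    {π c : A} (hc : c ≠ 0) {J : ℕ} (hJ : c ∣ π ^ J) {t t' : Fin g → A}
    (h : D.Cob π c (1 + D.ι π * D.lin t) (1 + D.ι π * D.lin t')) (i : Fin g) :
    c ∣ π * (t' i - t i) := by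
  classical
  obtain ⟨boo, hboo, b0, hb0, r, E0⟩ := h
  -- minimal exponent
  have hex : ∃ J, c ∣ π ^ J := ⟨J, hJ⟩
  set J0 := Nat.find hex with hJ0
  have hJ0spec : c ∣ π ^ J0 := Nat.find_spec hex
  rcases Nat.eq_zero_or_pos J0 with h0 | hpos
  · rw [h0, pow_zero] at hJ0spec
    exact dvd_trans hJ0spec (one_dvd _)
  obtain ⟨J1, hJ1⟩ : ∃ J1, J0 = J1 + 1 := ⟨J0 - 1, by omega⟩
  have hnot : ¬ c ∣ π ^ J1 := Nat.find_min hex (by omega)
  have hdvd : π ^ J1 ∣ c := (htot _ _).resolve_right hnot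
  rcases Nat.eq_zero_or_pos J1 with h1 | hpos1
  · -- `c ∣ π`
    rw [hJ1, h1] at hJ0spec
    simp only [zero_add, pow_one] at hJ0spec
    exact Dvd.dvd.mul_right hJ0spec _
  obtain ⟨J2, hJ2⟩ : ∃ J2, J1 = J2 + 1 := ⟨J1 - 1, by omega⟩
  have hclaim : Claim D π (π ^ (J2 + 1)) t t' boo b0 :=
    claim_pow hD hc hboo hb0 E0 J2 (by rw [← hJ2]; exact hdvd)
  obtain ⟨n, hn⟩ := hdvd
  rw [hJ1] at hJ0spec
  obtain ⟨q, hq⟩ := hJ0spec
  have hπJ1 : π ^ J1 ≠ 0 := by
    intro h0
    rw [h0, zero_mul] at hn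
    exact hc hn
  have hπ : π = n * q := by
    have h2 : π ^ J1 * π = π ^ J1 * (n * q) := by
      rw [← pow_succ, hq, hn]
      ring
    exact mul_left_cancel₀ hπJ1 h2
  have hfinal : Claim D π c t t' boo b0 := by
    refine claim_step hD (n := n) (q := q) (m1 := π ^ J2) (c' := 1) hπ
      (by rw [← pow_succ']) (by rw [← hJ2]; exact hn) (mul_one c).symm hc E0 hclaim
  obtain ⟨-, -, -, -, -, -, -, -, hres⟩ := hfinal
  exact hres i

end CechSat

/-! ### Morphisms of Čech data -/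

/-- A morphism of Čech decomposition data (base change of the constants, specialisation, …). -/
structure CechHom {A R A' R' : Type*} [CommRing A] [CommRing R] [CommRing A'] [CommRing R']
    {g : ℕ} (D : CechDec A R g) (D' : CechDec A' R' g) where
  fA : A →+* A'
  fR : R →+* R'
  comm : ∀ x, fR (D.ι x) = D'.ι (fA x)
  map0 : ∀ x ∈ D.R0, fR x ∈ D'.R0
  mapoo : ∀ x ∈ D.Roo, fR x ∈ D'.Roo
  map_a : ∀ i, fR (D.a i) = D'.a i

namespace CechHom

variable {A R A' R' : Type*} [CommRing A] [CommRing R] [CommRing A'] [CommRing R'] {g : ℕ}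
  {D : CechDec A R g} {D' : CechDec A' R' g} (φ : CechHom D D')

theorem map_lin (t : Fin g → A) : φ.fR (D.lin t) = D'.lin (fun i => φ.fA (t i)) := by
  simp only [CechDec.lin, map_sum, map_mul, φ.comm, φ.map_a]

theorem map_cob {π c : A} {u u' : R} (h : D.Cob π c u u') :
    D'.Cob (φ.fA π) (φ.fA c) (φ.fR u) (φ.fR u') := by
  obtain ⟨boo, hboo, b0, hb0, r, h⟩ := h
  refine ⟨φ.fR boo, φ.mapoo _ hboo, φ.fR b0, φ.map0 _ hb0, φ.fR r, ?_⟩
  have := congrArg φ.fR h
  simpa only [map_mul, map_add, map_one, φ.comm] using this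

end CechHom

/-! ### The polynomial extension and the universal addition law -/

namespace CechDec

open MvPolynomial

variable {A R : Type*} [CommRing A] [CommRing R] {g : ℕ} (D : CechDec A R g) (σ : Type*)

/-- The polynomial extension of Čech decomposition data: constants `A[σ]`, ring `R[σ]`,
subrings = polynomials with coefficients in `R0`, `Roo`. -/
noncomputable def poly : CechDec (MvPolynomial σ A) (MvPolynomial σ R) g where
  ι := MvPolynomial.map D.ι
  R0 := (MvPolynomial.map (σ := σ) D.R0.subtype).range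
  Roo := (MvPolynomial.map (σ := σ) D.Roo.subtype).range
  ι_mem0 x := by
    refine ⟨MvPolynomial.map (D.ι.codRestrict D.R0 D.ι_mem0) x, ?_⟩
    rw [MvPolynomial.map_map]
    rfl
  ι_memoo x := by
    refine ⟨MvPolynomial.map (D.ι.codRestrict D.Roo D.ι_memoo) x, ?_⟩
    rw [MvPolynomial.map_map]
    rfl
  a i := C (D.a i)
  dec r := by
    induction r using MvPolynomial.induction_on' with
    | monomial m r =>
      obtain ⟨b0, hb0, boo, hboo, s, hr⟩ := D.dec r
      refine ⟨monomial m b0, ⟨monomial m ⟨b0, hb0⟩, by simp⟩, monomial m boo,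
        ⟨monomial m ⟨boo, hboo⟩, by simp⟩, fun i => monomial m (s i), ?_⟩
      rw [hr, map_add, map_add, map_sum]
      congr 1
      refine Finset.sum_congr rfl fun i _ => ?_
      rw [MvPolynomial.map_monomial, C_apply, monomial_mul, add_zero]
    | add p q hp hq =>
      obtain ⟨b0, hb0, boo, hboo, s, hp⟩ := hp
      obtain ⟨d0, hd0, doo, hdoo, s', hq⟩ := hq
      refine ⟨b0 + d0, Subring.add_mem _ hb0 hd0, boo + doo, Subring.add_mem _ hboo hdoo,
        s + s', ?_⟩
      rw [hp, hq]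
      simp only [Pi.add_apply, map_add, add_mul, Finset.sum_add_distrib]
      ring

@[simp] theorem poly_ι (x : MvPolynomial σ A) : (D.poly σ).ι x = MvPolynomial.map D.ι x := rfl

@[simp] theorem poly_a (i : Fin g) : (D.poly σ).a i = C (D.a i) := rfl

theorem mem_poly_R0 {f : MvPolynomial σ R} :
    f ∈ (D.poly σ).R0 ↔ ∃ p : MvPolynomial σ D.R0, MvPolynomial.map D.R0.subtype p = f := Iff.rfl

theorem mem_poly_Roo {f : MvPolynomial σ R} :
    f ∈ (D.poly σ).Roo ↔ ∃ p : MvPolynomial σ D.Roo, MvPolynomial.map D.Roo.subtype p = f :=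
  Iff.rfl

variable {σ}

/-- Evaluation of a polynomial with coefficients in a subring at points of a subring. -/
theorem eval₂_mem_of_map_subtype {R' : Type*} [CommRing R'] (S : Subring R) (S' : Subring R')
    (f : R →+* R') (hf : ∀ x ∈ S, f x ∈ S') (v : σ → R') (hv : ∀ j, v j ∈ S')
    (p : MvPolynomial σ S) : eval₂ f v (MvPolynomial.map S.subtype p) ∈ S' := by
  induction p using MvPolynomial.induction_on with
  | C x =>
    rw [MvPolynomial.map_C, eval₂_C]
    exact hf _ x.2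
  | add p q hp hq =>
    rw [map_add, eval₂_add]
    exact S'.add_mem hp hq
  | mul_X p j hp =>
    rw [map_mul, MvPolynomial.map_X, eval₂_mul, eval₂_X]
    exact S'.mul_mem hp (hv j)

/-- Specialisation of the polynomial extension along a morphism `D → D'` at a point `v`. -/
noncomputable def polyEval {A' R' : Type*} [CommRing A'] [CommRing R'] {D' : CechDec A' R' g}
    (φ : CechHom D D') (v : σ → A') : CechHom (D.poly σ) D' where
  fA := eval₂Hom φ.fA v
  fR := eval₂Hom φ.fR (fun j => D'.ι (v j))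
  comm x := by
    simp only [poly_ι, coe_eval₂Hom, eval₂_map]
    rw [eval₂_comp_left D'.ι φ.fA v x]
    congr 1
    · exact RingHom.ext φ.comm
  map0 x hx := by
    obtain ⟨p, rfl⟩ := hx
    exact eval₂_mem_of_map_subtype D.R0 D'.R0 φ.fR φ.map0 _ (fun j => D'.ι_mem0 _) p
  mapoo x hx := by
    obtain ⟨p, rfl⟩ := hx
    exact eval₂_mem_of_map_subtype D.Roo D'.Roo φ.fR φ.mapoo _ (fun j => D'.ι_memoo _) p
  map_a i := by
    simp only [poly_a, coe_eval₂Hom, eval₂_C, φ.map_a]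

/-- `F` is a universal addition law modulo `c` for coordinates divisible by `π`. -/
def IsUniversalAdd (π c : A) (F : Fin g → MvPolynomial (Fin g ⊕ Fin g) A) : Prop :=
  (D.poly (Fin g ⊕ Fin g)).Cob (C π) (C c)
    ((1 + (D.poly (Fin g ⊕ Fin g)).ι (C π) * (D.poly (Fin g ⊕ Fin g)).lin (fun i => X (Sum.inl i))) *
      (1 + (D.poly (Fin g ⊕ Fin g)).ι (C π) * (D.poly (Fin g ⊕ Fin g)).lin (fun i => X (Sum.inr i))))
    (1 + (D.poly (Fin g ⊕ Fin g)).ι (C π) * (D.poly (Fin g ⊕ Fin g)).lin F)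

/-- **Existence of the universal addition law** (formal group law of `Pic` modulo `c`). -/
theorem exists_isUniversalAdd {π c : A} {J : ℕ} (hJ : c ∣ π ^ J) :
    ∃ F : Fin g → MvPolynomial (Fin g ⊕ Fin g) A, D.IsUniversalAdd π c F := by
  set P := D.poly (Fin g ⊕ Fin g) with hP
  have hJ' : (C c : MvPolynomial (Fin g ⊕ Fin g) A) ∣ (C π) ^ J := by
    rw [← map_pow]
    exact map_dvd C hJ
  set L1 := P.lin (fun i => X (Sum.inl i)) with hL1
  set L2 := P.lin (fun i => X (Sum.inr i)) with hL2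
  obtain ⟨F, hF⟩ := P.exists_normalForm hJ' (L1 + L2 + P.ι (C π) * (L1 * L2))
  refine ⟨F, ?_⟩
  have : (1 + P.ι (C π) * L1) * (1 + P.ι (C π) * L2) =
      1 + P.ι (C π) * (L1 + L2 + P.ι (C π) * (L1 * L2)) := by ring
  unfold IsUniversalAdd
  rw [← hP, ← hL1, ← hL2, this]
  exact hF

/-- **Specialisation of the universal addition law**: for every morphism `D → D'` (e.g. the
inclusion of the inertia-fixed structure into the full one) and all coordinate vectors `t`, `t'`
over the constants of `D'`, the product of the two normal forms is in the class of the normal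
form with coordinates `F(t, t')`. -/
theorem IsUniversalAdd.spec {π c : A} {F : Fin g → MvPolynomial (Fin g ⊕ Fin g) A}
    (hF : D.IsUniversalAdd π c F) {A' R' : Type*} [CommRing A'] [CommRing R']
    {D' : CechDec A' R' g} (φ : CechHom D D') (t t' : Fin g → A') :
    D'.Cob (φ.fA π) (φ.fA c)
      ((1 + D'.ι (φ.fA π) * D'.lin t) * (1 + D'.ι (φ.fA π) * D'.lin t'))
      (1 + D'.ι (φ.fA π) * D'.lin (fun i => eval₂ φ.fA (Sum.elim t t') (F i))) := by
  have h := (D.polyEval φ (Sum.elim t t')).map_cob hF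
  have hC : ∀ x : A, (D.polyEval φ (Sum.elim t t')).fA (C x) = φ.fA x := fun x => by
    simp [polyEval]
  simp only [map_mul, map_add, map_one, CechHom.comm, CechHom.map_lin, hC] at h
  have h1 : (fun i : Fin g => (D.polyEval φ (Sum.elim t t')).fA (X (Sum.inl i))) = t := by
    funext i; simp [polyEval]
  have h2 : (fun i : Fin g => (D.polyEval φ (Sum.elim t t')).fA (X (Sum.inr i))) = t' := by
    funext i; simp [polyEval]
  rw [h1, h2] at h
  exact h

end CechDec

/-! ### The addition law on coordinates -/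

namespace CechSat

variable {A R A' R' : Type*} [CommRing A] [CommRing R] [CommRing A'] [CommRing R'] {g : ℕ}
  {D : CechDec A R g} {D' : CechDec A' R' g}

/-- **Addition law on coordinates.**  `D` is the structure over the small ring of constants
(inertia-fixed), `D'` the full one, `φ : D → D'`; `F` a universal addition law of `D` modulo `c`.
If `u`, `v`, `w` have normal-form coordinates `t`, `t'`, `t''` and `u v` is in the class of `w`, then
`π t'' = π F(t, t')` modulo `c`. -/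
theorem coord_add [IsDomain A'] (hD' : CechSat D') (htot : ∀ x y : A', x ∣ y ∨ y ∣ x)
    (φ : CechHom D D') {π c : A} (hc : φ.fA c ≠ 0) {J : ℕ} (hJ : c ∣ π ^ J)
    {F : Fin g → MvPolynomial (Fin g ⊕ Fin g) A} (hF : D.IsUniversalAdd π c F)
    {u v w : R'} {t t' t'' : Fin g → A'}
    (hu : D'.Cob (φ.fA π) (φ.fA c) u (1 + D'.ι (φ.fA π) * D'.lin t))
    (hv : D'.Cob (φ.fA π) (φ.fA c) v (1 + D'.ι (φ.fA π) * D'.lin t'))
    (hw : D'.Cob (φ.fA π) (φ.fA c) w (1 + D'.ι (φ.fA π) * D'.lin t''))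
    (huvw : D'.Cob (φ.fA π) (φ.fA c) (u * v) w) (i : Fin g) :
    φ.fA c ∣ φ.fA π * (t'' i - MvPolynomial.eval₂ φ.fA (Sum.elim t t') (F i)) := by
  have hJ' : φ.fA c ∣ φ.fA π ^ J := by
    rw [← map_pow]
    exact map_dvd φ.fA hJ
  have h1 := (hF.spec D φ t t').symm D' hJ'
  have h2 := (CechDec.Cob.mul D' hu hv).symm D' hJ'
  have h3 := ((h1.trans D' h2).trans D' huvw).trans D' hw
  exact hD'.normalForm_unique htot hc hJ' h3 i

end CechSat

end Fermat.Agent.S33x.Cech.NormalFormB
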