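import Fermat.Agent.S34x.C0two.Small

/-!
# P-S33 Layer 2 (helper61, independent second): abstract Čech normal form over a rank-one valuation ring

`A` a valuation ring (rank one, `Base A S`), `S = (O, I)` a small ring of the field `F`.
An (untwisted) two-chart lattice system `Λ a b` (think `L(a C₀ + b C∞) ∩ O`) with elements
`e₁ … e_g ∈ Λ n₁ n₁` which form a basis of the truncated Čech `H¹`:

* `decomp` : `Λ a b = Λ a 0 + Λ 0 b + ∑ A eᵢ` for `a, b ≥ n₁`;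
* `direct` : the sum is direct up to the constants (`Λ a 0 ∩ Λ 0 b = A`).

Then every cocycle `c ≡ 1` has, modulo any `π ≠ 0`, a normal form
`c (1 + β₀) (1 + β₁) = 1 + ∑ tᵢ eᵢ + π r` with `β₀ ∈ Λ a 0`, `β₁ ∈ Λ 0 b` small and `tᵢ ∈ 𝔪`
(`exists_normalForm`), and `t` is unique modulo `π` (`normalForm_unique`).
-/

set_option autoImplicit false
set_option linter.unusedSectionVars false

namespace Fermat.Agent.S33x.Cech.NormalFormV

open IsLocalRing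
open Fermat.Agent.S34x.C0two

variable {A : Type*} [CommRing A] [IsDomain A] [ValuationRing A]
variable {F : Type*} [Field F] [Algebra A F]

/-- An untwisted two-chart lattice system with a basis `e` of the truncated Čech `H¹`. -/
structure CechSystem (A : Type*) [CommRing A] [IsDomain A] [ValuationRing A]
    {F : Type*} [Field F] [Algebra A F] (S : SmallRing F) (g : ℕ) where
  Λ : ℕ → ℕ → Submodule A F
  n₁ : ℕ
  e : Fin g → F
  Λ_le : ∀ a b x, x ∈ Λ a b → x ∈ S.O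
  Λ_mono : ∀ {a b a' b' : ℕ}, a ≤ a' → b ≤ b' → Λ a b ≤ Λ a' b'
  one_mem : (1 : F) ∈ Λ 0 0
  Λ_mul : ∀ {a b a' b' : ℕ} {x y : F}, x ∈ Λ a b → y ∈ Λ a' b' → x * y ∈ Λ (a + a') (b + b')
  Λ_sat : ∀ {a b : ℕ} {c : A} {x : F}, c ≠ 0 → x ∈ S.O → c • x ∈ Λ a b → x ∈ Λ a b
  e_mem : ∀ i, e i ∈ Λ n₁ n₁
  decomp : ∀ {a b : ℕ}, n₁ ≤ a → n₁ ≤ b → ∀ x ∈ Λ a b,
    ∃ y ∈ Λ a 0, ∃ z ∈ Λ 0 b, ∃ s : Fin g → A, x = y + z + ∑ i, s i • e i
  direct : ∀ {a b : ℕ} {y z : F} {s : Fin g → A}, y ∈ Λ a 0 → z ∈ Λ 0 b →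
    y + z + ∑ i, s i • e i = 0 → (∀ i, s i = 0) ∧ ∃ c : A, y = c • (1 : F)

namespace CechSystem

variable {S : SmallRing F} {g : ℕ} (C : CechSystem A S g)

/-- the linear combination `∑ tᵢ eᵢ` -/
def lin (t : Fin g → A) : F := ∑ i, t i • C.e i

theorem lin_mem (t : Fin g → A) : C.lin t ∈ C.Λ C.n₁ C.n₁ :=
  Submodule.sum_mem _ fun i _ => Submodule.smul_mem _ _ (C.e_mem i)

theorem lin_add (t t' : Fin g → A) : C.lin (t + t') = C.lin t + C.lin t' := by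
  simp only [lin, Pi.add_apply, add_smul, Finset.sum_add_distrib]

theorem lin_sub (t t' : Fin g → A) : C.lin (t - t') = C.lin t - C.lin t' := by
  simp only [lin, Pi.sub_apply, sub_smul, Finset.sum_sub_distrib]

theorem lin_smul (c : A) (t : Fin g → A) : C.lin (c • t) = c • C.lin t := by
  simp only [lin, Pi.smul_apply, smul_eq_mul, mul_smul, Finset.smul_sum]

theorem one_mem' (a b : ℕ) : (1 : F) ∈ C.Λ a b :=
  C.Λ_mono (Nat.zero_le a) (Nat.zero_le b) C.one_mem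

theorem lin_zero : C.lin (0 : Fin g → A) = 0 := by
  simp [lin]

/-! ### Existence of the normal form -/

/-- `c` has a normal form up to `ϖ ^ k` (all data divided by `ϖ`). -/
def Approx (ϖ : A) (c : F) (k : ℕ) : Prop :=
  ∃ (t : Fin g → A) (a b : ℕ) (β₀ β₁ ρ : F), β₀ ∈ C.Λ a 0 ∧ β₁ ∈ C.Λ 0 b ∧ ρ ∈ C.Λ a b ∧
    c * (1 + ϖ • β₀) * (1 + ϖ • β₁) = 1 + ϖ • C.lin t + ϖ ^ k • ρ

theorem Approx.succ {ϖ : A} {c : F} {j : ℕ} (h : C.Approx ϖ c (j + 1)) :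
    C.Approx ϖ c (j + 2) := by
  obtain ⟨t, a, b, β₀, β₁, ρ, hβ₀, hβ₁, hρ, heq⟩ := h
  -- enlarge the indices
  set a' := a + C.n₁ with ha'
  set b' := b + C.n₁ with hb'
  have haa' : a ≤ a' := Nat.le_add_right _ _
  have hbb' : b ≤ b' := Nat.le_add_right _ _
  have hna' : C.n₁ ≤ a' := Nat.le_add_left _ _
  have hnb' : C.n₁ ≤ b' := Nat.le_add_left _ _
  obtain ⟨y, hy, z, hz, s, hdec⟩ := C.decomp hna' hnb' ρ (C.Λ_mono haa' hbb' hρ)
  set w : F := algebraMap A F ϖ with hw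
  set T : F := C.lin t with hT
  set L : F := C.lin s with hL
  -- memberships in the big lattice
  set a₂ := 2 * a' + C.n₁ with ha₂
  set b₂ := 2 * b' + C.n₁ with hb₂
  have hTΛ : T ∈ C.Λ C.n₁ C.n₁ := C.lin_mem t
  have hyΛ : y ∈ C.Λ a' b' := C.Λ_mono le_rfl (Nat.zero_le _) hy
  have hzΛ : z ∈ C.Λ a' b' := C.Λ_mono (Nat.zero_le _) le_rfl hz
  have hρΛ : ρ ∈ C.Λ a' b' := C.Λ_mono haa' hbb' hρ
  have hyzΛ : y + z ∈ C.Λ a' b' := add_mem hyΛ hzΛ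
  have hβ₀' : β₀ - ϖ ^ j • y - ϖ ^ (j + 1) • (y * β₀) ∈ C.Λ a₂ 0 := by
    refine sub_mem (sub_mem (C.Λ_mono (by omega) le_rfl hβ₀)
      (Submodule.smul_mem _ _ (C.Λ_mono (by omega) le_rfl hy))) (Submodule.smul_mem _ _ ?_)
    exact C.Λ_mono (by omega) (by omega) (C.Λ_mul hy hβ₀)
  have hβ₁' : β₁ - ϖ ^ j • z - ϖ ^ (j + 1) • (z * β₁) ∈ C.Λ 0 b₂ := by
    refine sub_mem (sub_mem (C.Λ_mono le_rfl (by omega) hβ₁)
      (Submodule.smul_mem _ _ (C.Λ_mono le_rfl (by omega) hz))) (Submodule.smul_mem _ _ ?_)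
    exact C.Λ_mono (by omega) (by omega) (C.Λ_mul hz hβ₁)
  have hone : (1 : F) + ϖ • T + ϖ ^ (j + 1) • ρ ∈ C.Λ a' b' :=
    add_mem (add_mem (C.one_mem' _ _) (Submodule.smul_mem _ _ (C.Λ_mono hna' hnb' hTΛ)))
      (Submodule.smul_mem _ _ hρΛ)
  have hρ' : -(T * (y + z)) - ϖ ^ j • (ρ * (y + z)) +
      ϖ ^ j • (y * z * (1 + ϖ • T + ϖ ^ (j + 1) • ρ)) ∈ C.Λ a₂ b₂ := by
    refine add_mem (sub_mem (neg_mem ?_) (Submodule.smul_mem _ _ ?_)) (Submodule.smul_mem _ _ ?_)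
    · exact C.Λ_mono (by omega) (by omega) (C.Λ_mul hTΛ hyzΛ)
    · exact C.Λ_mono (by omega) (by omega) (C.Λ_mul hρΛ hyzΛ)
    · have h1 : y * z ∈ C.Λ (a' + 0) (0 + b') := C.Λ_mul hy hz
      exact C.Λ_mono (by omega) (by omega) (C.Λ_mul h1 hone)
  refine ⟨t + ϖ ^ j • s, a₂, b₂, β₀ - ϖ ^ j • y - ϖ ^ (j + 1) • (y * β₀),
    β₁ - ϖ ^ j • z - ϖ ^ (j + 1) • (z * β₁),
    -(T * (y + z)) - ϖ ^ j • (ρ * (y + z)) + ϖ ^ j • (y * z * (1 + ϖ • T + ϖ ^ (j + 1) • ρ)),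
    hβ₀', hβ₁', hρ', ?_⟩
  rw [C.lin_add, C.lin_smul, ← hT, ← hL]
  simp only [Algebra.smul_def, map_pow] at heq ⊢
  have hdec' : ρ = y + z + L := hdec
  linear_combination ((1 - w ^ (j + 1) * y) * (1 - w ^ (j + 1) * z)) * heq +
    (w ^ (j + 1)) * hdec'

theorem Approx.of_le {ϖ : A} {c : F} {k : ℕ} (h : C.Approx ϖ c 1) (hk : 1 ≤ k) :
    C.Approx ϖ c k := by
  induction k, hk using Nat.le_induction with
  | base => exact h
  | succ k hk ih =>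
    obtain ⟨j, rfl⟩ : ∃ j, k = j + 1 := ⟨k - 1, by omega⟩
    exact ih.succ

/-- **Existence of the Čech normal form** modulo any `π ≠ 0`. -/
theorem exists_normalForm (hB : Base A S) [Module.IsTorsionFree A F] {c : F} {a b : ℕ}
    (hc : c ∈ C.Λ a b) (hc1 : Cong S c 1) {π : A} (hπ : π ≠ 0) :
    ∃ (t : Fin g → A) (a' b' : ℕ) (β₀ β₁ r : F), (∀ i, t i ∈ maximalIdeal A) ∧
      β₀ ∈ C.Λ a' 0 ∧ Small S β₀ ∧ β₁ ∈ C.Λ 0 b' ∧ Small S β₁ ∧ r ∈ C.Λ a' b' ∧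
      c * (1 + β₀) * (1 + β₁) = 1 + C.lin t + π • r := by
  obtain ⟨ϖ, hϖ, γ, hγ, hcγ⟩ := hB.unram _ hc1
  by_cases h0 : ϖ = 0
  · refine ⟨0, 0, 0, 0, 0, 0, fun i => (maximalIdeal A).zero_mem, zero_mem _, small_zero,
      zero_mem _, small_zero, zero_mem _, ?_⟩
    rw [h0, zero_smul, sub_eq_zero] at hcγ
    rw [hcγ, C.lin_zero]
    simp
  · have hγΛ : γ ∈ C.Λ a b := by
      refine C.Λ_sat h0 hγ ?_
      rw [← hcγ]
      exact sub_mem hc (C.one_mem' a b)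
    have hA1 : C.Approx ϖ c 1 := by
      refine ⟨0, a, b, 0, 0, γ, zero_mem _, zero_mem _, hγΛ, ?_⟩
      rw [C.lin_zero, pow_one, ← hcγ]
      simp
    obtain ⟨J, q, hq⟩ := hB.rank_one ϖ hϖ π hπ
    obtain ⟨t, a', b', β₀, β₁, ρ, hβ₀, hβ₁, hρ, heq⟩ := Approx.of_le C hA1 (Nat.le_add_left 1 J)
    refine ⟨ϖ • t, a', b', ϖ • β₀, ϖ • β₁, (q * ϖ) • ρ, ?_, Submodule.smul_mem _ _ hβ₀,
      hB.small_smul hϖ (C.Λ_le _ _ _ hβ₀), Submodule.smul_mem _ _ hβ₁,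
      hB.small_smul hϖ (C.Λ_le _ _ _ hβ₁), Submodule.smul_mem _ _ hρ, ?_⟩
    · intro i
      simp only [Pi.smul_apply, smul_eq_mul]
      exact Ideal.mul_mem_right _ _ hϖ
    · rw [heq, C.lin_smul, smul_smul, ← mul_assoc, ← hq, pow_succ]

/-! ### Independence modulo `ν` -/

/-- If `y + z + ∑ sᵢ eᵢ` is divisible by `ν`, then `s` is divisible by `ν`, and `y`, `z` are
divisible by `ν` up to opposite constants. -/
theorem indep_mod [Module.IsTorsionFree A F] {a b : ℕ} {y z lam : F} {s : Fin g → A} {ν : A}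
    (hν : ν ≠ 0) (hy : y ∈ C.Λ a 0) (hz : z ∈ C.Λ 0 b) (hlam : lam ∈ S.O)
    (h : y + z + C.lin s = ν • lam) :
    ∃ (s' : Fin g → A) (a' b' : ℕ) (y' z' : F) (c : A), y' ∈ C.Λ a' 0 ∧ z' ∈ C.Λ 0 b' ∧
      a ≤ a' ∧ b ≤ b' ∧
      s = ν • s' ∧ y = c • (1 : F) + ν • y' ∧ z = -(c • (1 : F)) + ν • z' := by
  set a' := a + C.n₁ with ha'
  set b' := b + C.n₁ with hb'
  have haa' : a ≤ a' := Nat.le_add_right _ _
  have hbb' : b ≤ b' := Nat.le_add_right _ _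
  have hna' : C.n₁ ≤ a' := Nat.le_add_left _ _
  have hnb' : C.n₁ ≤ b' := Nat.le_add_left _ _
  have hyΛ : y ∈ C.Λ a' 0 := C.Λ_mono haa' le_rfl hy
  have hzΛ : z ∈ C.Λ 0 b' := C.Λ_mono le_rfl hbb' hz
  have hsum : y + z + C.lin s ∈ C.Λ a' b' :=
    add_mem (add_mem (C.Λ_mono le_rfl (Nat.zero_le _) hyΛ) (C.Λ_mono (Nat.zero_le _) le_rfl hzΛ))
      (C.Λ_mono hna' hnb' (C.lin_mem s))
  have hlamΛ : lam ∈ C.Λ a' b' := C.Λ_sat hν hlam (h ▸ hsum)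
  obtain ⟨y', hy', z', hz', s', hdec⟩ := C.decomp hna' hnb' lam hlamΛ
  have h0 : (y - ν • y') + (z - ν • z') + C.lin (s - ν • s') = 0 := by
    rw [C.lin_sub, C.lin_smul]
    have hdec' : lam = y' + z' + C.lin s' := hdec
    rw [hdec'] at h
    simp only [smul_add] at h
    linear_combination h
  obtain ⟨hs, c, hc⟩ := C.direct (sub_mem hyΛ (Submodule.smul_mem _ _ hy'))
    (sub_mem hzΛ (Submodule.smul_mem _ _ hz')) h0
  have hs' : s - ν • s' = 0 := funext hs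
  refine ⟨s', a', b', y', z', c, hy', hz', haa', hbb', sub_eq_zero.mp hs', ?_, ?_⟩
  · rw [← hc]; ring
  · rw [hs', C.lin_zero, hc] at h0
    linear_combination h0

end CechSystem

/-! ### A common divisor in the maximal ideal -/

/-- finitely many elements of the maximal ideal of a valuation ring have a common nonzero divisor
in the maximal ideal (dividing a given `ϖ₀`). -/
theorem exists_common_dvd {ι : Type*} (s : Finset ι) (f : ι → A)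
    (hf : ∀ i ∈ s, f i ∈ maximalIdeal A) {ϖ₀ : A} (hϖ₀ : ϖ₀ ∈ maximalIdeal A) (h0 : ϖ₀ ≠ 0) :
    ∃ ϖ ∈ maximalIdeal A, ϖ ≠ 0 ∧ ϖ ∣ ϖ₀ ∧ ∀ i ∈ s, ϖ ∣ f i := by
  classical
  induction s using Finset.induction_on with
  | empty => exact ⟨ϖ₀, hϖ₀, h0, dvd_rfl, by simp⟩
  | insert i s hi ih =>
    obtain ⟨ϖ, hϖ, hϖ0, hd, hall⟩ := ih fun j hj => hf j (Finset.mem_insert_of_mem hj)
    by_cases hfi : f i = 0
    · refine ⟨ϖ, hϖ, hϖ0, hd, fun j hj => ?_⟩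
      rcases Finset.mem_insert.mp hj with rfl | hj
      · rw [hfi]; exact dvd_zero _
      · exact hall j hj
    · rcases ValuationRing.dvd_total ϖ (f i) with h | h
      · refine ⟨ϖ, hϖ, hϖ0, hd, fun j hj => ?_⟩
        rcases Finset.mem_insert.mp hj with rfl | hj
        · exact h
        · exact hall j hj
      · refine ⟨f i, hf i (Finset.mem_insert_self _ _), hfi, h.trans hd, fun j hj => ?_⟩
        rcases Finset.mem_insert.mp hj with rfl | hj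
        · exact dvd_rfl
        · exact h.trans (hall j hj)

namespace CechSystem

variable {S : SmallRing F} {g : ℕ} (C : CechSystem A S g)

/-! ### Uniqueness of the normal form -/

/-- The inductive statement for uniqueness: the data are divisible by `ϖ ^ j`. -/
def UStep (ϖ π : A) (t t' : Fin g → A) (j : ℕ) : Prop :=
  ∃ (a b : ℕ) (β₀ β₁ r : F) (d : Fin g → A) (π' : A), β₀ ∈ C.Λ a 0 ∧ β₁ ∈ C.Λ 0 b ∧ r ∈ S.O ∧
    π = ϖ ^ j * π' ∧ t - t' = ϖ ^ j • d ∧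
    (1 + C.lin t) * (1 + ϖ ^ j • β₀) * (1 + ϖ ^ j • β₁) = 1 + C.lin t' + π • r

theorem algebraMap_ne_zero' [Module.IsTorsionFree A F] {ϖ : A} (h0 : ϖ ≠ 0) :
    algebraMap A F ϖ ≠ 0 := by
  intro h
  have h1 : ϖ • (1 : F) = ϖ • (0 : F) := by
    rw [Algebra.smul_def, mul_one, h, smul_zero]
  exact one_ne_zero (smul_right_injective F h0 h1)

/-- One step of the uniqueness induction. -/
theorem UStep.succ (hB : Base A S) [Module.IsTorsionFree A F] {ϖ π : A} (hϖ : ϖ ∈ maximalIdeal A)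
    (hϖ0 : ϖ ≠ 0) (hπ0 : π ≠ 0) {t t' t₀ : Fin g → A} (ht : t = ϖ • t₀) {k : ℕ}
    (h : C.UStep ϖ π t t' (k + 1)) :
    (∀ i, π ∣ t i - t' i) ∨ C.UStep ϖ π t t' (k + 2) := by
  obtain ⟨a, b, β₀, β₁, r, d, π', hβ₀, hβ₁, hr, hπ, hd, heq⟩ := h
  have hπ'0 : π' ≠ 0 := by
    rintro rfl
    exact hπ0 (by rw [hπ, mul_zero])
  set w : F := algebraMap A F ϖ with hw
  have hw0 : w ≠ 0 := algebraMap_ne_zero' hϖ0
  set T₀ : F := C.lin t₀ with hT₀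
  set D : F := C.lin d with hD
  have hTT' : C.lin t - C.lin t' = w ^ (k + 1) * D := by
    rw [← C.lin_sub, hd, C.lin_smul, Algebra.smul_def, map_pow]
  have hT : C.lin t = w * T₀ := by
    rw [ht, C.lin_smul, Algebra.smul_def]
  have hπF : algebraMap A F π = w ^ (k + 1) * algebraMap A F π' := by
    rw [hπ, map_mul, map_pow]
  have hβ₀O : β₀ ∈ S.O := C.Λ_le _ _ _ hβ₀
  have hβ₁O : β₁ ∈ S.O := C.Λ_le _ _ _ hβ₁
  have hT₀O : T₀ ∈ S.O := C.Λ_le _ _ _ (C.lin_mem t₀)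
  -- the divided equation
  have hE : D + β₀ + β₁ + w ^ (k + 1) * β₀ * β₁ +
      w * T₀ * (β₀ + β₁ + w ^ (k + 1) * β₀ * β₁) - algebraMap A F π' * r = 0 := by
    have h1 : w ^ (k + 1) * (D + β₀ + β₁ + w ^ (k + 1) * β₀ * β₁ +
        w * T₀ * (β₀ + β₁ + w ^ (k + 1) * β₀ * β₁) - algebraMap A F π' * r) = 0 := by
      simp only [Algebra.smul_def, map_pow] at heq
      rw [← hw] at heq
      linear_combination heq - hTT' - (w ^ (k + 1) * (β₀ + β₁ + w ^ (k + 1) * β₀ * β₁)) * hT +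
        r * hπF
    rcases mul_eq_zero.mp h1 with h2 | h2
    · exact absurd h2 (pow_ne_zero _ hw0)
    · exact h2
  have hX : β₀ + β₁ + ϖ ^ (k + 1) • (β₀ * β₁) ∈ S.O :=
    S.O.add_mem (S.O.add_mem hβ₀O hβ₁O) (hB.smul_mem_O _ (S.O.mul_mem hβ₀O hβ₁O))
  rcases ValuationRing.dvd_total π' ϖ with ⟨q, hq⟩ | ⟨π'', hπ''⟩
  · -- `π' ∣ ϖ`: conclude
    left
    have hlam : r - (q * ϖ ^ k) • (β₀ * β₁) -
        q • (T₀ * (β₀ + β₁ + ϖ ^ (k + 1) • (β₀ * β₁))) ∈ S.O :=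
      S.O.sub_mem (S.O.sub_mem hr (hB.smul_mem_O _ (S.O.mul_mem hβ₀O hβ₁O)))
        (hB.smul_mem_O _ (S.O.mul_mem hT₀O hX))
    have hsum : β₀ + β₁ + C.lin d = π' • (r - (q * ϖ ^ k) • (β₀ * β₁) -
        q • (T₀ * (β₀ + β₁ + ϖ ^ (k + 1) • (β₀ * β₁)))) := by
      have hwq : w = algebraMap A F π' * algebraMap A F q := by
        rw [hw, hq, map_mul]
      simp only [Algebra.smul_def, map_pow, map_mul]
      rw [← hw, ← hD]
      have hw' : algebraMap A F π' * algebraMap A F q = w := hwq.symm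
      linear_combination hE + (w ^ k * β₀ * β₁ +
        T₀ * (β₀ + β₁ + w ^ (k + 1) * β₀ * β₁)) * hw'
    obtain ⟨s', -, -, -, -, -, -, -, -, -, hs, -, -⟩ := C.indep_mod hπ'0 hβ₀ hβ₁ hlam hsum
    intro i
    have h1 : t i - t' i = (t - t') i := rfl
    rw [h1, hd, hs, hπ]
    simp only [Pi.smul_apply, smul_eq_mul]
    exact ⟨s' i, by ring⟩
  · -- `ϖ ∣ π'`: one more step
    right
    have hlam : π'' • r - ϖ ^ k • (β₀ * β₁) -
        T₀ * (β₀ + β₁ + ϖ ^ (k + 1) • (β₀ * β₁)) ∈ S.O :=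
      S.O.sub_mem (S.O.sub_mem (hB.smul_mem_O _ hr) (hB.smul_mem_O _ (S.O.mul_mem hβ₀O hβ₁O)))
        (S.O.mul_mem hT₀O hX)
    have hsum : β₀ + β₁ + C.lin d = ϖ • (π'' • r - ϖ ^ k • (β₀ * β₁) -
        T₀ * (β₀ + β₁ + ϖ ^ (k + 1) • (β₀ * β₁))) := by
      have hp : algebraMap A F π' = w * algebraMap A F π'' := by
        rw [hπ'', map_mul]
      simp only [Algebra.smul_def, map_pow]
      rw [← hw, ← hD]
      linear_combination hE + r * hp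
    obtain ⟨s', a', b', y', z', c, hy', hz', -, -, hs, hy, hz⟩ :=
      C.indep_mod hϖ0 hβ₀ hβ₁ hlam hsum
    -- the unit `υ = 1 + ϖ ^ (k+1) c`
    have hυ : IsUnit (1 + ϖ ^ (k + 1) * c) := by
      have hm : ϖ ^ (k + 1) * c ∈ maximalIdeal A :=
        Ideal.mul_mem_right _ _ (Ideal.pow_mem_of_mem _ hϖ _ (Nat.succ_pos k))
      have h1 : ¬ IsUnit (ϖ ^ (k + 1) * c) := (IsLocalRing.mem_maximalIdeal _).mp hm
      rcases IsLocalRing.isUnit_or_isUnit_of_add_one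
        (a := -(ϖ ^ (k + 1) * c)) (b := 1 + ϖ ^ (k + 1) * c) (by ring) with h2 | h2
      · exact absurd (by simpa using h2) h1
      · exact h2
    obtain ⟨υi, hυi⟩ := hυ.exists_right_inv
    set cF : F := algebraMap A F c with hcF
    set uiF : F := algebraMap A F υi with huiF
    have huu : (1 + w ^ (k + 1) * cF) * uiF = 1 := by
      have h1 := congrArg (algebraMap A F) hυi
      rw [map_mul, map_add, map_one, map_mul, map_pow] at h1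
      exact h1
    refine ⟨a', b', υi • y', (1 + ϖ ^ (k + 1) * c) • z' - (ϖ ^ k * c ^ 2) • (1 : F), r, s', π'',
      Submodule.smul_mem _ _ hy', sub_mem (Submodule.smul_mem _ _ hz')
        (Submodule.smul_mem _ _ (C.one_mem' _ _)), hr, ?_, ?_, ?_⟩
    · rw [hπ, hπ'']; ring
    · rw [hd, hs, smul_smul, pow_succ ϖ (k + 1)]
    · rw [← heq, hy, hz]
      simp only [Algebra.smul_def, map_pow, map_mul, map_add, map_one, mul_one]
      rw [← hw, ← hcF, ← huiF]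
      linear_combination ((1 + C.lin t) * (1 - w ^ (k + 1) * cF + w ^ (k + 2) * z') *
        w ^ (k + 2) * y') * huu

theorem UStep.dvd {ϖ π : A} {t t' : Fin g → A} {j : ℕ} (h : C.UStep ϖ π t t' j) : ϖ ^ j ∣ π := by
  obtain ⟨-, -, -, -, -, -, π', -, -, -, hπ, -, -⟩ := h
  exact ⟨π', hπ⟩

/-- **Uniqueness of the Čech normal form** modulo `π`. -/
theorem normalForm_unique (hB : Base A S) [Module.IsTorsionFree A F] {π : A} (hπ0 : π ≠ 0)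
    {t t' : Fin g → A} (ht : ∀ i, t i ∈ maximalIdeal A) {a b : ℕ} {β₀ β₁ r : F}
    (hβ₀ : β₀ ∈ C.Λ a 0) (hs₀ : Small S β₀) (hβ₁ : β₁ ∈ C.Λ 0 b) (hs₁ : Small S β₁)
    (hr : r ∈ S.O)
    (heq : (1 + C.lin t) * (1 + β₀) * (1 + β₁) = 1 + C.lin t' + π • r) :
    ∀ i, π ∣ t i - t' i := by
  classical
  -- a common divisor `ϖ`
  obtain ⟨ϖs, hϖs, hϖs0⟩ := hB.exists_ne_zero
  obtain ⟨ϖ₀, hϖ₀, y₀, hy₀, hβy₀⟩ := hB.unram _ hs₀
  obtain ⟨ϖ₁, hϖ₁, y₁, hy₁, hβy₁⟩ := hB.unram _ hs₁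
  obtain ⟨ϖa, hϖa, hϖa0, -, hta⟩ :=
    exists_common_dvd (Finset.univ : Finset (Fin g)) t (fun i _ => ht i) hϖs hϖs0
  obtain ⟨ϖ, hϖ, hϖ0, hϖϖa, hall⟩ :=
    exists_common_dvd (Finset.univ : Finset Bool) (fun x => if x then ϖ₀ else ϖ₁)
      (fun x _ => by by_cases hx : x = true <;> simp [hx, hϖ₀, hϖ₁]) hϖa hϖa0
  have hd₀ : ϖ ∣ ϖ₀ := by simpa using hall true (Finset.mem_univ _)
  have hd₁ : ϖ ∣ ϖ₁ := by simpa using hall false (Finset.mem_univ _)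
  have htd : ∀ i, ϖ ∣ t i := fun i => hϖϖa.trans (hta i (Finset.mem_univ _))
  choose t₀ ht₀ using htd
  have ht' : t = ϖ • t₀ := by
    funext i
    simp only [Pi.smul_apply, smul_eq_mul]
    exact ht₀ i
  obtain ⟨q₀, hq₀⟩ := hd₀
  obtain ⟨q₁, hq₁⟩ := hd₁
  have hb₀ : β₀ = ϖ • (q₀ • y₀) := by rw [hβy₀, hq₀, mul_smul]
  have hb₁ : β₁ = ϖ • (q₁ • y₁) := by rw [hβy₁, hq₁, mul_smul]
  set γ₀ : F := q₀ • y₀ with hγ₀
  set γ₁ : F := q₁ • y₁ with hγ₁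
  have hγ₀O : γ₀ ∈ S.O := hB.smul_mem_O _ hy₀
  have hγ₁O : γ₁ ∈ S.O := hB.smul_mem_O _ hy₁
  have hγ₀Λ : γ₀ ∈ C.Λ a 0 := C.Λ_sat hϖ0 hγ₀O (hb₀ ▸ hβ₀)
  have hγ₁Λ : γ₁ ∈ C.Λ 0 b := C.Λ_sat hϖ0 hγ₁O (hb₁ ▸ hβ₁)
  set w : F := algebraMap A F ϖ with hw
  set T₀ : F := C.lin t₀ with hT₀
  have hT : C.lin t = w * T₀ := by rw [ht', C.lin_smul, Algebra.smul_def]
  have hT₀O : T₀ ∈ S.O := C.Λ_le _ _ _ (C.lin_mem t₀)
  have hX : (1 + ϖ • T₀) * (γ₀ + γ₁ + ϖ • (γ₀ * γ₁)) ∈ S.O :=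
    S.O.mul_mem (S.O.add_mem S.O.one_mem (hB.smul_mem_O _ hT₀O))
      (S.O.add_mem (S.O.add_mem hγ₀O hγ₁O) (hB.smul_mem_O _ (S.O.mul_mem hγ₀O hγ₁O)))
  -- the basic identity
  have hbasic : C.lin (t - t') = algebraMap A F π * r -
      w * ((1 + w * T₀) * (γ₀ + γ₁ + w * (γ₀ * γ₁))) := by
    rw [C.lin_sub]
    rw [hb₀, hb₁] at heq
    simp only [Algebra.smul_def] at heq
    rw [← hw] at heq
    linear_combination heq - (w * (γ₀ + γ₁ + w * (γ₀ * γ₁))) * hT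
  have hzero : (0 : F) ∈ C.Λ 0 0 := zero_mem _
  -- the iteration
  obtain ⟨J, qJ, hqJ⟩ := hB.rank_one ϖ hϖ π hπ0
  have key : ∀ n k : ℕ, J ≤ k + n → C.UStep ϖ π t t' (k + 1) → ∀ i, π ∣ t i - t' i := by
    intro n
    induction n with
    | zero =>
      intro k hk h
      exfalso
      have h1 : ϖ ^ (k + 1) ∣ ϖ ^ k :=
        h.dvd.trans ((Dvd.intro _ hqJ.symm).trans (pow_dvd_pow ϖ (by omega)))
      obtain ⟨x, hx⟩ := h1
      have h2 : ϖ ^ k * 1 = ϖ ^ k * (ϖ * x) := by rw [mul_one, ← mul_assoc, ← pow_succ]; exact hx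
      have h3 : 1 = ϖ * x := mul_left_cancel₀ (pow_ne_zero k hϖ0) h2
      exact (IsLocalRing.mem_maximalIdeal _).mp hϖ (IsUnit.of_mul_eq_one _ h3.symm)
    | succ n ih =>
      intro k hk h
      rcases h.succ C hB hϖ hϖ0 hπ0 ht' with h' | h'
      · exact h'
      · exact ih (k + 1) (by omega) h'
  rcases ValuationRing.dvd_total π ϖ with ⟨q, hq⟩ | ⟨π', hπ'⟩
  · -- `π ∣ ϖ`
    have hlam : r - q • ((1 + ϖ • T₀) * (γ₀ + γ₁ + ϖ • (γ₀ * γ₁))) ∈ S.O :=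
      S.O.sub_mem hr (hB.smul_mem_O _ hX)
    have hsum : (0 : F) + 0 + C.lin (t - t') =
        π • (r - q • ((1 + ϖ • T₀) * (γ₀ + γ₁ + ϖ • (γ₀ * γ₁)))) := by
      have hwq : w = algebraMap A F π * algebraMap A F q := by rw [hw, hq, map_mul]
      rw [hbasic]
      simp only [Algebra.smul_def]
      rw [← hw]
      linear_combination (-((1 + w * T₀) * (γ₀ + γ₁ + w * (γ₀ * γ₁)))) * hwq
    obtain ⟨s', -, -, -, -, -, -, -, -, -, hs, -, -⟩ := C.indep_mod hπ0 hzero hzero hlam hsum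
    intro i
    have h1 : t i - t' i = (t - t') i := rfl
    rw [h1, hs]
    exact ⟨s' i, rfl⟩
  · -- `ϖ ∣ π`
    have hlam : π' • r - (1 + ϖ • T₀) * (γ₀ + γ₁ + ϖ • (γ₀ * γ₁)) ∈ S.O :=
      S.O.sub_mem (hB.smul_mem_O _ hr) hX
    have hsum : (0 : F) + 0 + C.lin (t - t') =
        ϖ • (π' • r - (1 + ϖ • T₀) * (γ₀ + γ₁ + ϖ • (γ₀ * γ₁))) := by
      have hp : algebraMap A F π = w * algebraMap A F π' := by rw [hπ', map_mul]
      rw [hbasic]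
      simp only [Algebra.smul_def]
      rw [← hw]
      linear_combination r * hp
    obtain ⟨d, -, -, -, -, -, -, -, -, -, hs, -, -⟩ := C.indep_mod hϖ0 hzero hzero hlam hsum
    refine key J 0 (by omega) ⟨a, b, γ₀, γ₁, r, d, π', hγ₀Λ, hγ₁Λ, hr, ?_, ?_, ?_⟩
    · rw [pow_one, hπ']
    · rw [pow_one, hs]
    · rw [pow_one, ← hb₀, ← hb₁]
      exact heq

end CechSystem

end Fermat.Agent.S33x.Cech.NormalFormV
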