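/-
P-S33, LAYER 2, instance leaf (I2) (helper58): `cyc_rel` for `CycB` AT LEVEL `M q`, exponent `q ^ n`,
for the concrete chart `C = chart H hA x hx Hx` of `S34x/Inst/TheoremBMq` -- every hypothesis of
`RelKmBInst.cycB_rel` discharged (`κ = Fk × Fk` is nontrivial, reduced, of characteristic `q`;
`k` algebraically closed has `q ^ n`-th roots; `L(0) = L`).

* `cycB_rel_Mq` : the architect literal (`RelKmB.RelLit`);
* `cycB_coordRel_Mq` : `Coord.Rel … 0` (helper8's assembly);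
* `cycB_nearOne_Mq`, `cycB_cobEq_Mq` : the `NearOne` literal of ruling v6 and `CoordB.CobEq … 0`
  (helper3's assembly);
* `cyc_rel_family_Mq` : for `Cyc := fun y => CycB C Dt (q ^ n) (φ y)`, next to `CycKm.cyc_family`.
-/
import Fermat.Agent.S33x.Cech.RelKmBNear

set_option autoImplicit false
set_option linter.unusedSectionVars false
set_option linter.style.haveILetI false

noncomputable section

namespace Fermat.Agent.S33x.Cech.RelKmBMq

open AlgebraicCurve Module IntermediateField IsLocalRing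
open Fermat.Agent.Gateway.C0 Fermat.Agent.S34x Fermat.Agent.S34x.C0two Fermat.Agent.S34x.Lattice2
open Fermat.Agent.S33x.H1.InstC1 Fermat.Agent.S33x.H1.InstC4
open Fermat.Agent.S33x.Cech.Datum Fermat.Agent.S33x.Cech.OfDirectSum
open Fermat.Agent.S33x.Cech.CycKm Fermat.Agent.S33x.Cech.RelKmB Fermat.Agent.S33x.Cech.RelKmBInst
open Fermat.Agent.S33x.Cech.RelKmBNear

open ModularCurve
open Fermat.Agent.Gateway.Hecke Fermat.Agent.Gateway.ESC
open Fermat.Agent.Gateway.Red Fermat.Agent.Gateway.GoodRed Fermat.Agent.Gateway.AuxLevel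
open Fermat.Agent.Gateway.GoodRed.ConjFamily Fermat.Agent.S24.Setup
open Fermat.Agent.S34x.TwoVal
open Fermat.Agent.S34x.Inst.L2 Fermat.Agent.S34x.Inst.IsL2Inst
open Fermat.Agent.S34x.Inst.RedSetupInst Fermat.Agent.S34x.Inst.ElementYRed
open Fermat.Agent.S34x.Inst.ElementYInt Fermat.Agent.S34x.Inst.ElementYInt9
open Fermat.Agent.S34x.Inst.Charts Fermat.Agent.S34x.Inst.TheoremBMq
open Fermat.Agent.S34x.Inst

attribute [-instance] IsScalarTower.of_algHom

variable {L : Type} [Field L] [Algebra ℚ L] [IsAlgClosed L] [Algebra.IsAlgebraic ℚ L]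
  {A : ValuationSubring L} {k : Type} [Field k] {π : A →+* k} [IsAlgClosed k]
variable {M q : ℕ} [NeZero M] [NeZero q] [Fact q.Prime] [CharP k q]
variable {hdeg : finrankAlong L (heckeAlphaBar L M q) = q + 1} {hq : q.Prime} {hqM : ¬ q ∣ M}
variable {hrk : ∀ x ∈ maximalIdeal A, ∀ c : A, c ≠ 0 → ∃ j : ℕ, c ∣ x ^ j}
  {hπ : Function.Surjective π}
variable (H : ResidueFacts A π M q hdeg hq hqM hrk hπ) (hA : A.LiesOverPrime q)
variable [PerfectRing k q]
  (x : LaurentSeries ℤ) (hx : coeffMap (Int.castRingHom L) x ∈ FBar L M)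
  (Hx : GoodLevelFactsT A π M q hπ hqM (tInt M x hx))

/-- the residue ring `Fk × Fk` has characteristic `q` -/
theorem charP_kappa : CharP (modularFunctionFieldFullC k M × modularFunctionFieldFullC k M) q :=
  haveI : CharP (modularFunctionFieldFullC k M) q :=
    charP_of_injective_algebraMap (algebraMap k (modularFunctionFieldFullC k M)).injective q
  Prod.charP _ _ q

omit [NeZero q] [PerfectRing k q] in
/-- `k` has `q ^ n`-th roots -/
theorem exists_root (n : ℕ) (y : k) : ∃ z : k, z ^ q ^ n = y :=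
  IsAlgClosed.exists_pow_nat_eq y (pow_pos (Fact.out : q.Prime).pos n)

include Hx in
/-- **`cyc_rel` at level `M q`**, exponent `q ^ n`, chart `C = chart H hA x hx Hx`
(architect literal). -/
theorem cycB_rel_Mq {Dt : Divisor L (FL L (M * q))}
    (hDt : ∀ v : Place L (FL L (M * q)), Dt v = v.ord (chart H hA x hx Hx).t) {n : ℕ}
    {ξ : Pic0 L (FL L (M * q))} {c c' : BxAlg (chart H hA x hx Hx)}
    (hc : c ∈ CycB (chart H hA x hx Hx) Dt (q ^ n) ξ)
    (hc' : c' ∈ CycB (chart H hA x hx Hx) Dt (q ^ n) ξ) :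
    RelLit (BxAlg (chart H hA x hx Hx)) (BooAlg (chart H hA x hx Hx))
      (BzeroAlg (chart H hA x hx Hx)) c c' := by
  haveI : CharZero L := algebraRat.charZero L
  haveI := finiteDimensional_chart_t H hA x hx Hx
  haveI := isSeparable_chart_t H hA x hx Hx
  haveI : CharP (modularFunctionFieldFullC k M × modularFunctionFieldFullC k M) q :=
    charP_kappa (k := k) (M := M) (q := q)
  exact cycB_rel (chart H hA x hx Hx) (transcendental_chart_t H hA x hx Hx) hDt q n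
    (exists_root n) hc hc'

include Hx in
/-- the same in the shape `Coord.Rel … 0` (`hcycrel` of `Coord.exists_charts_of_cyc`). -/
theorem cycB_coordRel_Mq {sm : Set A} (hsm : ∀ ϖ ∈ maximalIdeal A, ϖ ≠ 0 → ϖ ∈ sm)
    {Dt : Divisor L (FL L (M * q))}
    (hDt : ∀ v : Place L (FL L (M * q)), Dt v = v.ord (chart H hA x hx Hx).t) {n : ℕ}
    {ξ : Pic0 L (FL L (M * q))} {c c' : BxAlg (chart H hA x hx Hx)}
    (hc : c ∈ CycB (chart H hA x hx Hx) Dt (q ^ n) ξ)
    (hc' : c' ∈ CycB (chart H hA x hx Hx) Dt (q ^ n) ξ) :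
    Coord.Rel (ooIn (BxAlg (chart H hA x hx Hx)) (BooAlg (chart H hA x hx Hx)))
      (zeroIn (BxAlg (chart H hA x hx Hx)) (BzeroAlg (chart H hA x hx Hx))) sm 0 c c' :=
  haveI : CharZero L := algebraRat.charZero L
  (cycB_rel_Mq H hA x hx Hx hDt hc hc').coordRel hsm

include Hx in
/-- the `NearOne` literal of ruling v6. -/
theorem cycB_nearOne_Mq {Dt : Divisor L (FL L (M * q))}
    (hDt : ∀ v : Place L (FL L (M * q)), Dt v = v.ord (chart H hA x hx Hx).t) {n : ℕ}
    {ξ : Pic0 L (FL L (M * q))} {c c' : BxAlg (chart H hA x hx Hx)}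
    (hc : c ∈ CycB (chart H hA x hx Hx) Dt (q ^ n) ξ)
    (hc' : c' ∈ CycB (chart H hA x hx Hx) Dt (q ^ n) ξ) :
    ∃ (Eoo Goo : ooIn (BxAlg (chart H hA x hx Hx)) (BooAlg (chart H hA x hx Hx)))
      (E0 G0 : zeroIn (BxAlg (chart H hA x hx Hx)) (BzeroAlg (chart H hA x hx Hx))),
      CoordB.NearOne (ooIn (BxAlg (chart H hA x hx Hx)) (BooAlg (chart H hA x hx Hx))) Eoo ∧
      CoordB.NearOne (ooIn (BxAlg (chart H hA x hx Hx)) (BooAlg (chart H hA x hx Hx))) Goo ∧
      CoordB.NearOne (zeroIn (BxAlg (chart H hA x hx Hx)) (BzeroAlg (chart H hA x hx Hx))) E0 ∧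
      CoordB.NearOne (zeroIn (BxAlg (chart H hA x hx Hx)) (BzeroAlg (chart H hA x hx Hx))) G0 ∧
      c' * Eoo * E0 = c * Goo * G0 :=
  RelLit.nearOne (cycB_rel_Mq H hA x hx Hx hDt hc hc')

include Hx in
/-- the shape `CoordB.CobEq … 0`. -/
theorem cycB_cobEq_Mq {Dt : Divisor L (FL L (M * q))}
    (hDt : ∀ v : Place L (FL L (M * q)), Dt v = v.ord (chart H hA x hx Hx).t) {n : ℕ}
    {ξ : Pic0 L (FL L (M * q))} {c c' : BxAlg (chart H hA x hx Hx)}
    (hc : c ∈ CycB (chart H hA x hx Hx) Dt (q ^ n) ξ)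
    (hc' : c' ∈ CycB (chart H hA x hx Hx) Dt (q ^ n) ξ) :
    CoordB.CobEq (ooIn (BxAlg (chart H hA x hx Hx)) (BooAlg (chart H hA x hx Hx)))
      (zeroIn (BxAlg (chart H hA x hx Hx)) (BzeroAlg (chart H hA x hx Hx))) 0 c c' :=
  RelLit.cobEq (cycB_rel_Mq H hA x hx Hx hDt hc hc')

include Hx in
/-- **The literal `cyc_rel`** of `S33-IFACE-L2-B5` for the family
`Cyc := fun y => CycB C Dt (q ^ n) (φ y)`, `C = chart H hA x hx Hx` (the family of
`CycKm.cyc_family`), for any map `φ : X → Pic0`. -/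
theorem cyc_rel_family_Mq {Dt : Divisor L (FL L (M * q))}
    (hDt : ∀ v : Place L (FL L (M * q)), Dt v = v.ord (chart H hA x hx Hx).t) {n : ℕ}
    {X : Type*} (φ : X → Pic0 L (FL L (M * q))) :
    ∀ y, ∀ c ∈ CycB (chart H hA x hx Hx) Dt (q ^ n) (φ y),
      ∀ c' ∈ CycB (chart H hA x hx Hx) Dt (q ^ n) (φ y),
      ∃ ϖ ∈ maximalIdeal A, ϖ ≠ 0 ∧
        ∃ (Eoo Goo : ooIn (BxAlg (chart H hA x hx Hx)) (BooAlg (chart H hA x hx Hx)))
          (E0 G0 : zeroIn (BxAlg (chart H hA x hx Hx)) (BzeroAlg (chart H hA x hx Hx))),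
          algebraMap A (ooIn (BxAlg (chart H hA x hx Hx)) (BooAlg (chart H hA x hx Hx))) ϖ
            ∣ Eoo - 1 ∧
          algebraMap A (ooIn (BxAlg (chart H hA x hx Hx)) (BooAlg (chart H hA x hx Hx))) ϖ
            ∣ Goo - 1 ∧
          algebraMap A (zeroIn (BxAlg (chart H hA x hx Hx)) (BzeroAlg (chart H hA x hx Hx))) ϖ
            ∣ E0 - 1 ∧
          algebraMap A (zeroIn (BxAlg (chart H hA x hx Hx)) (BzeroAlg (chart H hA x hx Hx))) ϖ
            ∣ G0 - 1 ∧
          c' * Eoo * E0 = c * Goo * G0 :=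
  fun _ _ hc _ hc' => cycB_rel_Mq H hA x hx Hx hDt hc hc'

end Fermat.Agent.S33x.Cech.RelKmBMq
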