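/-
P-S33, LAYER 2, final instantiation, leaf (I2) `cyc_rel`, independent SECOND (helper3).

Two cocycles `c, c'` of the SAME class `ξ` (family `CycKm.Cyc` / `CycKm.CycB` of helper49) differ by
coboundaries which reduce to `1`:

  `c' * E∞ * E₀ = c * G∞ * G₀`,   `E∞, G∞ ∈ B∞`, `E₀, G₀ ∈ B₀`, all four `≡ 1` modulo `𝔪`.

Proof: the two normalised Kummer pairs `(w, D)`, `(w', D')` of exponent `p ^ e` have `D' - D` principal
(`Pic0.mk` of both is `ξ`); Kummer normalisation (`ChangeDatumB.exists_change`, helper58) gives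
`D' = D + div f` with `f` a unit of `S.O` of reduction `1`; then the field identity
`ChangeDatumB.cocycle_identity` with `E∞ = h∞ h∞'`, `E₀ = h₀ h₀'`, `G∞ = f h~∞ h∞'`,
`G₀ = h~₀' h₀ f⁻¹`; an element of `Lam(a,b)` of reduction `1` is `1 + ϖ y`, `ϖ ∈ 𝔪`, `y ∈ Lam(a,b)`
(`InstC2.exists_smul_of_res_eq`).

* `hconst_of_isAlgClosed` : over an algebraically closed constant field, a function without zeros and
  poles is constant;
* `exists_rel_field` : the relation inside `F`, with the four factors in the lattices `Lam C 0 b`,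
  `Lam C a 0`;
* `exists_oo_of_resOne`, `exists_zero_of_resOne` : elements of `Lam C 0 b` / `Lam C a 0` of reduction
  `1` as elements of the chart subalgebras `ooIn`, `zeroIn` of the TYPE `↥(BxAlg C)`, `≡ 1` modulo an
  element of `𝔪`;
* `cycB_rel_nearOne` : the typed relation with `CoordB.NearOne` factors (literal of the RULING v6);
* `cycB_rel` : the literal `cyc_rel` of the note 'S33-IFACE-L2-B5 (architect literal)' (ONE `π ≠ 0`);
* `cycB_cobEq` : `CoordB.CobEq 0 c' c`;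
* `cycB_rel_Mq` etc. : the concrete context (level `M q`, exponent `q ^ n`), no extra hypothesis.
-/
import Fermat.Agent.S33x.Cech.CycKm
import Fermat.Agent.S33x.Cech.ChangeDatumB
import Fermat.Agent.S33x.Cech.CoordB
import Fermat.Agent.S33x.Cech.OfDirectSum
import Fermat.Agent.S27x.Spec.Deuring.CurveFacts

set_option autoImplicit false
set_option linter.unusedSectionVars false
set_option linter.style.haveILetI false

noncomputable section

namespace Fermat.Agent.S33x.Cech.RelKmC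

open AlgebraicCurve Module IntermediateField IsLocalRing
open Fermat.Agent.Gateway.C0 Fermat.Agent.S34x Fermat.Agent.S34x.C0two Fermat.Agent.S34x.Lattice2
open Fermat.Agent.S33x.H1.InstC1 Fermat.Agent.S33x.H1.InstC2 Fermat.Agent.S33x.H1.InstC4
open Fermat.Agent.S33x.Cech.Datum Fermat.Agent.S33x.Cech.CycKm Fermat.Agent.S33x.KummerPn
open Fermat.Agent.S33x.Cech.OfDirectSum Fermat.Agent.S33x.Cech.CoordB

/-! ## Constants -/

section Const

variable {K : Type*} [Field K] {F : Type*} [Field F] [Algebra K F]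

/-- Over an algebraically closed constant field of characteristic zero, a function without zeros and
poles is constant. -/
theorem hconst_of_isAlgClosed [IsAlgClosed K] [CharZero K] {x : F} (hx : Transcendental K x)
    [FiniteDimensional K⟮x⟯ F] (g : F) (hg : g ≠ 0)
    (hord : ∀ v : Place K F, v.ord g = 0) : ∃ c : K, g = algebraMap K F c := by
  have hmem : g ∈ riemannRochSpace (0 : Divisor K F) := by
    intro v
    rw [adicValuation_eq_exp_neg_ord v hg, hord v]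
    simp
  obtain ⟨c, hc⟩ := Fermat.Agent.S27x.Spec.Deuring.mem_range_of_mem_rrs_zero hx hmem
  exact ⟨c, hc.symm⟩

end Const

/-! ## General part -/

section general

variable {K : Type*} [Field K] {A : ValuationSubring K} {F : Type*} [Field F] [Algebra K F]
  {S : SmallRing F} {k κ : Type*} [Field k] [CommRing κ] [Algebra k κ]
  {R : RedSetup2 A S k κ} {Dt : Divisor K F}

/-- two divisors of degree `0` with the same class differ by a principal divisor -/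
theorem exists_ord_of_mk_eq {D D' : Divisor K F}
    (hD : D ∈ Divisor.degZero (K := K) (F := F)) (hD' : D' ∈ Divisor.degZero (K := K) (F := F))
    (h : Pic0.mk ⟨D, hD⟩ = Pic0.mk ⟨D', hD'⟩) :
    ∃ f0 : F, f0 ≠ 0 ∧ ∀ v : Place K F, D' v = D v + v.ord f0 := by
  have h0 : Pic0.mk ((⟨D', hD'⟩ : Divisor.degZero (K := K) (F := F)) - ⟨D, hD⟩) = 0 := by
    have : Pic0.mk ((⟨D', hD'⟩ : Divisor.degZero (K := K) (F := F)) - ⟨D, hD⟩)
        = Pic0.mk ⟨D', hD'⟩ - Pic0.mk ⟨D, hD⟩ := rfl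
    rw [this, h, sub_self]
  rw [Fermat.Agent.Gateway.Kummer.mk_eq_zero_iff] at h0
  obtain ⟨f0, hf0, hf⟩ := h0
  refine ⟨f0, hf0, fun v => ?_⟩
  have := hf v
  rw [AddSubgroup.coe_sub, Finsupp.sub_apply] at this
  show D' v = D v + v.ord f0
  have e1 : ((⟨D', hD'⟩ : Divisor.degZero (K := K) (F := F)) : Divisor K F) v = D' v := rfl
  have e2 : ((⟨D, hD⟩ : Divisor.degZero (K := K) (F := F)) : Divisor K F) v = D v := rfl
  rw [e1, e2] at this
  linarith

variable (C : ChartCoord R)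
  (ht : Transcendental K C.t) [FiniteDimensional K⟮C.t⟯ F] [Algebra.IsSeparable K⟮C.t⟯ F]
  (hDt : ∀ v : Place K F, Dt v = v.ord C.t)

include ht hDt in
/-- the lattice `R.lat (T.LN a b)` of `ChangeDatumB` is `Lam C a b` -/
theorem lat_LN_eq (a b : ℕ) : R.lat ((TwoCharts.ofDivisor Dt).LN a b) = Lam C a b := by
  have h := LamD_zero_eq C ht hDt (R := R) a b
  rwa [LamD, TwoCharts.LM_zero_eq] at h

include ht hDt in
/-- **The relation between two cocycles of the same class, inside `F`.** -/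
theorem exists_rel_field [Nontrivial κ] [IsReduced κ] (p : ℕ) [Fact p.Prime] [CharP κ p] (e : ℕ)
    (hroot : ∀ x : k, ∃ y : k, y ^ p ^ e = x)
    (hconst : ∀ g : F, g ≠ 0 → (∀ v : Place K F, v.ord g = 0) → ∃ c : K, g = algebraMap K F c)
    {ξ : Pic0 K F} {w w' : F} {D D' : Divisor K F}
    (h : IsData R (p ^ e) ξ w D) (h' : IsData R (p ^ e) ξ w' D')
    (d : CechDatum R Dt D) (d' : CechDatum R Dt D') :
    ∃ (Eoo Goo E0 G0 : F) (a b : ℕ),
      (Eoo ∈ Lam C 0 b ∧ ResOne R Eoo) ∧ (Goo ∈ Lam C 0 b ∧ ResOne R Goo) ∧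
      (E0 ∈ Lam C a 0 ∧ ResOne R E0) ∧ (G0 ∈ Lam C a 0 ∧ ResOne R G0) ∧
      d'.cocycle * Eoo * E0 = d.cocycle * Goo * G0 := by
  -- `D' = D + div f0`
  obtain ⟨f0, hf0, hDD0⟩ := exists_ord_of_mk_eq h.degZero h'.degZero (h.mk_eq.trans h'.mk_eq.symm)
  -- Kummer normalisation: `D' = D + div f`, `f` a unit of `S.O` with reduction `1`
  obtain ⟨f, hf, hDD', hfO, hfiO, hfres⟩ :=
    ChangeDatumB.exists_change R p e hroot hconst h.ne_zero h'.ne_zero hf0
      (fun v => by have := h.ord v; exact_mod_cast this)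
      (fun v => by have := h'.ord v; exact_mod_cast this) hDD0
      h.mem_O h.inv_mem_O h.res_eq h'.mem_O h'.inv_mem_O h'.res_eq
  -- the data
  obtain ⟨b1, hb1⟩ := d.hoo_mul_hoo'_mem
  obtain ⟨a1, ha1⟩ := d.h0_mul_h0'_mem
  obtain ⟨b2, hb2⟩ := d'.hoo_mem
  obtain ⟨b3, hb3⟩ := d.hoo'_mem
  obtain ⟨a2, ha2⟩ := d'.h0'_mem
  obtain ⟨a3, ha3⟩ := d.h0_mem
  obtain ⟨hGoo, hGoores⟩ := ChangeDatumB.Goo_mem_lat R (TwoCharts.ofDivisor Dt) hf hDD' hfO hfres
    (too := d'.hoo) (hoo' := d.hoo') hb2 (d'.res_hoo.res_eq _) hb3 (d.res_hoo'.res_eq _)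
  obtain ⟨hG0, hG0res⟩ := ChangeDatumB.Gzero_mem_lat R (TwoCharts.ofDivisor Dt) hf hDD' hfO hfiO
    hfres (t0' := d'.h0') (h0 := d.h0) ha2 (d'.res_h0'.res_eq _) ha3 (d.res_h0.res_eq _)
  rw [lat_LN_eq C ht hDt] at hGoo hG0
  rw [LamD_zero_eq C ht hDt] at hb1 ha1
  refine ⟨d.hoo * d.hoo', f * d'.hoo * d.hoo', d.h0 * d.h0', d'.h0' * d.h0 * f⁻¹,
    max a1 (a2 + a3), max b1 (b2 + b3), ⟨Lam_mono C le_rfl (le_max_left _ _) hb1,
      d.hoo_mul_hoo'_resOne⟩, ⟨Lam_mono C le_rfl (le_max_right _ _) hGoo, ⟨hGoo.2, hGoores⟩⟩,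
    ⟨Lam_mono C (le_max_left _ _) le_rfl ha1, d.h0_mul_h0'_resOne⟩,
    ⟨Lam_mono C (le_max_right _ _) le_rfl hG0, ⟨hG0.2, hG0res⟩⟩, ?_⟩
  exact ChangeDatumB.cocycle_identity hf d.hoo d.h0 d.hoo' d.h0' d'.hoo d'.h0'

/-! ### reduction `1` gives near-one elements of the chart subalgebras -/

/-- an element of `Lam C 0 b` of reduction `1`, as a near-one element of the chart `∞` of the type
`↥(BxAlg C)` -/
theorem exists_oo_of_resOne {b : ℕ} {x : F} (hx : x ∈ Lam C 0 b) (h1 : ResOne R x) :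
    ∃ X : ooIn (BxAlg C) (BooAlg C), (((X : BxAlg C) : F) = x) ∧
      ∃ ϖ ∈ maximalIdeal A, algebraMap A (ooIn (BxAlg C) (BooAlg C)) ϖ ∣ X - 1 := by
  have hone : (1 : F) ∈ Lam C 0 b := Lam_mono C le_rfl (Nat.zero_le b) (one_mem_Lam C)
  obtain ⟨ϖ, hϖ, y, hy, hxy⟩ := exists_smul_of_res_eq C hx hone (by
    rw [h1.res_eq hx.2]
    exact (map_one R.res).symm)
  have hxB : x ∈ BooAlg C := (mem_BooAlg C).mpr ⟨b, hx⟩
  have hyB : y ∈ BooAlg C := (mem_BooAlg C).mpr ⟨b, hy⟩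
  refine ⟨⟨⟨x, BooAlg_le C hxB⟩, hxB⟩, rfl, ϖ, hϖ, ⟨⟨⟨y, BooAlg_le C hyB⟩, hyB⟩, ?_⟩⟩
  apply Subtype.ext
  apply Subtype.ext
  show x - 1 = algebraMap A F ϖ * y
  rw [hxy, Algebra.smul_def]

/-- an element of `Lam C a 0` of reduction `1`, as a near-one element of the chart `0` of the type
`↥(BxAlg C)` -/
theorem exists_zero_of_resOne {a : ℕ} {x : F} (hx : x ∈ Lam C a 0) (h1 : ResOne R x) :
    ∃ X : zeroIn (BxAlg C) (BzeroAlg C), (((X : BxAlg C) : F) = x) ∧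
      ∃ ϖ ∈ maximalIdeal A, algebraMap A (zeroIn (BxAlg C) (BzeroAlg C)) ϖ ∣ X - 1 := by
  have hone : (1 : F) ∈ Lam C a 0 := Lam_mono C (Nat.zero_le a) le_rfl (one_mem_Lam C)
  obtain ⟨ϖ, hϖ, y, hy, hxy⟩ := exists_smul_of_res_eq C hx hone (by
    rw [h1.res_eq hx.2]
    exact (map_one R.res).symm)
  have hxB : x ∈ BzeroAlg C := (mem_BzeroAlg C).mpr ⟨a, hx⟩
  have hyB : y ∈ BzeroAlg C := (mem_BzeroAlg C).mpr ⟨a, hy⟩
  refine ⟨⟨⟨x, BzeroAlg_le C hxB⟩, hxB⟩, rfl, ϖ, hϖ, ⟨⟨⟨y, BzeroAlg_le C hyB⟩, hyB⟩, ?_⟩⟩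
  apply Subtype.ext
  apply Subtype.ext
  show x - 1 = algebraMap A F ϖ * y
  rw [hxy, Algebra.smul_def]

include ht hDt in
/-- **`cyc_rel`, raw typed form**: the four coboundary factors with their own `ϖ ∈ 𝔪`. -/
theorem cycB_rel_raw [Nontrivial κ] [IsReduced κ] (p : ℕ) [Fact p.Prime] [CharP κ p] (e : ℕ)
    (hroot : ∀ x : k, ∃ y : k, y ^ p ^ e = x)
    (hconst : ∀ g : F, g ≠ 0 → (∀ v : Place K F, v.ord g = 0) → ∃ c : K, g = algebraMap K F c)
    {ξ : Pic0 K F} {c c' : BxAlg C} (hc : c ∈ CycB C Dt (p ^ e) ξ)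
    (hc' : c' ∈ CycB C Dt (p ^ e) ξ) :
    ∃ (Eoo Goo : ooIn (BxAlg C) (BooAlg C)) (E0 G0 : zeroIn (BxAlg C) (BzeroAlg C)),
      (∃ ϖ ∈ maximalIdeal A, algebraMap A (ooIn (BxAlg C) (BooAlg C)) ϖ ∣ Eoo - 1) ∧
      (∃ ϖ ∈ maximalIdeal A, algebraMap A (ooIn (BxAlg C) (BooAlg C)) ϖ ∣ Goo - 1) ∧
      (∃ ϖ ∈ maximalIdeal A, algebraMap A (zeroIn (BxAlg C) (BzeroAlg C)) ϖ ∣ E0 - 1) ∧
      (∃ ϖ ∈ maximalIdeal A, algebraMap A (zeroIn (BxAlg C) (BzeroAlg C)) ϖ ∣ G0 - 1) ∧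
      c' * Eoo * E0 = c * Goo * G0 := by
  obtain ⟨w, D, h, d, hd⟩ := hc
  obtain ⟨w', D', h', d', hd'⟩ := hc'
  obtain ⟨Eoo, Goo, E0, G0, a, b, ⟨hE, hE1⟩, ⟨hG, hG1⟩, ⟨hE0, hE01⟩, ⟨hG0, hG01⟩, hrel⟩ :=
    exists_rel_field C ht hDt p e hroot hconst h h' d d'
  obtain ⟨XE, hXE, hXE1⟩ := exists_oo_of_resOne C hE hE1
  obtain ⟨XG, hXG, hXG1⟩ := exists_oo_of_resOne C hG hG1
  obtain ⟨XE0, hXE0, hXE01⟩ := exists_zero_of_resOne C hE0 hE01
  obtain ⟨XG0, hXG0, hXG01⟩ := exists_zero_of_resOne C hG0 hG01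
  refine ⟨XE, XG, XE0, XG0, hXE1, hXG1, hXE01, hXG01, ?_⟩
  apply Subtype.ext
  show (c' : F) * ((XE : BxAlg C) : F) * ((XE0 : BxAlg C) : F)
    = (c : F) * ((XG : BxAlg C) : F) * ((XG0 : BxAlg C) : F)
  rw [hXE, hXG, hXE0, hXG0, ← hd, ← hd']
  exact hrel

include ht hDt in
/-- **`cyc_rel` with `CoordB.NearOne` factors** (literal of the RULING v6). -/
theorem cycB_rel_nearOne [Nontrivial κ] [IsReduced κ] (p : ℕ) [Fact p.Prime] [CharP κ p] (e : ℕ)
    (hroot : ∀ x : k, ∃ y : k, y ^ p ^ e = x)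
    (hconst : ∀ g : F, g ≠ 0 → (∀ v : Place K F, v.ord g = 0) → ∃ c : K, g = algebraMap K F c)
    {ξ : Pic0 K F} {c c' : BxAlg C} (hc : c ∈ CycB C Dt (p ^ e) ξ)
    (hc' : c' ∈ CycB C Dt (p ^ e) ξ) :
    ∃ (Eoo Goo : ooIn (BxAlg C) (BooAlg C)) (E0 G0 : zeroIn (BxAlg C) (BzeroAlg C)),
      NearOne (ooIn (BxAlg C) (BooAlg C)) Eoo ∧ NearOne (ooIn (BxAlg C) (BooAlg C)) Goo ∧
      NearOne (zeroIn (BxAlg C) (BzeroAlg C)) E0 ∧ NearOne (zeroIn (BxAlg C) (BzeroAlg C)) G0 ∧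
      c' * Eoo * E0 = c * Goo * G0 :=
  cycB_rel_raw C ht hDt p e hroot hconst hc hc'

include ht hDt in
/-- **`CobEq` at precision `0`** between two cocycles of the same class. -/
theorem cycB_cobEq [Nontrivial κ] [IsReduced κ] (p : ℕ) [Fact p.Prime] [CharP κ p] (e : ℕ)
    (hroot : ∀ x : k, ∃ y : k, y ^ p ^ e = x)
    (hconst : ∀ g : F, g ≠ 0 → (∀ v : Place K F, v.ord g = 0) → ∃ c : K, g = algebraMap K F c)
    {ξ : Pic0 K F} {c c' : BxAlg C} (hc : c ∈ CycB C Dt (p ^ e) ξ)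
    (hc' : c' ∈ CycB C Dt (p ^ e) ξ) :
    CobEq (ooIn (BxAlg C) (BooAlg C)) (zeroIn (BxAlg C) (BzeroAlg C)) 0 c' c := by
  obtain ⟨Eoo, Goo, E0, G0, h1, h2, h3, h4, h⟩ :=
    cycB_rel_nearOne C ht hDt p e hroot hconst hc hc'
  exact ⟨Eoo, Goo, E0, G0, h1, h2, h3, h4, by rw [map_zero, zero_dvd_iff, sub_eq_zero]; exact h⟩

include ht hDt in
/-- **`cyc_rel`**: the literal of the note 'S33-IFACE-L2-B5 (architect literal)' (ONE `π ≠ 0` of the
maximal ideal for the four coboundary factors). -/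
theorem cycB_rel [Nontrivial κ] [IsReduced κ] (p : ℕ) [Fact p.Prime] [CharP κ p] (e : ℕ)
    (hroot : ∀ x : k, ∃ y : k, y ^ p ^ e = x)
    (hconst : ∀ g : F, g ≠ 0 → (∀ v : Place K F, v.ord g = 0) → ∃ c : K, g = algebraMap K F c)
    (ξ : Pic0 K F) (c : BxAlg C) (hc : c ∈ CycB C Dt (p ^ e) ξ) (c' : BxAlg C)
    (hc' : c' ∈ CycB C Dt (p ^ e) ξ) :
    ∃ π ∈ maximalIdeal A, π ≠ 0 ∧
      ∃ (Eoo Goo : ooIn (BxAlg C) (BooAlg C)) (E0 G0 : zeroIn (BxAlg C) (BzeroAlg C)),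
        algebraMap A (ooIn (BxAlg C) (BooAlg C)) π ∣ Eoo - 1 ∧
        algebraMap A (ooIn (BxAlg C) (BooAlg C)) π ∣ Goo - 1 ∧
        algebraMap A (zeroIn (BxAlg C) (BzeroAlg C)) π ∣ E0 - 1 ∧
        algebraMap A (zeroIn (BxAlg C) (BzeroAlg C)) π ∣ G0 - 1 ∧
        c' * Eoo * E0 = c * Goo * G0 := by
  classical
  obtain ⟨Eoo, Goo, E0, G0, ⟨ϖ1, hϖ1, h1⟩, ⟨ϖ2, hϖ2, h2⟩, ⟨ϖ3, hϖ3, h3⟩, ⟨ϖ4, hϖ4, h4⟩, h⟩ :=
    cycB_rel_raw C ht hDt p e hroot hconst hc hc'
  obtain ⟨π₀, hπ₀, hπ₀0⟩ := R.exists_ne_zero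
  obtain ⟨π, hπ, hπ0, -, hπd⟩ := exists_common_dvd hπ₀ hπ₀0 ({ϖ1, ϖ2, ϖ3, ϖ4} : Finset A) (by
    intro x hx
    simp only [Finset.mem_insert, Finset.mem_singleton] at hx
    rcases hx with rfl | rfl | rfl | rfl <;> assumption)
  refine ⟨π, hπ, hπ0, Eoo, Goo, E0, G0, ?_, ?_, ?_, ?_, h⟩
  · exact ((algebraMap A _).map_dvd (hπd ϖ1 (by simp))).trans h1
  · exact ((algebraMap A _).map_dvd (hπd ϖ2 (by simp))).trans h2
  · exact ((algebraMap A _).map_dvd (hπd ϖ3 (by simp))).trans h3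
  · exact ((algebraMap A _).map_dvd (hπd ϖ4 (by simp))).trans h4

end general

/-! ## Concrete part: level `M q`, exponent `q ^ n` -/

section Mq

open ModularCurve
open Fermat.Agent.Gateway.Hecke Fermat.Agent.Gateway.ESC
open Fermat.Agent.Gateway.Red Fermat.Agent.Gateway.GoodRed Fermat.Agent.Gateway.AuxLevel
open Fermat.Agent.Gateway.GoodRed.ConjFamily Fermat.Agent.S24.Setup
open Fermat.Agent.S34x.TwoVal
open Fermat.Agent.S34x.Inst.L2 Fermat.Agent.S34x.Inst.IsL2Inst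
open Fermat.Agent.S34x.Inst.RedSetupInst Fermat.Agent.S34x.Inst.ElementYRed
open Fermat.Agent.S34x.Inst.ElementYInt Fermat.Agent.S34x.Inst.ElementYInt9
open Fermat.Agent.S34x.Inst.Charts Fermat.Agent.S34x.Inst.TheoremBMq
open Fermat.Agent.S34x.Inst

attribute [-instance] IsScalarTower.of_algHom

variable {L : Type} [Field L] [Algebra ℚ L] [IsAlgClosed L] [Algebra.IsAlgebraic ℚ L]
  {A : ValuationSubring L} {k : Type} [Field k] {π : A →+* k} [IsAlgClosed k]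
variable {M q : ℕ} [NeZero M] [NeZero q] [Fact q.Prime] [CharP k q]
variable {hdeg : finrankAlong L (heckeAlphaBar L M q) = q + 1} {hq : q.Prime} {hqM : ¬ q ∣ M}
variable {hrk : ∀ x ∈ maximalIdeal A, ∀ c : A, c ≠ 0 → ∃ j : ℕ, c ∣ x ^ j}
  {hπ : Function.Surjective π}
variable (H : ResidueFacts A π M q hdeg hq hqM hrk hπ) (hA : A.LiesOverPrime q)
variable [PerfectRing k q]
  (x : LaurentSeries ℤ) (hx : coeffMap (Int.castRingHom L) x ∈ FBar L M)
  (Hx : GoodLevelFactsT A π M q hπ hqM (tInt M x hx))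

/-- the residue ring `Fk × Fk` has characteristic `q` -/
theorem charP_kappa :
    CharP (modularFunctionFieldFullC k M × modularFunctionFieldFullC k M) q := by
  haveI : CharP (modularFunctionFieldFullC k M) q :=
    charP_of_injective_algebraMap (algebraMap k (modularFunctionFieldFullC k M)).injective q
  exact Prod.charP _ _ q

/-- the residue ring `Fk × Fk` is reduced -/
theorem isReduced_kappa :
    IsReduced (modularFunctionFieldFullC k M × modularFunctionFieldFullC k M) := by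
  infer_instance

include Hx in
/-- **`cyc_rel` at the level `M q`** (literal of the note 'S33-IFACE-L2-B5 (architect literal)' for
`Cyc := CycB (chart H hA x hx Hx) Dt (q ^ n)`): no hypothesis besides the context. -/
theorem cycB_rel_Mq {Dt : Divisor L (FL L (M * q))}
    (hDt : ∀ v : Place L (FL L (M * q)), Dt v = v.ord (chart H hA x hx Hx).t) (n : ℕ)
    (ξ : Pic0 L (FL L (M * q))) (c : BxAlg (chart H hA x hx Hx))
    (hc : c ∈ CycB (chart H hA x hx Hx) Dt (q ^ n) ξ) (c' : BxAlg (chart H hA x hx Hx))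
    (hc' : c' ∈ CycB (chart H hA x hx Hx) Dt (q ^ n) ξ) :
    ∃ ϖ ∈ maximalIdeal A, ϖ ≠ 0 ∧
      ∃ (Eoo Goo : ooIn (BxAlg (chart H hA x hx Hx)) (BooAlg (chart H hA x hx Hx)))
        (E0 G0 : zeroIn (BxAlg (chart H hA x hx Hx)) (BzeroAlg (chart H hA x hx Hx))),
        algebraMap A (ooIn (BxAlg (chart H hA x hx Hx)) (BooAlg (chart H hA x hx Hx))) ϖ ∣ Eoo - 1 ∧
        algebraMap A (ooIn (BxAlg (chart H hA x hx Hx)) (BooAlg (chart H hA x hx Hx))) ϖ ∣ Goo - 1 ∧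
        algebraMap A (zeroIn (BxAlg (chart H hA x hx Hx)) (BzeroAlg (chart H hA x hx Hx))) ϖ
          ∣ E0 - 1 ∧
        algebraMap A (zeroIn (BxAlg (chart H hA x hx Hx)) (BzeroAlg (chart H hA x hx Hx))) ϖ
          ∣ G0 - 1 ∧
        c' * Eoo * E0 = c * Goo * G0 := by
  haveI := finiteDimensional_chart_t H hA x hx Hx
  haveI := isSeparable_chart_t H hA x hx Hx
  haveI := charP_kappa (k := k) (M := M) (q := q)
  haveI := isReduced_kappa (k := k) (M := M)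
  haveI : CharZero L := algebraRat.charZero L
  exact cycB_rel (chart H hA x hx Hx) (transcendental_chart_t H hA x hx Hx) hDt q n
    (fun y => IsAlgClosed.exists_pow_nat_eq y (pow_pos (Fact.out : q.Prime).pos n))
    (fun g hg hord => hconst_of_isAlgClosed (transcendental_chart_t H hA x hx Hx) g hg hord) ξ c hc c' hc'

include Hx in
/-- **`cyc_rel` at the level `M q`, `NearOne` form** (literal of the RULING v6). -/
theorem cycB_rel_nearOne_Mq {Dt : Divisor L (FL L (M * q))}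
    (hDt : ∀ v : Place L (FL L (M * q)), Dt v = v.ord (chart H hA x hx Hx).t) (n : ℕ)
    (ξ : Pic0 L (FL L (M * q))) (c : BxAlg (chart H hA x hx Hx))
    (hc : c ∈ CycB (chart H hA x hx Hx) Dt (q ^ n) ξ) (c' : BxAlg (chart H hA x hx Hx))
    (hc' : c' ∈ CycB (chart H hA x hx Hx) Dt (q ^ n) ξ) :
    ∃ (Eoo Goo : ooIn (BxAlg (chart H hA x hx Hx)) (BooAlg (chart H hA x hx Hx)))
      (E0 G0 : zeroIn (BxAlg (chart H hA x hx Hx)) (BzeroAlg (chart H hA x hx Hx))),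
      NearOne (ooIn (BxAlg (chart H hA x hx Hx)) (BooAlg (chart H hA x hx Hx))) Eoo ∧
      NearOne (ooIn (BxAlg (chart H hA x hx Hx)) (BooAlg (chart H hA x hx Hx))) Goo ∧
      NearOne (zeroIn (BxAlg (chart H hA x hx Hx)) (BzeroAlg (chart H hA x hx Hx))) E0 ∧
      NearOne (zeroIn (BxAlg (chart H hA x hx Hx)) (BzeroAlg (chart H hA x hx Hx))) G0 ∧
      c' * Eoo * E0 = c * Goo * G0 := by
  haveI := finiteDimensional_chart_t H hA x hx Hx
  haveI := isSeparable_chart_t H hA x hx Hx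
  haveI := charP_kappa (k := k) (M := M) (q := q)
  haveI := isReduced_kappa (k := k) (M := M)
  haveI : CharZero L := algebraRat.charZero L
  exact cycB_rel_nearOne (chart H hA x hx Hx) (transcendental_chart_t H hA x hx Hx) hDt q n
    (fun y => IsAlgClosed.exists_pow_nat_eq y (pow_pos (Fact.out : q.Prime).pos n))
    (fun g hg hord => hconst_of_isAlgClosed (transcendental_chart_t H hA x hx Hx) g hg hord) hc hc'

include Hx in
/-- **`CobEq` at precision `0` at the level `M q`.** -/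
theorem cycB_cobEq_Mq {Dt : Divisor L (FL L (M * q))}
    (hDt : ∀ v : Place L (FL L (M * q)), Dt v = v.ord (chart H hA x hx Hx).t) (n : ℕ)
    (ξ : Pic0 L (FL L (M * q))) (c : BxAlg (chart H hA x hx Hx))
    (hc : c ∈ CycB (chart H hA x hx Hx) Dt (q ^ n) ξ) (c' : BxAlg (chart H hA x hx Hx))
    (hc' : c' ∈ CycB (chart H hA x hx Hx) Dt (q ^ n) ξ) :
    CobEq (ooIn (BxAlg (chart H hA x hx Hx)) (BooAlg (chart H hA x hx Hx)))
      (zeroIn (BxAlg (chart H hA x hx Hx)) (BzeroAlg (chart H hA x hx Hx))) 0 c' c := by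
  haveI := finiteDimensional_chart_t H hA x hx Hx
  haveI := isSeparable_chart_t H hA x hx Hx
  haveI := charP_kappa (k := k) (M := M) (q := q)
  haveI := isReduced_kappa (k := k) (M := M)
  haveI : CharZero L := algebraRat.charZero L
  exact cycB_cobEq (chart H hA x hx Hx) (transcendental_chart_t H hA x hx Hx) hDt q n
    (fun y => IsAlgClosed.exists_pow_nat_eq y (pow_pos (Fact.out : q.Prime).pos n))
    (fun g hg hord => hconst_of_isAlgClosed (transcendental_chart_t H hA x hx Hx) g hg hord) hc hc'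

end Mq

end Fermat.Agent.S33x.Cech.RelKmC
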