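import Fermat.Agent.S33x.Iface.ApproxChart

/-!
# P-S33 LAYER 2 (I5): plumbing from the generic conclusion of `Cech/Coord` to `HasApproxCharts`

The abstract assembly (B5, `Cech/Coord.lean`) is stated over abstract rings `W → A` and an abstract
acting type `I`.  Here we instantiate `A := ↥P` (`P : ValuationSubring Qbar`),
`W := ↥(inertiaInt P)`, `I := ↥(P.inertiaSubgroupIn ℚ)` and translate its conclusion into the
literal `Iface.HasApproxCharts p P X act`:

* `algInertiaIntP`, `towerInertiaIntP` : `Algebra (inertiaInt P) P` and the scalar tower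
  `inertiaInt P → P → Qbar` (as `def`/`theorem`, to be made local instances by the user);
* `inertiaActP P s : P →+* P` : the action of `s : P.inertiaSubgroupIn ℚ` on `P`;
* `maximalIdeal ↔ nonunits`, `p ^ n ∣ x` in `P` `↔ PowMem P p n x`, `aeval` along the tower;
* `hasApproxCharts_of_generic` : the assembled statement.
-/

set_option autoImplicit false
set_option linter.style.haveILetI false

noncomputable section

namespace Fermat.Agent.S33x.Cech.ToApproxChart

open Fermat.Agent.S56x.Flat.InertiaField Fermat.Agent.S33x.Iface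
open scoped Pointwise

local notation "Qbar" => AlgebraicClosure ℚ
local notation "Γℚ" => (AlgebraicClosure ℚ ≃ₐ[ℚ] AlgebraicClosure ℚ)

variable (P : ValuationSubring Qbar)

/-! ### The rings `inertiaInt P → P → Qbar` -/

theorem inertiaInt_le : inertiaInt P ≤ P.toSubring := fun _ hc => hc.1

/-- The inclusion `inertiaInt P →+* P`. -/
def inclInertiaIntP : inertiaInt P →+* P := Subring.inclusion (inertiaInt_le P)

/-- `P` as an algebra over `inertiaInt P`. -/
@[reducible] def algInertiaIntP : Algebra (inertiaInt P) P := (inclInertiaIntP P).toAlgebra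

theorem coe_inclInertiaIntP (c : inertiaInt P) : ((inclInertiaIntP P c : P) : Qbar) = (c : Qbar) :=
  rfl

/-- The scalar tower `inertiaInt P → P → Qbar`. -/
theorem towerInertiaIntP :
    letI := algInertiaIntP P
    IsScalarTower (inertiaInt P) P Qbar := by
  letI := algInertiaIntP P
  refine IsScalarTower.of_algebraMap_eq fun c => ?_
  rfl

/-! ### The inertia action on `P` -/

theorem map_mem_of_mem_inertia {σ : Γℚ} (hσ : σ ∈ P.inertiaSubgroupIn ℚ) {a : Qbar} (ha : a ∈ P) :
    σ a ∈ P := by
  obtain ⟨d, -, rfl⟩ := hσ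
  have hd : (d : Γℚ) • P = P := d.2
  have h1 : (d : Γℚ) • a ∈ (d : Γℚ) • P := ValuationSubring.smul_mem_pointwise_smul _ _ _ ha
  rw [hd] at h1
  exact h1

/-- The action of an element of the inertia group on the ring `P`. -/
def inertiaActP (s : P.inertiaSubgroupIn ℚ) : P →+* P where
  toFun a := ⟨(s : Γℚ) a, map_mem_of_mem_inertia P s.2 a.2⟩
  map_one' := Subtype.ext (map_one _)
  map_mul' _ _ := Subtype.ext (map_mul _ _ _)
  map_zero' := Subtype.ext (map_zero _)
  map_add' _ _ := Subtype.ext (map_add _ _ _)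

@[simp] theorem coe_inertiaActP (s : P.inertiaSubgroupIn ℚ) (a : P) :
    ((inertiaActP P s a : P) : Qbar) = (s : Γℚ) (a : Qbar) := rfl

/-! ### Dictionary -/

theorem coe_mem_nonunits_of_mem_maximalIdeal {a : P} (ha : a ∈ IsLocalRing.maximalIdeal P) :
    (a : Qbar) ∈ P.nonunits :=
  ValuationSubring.coe_mem_nonunits_iff.mpr ha

theorem powMem_of_dvd {p n : ℕ} {x : P} (h : ((p : P)) ^ n ∣ x) : PowMem P p n (x : Qbar) := by
  obtain ⟨w, rfl⟩ := h
  exact ⟨(w : Qbar), w.2, by push_cast; rfl⟩

theorem dvd_of_powMem {p n : ℕ} {x : P} (h : PowMem P p n (x : Qbar)) : ((p : P)) ^ n ∣ x := by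
  obtain ⟨w, hw, hx⟩ := h
  refine ⟨⟨w, hw⟩, Subtype.ext ?_⟩
  rw [hx]
  push_cast
  rfl

theorem powMem_iff_dvd {p n : ℕ} {x : P} : PowMem P p n (x : Qbar) ↔ ((p : P)) ^ n ∣ x :=
  ⟨dvd_of_powMem P, powMem_of_dvd P⟩

/-- `aeval` along the tower `inertiaInt P → P → Qbar`. -/
theorem coe_aeval {σ : Type*} (v : σ → P) (F : MvPolynomial σ (inertiaInt P)) :
    letI := algInertiaIntP P
    ((MvPolynomial.aeval v F : P) : Qbar) = MvPolynomial.aeval (fun j => (v j : Qbar)) F := by
  letI := algInertiaIntP P
  haveI := towerInertiaIntP P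
  have h := MvPolynomial.aeval_algebraMap_apply (A := P) (B := Qbar) v F
  exact h.symm

/-! ### The assembled statement -/

/-- **From the generic conclusion of the Čech coordinate assembly to `HasApproxCharts`.** -/
theorem hasApproxCharts_of_generic (p : ℕ) {X : Type} [AddCommGroup X] (act : Γℚ → X → X) {g : ℕ}
    (h : letI := algInertiaIntP P
      ∃ c0 : ℕ, ∀ n : ℕ, ∃ (coord : X → Fin g → P)
        (F : Fin g → MvPolynomial (Fin g ⊕ Fin g) (inertiaInt P)),
        (∀ x i, coord x i ∈ IsLocalRing.maximalIdeal P) ∧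
        (∀ (s : P.inertiaSubgroupIn ℚ) x i,
          ((p : P)) ^ n ∣ coord (act (s : Γℚ) x) i - inertiaActP P s (coord x i)) ∧
        (∀ x y i, ((p : P)) ^ n ∣
          coord (x + y) i - MvPolynomial.aeval (Sum.elim (coord x) (coord y)) (F i)) ∧
        (∀ x y, x ≠ y → ∃ i, ¬ ((p : P)) ^ c0 ∣ coord x i - coord y i)) :
    HasApproxCharts p P X act := by
  letI := algInertiaIntP P
  obtain ⟨c0, h⟩ := h
  refine ⟨c0, fun n => ?_⟩
  obtain ⟨coord, F, hmem, hin, hadd, hsep⟩ := h n
  refine ⟨{ g := g
            coord := fun x i => (coord x i : Qbar)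
            coord_mem := fun x i => coe_mem_nonunits_of_mem_maximalIdeal P (hmem x i)
            coord_inertia := ?_
            add_approx := ⟨F, ?_⟩ }, ?_⟩
  · intro σ hσ x i
    have := powMem_of_dvd P (hin ⟨σ, hσ⟩ x i)
    simpa using this
  · intro x y i
    have h1 := powMem_of_dvd P (hadd x y i)
    rw [AddSubgroupClass.coe_sub, coe_aeval P] at h1
    have h2 : (fun j => ((Sum.elim (coord x) (coord y) j : P) : Qbar)) =
        Sum.elim (fun i => (coord x i : Qbar)) (fun i => (coord y i : Qbar)) := by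
      funext j
      cases j <;> rfl
    rw [h2] at h1
    exact h1
  · intro x y hxy
    obtain ⟨i, hi⟩ := hsep x y hxy
    refine ⟨i, fun hpm => hi ?_⟩
    have : PowMem P p c0 (((coord x i - coord y i : P)) : Qbar) := by
      rw [AddSubgroupClass.coe_sub]
      exact hpm
    exact dvd_of_powMem P this

end Fermat.Agent.S33x.Cech.ToApproxChart
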