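import Fermat.Agent.S33x.Cech.ToApproxChart

/-!
# P-S33 LAYER 2 (I5), variant: the conclusion shape of `Cech/Coord.exists_charts_of_cyc`

`Coord.exists_charts_of_cyc` (helper8) concludes with coordinates `t : X → Fin g → A` divisible by
ONE small element `ϖ ∈ sm` and with the polynomial family `F` quantified inside the conjunction.
This file feeds that shape (at `A := P`, `W := inertiaInt P`, `Γ := P.inertiaSubgroupIn ℚ`,
`σA := inertiaActP P`) into `ToApproxChart.hasApproxCharts_of_generic`.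
-/

set_option autoImplicit false
set_option linter.style.haveILetI false

noncomputable section

namespace Fermat.Agent.S33x.Cech.ToApproxChartB

open Fermat.Agent.S56x.Flat.InertiaField Fermat.Agent.S33x.Iface
open Fermat.Agent.S33x.Cech.ToApproxChart

local notation "Qbar" => AlgebraicClosure ℚ
local notation "Γℚ" => (AlgebraicClosure ℚ ≃ₐ[ℚ] AlgebraicClosure ℚ)

variable (P : ValuationSubring Qbar)

/-- The shape of `Coord.exists_charts_of_cyc` gives `HasApproxCharts`. -/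
theorem hasApproxCharts_of_coord (p : ℕ) {X : Type} [AddCommGroup X] (act : Γℚ → X → X) {g : ℕ}
    (sm : Set P) (hsm : ∀ ε ∈ sm, ε ∈ IsLocalRing.maximalIdeal P)
    (h : letI := algInertiaIntP P
      ∃ c0 : ℕ, ∀ n : ℕ, ∃ t : X → Fin g → P,
        (∃ ϖ ∈ sm, ∀ x i, ϖ ∣ t x i) ∧
        (∀ (s : P.inertiaSubgroupIn ℚ) x i,
          ((p : P)) ^ n ∣ t (act (s : Γℚ) x) i - inertiaActP P s (t x i)) ∧
        (∃ F : Fin g → MvPolynomial (Fin g ⊕ Fin g) (inertiaInt P), ∀ x y i,
          ((p : P)) ^ n ∣ t (x + y) i - MvPolynomial.aeval (Sum.elim (t x) (t y)) (F i)) ∧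
        (∀ x y, x ≠ y → ∃ i, ¬ ((p : P)) ^ c0 ∣ t x i - t y i)) :
    HasApproxCharts p P X act := by
  letI := algInertiaIntP P
  refine hasApproxCharts_of_generic P p act (g := g) ?_
  obtain ⟨c0, h⟩ := h
  refine ⟨c0, fun n => ?_⟩
  obtain ⟨t, ⟨ϖ, hϖ, hdvd⟩, hin, ⟨F, hadd⟩, hsep⟩ := h n
  refine ⟨t, F, fun x i => ?_, hin, hadd, hsep⟩
  obtain ⟨w, hw⟩ := hdvd x i
  rw [hw]
  exact Ideal.mul_mem_right _ _ (hsm ϖ hϖ)

end Fermat.Agent.S33x.Cech.ToApproxChartB
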