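import Fermat.Agent.S33x.Cech.InstIface
import Fermat.Agent.S33x.Cech.InertiaAssoc

/-!
# P-S33 LAYER 2 (I6 plumbing): from the generic conclusion of the Cech coordinate assembly to
`InstIface.ChartsMq`

The abstract assemblies (B5: `Cech/CoordAsm32Lit.exists_coords_literal`,
`Cech/Coord.exists_charts_of_cyc`) are stated over abstract rings `W → A`, an abstract acting type
`I` and end in

`∃ c0, ∀ n, ∃ coord F, mem ∧ equivariance mod p ^ n ∧ additivity mod p ^ n ∧ separation at p ^ c0`.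

Here `A` is the valuation subring of the generic context of `S34x/Inst/TheoremBMq` (`L` an
algebraic closure of `ℚ`), `X := ↥(Km H hA m)`, `p := (q : A)`, and this conclusion is translated
into the literal `InstIface.ChartsMq H hA m`:

* `powMemA_iff_dvd` : `q ^ n ∣ x` in `A` `↔ PowMemA A q n x`;
* `coe_aeval_map` : `aeval` over `W` followed by `A → L` is `eval` of the polynomial mapped to `L`;
* `actKm` : the default action of `I := ↥(A.inertiaSubgroupIn ℚ)` on `K_m` (on `A` it is
  `InertiaAssoc.inertiaAct A`, with `hAss = InertiaAssoc.associated_inertiaAct A`);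
* `chartsMq_of_generic` : ANY acting type `I` with a map `toGal` onto the inertia group;
* `chartsMq_of_inertia`, `chartsMq_of_inertia_fixed_g` : the default actions.
-/

set_option autoImplicit false
set_option linter.unusedSectionVars false
set_option linter.style.haveILetI false

noncomputable section

namespace Fermat.Agent.S33x.Cech.ToChartMq

open ModularCurve AlgebraicCurve IsLocalRing
open Fermat.Agent.Gateway.Hecke Fermat.Agent.Gateway.ESC
open Fermat.Agent.Gateway.Red Fermat.Agent.Gateway.GoodRed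
open Fermat.Agent.S34x.TwoVal Fermat.Agent.S34x.C0two
open Fermat.Agent.S34x.Inst.RedSetupInst Fermat.Agent.S34x.Inst
open Fermat.Agent.S33x.KummerPn Fermat.Agent.S33x.Cech.InstIface Fermat.Agent.S33x.Cech
open scoped Pointwise

/-! ### Dictionary over a valuation subring -/

section Dict

variable {L : Type} [Field L] (A : ValuationSubring L)

theorem coe_mem_nonunits_of_mem_maximalIdeal {a : A} (ha : a ∈ maximalIdeal A) :
    (a : L) ∈ A.nonunits :=
  ValuationSubring.coe_mem_nonunits_iff.mpr ha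

theorem powMemA_of_dvd {q n : ℕ} {x : A} (h : ((q : A)) ^ n ∣ x) : PowMemA A q n (x : L) := by
  obtain ⟨w, rfl⟩ := h
  exact ⟨(w : L), w.2, by push_cast; rfl⟩

theorem dvd_of_powMemA {q n : ℕ} {x : A} (h : PowMemA A q n (x : L)) : ((q : A)) ^ n ∣ x := by
  obtain ⟨w, hw, hx⟩ := h
  refine ⟨⟨w, hw⟩, Subtype.ext ?_⟩
  rw [hx]
  push_cast
  rfl

theorem powMemA_iff_dvd {q n : ℕ} {x : A} : PowMemA A q n (x : L) ↔ ((q : A)) ^ n ∣ x :=
  ⟨dvd_of_powMemA A, powMemA_of_dvd A⟩

/-- `q ∈ 𝔪_A` when `A` lies over `q` (the hypothesis `hp` of the B5 literal at `p := (q : A)`). -/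
theorem natCast_mem_maximalIdeal {q : ℕ} (hA : A.LiesOverPrime q) :
    ((q : A)) ∈ maximalIdeal A := by
  rw [← ValuationSubring.coe_mem_nonunits_iff]
  have h : (((q : A)) : L) = (q : L) := by push_cast; rfl
  rw [h]
  exact hA

/-- `q ≠ 0` in `A` (the hypothesis `hp0` of the B5 literal at `p := (q : A)`). -/
theorem natCast_ne_zero [CharZero L] {q : ℕ} [NeZero q] : ((q : A)) ≠ 0 := by
  intro h
  have h1 : (((q : A)) : L) = (q : L) := by push_cast; rfl
  rw [h] at h1
  have h2 : (q : L) = 0 := by rw [← h1]; rfl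
  exact NeZero.ne q (Nat.cast_eq_zero.mp h2)

/-- The ring map `W → A → L`. -/
def toL (W : Type*) [CommRing W] [Algebra W A] : W →+* L := A.subtype.comp (algebraMap W A)

theorem toL_apply {W : Type*} [CommRing W] [Algebra W A] (w : W) :
    toL A W w = ((algebraMap W A w : A) : L) := rfl

/-- `aeval` over `W` followed by `A → L` is `eval` of the polynomial mapped to `L`. -/
theorem coe_aeval_map {W : Type*} [CommRing W] [Algebra W A] {σ : Type*} (v : σ → A)
    (F : MvPolynomial σ W) :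
    ((MvPolynomial.aeval v F : A) : L) =
      MvPolynomial.eval (fun j => (v j : L)) (MvPolynomial.map (toL A W) F) := by
  rw [MvPolynomial.eval_map, MvPolynomial.aeval_def]
  exact MvPolynomial.eval₂_comp_left A.subtype (algebraMap W A) v F

end Dict

/-! ### The generic context -/

variable {L : Type} [Field L] [Algebra ℚ L] [IsAlgClosed L] [Algebra.IsAlgebraic ℚ L]
  {A : ValuationSubring L}
  {k : Type} [Field k] {π : A →+* k} [IsAlgClosed k]
variable {M q : ℕ} [NeZero M] [NeZero q] [Fact q.Prime] [CharP k q]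
variable {hdeg : finrankAlong L (heckeAlphaBar L M q) = q + 1} {hq : q.Prime} {hqM : ¬ q ∣ M}
variable {hrk : ∀ x ∈ maximalIdeal A, ∀ c : A, c ≠ 0 → ∃ j : ℕ, c ∣ x ^ j}
  {hπ : Function.Surjective π}
variable {H : ResidueFacts A π M q hdeg hq hqM hrk hπ} {hA : A.LiesOverPrime q}

/-- The default action of the inertia group on the type `K_m` (`m > 0`). -/
def actKm {m : ℕ} (hm : 0 < m) (s : A.inertiaSubgroupIn ℚ) (x : Km H hA m) : Km H hA m :=
  ⟨(s : L ≃ₐ[ℚ] L) • (x : Pic0 L (FL L (M * q))), smul_mem_Km hm s.2 x.2⟩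

@[simp] theorem coe_actKm {m : ℕ} (hm : 0 < m) (s : A.inertiaSubgroupIn ℚ) (x : Km H hA m) :
    ((actKm hm s x : Km H hA m) : Pic0 L (FL L (M * q))) =
      (s : L ≃ₐ[ℚ] L) • (x : Pic0 L (FL L (M * q))) := rfl

/-- **From the generic conclusion of the Čech coordinate assembly to `ChartsMq`**, for ANY acting
type `I` with a map `toGal` onto the inertia group of `A`, compatible actions `actX` on `K_m`,
`actA` on `A`, and ANY coefficient ring `W → A` with inertia-fixed image. -/
theorem chartsMq_of_generic {m : ℕ} {W : Type*} [CommRing W] [Algebra W A]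
    (hW : ∀ w : W, ∀ τ ∈ A.inertiaSubgroupIn ℚ,
      τ ((algebraMap W A w : A) : L) = ((algebraMap W A w : A) : L))
    {I : Type*} (toGal : I → (L ≃ₐ[ℚ] L))
    (hsurj : ∀ τ ∈ A.inertiaSubgroupIn ℚ, ∃ s : I, toGal s = τ)
    (actX : I → Km H hA m → Km H hA m) (actA : I → A →+* A)
    (hactX : ∀ s x, ((actX s x : Km H hA m) : Pic0 L (FL L (M * q))) =
      toGal s • (x : Pic0 L (FL L (M * q))))
    (hactA : ∀ s (c : A), ((actA s c : A) : L) = toGal s (c : L))
    (h : ∃ c0 : ℕ, ∀ n : ℕ, ∃ (g : ℕ) (coord : Km H hA m → Fin g → A)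
        (F : Fin g → MvPolynomial (Fin g ⊕ Fin g) W),
        (∀ x i, coord x i ∈ maximalIdeal A) ∧
        (∀ s x i, ((q : A)) ^ n ∣ coord (actX s x) i - actA s (coord x i)) ∧
        (∀ x y i, ((q : A)) ^ n ∣
          coord (x + y) i - MvPolynomial.aeval (Sum.elim (coord x) (coord y)) (F i)) ∧
        (∀ x y, x ≠ y → ∃ i, ¬ ((q : A)) ^ c0 ∣ coord x i - coord y i)) :
    ChartsMq H hA m := by
  obtain ⟨c0, h⟩ := h
  refine ⟨c0, fun n => ?_⟩
  obtain ⟨g, coord, F, hmem, hin, hadd, hsep⟩ := h n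
  refine ⟨g, fun x i => (coord x i : L), fun i => MvPolynomial.map (toL A W) (F i),
    fun x i => coe_mem_nonunits_of_mem_maximalIdeal A (hmem x i), ?_, ?_, ?_, ?_⟩
  · intro τ hτ x hx i
    obtain ⟨s, rfl⟩ := hsurj τ hτ
    have hxs : actX s x = ⟨toGal s • (x : Pic0 L (FL L (M * q))), hx⟩ :=
      Subtype.ext (hactX s x)
    have h1 := powMemA_of_dvd A (hin s x i)
    rw [AddSubgroupClass.coe_sub, hactA, hxs] at h1
    exact h1
  · intro i d
    rw [MvPolynomial.coeff_map]
    exact ⟨(algebraMap W A (MvPolynomial.coeff d (F i))).2, fun τ hτ => hW _ τ hτ⟩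
  · intro x y i
    have h1 := powMemA_of_dvd A (hadd x y i)
    rw [AddSubgroupClass.coe_sub, coe_aeval_map A] at h1
    have h2 : (fun j => ((Sum.elim (coord x) (coord y) j : A) : L)) =
        Sum.elim (fun i => (coord x i : L)) (fun i => (coord y i : L)) := by
      funext j
      cases j <;> rfl
    rw [h2] at h1
    exact h1
  · intro x y hxy
    obtain ⟨i, hi⟩ := hsep x y hxy
    refine ⟨i, fun hpm => hi ?_⟩
    have : PowMemA A q c0 (((coord x i - coord y i : A)) : L) := by
      rw [AddSubgroupClass.coe_sub]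
      exact hpm
    exact dvd_of_powMemA A this

/-- **The default actions**: `I := ↥(A.inertiaSubgroupIn ℚ)`, `actX := actKm hm`,
`actA := InertiaAssoc.inertiaAct A`. -/
theorem chartsMq_of_inertia {m : ℕ} (hm : 0 < m) {W : Type*} [CommRing W] [Algebra W A]
    (hW : ∀ w : W, ∀ τ ∈ A.inertiaSubgroupIn ℚ,
      τ ((algebraMap W A w : A) : L) = ((algebraMap W A w : A) : L))
    (h : ∃ c0 : ℕ, ∀ n : ℕ, ∃ (g : ℕ) (coord : Km H hA m → Fin g → A)
        (F : Fin g → MvPolynomial (Fin g ⊕ Fin g) W),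
        (∀ x i, coord x i ∈ maximalIdeal A) ∧
        (∀ (s : A.inertiaSubgroupIn ℚ) x i,
          ((q : A)) ^ n ∣ coord (actKm hm s x) i - InertiaAssoc.inertiaAct A s (coord x i)) ∧
        (∀ x y i, ((q : A)) ^ n ∣
          coord (x + y) i - MvPolynomial.aeval (Sum.elim (coord x) (coord y)) (F i)) ∧
        (∀ x y, x ≠ y → ∃ i, ¬ ((q : A)) ^ c0 ∣ coord x i - coord y i)) :
    ChartsMq H hA m :=
  chartsMq_of_generic hW (fun s : A.inertiaSubgroupIn ℚ => (s : L ≃ₐ[ℚ] L))
    (fun τ hτ => ⟨⟨τ, hτ⟩, rfl⟩) (actKm hm) (InertiaAssoc.inertiaAct A) (fun _ _ => rfl)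
    (fun _ _ => rfl) h

/-- The same with the number `g` of coordinates fixed in advance (the literal shape of
`CoordAsm32Lit.exists_coords_literal`). -/
theorem chartsMq_of_inertia_fixed_g {m : ℕ} (hm : 0 < m) {W : Type*} [CommRing W] [Algebra W A]
    (hW : ∀ w : W, ∀ τ ∈ A.inertiaSubgroupIn ℚ,
      τ ((algebraMap W A w : A) : L) = ((algebraMap W A w : A) : L))
    {g : ℕ}
    (h : ∃ c0 : ℕ, ∀ n : ℕ, ∃ (coord : Km H hA m → Fin g → A)
        (F : Fin g → MvPolynomial (Fin g ⊕ Fin g) W),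
        (∀ x i, coord x i ∈ maximalIdeal A) ∧
        (∀ (s : A.inertiaSubgroupIn ℚ) x i,
          ((q : A)) ^ n ∣ coord (actKm hm s x) i - InertiaAssoc.inertiaAct A s (coord x i)) ∧
        (∀ x y i, ((q : A)) ^ n ∣
          coord (x + y) i - MvPolynomial.aeval (Sum.elim (coord x) (coord y)) (F i)) ∧
        (∀ x y, x ≠ y → ∃ i, ¬ ((q : A)) ^ c0 ∣ coord x i - coord y i)) :
    ChartsMq H hA m := by
  obtain ⟨c0, h⟩ := h
  refine chartsMq_of_inertia hm hW ⟨c0, fun n => ?_⟩
  obtain ⟨coord, F, h1⟩ := h n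
  exact ⟨g, coord, F, h1⟩

end Fermat.Agent.S33x.Cech.ToChartMq
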