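import Mathlib
import Fermat.Agent.S33x.Cech.GroupLaw

/-!
# P-S33, LAYER 2 (helper62): transfer of normal forms along arbitrary coboundaries

Pure algebra on top of `Cech/NormalForm.lean` (helper91).  `A` a valuation domain of rank one.

In the geometric situation the cocycles of one class are related by coboundaries
`(1 + m Boo)(1 + m B0)` which are congruent to `1` only modulo SOME element of the maximal ideal `m`
(depending on the relation), not modulo the element `ϖ` used for the normal forms.  Because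
`SatData` holds for every nonzero `π`, `normalForm_unique` can be applied with `π := gcd` of `ϖ` and
the elements of the relation; the loss is absorbed by one extra power of `ϖ`:

* `normalForm_congr` : two presentations modulo `ϖ ^ (N+1)` of two cocycles related by coboundaries
  congruent to `1` modulo `m` have `t ≡ t'` modulo every `q ∣ ϖ ^ N`.
* `exists_truncInv` : truncated inverses of `1 + π b`.
* `not_congr_of_not_coboundary` : the separation step (two classes with congruent normal forms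
  differ by an approximate coboundary).
-/

set_option autoImplicit false
set_option linter.unusedSectionVars false

namespace Fermat.Agent.S33x.Cech.Transfer

open Fermat.Agent.S33x.Cech IsLocalRing

variable {A : Type*} [CommRing A] [IsDomain A] [ValuationRing A]
variable {B : Type*} [CommRing B] [Algebra A B]

/-- `v ≡ 1` modulo some element of the maximal ideal of `A` (inside the subalgebra `S`). -/
def Near1 (S : Subalgebra A B) (v : S) : Prop :=
  ∃ ϖ ∈ maximalIdeal A, algebraMap A S ϖ ∣ v - 1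

theorem near1_one (S : Subalgebra A B) : Near1 S (1 : S) :=
  ⟨0, (maximalIdeal A).zero_mem, by simp⟩

theorem near1_of_dvd {S : Subalgebra A B} {v : S} {ϖ : A} (hϖ : ϖ ∈ maximalIdeal A)
    (h : algebraMap A S ϖ ∣ v - 1) : Near1 S v := ⟨ϖ, hϖ, h⟩

/-- a common divisor in `m` of `ϖ ≠ 0` and the modulus of a `Near1` element. -/
theorem exists_common {S : Subalgebra A B} {v : S} (hv : Near1 S v) {ϖ : A} (hϖ0 : ϖ ≠ 0)
    (hϖ : ϖ ∈ maximalIdeal A) :
    ∃ π : A, π ≠ 0 ∧ π ∈ maximalIdeal A ∧ π ∣ ϖ ∧ algebraMap A S π ∣ v - 1 := by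
  obtain ⟨ϖ', hϖ', h⟩ := hv
  rcases ValuationRing.dvd_total ϖ ϖ' with h1 | h1
  · exact ⟨ϖ, hϖ0, hϖ, dvd_rfl, dvd_trans (map_dvd (algebraMap A S) h1) h⟩
  · refine ⟨ϖ', ?_, hϖ', h1, h⟩
    rintro rfl
    exact hϖ0 (zero_dvd_iff.mp h1)

theorem near1_mul {S : Subalgebra A B} {v w : S} (hv : Near1 S v) (hw : Near1 S w) :
    Near1 S (v * w) := by
  obtain ⟨ϖ, hϖ, h⟩ := hv
  obtain ⟨ϖ', hϖ', h'⟩ := hw
  rcases ValuationRing.dvd_total ϖ ϖ' with h1 | h1
  · exact ⟨ϖ, hϖ, dvd_mul_sub_one h (dvd_trans (map_dvd (algebraMap A S) h1) h')⟩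
  · exact ⟨ϖ', hϖ', dvd_mul_sub_one (dvd_trans (map_dvd (algebraMap A S) h1) h) h'⟩

/-- rank one: every nonzero element divides a power of every element of the maximal ideal. -/
def RankOne (A : Type*) [CommRing A] [IsLocalRing A] : Prop :=
  ∀ x ∈ maximalIdeal A, ∀ c : A, c ≠ 0 → ∃ j : ℕ, c ∣ x ^ j

/-- the loss of one power of `ϖ`: for `π ∣ ϖ` and `q ∣ ϖ ^ N` there is a power of `π` between `q`
and `ϖ ^ (N+1)`. -/
theorem exists_pow_between (hrank : RankOne A) {π ϖ q : A} (hϖ0 : ϖ ≠ 0)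
    (hπm : π ∈ maximalIdeal A) (hπϖ : π ∣ ϖ) {N : ℕ} (hq : q ∣ ϖ ^ N) :
    ∃ n' : ℕ, q ∣ π ^ n' ∧ π ^ n' ∣ ϖ ^ (N + 1) := by
  classical
  have hq0 : q ≠ 0 := by
    rintro rfl
    exact pow_ne_zero N hϖ0 (zero_dvd_iff.mp hq)
  have hex := hrank π hπm q hq0
  have hmin : ∀ {m : ℕ}, m < Nat.find hex → ¬ q ∣ π ^ m := fun {m} hm => Nat.find_min hex hm
  have hspec := Nat.find_spec hex
  set n' := Nat.find hex with hn'
  refine ⟨n', hspec, ?_⟩
  rcases Nat.eq_zero_or_pos n' with h0 | hpos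
  · rw [h0, pow_zero]; exact one_dvd _
  · obtain ⟨k, hk⟩ : ∃ k, n' = k + 1 := ⟨n' - 1, by omega⟩
    have hnot : ¬ q ∣ π ^ k := hmin (by omega)
    have hkq : π ^ k ∣ q := (ValuationRing.dvd_total (π ^ k) q).resolve_right hnot
    rw [hk, pow_succ, pow_succ]
    exact mul_dvd_mul (dvd_trans hkq hq) hπϖ

/-- **Transfer of the normal form.**  Two presentations modulo `ϖ ^ (N+1)` of two cocycles `u`, `u'`
related (modulo `ϖ ^ (N+1)`) by coboundaries congruent to `1` modulo the maximal ideal have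
`t ≡ t'` modulo every divisor `q` of `ϖ ^ N`. -/
theorem normalForm_congr {Boo B0 : Subalgebra A B} {g : ℕ} {a : Fin g → B}
    (hsat : ∀ π : A, π ≠ 0 → SatData Boo B0 a π) (hrank : RankOne A)
    {ϖ : A} (hϖ0 : ϖ ≠ 0) (hϖm : ϖ ∈ maximalIdeal A) {N : ℕ}
    {u u' : B} {t t' : Fin g → A} (ht : ∀ i, ϖ ∣ t i) (ht' : ∀ i, ϖ ∣ t' i)
    {voo voo' : Boo} {v0 v0' : B0}
    (hvoo : algebraMap A Boo ϖ ∣ voo - 1) (hvoo' : algebraMap A Boo ϖ ∣ voo' - 1)
    (hv0 : algebraMap A B0 ϖ ∣ v0 - 1) (hv0' : algebraMap A B0 ϖ ∣ v0' - 1)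
    (hu : algebraMap A B ϖ ^ (N + 1) ∣ u * voo * v0 - (1 + comb a t))
    (hu' : algebraMap A B ϖ ^ (N + 1) ∣ u' * voo' * v0' - (1 + comb a t'))
    {eoo goo : Boo} {e0 g0 : B0} (heoo : Near1 Boo eoo) (hgoo : Near1 Boo goo)
    (he0 : Near1 B0 e0) (hg0 : Near1 B0 g0)
    (hrel : algebraMap A B ϖ ^ (N + 1) ∣ u' * eoo * e0 - u * goo * g0)
    {q : A} (hq : q ∣ ϖ ^ N) :
    ∀ i, q ∣ t i - t' i := by
  -- a common modulus
  obtain ⟨π1, h10, h1m, h1d, h1e⟩ := exists_common heoo hϖ0 hϖm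
  obtain ⟨π2, h20, h2m, h2d, h2e⟩ := exists_common hgoo h10 h1m
  obtain ⟨π3, h30, h3m, h3d, h3e⟩ := exists_common he0 h20 h2m
  obtain ⟨π, hπ0, hπm, h4d, h4e⟩ := exists_common hg0 h30 h3m
  have hπ3 : π ∣ π3 := h4d
  have hπ2 : π ∣ π2 := dvd_trans hπ3 h3d
  have hπ1 : π ∣ π1 := dvd_trans hπ2 h2d
  have hπϖ : π ∣ ϖ := dvd_trans hπ1 h1d
  have dBoo : ∀ {c : A} {v : Boo}, π ∣ c → algebraMap A Boo c ∣ v - 1 →
      algebraMap A Boo π ∣ v - 1 := fun hc h => dvd_trans (map_dvd (algebraMap A Boo) hc) h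
  have dB0 : ∀ {c : A} {v : B0}, π ∣ c → algebraMap A B0 c ∣ v - 1 →
      algebraMap A B0 π ∣ v - 1 := fun hc h => dvd_trans (map_dvd (algebraMap A B0) hc) h
  obtain ⟨n', hqn, hnϖ⟩ := exists_pow_between hrank hϖ0 hπm hπϖ hq
  have hkey : algebraMap A B π ^ n' ∣
      (1 + comb a t) * ((goo * voo' : Boo) : B) * ((g0 * v0' : B0) : B)
        - (1 + comb a t') * ((eoo * voo : Boo) : B) * ((e0 * v0 : B0) : B) := by
    have h1 : algebraMap A B π ^ n' ∣ algebraMap A B ϖ ^ (N + 1) := by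
      rw [← map_pow, ← map_pow]
      exact map_dvd (algebraMap A B) hnϖ
    refine dvd_trans h1 ?_
    obtain ⟨e1, he1⟩ := hu
    obtain ⟨e2, he2⟩ := hu'
    obtain ⟨e3, he3⟩ := hrel
    refine ⟨-(e3 * voo' * v0' * voo * v0) - e1 * goo * voo' * g0 * v0'
      + e2 * eoo * voo * e0 * v0, ?_⟩
    push_cast
    linear_combination (-(goo : B) * voo' * g0 * v0') * he1 + ((eoo : B) * voo * e0 * v0) * he2
      - ((voo' : B) * v0' * voo * v0) * he3
  have hfin := normalForm_unique (hsat π hπ0) n'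
    (fun i => dvd_trans hπϖ (ht i)) (fun i => dvd_trans hπϖ (ht' i))
    (voo := eoo * voo) (woo := goo * voo') (v0 := e0 * v0) (w0 := g0 * v0')
    (dvd_mul_sub_one (dBoo hπ1 h1e) (dBoo hπϖ hvoo))
    (dvd_mul_sub_one (dBoo hπ2 h2e) (dBoo hπϖ hvoo'))
    (dvd_mul_sub_one (dB0 hπ3 h3e) (dB0 hπϖ hv0))
    (dvd_mul_sub_one h4e (dB0 hπϖ hv0')) hkey
  exact fun i => dvd_trans hqn (hfin i)

/-- truncated inverses: `w ≡ 1 (mod π)` in a subalgebra `S` has an inverse modulo `π ^ M` in `S`,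
again congruent to `1` modulo `π`. -/
theorem exists_truncInv (S : Subalgebra A B) {π : A} {w : S} (hw : algebraMap A S π ∣ w - 1)
    (M : ℕ) :
    ∃ w' : S, algebraMap A S π ∣ w' - 1 ∧ algebraMap A S π ^ M ∣ w * w' - 1 := by
  obtain ⟨b, hb⟩ := hw
  rcases Nat.eq_zero_or_pos M with h0 | hpos
  · exact ⟨1, by simp, by rw [h0, pow_zero]; exact one_dvd _⟩
  · obtain ⟨k, rfl⟩ : ∃ k, M = k + 1 := ⟨M - 1, by omega⟩
    set x : S := 1 - w with hx
    have hxw : w = 1 - x := by rw [hx]; ring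
    have hxb : x = algebraMap A S π * (-b) := by rw [hx]; linear_combination -hb
    refine ⟨∑ j ∈ Finset.range (k + 1), x ^ j, ?_, ?_⟩
    · rw [Finset.sum_range_succ', pow_zero, add_sub_cancel_right]
      refine Finset.dvd_sum fun j _ => ?_
      rw [pow_succ]
      exact Dvd.dvd.mul_left ⟨-b, hxb⟩ _
    · rw [hxw, mul_neg_geom_sum]
      have : (1 : S) - x ^ (k + 1) - 1 = -(x ^ (k + 1)) := by ring
      rw [this, hxb, mul_pow]
      exact (Dvd.intro _ rfl).neg_right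

/-- **The separation step.**  If the normal forms `t`, `t'` (modulo `ϖ ^ (N+1)`) of two cocycles
`cx`, `cx'` agree modulo `π ^ M` (`π ∣ ϖ`, `π ^ M ∣ ϖ ^ (N+1)`), and `cy` is a cocycle such that
`cx' * cy` is a coboundary (congruent to `1` modulo `π`), then `cx * cy` is a coboundary modulo
`π ^ M`. -/
theorem coboundary_of_congr {Boo B0 : Subalgebra A B} {g : ℕ} {a : Fin g → B}
    {ϖ π : A} (hπϖ : π ∣ ϖ) {N M : ℕ} (hM : π ^ M ∣ ϖ ^ (N + 1))
    {cx cx' cy : B} {t t' : Fin g → A} (htt : ∀ i, π ^ M ∣ t i - t' i)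
    {voo voo' : Boo} {v0 v0' : B0}
    (hvoo : algebraMap A Boo ϖ ∣ voo - 1) (hvoo' : algebraMap A Boo ϖ ∣ voo' - 1)
    (hv0 : algebraMap A B0 ϖ ∣ v0 - 1) (hv0' : algebraMap A B0 ϖ ∣ v0' - 1)
    (hu : algebraMap A B ϖ ^ (N + 1) ∣ cx * voo * v0 - (1 + comb a t))
    (hu' : algebraMap A B ϖ ^ (N + 1) ∣ cx' * voo' * v0' - (1 + comb a t'))
    {eoo goo : Boo} {e0 g0 : B0}
    (heoo : algebraMap A Boo π ∣ eoo - 1) (hgoo : algebraMap A Boo π ∣ goo - 1)
    (he0 : algebraMap A B0 π ∣ e0 - 1) (hg0 : algebraMap A B0 π ∣ g0 - 1)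
    (hrel : cx' * cy * eoo * e0 = goo * g0) :
    ∃ (Voo : Boo) (V0 : B0), algebraMap A Boo π ∣ Voo - 1 ∧ algebraMap A B0 π ∣ V0 - 1 ∧
      algebraMap A B π ^ M ∣ cx * cy * Voo * V0 - 1 := by
  have dBoo : ∀ {v : Boo}, algebraMap A Boo ϖ ∣ v - 1 → algebraMap A Boo π ∣ v - 1 :=
    fun h => dvd_trans (map_dvd (algebraMap A Boo) hπϖ) h
  have dB0 : ∀ {v : B0}, algebraMap A B0 ϖ ∣ v - 1 → algebraMap A B0 π ∣ v - 1 :=
    fun h => dvd_trans (map_dvd (algebraMap A B0) hπϖ) h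
  -- truncated inverses of `goo * voo'` and `g0 * v0'`
  obtain ⟨Wi, hWi1, hWi⟩ := exists_truncInv Boo (dvd_mul_sub_one hgoo (dBoo hvoo')) M
  obtain ⟨Zi, hZi1, hZi⟩ := exists_truncInv B0 (dvd_mul_sub_one hg0 (dB0 hv0')) M
  refine ⟨voo * eoo * Wi, v0 * e0 * Zi,
    dvd_mul_sub_one (dvd_mul_sub_one (dBoo hvoo) heoo) hWi1,
    dvd_mul_sub_one (dvd_mul_sub_one (dB0 hv0) he0) hZi1, ?_⟩
  -- everything modulo `Π := π ^ M`
  have hPiM : algebraMap A B π ^ M ∣ algebraMap A B ϖ ^ (N + 1) := by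
    rw [← map_pow, ← map_pow]
    exact map_dvd (algebraMap A B) hM
  obtain ⟨f1, hf1⟩ := dvd_trans hPiM hu
  obtain ⟨f2, hf2⟩ := dvd_trans hPiM hu'
  obtain ⟨τ, hτ, hf3⟩ := comb_eq_of_dvd (a := a) (π := π ^ M) (t := t - t') htt
  obtain ⟨h1, hh1⟩ := hWi
  obtain ⟨h2, hh2⟩ := hZi
  have hh1' : ((goo : B) * voo') * Wi - 1 = algebraMap A B π ^ M * h1 := by
    have := congrArg (Subtype.val : Boo → B) hh1
    simpa using this
  have hh2' : ((g0 : B) * v0') * Zi - 1 = algebraMap A B π ^ M * h2 := by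
    have := congrArg (Subtype.val : B0 → B) hh2
    simpa using this
  have hT : comb a t - comb a t' = algebraMap A B π ^ M * comb a τ := by
    rw [← map_sub, hf3, map_pow]
  refine ⟨(f1 - f2 + comb a τ) * cy * eoo * e0 * Wi * Zi + h1 + h2
    + algebraMap A B π ^ M * h1 * h2, ?_⟩
  push_cast
  linear_combination ((cy : B) * eoo * e0 * Wi * Zi) * hf1
    - ((cy : B) * eoo * e0 * Wi * Zi) * hf2
    + ((cy : B) * eoo * e0 * Wi * Zi) * hT
    + ((voo' : B) * v0' * Wi * Zi) * hrel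
    + ((g0 : B) * v0' * Zi) * hh1' + (1 + algebraMap A B π ^ M * h1) * hh2'

end Fermat.Agent.S33x.Cech.Transfer
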