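import Mathlib
import Fermat.Agent.S33x.Cech.Transfer

/-!
# P-S33, LAYER 2 (helper62): the four quotable steps of the abstract assembly (B5)

On top of `Cech/Transfer.lean` and helper91's `Cech/NormalForm.lean`, `Cech/GroupLaw.lean`.
A *presentation* of a cocycle `u` modulo `ϖ ^ K` is `(voo, v0, t)` with `voo ≡ 1`, `v0 ≡ 1`,
`t ≡ 0` modulo `ϖ` and `ϖ ^ K ∣ u * voo * v0 - (1 + ∑ t_i a_i)`.

* `exists_presentation` : existence (`exists_normalForm` at the ideal `(ϖ)`, in divisibility form);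
* `presentation_map`    : transport of a presentation by a semilinear ring endomorphism preserving
  the two charts and fixing the `a_i` (Galois equivariance);
* `presentation_mul`    : the product of two presented cocycles is presented with coordinates
  `F (t_x, t_y)`, for the `F` of `exists_groupLaw` (valid for EVERY `π`, so no common modulus over
  the pairs is needed);
* `normalForm_mul_congr`: additivity of the coordinates modulo every `q ∣ ϖ ^ N`;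
* `normalForm_map_congr`: equivariance of the coordinates modulo every `q ∣ ϖ ^ N`;
* `cross_of_congr`      : the separation step in cross-multiplied form (no truncated inverses).
-/

set_option autoImplicit false
set_option linter.unusedSectionVars false

namespace Fermat.Agent.S33x.Cech.TransferMore

open Fermat.Agent.S33x.Cech Fermat.Agent.S33x.Cech.Transfer IsLocalRing

variable {A : Type*} [CommRing A] [IsDomain A] [ValuationRing A]
variable {B : Type*} [CommRing B] [Algebra A B]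
variable {Boo B0 : Subalgebra A B} {g : ℕ} {a : Fin g → B}

/-- membership in the extension of a principal ideal is divisibility. -/
theorem mem_map_span_pow_iff {R S : Type*} [CommRing R] [CommRing S] (f : R →+* S) (ϖ : R) (k : ℕ)
    (x : S) : x ∈ ((Ideal.span {ϖ}) ^ k).map f ↔ f ϖ ^ k ∣ x := by
  rw [Ideal.span_singleton_pow, Ideal.map_span, Set.image_singleton, Ideal.mem_span_singleton,
    map_pow]

/-- **Existence of a presentation** modulo `ϖ ^ (N+1)`. -/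
theorem exists_presentation (hdec : Decomp Boo B0 a) (ϖ : A) {u : B}
    (hu : algebraMap A B ϖ ∣ u - 1) (N : ℕ) :
    ∃ (voo : Boo) (v0 : B0) (t : Fin g → A), algebraMap A Boo ϖ ∣ voo - 1 ∧
      algebraMap A B0 ϖ ∣ v0 - 1 ∧ (∀ i, ϖ ∣ t i) ∧
      algebraMap A B ϖ ^ (N + 1) ∣ u * voo * v0 - (1 + comb a t) := by
  have hu' : u - 1 ∈ (Ideal.span {ϖ}).map (algebraMap A B) := by
    have := (mem_map_span_pow_iff (algebraMap A B) ϖ 1 (u - 1)).mpr (by rwa [pow_one])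
    rwa [pow_one] at this
  obtain ⟨voo, v0, t, h1, h2, h3, h4⟩ := exists_normalForm hdec (Ideal.span {ϖ}) u hu' N
  refine ⟨voo, v0, t, ?_, ?_, fun i => Ideal.mem_span_singleton.mp (h3 i), ?_⟩
  · have := (mem_map_span_pow_iff (algebraMap A Boo) ϖ 1 (voo - 1)).mp (by rwa [pow_one])
    rwa [pow_one] at this
  · have := (mem_map_span_pow_iff (algebraMap A B0) ϖ 1 (v0 - 1)).mp (by rwa [pow_one])
    rwa [pow_one] at this
  · exact (mem_map_span_pow_iff (algebraMap A B) ϖ (N + 1) _).mp h4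

/-- transport of a congruence `≡ 1 (mod ϖ)` in a chart by a semilinear endomorphism. -/
theorem map_dvd_sub_one (S : Subalgebra A B) (sA : A →+* A) (sB : B →+* B)
    (hAB : ∀ c, sB (algebraMap A B c) = algebraMap A B (sA c)) (hS : ∀ x ∈ S, sB x ∈ S)
    {ϖ : A} (hϖ : ϖ ∣ sA ϖ) {v : S} (hv : algebraMap A S ϖ ∣ v - 1) :
    algebraMap A S ϖ ∣ (⟨sB v, hS _ v.2⟩ : S) - 1 := by
  obtain ⟨b, hb⟩ := hv
  obtain ⟨r, hr⟩ := hϖ
  refine ⟨algebraMap A S r * ⟨sB b, hS _ b.2⟩, Subtype.ext ?_⟩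
  have hb' : (v : B) - 1 = algebraMap A B ϖ * b := by
    have := congrArg (Subtype.val : S → B) hb
    simpa using this
  have h1 : sB v - 1 = algebraMap A B (sA ϖ) * sB b := by
    rw [← hAB, ← map_mul, ← hb', map_sub, map_one]
  simp only [Subalgebra.coe_sub, Subalgebra.coe_one, Subalgebra.coe_mul,
    Subalgebra.coe_algebraMap]
  rw [h1, hr, map_mul]
  ring

/-- a semilinear endomorphism fixing the `a_i` maps `∑ t_i a_i` to `∑ sA (t_i) a_i`. -/
theorem map_comb (sA : A →+* A) (sB : B →+* B)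
    (hAB : ∀ c, sB (algebraMap A B c) = algebraMap A B (sA c)) (ha : ∀ i, sB (a i) = a i)
    (t : Fin g → A) : sB (comb a t) = comb a (fun i => sA (t i)) := by
  rw [comb, Fintype.linearCombination_apply, Fintype.linearCombination_apply, map_sum]
  refine Finset.sum_congr rfl fun i _ => ?_
  rw [Algebra.smul_def, Algebra.smul_def, map_mul, hAB, ha]

/-- **Transport of a presentation** by a semilinear ring endomorphism `(sA, sB)` preserving the two
charts, fixing the `a_i`, with `ϖ ∣ sA ϖ` (e.g. `sA ϖ` associated to `ϖ`). -/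
theorem presentation_map (sA : A →+* A) (sB : B →+* B)
    (hAB : ∀ c, sB (algebraMap A B c) = algebraMap A B (sA c))
    (hoo : ∀ x ∈ Boo, sB x ∈ Boo) (h0 : ∀ x ∈ B0, sB x ∈ B0) (ha : ∀ i, sB (a i) = a i)
    {ϖ : A} (hϖ : ϖ ∣ sA ϖ) {K : ℕ} {u : B} {t : Fin g → A} {voo : Boo} {v0 : B0}
    (hvoo : algebraMap A Boo ϖ ∣ voo - 1) (hv0 : algebraMap A B0 ϖ ∣ v0 - 1)
    (ht : ∀ i, ϖ ∣ t i)
    (hu : algebraMap A B ϖ ^ K ∣ u * voo * v0 - (1 + comb a t)) :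
    algebraMap A Boo ϖ ∣ (⟨sB voo, hoo _ voo.2⟩ : Boo) - 1 ∧
      algebraMap A B0 ϖ ∣ (⟨sB v0, h0 _ v0.2⟩ : B0) - 1 ∧
      (∀ i, ϖ ∣ sA (t i)) ∧
      algebraMap A B ϖ ^ K ∣ sB u * ((⟨sB voo, hoo _ voo.2⟩ : Boo) : B)
        * ((⟨sB v0, h0 _ v0.2⟩ : B0) : B) - (1 + comb a (fun i => sA (t i))) := by
  refine ⟨map_dvd_sub_one Boo sA sB hAB hoo hϖ hvoo, map_dvd_sub_one B0 sA sB hAB h0 hϖ hv0,
    fun i => dvd_trans hϖ (map_dvd sA (ht i)), ?_⟩
  obtain ⟨e, he⟩ := hu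
  obtain ⟨r, hr⟩ := hϖ
  refine ⟨algebraMap A B r ^ K * sB e, ?_⟩
  have h1 : sB u * sB voo * sB v0 - (1 + comb a (fun i => sA (t i)))
      = sB (u * voo * v0 - (1 + comb a t)) := by
    rw [map_sub, map_add, map_one, map_mul, map_mul, map_comb sA sB hAB ha]
  show sB u * sB voo * sB v0 - (1 + comb a (fun i => sA (t i))) = _
  rw [h1, he, map_mul, map_pow, hAB, hr, map_mul, mul_pow]
  ring

/-- **The product of two presented cocycles is presented**, with the coordinates `tF` of any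
normal form of `(1 + ∑ tx a)(1 + ∑ ty a)` (e.g. `tF = F (tx, ty)` for the `F` of
`exists_groupLaw`, which is valid for every modulus). -/
theorem presentation_mul {ϖ : A} {K : ℕ} {ux uy : B} {tx ty tF : Fin g → A}
    {px py Voo : Boo} {qx qy V0 : B0}
    (hpx : algebraMap A Boo ϖ ∣ px - 1) (hpy : algebraMap A Boo ϖ ∣ py - 1)
    (hVoo : algebraMap A Boo ϖ ∣ Voo - 1)
    (hqx : algebraMap A B0 ϖ ∣ qx - 1) (hqy : algebraMap A B0 ϖ ∣ qy - 1)
    (hV0 : algebraMap A B0 ϖ ∣ V0 - 1)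
    (hx : algebraMap A B ϖ ^ K ∣ ux * px * qx - (1 + comb a tx))
    (hy : algebraMap A B ϖ ^ K ∣ uy * py * qy - (1 + comb a ty))
    (hG : algebraMap A B ϖ ^ K ∣
      (1 + comb a tx) * (1 + comb a ty) * Voo * V0 - (1 + comb a tF)) :
    algebraMap A Boo ϖ ∣ px * py * Voo - 1 ∧ algebraMap A B0 ϖ ∣ qx * qy * V0 - 1 ∧
      algebraMap A B ϖ ^ K ∣ (ux * uy) * ((px * py * Voo : Boo) : B) * ((qx * qy * V0 : B0) : B)
        - (1 + comb a tF) := by
  refine ⟨dvd_mul_sub_one (dvd_mul_sub_one hpx hpy) hVoo,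
    dvd_mul_sub_one (dvd_mul_sub_one hqx hqy) hV0, ?_⟩
  obtain ⟨ex, hex⟩ := hx
  obtain ⟨ey, hey⟩ := hy
  obtain ⟨eG, heG⟩ := hG
  refine ⟨ex * uy * py * qy * Voo * V0 + (1 + comb a tx) * ey * Voo * V0 + eG, ?_⟩
  push_cast
  linear_combination (uy * (py : B) * qy * Voo * V0) * hex
    + ((1 + comb a tx) * (Voo : B) * V0) * hey + heG

/-- **Additivity of the coordinates** modulo every `q ∣ ϖ ^ N`: `uz` related to `ux * uy` by
arbitrary coboundaries (congruent to `1` modulo the maximal ideal), `tF` the coordinates of a normal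
form of `(1 + ∑ tx a)(1 + ∑ ty a)` modulo `ϖ ^ (N+1)`. -/
theorem normalForm_mul_congr (hsat : ∀ π : A, π ≠ 0 → SatData Boo B0 a π) (hrank : RankOne A)
    {ϖ : A} (hϖ0 : ϖ ≠ 0) (hϖm : ϖ ∈ maximalIdeal A) {N : ℕ}
    {ux uy uz : B} {tx ty tz tF : Fin g → A} (htz : ∀ i, ϖ ∣ tz i) (htF : ∀ i, ϖ ∣ tF i)
    {px py pz : Boo} {qx qy qz : B0}
    (hpx : algebraMap A Boo ϖ ∣ px - 1) (hpy : algebraMap A Boo ϖ ∣ py - 1)
    (hpz : algebraMap A Boo ϖ ∣ pz - 1)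
    (hqx : algebraMap A B0 ϖ ∣ qx - 1) (hqy : algebraMap A B0 ϖ ∣ qy - 1)
    (hqz : algebraMap A B0 ϖ ∣ qz - 1)
    (hx : algebraMap A B ϖ ^ (N + 1) ∣ ux * px * qx - (1 + comb a tx))
    (hy : algebraMap A B ϖ ^ (N + 1) ∣ uy * py * qy - (1 + comb a ty))
    (hz : algebraMap A B ϖ ^ (N + 1) ∣ uz * pz * qz - (1 + comb a tz))
    (hG : ∃ (Voo : Boo) (V0 : B0), algebraMap A Boo ϖ ∣ Voo - 1 ∧ algebraMap A B0 ϖ ∣ V0 - 1 ∧
      algebraMap A B ϖ ^ (N + 1) ∣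
        (1 + comb a tx) * (1 + comb a ty) * Voo * V0 - (1 + comb a tF))
    {eoo goo : Boo} {e0 g0 : B0} (heoo : Near1 Boo eoo) (hgoo : Near1 Boo goo)
    (he0 : Near1 B0 e0) (hg0 : Near1 B0 g0)
    (hrel : algebraMap A B ϖ ^ (N + 1) ∣ uz * eoo * e0 - (ux * uy) * goo * g0)
    {q : A} (hq : q ∣ ϖ ^ N) :
    ∀ i, q ∣ tF i - tz i := by
  obtain ⟨Voo, V0, hVoo, hV0, hG'⟩ := hG
  obtain ⟨h1, h2, h3⟩ := presentation_mul hpx hpy hVoo hqx hqy hV0 hx hy hG'
  exact normalForm_congr hsat hrank hϖ0 hϖm htF htz h1 hpz h2 hqz h3 hz heoo hgoo he0 hg0 hrel hq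

/-- **Equivariance of the coordinates** modulo every `q ∣ ϖ ^ N`: `u'` related to `sB u` by
arbitrary coboundaries. -/
theorem normalForm_map_congr (hsat : ∀ π : A, π ≠ 0 → SatData Boo B0 a π) (hrank : RankOne A)
    {ϖ : A} (hϖ0 : ϖ ≠ 0) (hϖm : ϖ ∈ maximalIdeal A)
    (sA : A →+* A) (sB : B →+* B)
    (hAB : ∀ c, sB (algebraMap A B c) = algebraMap A B (sA c))
    (hoo : ∀ x ∈ Boo, sB x ∈ Boo) (h0 : ∀ x ∈ B0, sB x ∈ B0) (ha : ∀ i, sB (a i) = a i)
    (hϖs : ϖ ∣ sA ϖ) {N : ℕ} {u u' : B} {t t' : Fin g → A}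
    (ht : ∀ i, ϖ ∣ t i) (ht' : ∀ i, ϖ ∣ t' i)
    {voo voo' : Boo} {v0 v0' : B0}
    (hvoo : algebraMap A Boo ϖ ∣ voo - 1) (hvoo' : algebraMap A Boo ϖ ∣ voo' - 1)
    (hv0 : algebraMap A B0 ϖ ∣ v0 - 1) (hv0' : algebraMap A B0 ϖ ∣ v0' - 1)
    (hu : algebraMap A B ϖ ^ (N + 1) ∣ u * voo * v0 - (1 + comb a t))
    (hu' : algebraMap A B ϖ ^ (N + 1) ∣ u' * voo' * v0' - (1 + comb a t'))
    {eoo goo : Boo} {e0 g0 : B0} (heoo : Near1 Boo eoo) (hgoo : Near1 Boo goo)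
    (he0 : Near1 B0 e0) (hg0 : Near1 B0 g0)
    (hrel : algebraMap A B ϖ ^ (N + 1) ∣ u' * eoo * e0 - sB u * goo * g0)
    {q : A} (hq : q ∣ ϖ ^ N) :
    ∀ i, q ∣ sA (t i) - t' i := by
  obtain ⟨h1, h2, h3, h4⟩ := presentation_map sA sB hAB hoo h0 ha hϖs hvoo hv0 ht hu
  exact normalForm_congr hsat hrank hϖ0 hϖm h3 ht' h1 hvoo' h2 hv0' h4 hu' heoo hgoo he0 hg0
    hrel hq

/-- **The separation step, cross-multiplied form** (no truncated inverses): if the normal forms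
`t`, `t'` (modulo `ϖ ^ (N+1)`) of `cx`, `cx'` agree modulo `π ^ M` and `cx' * cy` is a coboundary,
then `cx * cy` is a coboundary modulo `π ^ M` in cross-multiplied form. -/
theorem cross_of_congr {ϖ π : A} (hπϖ : π ∣ ϖ) {N M : ℕ} (hM : π ^ M ∣ ϖ ^ (N + 1))
    {cx cx' cy : B} {t t' : Fin g → A} (htt : ∀ i, π ^ M ∣ t i - t' i)
    {voo voo' : Boo} {v0 v0' : B0}
    (hvoo : algebraMap A Boo ϖ ∣ voo - 1) (hvoo' : algebraMap A Boo ϖ ∣ voo' - 1)
    (hv0 : algebraMap A B0 ϖ ∣ v0 - 1) (hv0' : algebraMap A B0 ϖ ∣ v0' - 1)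
    (hu : algebraMap A B ϖ ^ (N + 1) ∣ cx * voo * v0 - (1 + comb a t))
    (hu' : algebraMap A B ϖ ^ (N + 1) ∣ cx' * voo' * v0' - (1 + comb a t'))
    {eoo goo : Boo} {e0 g0 : B0}
    (heoo : algebraMap A Boo π ∣ eoo - 1) (hgoo : algebraMap A Boo π ∣ goo - 1)
    (he0 : algebraMap A B0 π ∣ e0 - 1) (hg0 : algebraMap A B0 π ∣ g0 - 1)
    (hrel : cx' * cy * eoo * e0 = goo * g0) :
    ∃ (Voo Woo : Boo) (V0 W0 : B0), algebraMap A Boo π ∣ Voo - 1 ∧ algebraMap A Boo π ∣ Woo - 1 ∧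
      algebraMap A B0 π ∣ V0 - 1 ∧ algebraMap A B0 π ∣ W0 - 1 ∧
      algebraMap A B π ^ M ∣ cx * cy * Voo * V0 - Woo * W0 := by
  have dBoo : ∀ {v : Boo}, algebraMap A Boo ϖ ∣ v - 1 → algebraMap A Boo π ∣ v - 1 :=
    fun h => dvd_trans (map_dvd (algebraMap A Boo) hπϖ) h
  have dB0 : ∀ {v : B0}, algebraMap A B0 ϖ ∣ v - 1 → algebraMap A B0 π ∣ v - 1 :=
    fun h => dvd_trans (map_dvd (algebraMap A B0) hπϖ) h
  refine ⟨voo * eoo, goo * voo', v0 * e0, g0 * v0', dvd_mul_sub_one (dBoo hvoo) heoo,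
    dvd_mul_sub_one hgoo (dBoo hvoo'), dvd_mul_sub_one (dB0 hv0) he0,
    dvd_mul_sub_one hg0 (dB0 hv0'), ?_⟩
  have hPiM : algebraMap A B π ^ M ∣ algebraMap A B ϖ ^ (N + 1) := by
    rw [← map_pow, ← map_pow]
    exact map_dvd (algebraMap A B) hM
  obtain ⟨f1, hf1⟩ := dvd_trans hPiM hu
  obtain ⟨f2, hf2⟩ := dvd_trans hPiM hu'
  obtain ⟨τ, hτ, hf3⟩ := comb_eq_of_dvd (a := a) (π := π ^ M) (t := t - t') htt
  have hT : comb a t - comb a t' = algebraMap A B π ^ M * comb a τ := by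
    rw [← map_sub, hf3, map_pow]
  refine ⟨(f1 - f2 + comb a τ) * cy * eoo * e0, ?_⟩
  push_cast
  linear_combination ((cy : B) * eoo * e0) * hf1 - ((cy : B) * eoo * e0) * hf2
    + ((cy : B) * eoo * e0) * hT + ((voo' : B) * v0') * hrel

end Fermat.Agent.S33x.Cech.TransferMore
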