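import Fermat.Agent.S34x.TheoremB

/-!
# P-S33 Layer 2 (helper61): the twisted bifiltered lattice system with BOTH families exported

`S34x/TheoremB.exists_twistCore` produces `C : TwistCore A S m u` with `C.M = latM R Dt E` only.
For the injectivity wrapper (`S33x/Cech/Inject.lean`) one also has to know the untwisted family:
`exists_twistCore_N` is the same construction with `C.N = latN R Dt` exported as well (no new
mathematics; valid for every `m`, no invertibility hypothesis on `m`).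
-/

set_option autoImplicit false
set_option linter.unusedSectionVars false
set_option linter.style.haveILetI false

noncomputable section

namespace Fermat.Agent.S33x.Cech.TwistCoreN

open AlgebraicCurve WithZero Module IntermediateField IsLocalRing
open Fermat.Agent.Gateway.C0 Fermat.Agent.S34x.C0two Fermat.Agent.S34x.TheoremB
open Fermat.Agent.Lib.RiemannRoch Fermat.Agent.S34x

variable {K : Type*} [Field K] {A : ValuationSubring K}
  {F : Type*} [Field F] [Algebra K F] {S : SmallRing F}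
  {k κ : Type*} [Field k] [CommRing κ] [Algebra k κ]
  (R : RedSetup2 A S k κ)
  {t : F} {Dt : Divisor K F}

/-- The twisted bifiltered lattice system of Theorem B, with both families identified. -/
theorem exists_twistCore_N (ht0 : t ≠ 0) (hDt : ∀ v : Place K F, Dt v = v.ord t)
    (htO : t ∈ S.O) (htiO : t⁻¹ ∈ S.O)
    (P : ℕ → Submodule k κ) {m : ℕ}
    (hSC : ∀ (b : ℕ) (f : F) (hf : f ∈ S.O), f ∈ (TwoCharts.ofDivisor Dt).LN 0 b →
      R.res ⟨f, hf⟩ ∈ P b)
    (hrad : ∀ (b : ℕ) (x : κ), x ^ m ∈ P (m * b) → x ∈ P b)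
    {u : F} (hu0 : u ≠ 0) (huO : u ∈ S.O) (hu1 : R.res ⟨u, huO⟩ = 1)
    {E : Divisor K F} (hE : ∀ v : Place K F, (m : ℤ) * E v = v.ord u)
    [∀ b, FiniteDimensional k (P b)] {b₀ : ℕ}
    (hgen : ∀ b, b₀ ≤ b → ∀ x ∈ P (b + 1), ∃ y ∈ P b, ∃ z ∈ P b, x = y + R.res ⟨t, htO⟩ * z)
    (hfg : ∀ a c, (latM R Dt E a c).FG)
    (hone : ∃ (n : ℕ) (g : F) (hg : g ∈ S.O),
      g ∈ (TwoCharts.ofDivisor Dt).LM E 0 n ∧ R.res ⟨g, hg⟩ = 1)
    (hone' : ∃ (n : ℕ) (g : F) (hg : g ∈ S.O),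
      g ∈ (TwoCharts.ofDivisor Dt).LM E n 0 ∧ R.res ⟨g, hg⟩ = 1) :
    ∃ C : TwistCore A S m u, C.M = latM R Dt E ∧ C.N = latN R Dt := by
  obtain ⟨b₁, hb₁⟩ := exists_latM_succ R ht0 hDt htO P hSC hrad hu0 huO hu1 hE hgen
    (fun b => hfg 0 b)
  obtain ⟨n, g, hg, hgM, hg1⟩ := hone
  obtain ⟨n', g', hg', hgM', hg1'⟩ := hone'
  set n₁ : ℕ := max b₁ (max n n') with hn₁
  have hb₁n : b₁ ≤ n₁ := le_max_left _ _
  have hnn : n ≤ n₁ := (le_max_left _ _).trans (le_max_right _ _)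
  have hnn' : n' ≤ n₁ := (le_max_right _ _).trans (le_max_right _ _)
  have hsat : ∀ (V : Submodule K F) {c : A} {x : F}, c ≠ 0 → x ∈ S.O → c • x ∈ R.lat V →
      x ∈ R.lat V := by
    intro V c x hc hx hcx
    refine ⟨?_, hx⟩
    have h1 : x = ((c : K))⁻¹ • (c • x) := by
      have : c • x = (c : K) • x := rfl
      rw [this, smul_smul, inv_mul_cancel₀ (by exact_mod_cast hc), one_smul]
    rw [h1]
    exact V.smul_mem _ hcx.1
  refine ⟨{
    N := latN R Dt
    M := latM R Dt E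
    n₁ := n₁
    N_le := fun _ _ _ hx => hx.2
    M_le := fun _ _ _ hx => hx.2
    N_mono := fun ha hb _ hx => ⟨(TwoCharts.ofDivisor Dt).LN_mono ha hb hx.1, hx.2⟩
    M_mono := fun ha hb => latM_mono R E ha hb
    one_mem := ⟨(TwoCharts.ofDivisor Dt).one_mem_LN, S.O.one_mem⟩
    N_mul := fun hx hy => ⟨(TwoCharts.ofDivisor Dt).LN_mul hx.1 hy.1, S.O.mul_mem hx.2 hy.2⟩
    N_mul_M := fun hx hy =>
      ⟨(TwoCharts.ofDivisor Dt).LN_mul_LM E hx.1 hy.1, S.O.mul_mem hx.2 hy.2⟩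
    prod_M := fun i j hij hx hy =>
      ⟨(TwoCharts.ofDivisor Dt).prod_LM hu0 hE i j hij hx.1 hy.1,
        S.O.mul_mem huO (S.O.mul_mem (S.O.pow_mem hx.2 i) (S.O.pow_mem hy.2 j))⟩
    M_inf := fun hx hy => ⟨(TwoCharts.ofDivisor Dt).LM_inf E hx.1 hy.1, hx.2⟩
    N_sat := fun hc hx hcx => hsat _ hc hx hcx
    M_sat := fun hc hx hcx => hsat _ hc hx hcx
    M_fg := hfg
    exists_one := ?_
    exists_one' := ?_
    three := ?_ }, rfl, rfl⟩
  · refine ⟨g, ⟨(TwoCharts.ofDivisor Dt).LM_mono E le_rfl hnn hgM, hg⟩, ?_⟩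
    rw [R.cong_iff hg S.O.one_mem, hg1]
    exact (map_one R.res).symm
  · refine ⟨g', ⟨(TwoCharts.ofDivisor Dt).LM_mono E hnn' le_rfl hgM', hg'⟩, ?_⟩
    rw [R.cong_iff hg' S.O.one_mem, hg1']
    exact (map_one R.res).symm
  · intro a b _ _
    exact H1Fg.le_sup_three (M := latM R Dt E) (t := t) (s := t⁻¹) (b₁ := n₁)
      (mul_inv_cancel₀ ht0) (latM_twist R ht0 hDt htO htiO E)
      (fun b b' hbb' => latM_mono R E le_rfl hbb') (mul_mem_latM_succ R hDt htO E)
      (fun b hb => hb₁ b (hb₁n.trans hb)) a b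

end Fermat.Agent.S33x.Cech.TwistCoreN
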